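import Mathlib

/-!
# TRACK 12 (S58), package KOL (helper8): a common eigenvector in dimension 2

`V` of dimension 2 over a field `k`, `ρ : G →* End_k V`, `ψ₁ ψ₂ : G →* kˣ` with
`(ρ g − ψ₁ g)(ρ g − ψ₂ g) = 0` for every `g`.  Then there is `v ≠ 0` with `ρ g v = ψ₁ g • v` for
all `g`, or with `ρ g v = ψ₂ g • v` for all `g` (`S58K_main`).  No hypothesis on `k` (not
necessarily algebraically closed), none on `G`.

Proof: a group is not the union of two proper subgroups (`S58K_two`), so it is enough to find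
`v₁, v₂ ≠ 0` such that every `g` has `v₁` as `ψ₁ g`-eigenvector or `v₂` as `ψ₂ g`-eigenvector.  If
every `ρ g` is one of the two scalars, any `v` does it.  Otherwise take `g₀` with `ρ g₀` none of the
two scalars, an eigenvector `v₁` of `ρ g₀` for `ψ₁ g₀`, a basis `(v₁, w)`, and compute with
`2 × 2` matrices: traces of `h`, `h g₀` (Cayley–Hamilton in the form `S58K_mat_cases`).
-/

set_option autoImplicit false

namespace Fermat.Agent.S58

/-- A group is not the union of two proper "subgroups" (given as predicates). -/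
theorem S58K_two {G : Type*} [Group G] (P Q : G → Prop)
    (hPmul : ∀ x y, P x → P y → P (x * y)) (hPinv : ∀ x, P x → P x⁻¹)
    (hQmul : ∀ x y, Q x → Q y → Q (x * y)) (hQinv : ∀ x, Q x → Q x⁻¹)
    (h : ∀ g, P g ∨ Q g) : (∀ g, P g) ∨ (∀ g, Q g) := by
  by_contra hcon
  rw [not_or, not_forall, not_forall] at hcon
  obtain ⟨⟨x, hx⟩, ⟨y, hy⟩⟩ := hcon
  have hxQ : Q x := (h x).resolve_left hx
  have hyP : P y := (h y).resolve_right hy
  rcases h (x * y) with hxy | hxy
  · apply hx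
    have := hPmul _ _ hxy (hPinv _ hyP)
    simpa using this
  · apply hy
    have := hQmul _ _ (hQinv _ hxQ) hxy
    simpa using this

section matrix

variable {k : Type*} [Field k]

/-- entries of `(A − a)(A − b)` for a `2 × 2` matrix. -/
theorem S58K_mat_entries (A : Matrix (Fin 2) (Fin 2) k) (a b : k)
    (h : (A - a • (1 : Matrix (Fin 2) (Fin 2) k)) * (A - b • (1 : Matrix (Fin 2) (Fin 2) k)) = 0) :
    (A 0 0 - a) * (A 0 0 - b) + A 0 1 * A 1 0 = 0 ∧
    (A 0 0 - a) * A 0 1 + A 0 1 * (A 1 1 - b) = 0 ∧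
    A 1 0 * (A 0 0 - b) + (A 1 1 - a) * A 1 0 = 0 ∧
    A 1 0 * A 0 1 + (A 1 1 - a) * (A 1 1 - b) = 0 := by
  have h00 := congrFun (congrFun h 0) 0
  have h01 := congrFun (congrFun h 0) 1
  have h10 := congrFun (congrFun h 1) 0
  have h11 := congrFun (congrFun h 1) 1
  simp only [Matrix.mul_apply, Fin.sum_univ_two, Matrix.sub_apply, Matrix.smul_apply,
    Matrix.one_apply_eq, Matrix.one_apply_ne, ne_eq, not_false_eq_true, smul_eq_mul, mul_one,
    mul_zero, sub_zero, Matrix.zero_apply, Fin.isValue, zero_ne_one, one_ne_zero] at h00 h01 h10 h11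
  exact ⟨h00, h01, h10, h11⟩

theorem S58K_mat_smul_one (A : Matrix (Fin 2) (Fin 2) k) (c : k)
    (h00 : A 0 0 = c) (h01 : A 0 1 = 0) (h10 : A 1 0 = 0) (h11 : A 1 1 = c) :
    A = c • (1 : Matrix (Fin 2) (Fin 2) k) := by
  ext i j
  fin_cases i <;> fin_cases j <;> simp [h00, h01, h10, h11]

/-- **Cayley–Hamilton, by hand**: a `2 × 2` matrix killed by `(X − a)(X − b)` is the scalar `a`,
the scalar `b`, or has trace `a + b` and determinant `a b`. -/
theorem S58K_mat_cases (A : Matrix (Fin 2) (Fin 2) k) (a b : k)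
    (h : (A - a • (1 : Matrix (Fin 2) (Fin 2) k)) * (A - b • (1 : Matrix (Fin 2) (Fin 2) k)) = 0) :
    A = a • (1 : Matrix (Fin 2) (Fin 2) k) ∨ A = b • (1 : Matrix (Fin 2) (Fin 2) k) ∨
      (A 0 0 + A 1 1 = a + b ∧ A 0 0 * A 1 1 - A 0 1 * A 1 0 = a * b) := by
  obtain ⟨e00, e01, e10, e11⟩ := S58K_mat_entries A a b h
  by_cases ht : A 0 0 + A 1 1 = a + b
  · right; right
    refine ⟨ht, ?_⟩
    have hs : A 1 1 = a + b - A 0 0 := by linear_combination ht
    rw [hs] at e01 e10 e11 ⊢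
    linear_combination -e00
  · have hne : A 0 0 + A 1 1 - a - b ≠ 0 := fun h0 => ht (by linear_combination h0)
    have h01 : A 0 1 = 0 := by
      have : A 0 1 * (A 0 0 + A 1 1 - a - b) = 0 := by linear_combination e01
      rcases mul_eq_zero.mp this with h | h
      · exact h
      · exact absurd h hne
    have h10 : A 1 0 = 0 := by
      have : A 1 0 * (A 0 0 + A 1 1 - a - b) = 0 := by linear_combination e10
      rcases mul_eq_zero.mp this with h | h
      · exact h
      · exact absurd h hne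
    have hps : A 0 0 = A 1 1 := by
      have : (A 0 0 - A 1 1) * (A 0 0 + A 1 1 - a - b) = 0 := by
        rw [h01, h10] at e00 e11
        linear_combination e00 - e11
      rcases mul_eq_zero.mp this with h | h
      · linear_combination h
      · exact absurd h hne
    have hab : (A 0 0 - a) * (A 0 0 - b) = 0 := by
      rw [h01] at e00
      linear_combination e00
    rcases mul_eq_zero.mp hab with h | h
    · left
      exact S58K_mat_smul_one A a (by linear_combination h) h01 h10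
        (by linear_combination h - hps)
    · right; left
      exact S58K_mat_smul_one A b (by linear_combination h) h01 h10
        (by linear_combination h - hps)

/-- the algebra of the generic case, in a basis adapted to `A₀ = [[a₀, x], [0, b₀]]`. -/
theorem S58K_mat_core (A₀ A : Matrix (Fin 2) (Fin 2) k) (a₀ b₀ a b : k)
    (h00 : A₀ 0 0 = a₀) (h10 : A₀ 1 0 = 0) (h11 : A₀ 1 1 = b₀)
    (ht : A 0 0 + A 1 1 = a + b) (hd : A 0 0 * A 1 1 - A 0 1 * A 1 0 = a * b)
    (htm : (A * A₀) 0 0 + (A * A₀) 1 1 = a * a₀ + b * b₀) :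
    (A 0 0 = a ∧ A 1 0 = 0) ∨
    (A 0 0 * A₀ 0 1 + A 0 1 * (b₀ - a₀) = b * A₀ 0 1 ∧
      A 1 0 * A₀ 0 1 + A 1 1 * (b₀ - a₀) = b * (b₀ - a₀)) := by
  simp only [Matrix.mul_apply, Fin.sum_univ_two, h00, h10, h11, mul_zero, add_zero] at htm
  set α := A 0 0
  set β := A 0 1
  set γ := A 1 0
  set δ := A 1 1
  set x := A₀ 0 1
  have hδ : δ = a + b - α := by linear_combination ht
  have hstar : γ * x = (α - a) * (b₀ - a₀) := by
    rw [hδ] at htm
    linear_combination htm
  have hdet : β * γ = -((α - a) * (α - b)) := by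
    rw [hδ] at hd
    linear_combination -hd
  have hsecond : γ * x + δ * (b₀ - a₀) = b * (b₀ - a₀) := by
    rw [hδ]
    linear_combination hstar
  by_cases hγ : γ = 0
  · by_cases hα : α = a
    · exact Or.inl ⟨hα, hγ⟩
    · right
      refine ⟨?_, hsecond⟩
      have hαa : α - a ≠ 0 := sub_ne_zero.mpr hα
      have hba : b₀ - a₀ = 0 := by
        have : (α - a) * (b₀ - a₀) = 0 := by rw [← hstar, hγ, zero_mul]
        exact (mul_eq_zero.mp this).resolve_left hαa
      have hαb : α - b = 0 := by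
        have : (α - a) * (α - b) = 0 := by
          have := hdet
          rw [hγ, mul_zero] at this
          linear_combination this
        exact (mul_eq_zero.mp this).resolve_left hαa
      rw [hba]
      linear_combination x * hαb
  · right
    refine ⟨?_, hsecond⟩
    have : γ * (α * x + β * (b₀ - a₀) - b * x) = 0 := by
      linear_combination (α - b) * hstar + (b₀ - a₀) * hdet
    have h0 := (mul_eq_zero.mp this).resolve_left hγ
    linear_combination h0

/-- the pointwise statement, for matrices in a basis whose first vector is a `ψ₁ g₀`-eigenvector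
of `M g₀`. -/
theorem S58K_mat_pointwise {G : Type*} [Group G] (M : G → Matrix (Fin 2) (Fin 2) k)
    (hmul : ∀ g h, M (g * h) = M g * M h) (ψ₁ ψ₂ : G →* kˣ)
    (hrel : ∀ g, (M g - ((ψ₁ g : kˣ) : k) • (1 : Matrix (Fin 2) (Fin 2) k)) *
      (M g - ((ψ₂ g : kˣ) : k) • (1 : Matrix (Fin 2) (Fin 2) k)) = 0)
    (g₀ : G) (h00 : M g₀ 0 0 = ((ψ₁ g₀ : kˣ) : k)) (h10 : M g₀ 1 0 = 0)
    (hns₁ : M g₀ ≠ ((ψ₁ g₀ : kˣ) : k) • (1 : Matrix (Fin 2) (Fin 2) k))
    (hns₂ : M g₀ ≠ ((ψ₂ g₀ : kˣ) : k) • (1 : Matrix (Fin 2) (Fin 2) k)) :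
    (M g₀ 0 1 ≠ 0 ∨ ((ψ₂ g₀ : kˣ) : k) - ((ψ₁ g₀ : kˣ) : k) ≠ 0) ∧
    ∀ h : G, (M h 0 0 = ((ψ₁ h : kˣ) : k) ∧ M h 1 0 = 0) ∨
      (M h 0 0 * M g₀ 0 1 + M h 0 1 * (((ψ₂ g₀ : kˣ) : k) - ((ψ₁ g₀ : kˣ) : k))
          = ((ψ₂ h : kˣ) : k) * M g₀ 0 1 ∧
        M h 1 0 * M g₀ 0 1 + M h 1 1 * (((ψ₂ g₀ : kˣ) : k) - ((ψ₁ g₀ : kˣ) : k))
          = ((ψ₂ h : kˣ) : k) * (((ψ₂ g₀ : kˣ) : k) - ((ψ₁ g₀ : kˣ) : k))) := by
  have ha₀ : ((ψ₁ g₀ : kˣ) : k) ≠ 0 := Units.ne_zero _
  have hb₀ : ((ψ₂ g₀ : kˣ) : k) ≠ 0 := Units.ne_zero _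
  have h11 : M g₀ 1 1 = ((ψ₂ g₀ : kˣ) : k) := by
    rcases S58K_mat_cases (M g₀) _ _ (hrel g₀) with h | h | ⟨ht, -⟩
    · exact absurd h hns₁
    · exact absurd h hns₂
    · rw [h00] at ht
      linear_combination ht
  refine ⟨?_, fun h => ?_⟩
  · by_contra hcon
    rw [not_or, not_not, not_not] at hcon
    apply hns₁
    exact S58K_mat_smul_one (M g₀) _ h00 hcon.1 h10 (by rw [h11]; linear_combination hcon.2)
  · have hrel' : (M h * M g₀ - (((ψ₁ h : kˣ) : k) * ((ψ₁ g₀ : kˣ) : k)) •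
        (1 : Matrix (Fin 2) (Fin 2) k)) *
        (M h * M g₀ - (((ψ₂ h : kˣ) : k) * ((ψ₂ g₀ : kˣ) : k)) •
        (1 : Matrix (Fin 2) (Fin 2) k)) = 0 := by
      have := hrel (h * g₀)
      rwa [hmul, map_mul, map_mul, Units.val_mul, Units.val_mul] at this
    rcases S58K_mat_cases (M h * M g₀) _ _ hrel' with hs | hs | ⟨htm, -⟩
    · -- `M h * M g₀` is the scalar `ψ₁ h * ψ₁ g₀`
      left
      have e00 := congrFun (congrFun hs 0) 0
      have e10 := congrFun (congrFun hs 1) 0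
      simp only [Matrix.mul_apply, Fin.sum_univ_two, h00, h10, mul_zero, add_zero,
        Matrix.smul_apply, Matrix.one_apply_eq, Matrix.one_apply_ne, ne_eq, not_false_eq_true,
        smul_eq_mul, mul_one, Fin.isValue, one_ne_zero] at e00 e10
      exact ⟨mul_right_cancel₀ ha₀ e00, (mul_eq_zero.mp e10).resolve_right ha₀⟩
    · -- `M h * M g₀` is the scalar `ψ₂ h * ψ₂ g₀`
      right
      have e00 := congrFun (congrFun hs 0) 0
      have e01 := congrFun (congrFun hs 0) 1
      have e10 := congrFun (congrFun hs 1) 0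
      have e11 := congrFun (congrFun hs 1) 1
      simp only [Matrix.mul_apply, Fin.sum_univ_two, h00, h10, h11, mul_zero, add_zero,
        Matrix.smul_apply, Matrix.one_apply_eq, Matrix.one_apply_ne, ne_eq, not_false_eq_true,
        smul_eq_mul, mul_one, Fin.isValue, one_ne_zero, zero_ne_one] at e00 e01 e10 e11
      have hγ : M h 1 0 = 0 := (mul_eq_zero.mp e10).resolve_right ha₀
      rw [hγ, zero_mul, zero_add] at e11
      have hδ : M h 1 1 = ((ψ₂ h : kˣ) : k) := mul_right_cancel₀ hb₀ e11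
      refine ⟨?_, ?_⟩
      · have : ((ψ₂ g₀ : kˣ) : k) * (M h 0 0 * M g₀ 0 1 +
            M h 0 1 * (((ψ₂ g₀ : kˣ) : k) - ((ψ₁ g₀ : kˣ) : k))
            - ((ψ₂ h : kˣ) : k) * M g₀ 0 1) = 0 := by
          linear_combination (((ψ₂ g₀ : kˣ) : k) - ((ψ₁ g₀ : kˣ) : k)) * e01 + M g₀ 0 1 * e00
        have h0 := (mul_eq_zero.mp this).resolve_left hb₀
        linear_combination h0
      · rw [hγ, hδ]
        ring
    · rcases S58K_mat_cases (M h) _ _ (hrel h) with hs | hs | ⟨ht, hd⟩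
      · left
        have e00 := congrFun (congrFun hs 0) 0
        have e10 := congrFun (congrFun hs 1) 0
        simp only [Matrix.smul_apply, Matrix.one_apply_eq, Matrix.one_apply_ne, ne_eq,
          not_false_eq_true, smul_eq_mul, mul_one, mul_zero, Fin.isValue, one_ne_zero] at e00 e10
        exact ⟨e00, e10⟩
      · right
        have e00 := congrFun (congrFun hs 0) 0
        have e01 := congrFun (congrFun hs 0) 1
        have e10 := congrFun (congrFun hs 1) 0
        have e11 := congrFun (congrFun hs 1) 1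
        simp only [Matrix.smul_apply, Matrix.one_apply_eq, Matrix.one_apply_ne, ne_eq,
          not_false_eq_true, smul_eq_mul, mul_one, mul_zero, Fin.isValue, one_ne_zero,
          zero_ne_one] at e00 e01 e10 e11
        rw [e00, e01, e10, e11]
        exact ⟨by ring, by ring⟩
      · exact S58K_mat_core (M g₀) (M h) _ _ _ _ h00 h10 h11 ht hd htm

end matrix

section module

variable {k : Type*} [Field k] {V : Type*} [AddCommGroup V] [Module k V]

theorem S58K_eigen_mul {G : Type*} [Group G] (ρ : G →* Module.End k V) (ψ : G →* kˣ) (v : V)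
    (x y : G) (hx : ρ x v = ((ψ x : kˣ) : k) • v) (hy : ρ y v = ((ψ y : kˣ) : k) • v) :
    ρ (x * y) v = ((ψ (x * y) : kˣ) : k) • v := by
  rw [map_mul, Module.End.mul_apply, hy, map_smul, hx, smul_smul, map_mul, Units.val_mul,
    mul_comm]

theorem S58K_eigen_inv {G : Type*} [Group G] (ρ : G →* Module.End k V) (ψ : G →* kˣ) (v : V)
    (x : G) (hx : ρ x v = ((ψ x : kˣ) : k) • v) :
    ρ x⁻¹ v = ((ψ x⁻¹ : kˣ) : k) • v := by
  have h1 : ρ x⁻¹ (ρ x v) = v := by
    rw [← Module.End.mul_apply, ← map_mul, inv_mul_cancel, map_one, Module.End.one_apply]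
  rw [hx, map_smul] at h1
  have hinv : ((ψ x⁻¹ : kˣ) : k) = (((ψ x : kˣ) : k))⁻¹ := by
    rw [map_inv ψ x, Units.val_inv_eq_inv_val]
  rw [hinv]
  exact (eq_inv_smul_iff₀ (Units.ne_zero _)).mpr h1

/-- **KOL**: `V` of dimension 2 over a field, `ρ : G →* End V`, `ψ₁ ψ₂ : G →* kˣ` with
`(ρ g − ψ₁ g)(ρ g − ψ₂ g) = 0` for all `g`: there is a common eigenvector, with character `ψ₁`
or with character `ψ₂`. -/
theorem S58K_main (h2 : Module.finrank k V = 2) {G : Type*} [Group G]
    (ρ : G →* Module.End k V) (ψ₁ ψ₂ : G →* kˣ)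
    (hrel : ∀ g, (ρ g - ((ψ₁ g : kˣ) : k) • (1 : Module.End k V)) *
      (ρ g - ((ψ₂ g : kˣ) : k) • (1 : Module.End k V)) = 0) :
    ∃ v : V, v ≠ 0 ∧ ((∀ g, ρ g v = ((ψ₁ g : kˣ) : k) • v) ∨
      (∀ g, ρ g v = ((ψ₂ g : kˣ) : k) • v)) := by
  classical
  have hnt : Nontrivial V := Module.nontrivial_of_finrank_pos (R := k) (by rw [h2]; norm_num)
  suffices hsuff : ∃ v₁ v₂ : V, v₁ ≠ 0 ∧ v₂ ≠ 0 ∧
      ∀ g, ρ g v₁ = ((ψ₁ g : kˣ) : k) • v₁ ∨ ρ g v₂ = ((ψ₂ g : kˣ) : k) • v₂ by
    obtain ⟨v₁, v₂, hv₁, hv₂, hpt⟩ := hsuff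
    rcases S58K_two (fun g => ρ g v₁ = ((ψ₁ g : kˣ) : k) • v₁)
      (fun g => ρ g v₂ = ((ψ₂ g : kˣ) : k) • v₂)
      (fun x y hx hy => S58K_eigen_mul ρ ψ₁ v₁ x y hx hy)
      (fun x hx => S58K_eigen_inv ρ ψ₁ v₁ x hx)
      (fun x y hx hy => S58K_eigen_mul ρ ψ₂ v₂ x y hx hy)
      (fun x hx => S58K_eigen_inv ρ ψ₂ v₂ x hx) hpt with h | h
    · exact ⟨v₁, hv₁, Or.inl h⟩
    · exact ⟨v₂, hv₂, Or.inr h⟩
  by_cases hsc : ∀ g, ρ g = ((ψ₁ g : kˣ) : k) • (1 : Module.End k V) ∨
      ρ g = ((ψ₂ g : kˣ) : k) • (1 : Module.End k V)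
  · obtain ⟨v, hv⟩ := exists_ne (0 : V)
    refine ⟨v, v, hv, hv, fun g => ?_⟩
    rcases hsc g with h | h
    · left; rw [h, LinearMap.smul_apply, Module.End.one_apply]
    · right; rw [h, LinearMap.smul_apply, Module.End.one_apply]
  · simp only [not_forall, not_or] at hsc
    obtain ⟨g₀, hns₁, hns₂⟩ := hsc
    obtain ⟨w, hw⟩ : ∃ w, (ρ g₀ - ((ψ₂ g₀ : kˣ) : k) • (1 : Module.End k V)) w ≠ 0 := by
      by_contra hcon
      simp only [not_exists, not_not] at hcon
      exact hns₂ (sub_eq_zero.mp (LinearMap.ext hcon))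
    obtain ⟨v₁, hv₁def⟩ : ∃ v₁, v₁ = (ρ g₀ - ((ψ₂ g₀ : kˣ) : k) • (1 : Module.End k V)) w :=
      ⟨_, rfl⟩
    rw [← hv₁def] at hw
    have hv₁ : ρ g₀ v₁ = ((ψ₁ g₀ : kˣ) : k) • v₁ := by
      have := congrArg (fun f : Module.End k V => f w) (hrel g₀)
      simp only [Module.End.mul_apply, LinearMap.zero_apply] at this
      rw [← hv₁def, LinearMap.sub_apply, LinearMap.smul_apply, Module.End.one_apply,
        sub_eq_zero] at this
      exact this
    obtain ⟨w', hli⟩ := exists_linearIndependent_pair_of_one_lt_finrank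
      (by rw [h2]; norm_num : 1 < Module.finrank k V) hw
    let b : Module.Basis (Fin 2) k V :=
      basisOfLinearIndependentOfCardEqFinrank hli (by rw [h2]; rfl)
    have hb : ⇑b = ![v₁, w'] := coe_basisOfLinearIndependentOfCardEqFinrank hli _
    have hb0 : b 0 = v₁ := by rw [hb]; rfl
    have hb1 : b 1 = w' := by rw [hb]; rfl
    -- matrices
    set M : G → Matrix (Fin 2) (Fin 2) k := fun g => LinearMap.toMatrix b b (ρ g) with hM
    have hmul : ∀ g h, M (g * h) = M g * M h := fun g h => by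
      simp only [hM, map_mul]
      exact LinearMap.toMatrix_mul b (ρ g) (ρ h)
    have hone : LinearMap.toMatrix b b (1 : Module.End k V) = 1 := LinearMap.toMatrix_one b
    have hrelM : ∀ g, (M g - ((ψ₁ g : kˣ) : k) • (1 : Matrix (Fin 2) (Fin 2) k)) *
        (M g - ((ψ₂ g : kˣ) : k) • (1 : Matrix (Fin 2) (Fin 2) k)) = 0 := fun g => by
      have := congrArg (LinearMap.toMatrix b b) (hrel g)
      rw [LinearMap.toMatrix_mul, map_sub, map_sub, map_smul, map_smul, hone, map_zero] at this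
      exact this
    have hinj : ∀ (g : G) (c : k), M g = c • (1 : Matrix (Fin 2) (Fin 2) k) →
        ρ g = c • (1 : Module.End k V) := fun g c h => by
      apply (LinearMap.toMatrix b b).injective
      rw [map_smul, hone]
      exact h
    have hcol : ∀ (g : G) (j : Fin 2), ρ g (b j) = M g 0 j • b 0 + M g 1 j • b 1 := fun g j => by
      have := (b.sum_repr (ρ g (b j))).symm
      rw [Fin.sum_univ_two] at this
      simpa only [hM, LinearMap.toMatrix_apply] using this
    have h00 : M g₀ 0 0 = ((ψ₁ g₀ : kˣ) : k) := by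
      simp only [hM, LinearMap.toMatrix_apply, hb0, hv₁, map_smul]
      rw [← hb0, Module.Basis.repr_self]
      simp
    have h10 : M g₀ 1 0 = 0 := by
      simp only [hM, LinearMap.toMatrix_apply, hb0, hv₁, map_smul]
      rw [← hb0, Module.Basis.repr_self]
      simp
    obtain ⟨hnz, hpt⟩ := S58K_mat_pointwise M hmul ψ₁ ψ₂ hrelM g₀ h00 h10
      (fun h => hns₁ (hinj g₀ _ h)) (fun h => hns₂ (hinj g₀ _ h))
    refine ⟨v₁, M g₀ 0 1 • v₁ + (((ψ₂ g₀ : kˣ) : k) - ((ψ₁ g₀ : kˣ) : k)) • w', ?_, ?_, ?_⟩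
    · intro h0
      rw [h0] at hw
      exact hw rfl
    · intro h0
      have := LinearIndependent.pair_iff.mp hli _ _ h0
      rcases hnz with h | h
      · exact h this.1
      · exact h this.2
    · intro h
      rcases hpt h with ⟨e1, e2⟩ | ⟨e1, e2⟩
      · left
        have := hcol h 0
        rw [hb0, hb1, e1, e2, zero_smul, add_zero] at this
        exact this
      · right
        have c0 := hcol h 0
        have c1 := hcol h 1
        rw [hb0, hb1] at c0 c1
        rw [map_add, map_smul, map_smul, c0, c1]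
        simp only [smul_add, smul_smul]
        rw [← e1, ← e2]
        simp only [add_smul, mul_comm]
        abel

end module

end Fermat.Agent.S58
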