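import Mathlib
import Fermat.Agent.S41.NERed
import Fermat.Agent.S05.UnitDeriv

/-!
# S58 (conductor–level matching), packages R = (W2) and U-good = (W3, good primes) (helper28)

`W : WeierstrassCurve ℤ`, `A` a valuation ring of `ℚ̄` over a prime `ℓ ∤ Δ_W`, `m` a natural number
with `ℓ ∤ m`.  Prefix `S58R_`.

* `S58R_valuation_nat`  : `ℓ ∤ m` ⇒ `m` is a unit of `A`;
* `S58R_torsion_inE1`   : the kernel of reduction has no nonzero `m`-torsion;
* **`S58R_es`**         : **(W2)** a Frobenius element `σ` at `A` satisfies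
  `σ σ P − a_ℓ(W) σ P + ℓ P = 0` for every `P ∈ W(ℚ̄)` with `m • P = 0`;
* `S58R_es_pow`         : the same for `p ^ n • P = 0`, `p ≠ ℓ` prime;
* **`S58R_fix_good`**   : **(U-good)** an element `τ` of the inertia group at `A` fixes every
  `P ∈ W(ℚ̄)` with `m • P = 0` (all residue characteristics, `ℓ = 2` included);
* `S58R_fix_good_pow`   : the same for `p ^ n • P = 0`, `p ≠ ℓ` prime.
-/

set_option autoImplicit false
set_option linter.unusedSectionVars false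
set_option linter.unusedVariables false
set_option linter.style.haveILetI false

open scoped Pointwise

namespace Fermat.Agent.S58

open WeierstrassCurve Fermat.Agent.Lib Fermat.Agent.S05 Fermat.Agent.S51 Fermat.Agent.S18
  Fermat.Agent.GalRep Fermat.Agent.S41

local notation "ℚbar" => AlgebraicClosure ℚ

variable (W : WeierstrassCurve ℤ) {ℓ : ℕ} (A : ValuationSubring ℚbar)

/-- a natural number prime to the residue characteristic is a unit of `A`. -/
theorem S58R_valuation_nat (hℓ : ℓ.Prime) (hA : A.LiesOverPrime ℓ) {m : ℕ} (hm : ¬ ℓ ∣ m) :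
    A.valuation (m : ℚbar) = 1 := by
  refine le_antisymm ((A.valuation_le_one_iff _).2 (natCast_mem A m)) ?_
  by_contra hlt
  rw [not_le] at hlt
  have h1 : ((m : ℤ) : ℚbar) ∈ A.nonunits := by
    rw [A.mem_nonunits_iff]
    exact_mod_cast hlt
  have h2 := S41NE_dvd_of_intCast_mem_nonunits A hℓ hA _ h1
  rw [Int.natCast_dvd_natCast] at h2
  exact hm h2

/-- a power of a prime `p ≠ ℓ` is prime to `ℓ`. -/
theorem S58R_not_dvd_pow (hℓ : ℓ.Prime) {p : ℕ} (hp : p.Prime) (hℓp : ℓ ≠ p) (n : ℕ) :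
    ¬ ℓ ∣ p ^ n := fun h =>
  hℓp ((Nat.prime_dvd_prime_iff_eq hℓ hp).1 (hℓ.dvd_of_dvd_pow h))

/-- the kernel of reduction has no nonzero torsion of order prime to `ℓ`. -/
theorem S58R_torsion_inE1 (hℓ : ℓ.Prime) (hA : A.LiesOverPrime ℓ) {m : ℕ} (hm : ¬ ℓ ∣ m)
    {Q : (W.baseChange ℚbar).toAffine.Point} (hQ : S05_InE1 A Q) (h : m • Q = 0) : Q = 0 :=
  S05_eq_zero_of_inE1_gen A (S41NE_integral W A) hQ (S58R_valuation_nat A hℓ hA hm) h

/-- **(W2), the Eichler–Shimura relation for `W`** on torsion of order prime to `ℓ`: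
a Frobenius element `σ` at a good prime `ℓ` satisfies `σ² − a_ℓ σ + ℓ = 0` on `W[m](ℚ̄)`. -/
theorem S58R_es (hℓ : ℓ.Prime) (hA : A.LiesOverPrime ℓ) (hgood : ¬ (ℓ : ℤ) ∣ W.Δ) {m : ℕ}
    (hm : ¬ ℓ ∣ m) (σ : GQ) (hσ : A.IsFrobeniusAt σ ℓ)
    (P : (W.baseChange ℚbar).toAffine.Point) (hP : m • P = 0) :
    σ • σ • P - W.apOfModel ℓ • σ • P + (ℓ : ℤ) • P = 0 := by
  classical
  haveI : Fact ℓ.Prime := ⟨hℓ⟩
  haveI : CharP (IsLocalRing.ResidueField A) ℓ := S18_residue_charP A ℓ hℓ hA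
  letI : Algebra (ZMod ℓ) (IsLocalRing.ResidueField A) := ZMod.algebra _ ℓ
  haveI : IsAlgClosed (IsLocalRing.ResidueField A) := S18_residue_isAlgClosed A
  obtain ⟨red, hker, hfrob⟩ := S41NE_red W A hA hgood
  set Q : (W.baseChange ℚbar).toAffine.Point :=
    σ • σ • P - W.apOfModel ℓ • σ • P + (ℓ : ℤ) • P with hQ
  have hmQ : m • Q = 0 := by
    have h1 : m • (σ • P) = 0 := by
      rw [← S41NE_gsmul_nsmul, hP, S41NE_gsmul_zero]
    have h2 : m • (σ • σ • P) = 0 := by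
      rw [← S41NE_gsmul_nsmul, h1, S41NE_gsmul_zero]
    have h1' : (m : ℤ) • (σ • P) = 0 := by rw [natCast_zsmul, h1]
    have h2' : (m : ℤ) • (σ • σ • P) = 0 := by rw [natCast_zsmul, h2]
    have hP' : (m : ℤ) • P = 0 := by rw [natCast_zsmul, hP]
    rw [← natCast_zsmul, hQ, zsmul_add, zsmul_sub, h2', smul_comm (m : ℤ) (W.apOfModel ℓ), h1',
      zsmul_zero, sub_zero, zero_add, smul_comm (m : ℤ) (ℓ : ℤ), hP', zsmul_zero]
  have hredQ : red Q = 0 := by
    rw [hQ, map_add, map_sub, map_zsmul, map_zsmul, hfrob σ hσ, hfrob σ hσ]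
    exact ft_TR ℓ (W.reductionMod ℓ) (S41NE_reductionMod_Δ_ne_zero W hℓ hgood) _ (red P)
  exact S58R_torsion_inE1 W A hℓ hA hm (hker Q hredQ) hmQ

/-- **(W2)** on `W[p ^ n](ℚ̄)`, `p ≠ ℓ` prime. -/
theorem S58R_es_pow (hℓ : ℓ.Prime) (hA : A.LiesOverPrime ℓ) (hgood : ¬ (ℓ : ℤ) ∣ W.Δ) {p : ℕ}
    (hp : p.Prime) (hℓp : ℓ ≠ p) (n : ℕ) (σ : GQ) (hσ : A.IsFrobeniusAt σ ℓ)
    (P : (W.baseChange ℚbar).toAffine.Point) (hP : p ^ n • P = 0) :
    σ • σ • P - W.apOfModel ℓ • σ • P + (ℓ : ℤ) • P = 0 :=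
  S58R_es W A hℓ hA hgood (S58R_not_dvd_pow hℓ hp hℓp n) σ hσ P hP

/-- for `τ` in the inertia group at a valuation ring `A` of good reduction, `τ P − P` lies in the
kernel of reduction (no torsion hypothesis). -/
theorem S58R_sub_inE1_good (hℓ : ℓ.Prime) (hA : A.LiesOverPrime ℓ) (hgood : ¬ (ℓ : ℤ) ∣ W.Δ)
    (τ : GQ) (hτ : τ ∈ A.inertiaSubgroupIn ℚ) (P : (W.baseChange ℚbar).toAffine.Point) :
    S05_InE1 A (τ • P - P) := by
  classical
  have hΔ : ft_resHom A (S41NE_int_mem A) W.Δ ≠ 0 := by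
    intro h0
    apply hgood
    apply S41NE_dvd_of_intCast_mem_nonunits A hℓ hA
    have h1 : IsLocalRing.residue A ⟨algebraMap ℤ ℚbar W.Δ, S41NE_int_mem A _⟩ = 0 := h0
    rw [IsLocalRing.residue_eq_zero_iff] at h1
    have h2 : algebraMap ℤ ℚbar W.Δ ∈ A.nonunits :=
      (ValuationSubring.coe_mem_nonunits_iff (A := A)).mpr h1
    rwa [eq_intCast] at h2
  obtain ⟨red₀, h1, h2, h3, h4⟩ := ft_red_exists' W A (S41NE_int_mem A) hΔ
  have hmem : ∀ z : ℚbar, τ z ∈ A ↔ z ∈ A := by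
    intro z
    refine ⟨fun h => ?_, fun h => S05_inertia_mem A hτ h⟩
    have hinv : τ⁻¹ ∈ A.inertiaSubgroupIn ℚ := inv_mem hτ
    have := S05_inertia_mem A hinv h
    rwa [show τ⁻¹ (τ z) = z from τ.symm_apply_apply z] at this
  have hred : red₀ (τ • P) = red₀ P := by
    rcases P with _ | ⟨x, y, h⟩
    · rfl
    · have hns : (W.baseChange ℚbar).toAffine.Nonsingular (τ x) (τ y) :=
        (WeierstrassCurve.Affine.baseChange_nonsingular (W := W.toAffine)
          (f := τ.toAlgHom) τ.injective x y).mpr h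
      have hτP : (τ • (Affine.Point.some x y h : (W.baseChange ℚbar).toAffine.Point)) =
          Affine.Point.some (τ x) (τ y) hns := rfl
      rw [hτP]
      by_cases hx : x ∈ A
      · have hy : y ∈ A := h3 x y h hx
        have hτx : τ x ∈ A := (hmem x).2 hx
        have hτy : τ y ∈ A := (hmem y).2 hy
        obtain ⟨h', e'⟩ := h1 x y h hx hy
        obtain ⟨h'', e''⟩ := h1 (τ x) (τ y) hns hτx hτy
        erw [e', e'']
        have key : ∀ (z : ℚbar) (hz : z ∈ A) (hτz : τ z ∈ A),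
            IsLocalRing.residue A ⟨τ z, hτz⟩ = IsLocalRing.residue A ⟨z, hz⟩ := by
          intro z hz hτz
          rw [← sub_eq_zero, ← map_sub, IsLocalRing.residue_eq_zero_iff]
          have := S05_inertia_sub_mem_nonunits A hτ hz
          exact (ValuationSubring.coe_mem_nonunits_iff (A := A)).mp this
        exact S41NE_some_eq' _ _ (key x hx hτx) (key y hy hτy)
      · have hτx : τ x ∉ A := fun h' => hx ((hmem x).1 h')
        erw [h2 x y h hx, h2 (τ x) (τ y) hns hτx]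
  have h0 : red₀ (τ • P - P) = 0 :=
    (red₀.map_sub (τ • P) P).trans (by rw [hred]; exact sub_self _)
  rcases hQ : τ • P - P with _ | ⟨x, y, h⟩
  · exact Or.inl rfl
  · rw [hQ] at h0
    exact Or.inr ⟨x, ⟨y, h, rfl⟩, (h4 x y h).1 h0⟩

/-- **(U-good)**: the inertia group at a good prime `ℓ` acts trivially on the torsion of order
prime to `ℓ` of `W(ℚ̄)`. -/
theorem S58R_fix_good (hℓ : ℓ.Prime) (hA : A.LiesOverPrime ℓ) (hgood : ¬ (ℓ : ℤ) ∣ W.Δ) {m : ℕ}
    (hm : ¬ ℓ ∣ m) (τ : GQ) (hτ : τ ∈ A.inertiaSubgroupIn ℚ)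
    (P : (W.baseChange ℚbar).toAffine.Point) (hP : m • P = 0) : τ • P = P := by
  have h0 : m • (τ • P - P) = 0 := by
    rw [nsmul_sub, ← S41NE_gsmul_nsmul, hP, S41NE_gsmul_zero, sub_zero]
  exact sub_eq_zero.1
    (S58R_torsion_inE1 W A hℓ hA hm (S58R_sub_inE1_good W A hℓ hA hgood τ hτ P) h0)

/-- **(U-good)** on `W[p ^ n](ℚ̄)`, `p ≠ ℓ` prime. -/
theorem S58R_fix_good_pow (hℓ : ℓ.Prime) (hA : A.LiesOverPrime ℓ) (hgood : ¬ (ℓ : ℤ) ∣ W.Δ)
    {p : ℕ} (hp : p.Prime) (hℓp : ℓ ≠ p) (n : ℕ) (τ : GQ) (hτ : τ ∈ A.inertiaSubgroupIn ℚ)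
    (P : (W.baseChange ℚbar).toAffine.Point) (hP : p ^ n • P = 0) : τ • P = P :=
  S58R_fix_good W A hℓ hA hgood (S58R_not_dvd_pow hℓ hp hℓp n) τ hτ P hP

end Fermat.Agent.S58
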