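import Fermat.Agent.S58.Defs
import Fermat.Agent.S31.Lucas
import Fermat.Agent.S41.NEFde
import Fermat.Agent.S41.NEAct
import Fermat.Agent.S41.NERoots

/-!
# TRACK 12 (S58), package (E-res) (helper6) — prefix `S58ER_`

`S58ER_teres : W.Δ ≠ 0 → p.Prime → p ≠ 2 → S58D_TEres W p`.

For `g ∈ G_ℚ` choose (elementwise Frobenius density `S41NE_fde`) a Frobenius element `σ` at a
good prime `ℓ ∉ T`, `ℓ ≠ p`, and `m` with `g = σ ^ m` on a finite extension `L` through which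
the residual representation, the action on `W[p]` and the action on `μ_p` all factor.
Then `V := V_m(a_ℓ, ℓ)` (Lucas sequence) and `D := ℓ ^ m` work:
* `charpoly ρ̄(g) = charpoly ρ̄(σ)^m = X² − V_m X + ℓ^m`  (`LUC_trace_pow_of_charpoly`);
* `σ² − a_ℓ σ + ℓ = 0` on `W[p]` (`S58R_es`) gives `(σ^m)² − V_m σ^m + ℓ^m = 0` on `W[p]`
  (`S58ER_lucas_add`);
* `σ ζ = ζ ^ ℓ` gives `σ^m ζ = ζ ^ (ℓ^m)`.
-/

set_option autoImplicit false
set_option linter.unusedSectionVars false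
set_option linter.unusedVariables false
set_option linter.style.haveILetI false

open Polynomial
open scoped Pointwise

namespace Fermat.Agent.S58

open WeierstrassCurve Fermat.Agent.Lib Fermat.Agent.GalRep Fermat.Agent.S41 Fermat.Agent.S31

local notation "ℚbar" => AlgebraicClosure ℚ

/-! ### the abstract Lucas relation in a ring -/

/-- in a ring: `F² − T F + Q = 0` with `T`, `Q` central-like (commuting with `F`) gives
`(F^m)² − V_m(T,Q) F^m + Q^m = 0`. -/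
theorem S58ER_lucas_ring {R : Type*} [Ring R] {F T Q : R} (hT : Commute T F)
    (hq : F ^ 2 - T * F + Q = 0) (m : ℕ) :
    F ^ m * F ^ m - LUC_V T Q m * F ^ m + Q ^ m = 0 := by
  have hsum := LUC_pow_add_pow_of_quadratic hT hq m
  have hc : Commute F (T - F) := (hT.symm).sub_right (Commute.refl F)
  have hprod : (T - F) * F = Q := by
    have : (T - F) * F = -(F ^ 2 - T * F) := by
      rw [sub_mul, pow_two]
      abel
    rw [this, ← add_eq_zero_iff_neg_eq.mp hq]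
  have hpow : (T - F) ^ m * F ^ m = Q ^ m := by
    rw [← hprod, hc.symm.mul_pow]
  rw [← hsum, add_mul, ← hpow]
  abel

/-- the additive form: an additive endomorphism `F` of an abelian group with
`F (F P) − a • F P + l • P = 0` satisfies
`F^m (F^m P) − V_m(a,l) • F^m P + l^m • P = 0`. -/
theorem S58ER_lucas_add {M : Type*} [AddCommGroup M] (F : AddMonoid.End M) (a l : ℤ)
    (h : ∀ P : M, F (F P) - a • F P + l • P = 0) (m : ℕ) (P : M) :
    (F ^ m) ((F ^ m) P) - (LUC_V a l m) • (F ^ m) P + (l ^ m) • P = 0 := by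
  have hT : Commute ((a : ℤ) : AddMonoid.End M) F := Int.cast_commute a F
  have hq : F ^ 2 - ((a : ℤ) : AddMonoid.End M) * F + ((l : ℤ) : AddMonoid.End M) = 0 := by
    ext P
    rw [pow_two]
    exact h P
  have h1 := S58ER_lucas_ring hT hq m
  have hV : LUC_V ((a : ℤ) : AddMonoid.End M) ((l : ℤ) : AddMonoid.End M) m =
      ((LUC_V a l m : ℤ) : AddMonoid.End M) := by
    have := LUC_V_map (Int.castRingHom (AddMonoid.End M)) a l m
    simpa using this.symm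
  rw [hV, ← Int.cast_pow] at h1
  exact congrArg (fun G : AddMonoid.End M => G P) h1

/-! ### the residual side -/

/-- `charpoly f = X² − a X + d` on a free module of rank `2` gives
`charpoly (f^m) = X² − V_m(a,d) X + d^m`. -/
theorem S58ER_charpoly_pow {R : Type*} [CommRing R] [Nontrivial R] {V : Type*} [AddCommGroup V]
    [Module R V] [Module.Free R V] [Module.Finite R V] (hV : Module.finrank R V = 2)
    (f : Module.End R V) (a d : R) (h : LinearMap.charpoly f = X ^ 2 - C a * X + C d) (m : ℕ) :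
    LinearMap.charpoly (f ^ m) = X ^ 2 - C (LUC_V a d m) * X + C (d ^ m) := by
  rw [LUC_charpoly_eq hV (f ^ m), LUC_trace_pow_of_charpoly hV f a d h m, map_pow,
    LUC_det_of_charpoly hV f a d h]

/-- the characteristic polynomial of the residual representation is the reduction of the
characteristic polynomial. -/
theorem S58ER_charpoly_residual {O : Type} [CommRing O] [IsLocalRing O] (ρ : GaloisRepAdic O)
    (σ : GQ) (a d : O) (h : LinearMap.charpoly (ρ.ρ σ) = X ^ 2 - C a * X + C d) :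
    LinearMap.charpoly (ρ.residual.ρ σ) =
      X ^ 2 - C (algebraMap O (IsLocalRing.ResidueField O) a) * X +
        C (algebraMap O (IsLocalRing.ResidueField O) d) := by
  change LinearMap.charpoly ((ρ.ρ σ).baseChange (IsLocalRing.ResidueField O)) = _
  rw [LinearMap.charpoly_baseChange, h]
  simp only [Polynomial.map_add, Polynomial.map_sub, Polynomial.map_mul, Polynomial.map_pow,
    Polynomial.map_X, Polynomial.map_C]

/-! ### the side of `W[p]` -/

/-- the `p`-torsion subgroup of `W(ℚ̄)`. -/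
noncomputable def S58ER_K (W : WeierstrassCurve ℤ) (p : ℕ) : AddSubgroup (W.baseChange ℚbar).toAffine.Point :=
  (nsmulAddMonoidHom (α := (W.baseChange ℚbar).toAffine.Point) p).ker

theorem S58ER_mem_K (W : WeierstrassCurve ℤ) (p : ℕ) (P : (W.baseChange ℚbar).toAffine.Point) :
    P ∈ S58ER_K W p ↔ p • P = 0 := Iff.rfl

/-- the action of `σ` on the `p`-torsion subgroup, as an additive endomorphism. -/
noncomputable def S58ER_F (W : WeierstrassCurve ℤ) (p : ℕ) (σ : GQ) :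
    AddMonoid.End (S58ER_K W p) :=
  AddMonoidHom.mk' (fun P => ⟨σ • P.1, by
    rw [S58ER_mem_K, ← S41NE_gsmul_nsmul, (S58ER_mem_K W p P.1).1 P.2, S41NE_gsmul_zero]⟩)
    (fun P Q => Subtype.ext (S41NE_gsmul_add W σ P.1 Q.1))

theorem S58ER_F_apply (W : WeierstrassCurve ℤ) (p : ℕ) (σ : GQ) (P : S58ER_K W p) :
    ((S58ER_F W p σ) P : (W.baseChange ℚbar).toAffine.Point) = σ • P.1 := rfl

theorem S58ER_F_pow_apply (W : WeierstrassCurve ℤ) (p : ℕ) (σ : GQ) (m : ℕ) (P : S58ER_K W p) :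
    (((S58ER_F W p σ) ^ m) P : (W.baseChange ℚbar).toAffine.Point) = (σ ^ m) • P.1 := by
  induction m generalizing P with
  | zero => rw [pow_zero, pow_zero, S41NE_gsmul_one]; rfl
  | succ m ih =>
    rw [pow_succ', pow_succ', S41NE_gsmul_mul, ← ih P]
    rfl

/-- **the Lucas form of the Eichler–Shimura relation**: for a Frobenius element `σ` at a good
prime `ℓ ∤ p`: `(σ^m)² − V_m(a_ℓ, ℓ) σ^m + ℓ^m = 0` on `W[p](ℚ̄)`. -/
theorem S58ER_rel_pow (W : WeierstrassCurve ℤ) {ℓ : ℕ} (A : ValuationSubring ℚbar)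
    (hℓ : ℓ.Prime) (hA : A.LiesOverPrime ℓ) (hgood : ¬ (ℓ : ℤ) ∣ W.Δ) {p : ℕ} (hℓp : ¬ ℓ ∣ p)
    (σ : GQ) (hσ : A.IsFrobeniusAt σ ℓ) (m : ℕ) (P : (W.baseChange ℚbar).toAffine.Point)
    (hP : p • P = 0) :
    (σ ^ m) • (σ ^ m) • P - (LUC_V (W.apOfModel ℓ) (ℓ : ℤ) m) • (σ ^ m) • P +
      ((ℓ : ℤ) ^ m) • P = 0 := by
  have h : ∀ Q : S58ER_K W p, (S58ER_F W p σ) ((S58ER_F W p σ) Q) -
      (W.apOfModel ℓ) • (S58ER_F W p σ) Q + (ℓ : ℤ) • Q = 0 := by
    intro Q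
    apply Subtype.ext
    rw [AddSubgroup.coe_add, AddSubgroup.coe_sub, AddSubgroup.coe_zsmul, AddSubgroup.coe_zsmul,
      S58ER_F_apply, S58ER_F_apply]
    exact S58R_es W A hℓ hA hgood hℓp σ hσ Q.1 ((S58ER_mem_K W p Q.1).1 Q.2)
  have h1 := S58ER_lucas_add (S58ER_F W p σ) (W.apOfModel ℓ) (ℓ : ℤ) h m
    ⟨P, (S58ER_mem_K W p P).2 hP⟩
  have h2 := congrArg (fun Q : S58ER_K W p => (Q : (W.baseChange ℚbar).toAffine.Point)) h1
  simp only [AddSubgroup.coe_add, AddSubgroup.coe_sub, AddSubgroup.coe_zsmul,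
    S58ER_F_pow_apply] at h2
  exact h2

/-! ### roots of unity -/

theorem S58ER_zeta_pow {p : ℕ} {ζ : ℚbar} (hζ : IsPrimitiveRoot ζ p) (hp : 0 < p) {ℓ : ℕ}
    (hℓ : ℓ.Prime) (hℓp : ¬ ℓ ∣ p) (A : ValuationSubring ℚbar) (hA : A.LiesOverPrime ℓ)
    (σ : GQ) (hσ : A.IsFrobeniusAt σ ℓ) (m : ℕ) : (σ ^ m) ζ = ζ ^ (ℓ ^ m) := by
  have hσζ : σ ζ = ζ ^ ℓ := S41NE_zeta_frob hζ hp hℓ hℓp A hA σ hσ
  induction m with
  | zero => rw [pow_zero, pow_zero, pow_one]; rfl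
  | succ m ih =>
    rw [pow_succ', AlgEquiv.mul_apply, ih, map_pow, hσζ, ← pow_mul, pow_succ']

/-! ### the target -/

/-- **(E-res)**: the target `S58D_TEres W p`, for `Δ ≠ 0` and `p` an odd prime. -/
theorem S58ER_teres (W : WeierstrassCurve ℤ) (hΔ : W.Δ ≠ 0) {p : ℕ} (hp : p.Prime)
    (hp2 : p ≠ 2) : S58D_TEres W p := by
  intro O _ _ _ _ _ hpO ρ T hAtt g
  haveI : NeZero ((p : ℕ) : ℚ) := ⟨Nat.cast_ne_zero.2 hp.ne_zero⟩
  haveI : NeZero p := ⟨hp.ne_zero⟩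
  obtain ⟨ζ, hζ⟩ := HasEnoughRootsOfUnity.exists_primitiveRoot ℚbar p
  obtain ⟨L₁, hL₁, hL₁ρ⟩ := ρ.residual.factorsThroughFiniteLevel
  haveI := hL₁
  haveI := S41NE_field_finiteDimensional W hΔ hp hp2 ζ
  haveI : FiniteDimensional ℚ (S41NE_field W p ζ ⊔ L₁ : IntermediateField ℚ ℚbar) :=
    IntermediateField.finiteDimensional_sup _ _
  obtain ⟨ℓ, σ, m, m', hℓ, hℓT', ⟨A, hA, hσ⟩, hgσ, -⟩ :=
    S41NE_fde g (S41NE_field W p ζ ⊔ L₁) (T ∪ W.Δ.natAbs.primeFactors ∪ {p})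
  have hℓT : ℓ ∉ T := fun h => hℓT' (by simp [h])
  have hgood : ¬ (ℓ : ℤ) ∣ W.Δ := by
    intro h
    apply hℓT'
    have h1 : ℓ ∣ W.Δ.natAbs := Int.natCast_dvd.1 h
    have h2 : ℓ ∈ W.Δ.natAbs.primeFactors :=
      Nat.mem_primeFactors.2 ⟨hℓ, h1, Int.natAbs_ne_zero.2 hΔ⟩
    simp [h2]
  have hℓp : ℓ ≠ p := fun h => hℓT' (by simp [h])
  have hℓp' : ¬ ℓ ∣ p := fun h => hℓp ((Nat.prime_dvd_prime_iff_eq hℓ hp).1 h)
  have hgσ1 : ∀ x ∈ L₁, g x = (σ ^ m) x := fun x hx =>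
    hgσ x ((le_sup_right : L₁ ≤ S41NE_field W p ζ ⊔ L₁) hx)
  have hgσ2 : ∀ x ∈ S41NE_field W p ζ, g x = (σ ^ m) x := fun x hx =>
    hgσ x ((le_sup_left : S41NE_field W p ζ ≤ S41NE_field W p ζ ⊔ L₁) hx)
  refine ⟨LUC_V (W.apOfModel ℓ) (ℓ : ℤ) m, ℓ ^ m, ?_, ?_, ?_⟩
  · -- the residual characteristic polynomial
    have hg : ρ.residual.ρ g = (ρ.residual.ρ σ) ^ m := by
      have h1 : ρ.residual.ρ ((σ ^ m)⁻¹ * g) = 1 := by
        refine hL₁ρ _ (fun x hx => ?_)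
        rw [AlgEquiv.mul_apply, hgσ1 x hx, ← AlgEquiv.mul_apply, inv_mul_cancel,
          AlgEquiv.one_apply]
      have h2 : g = σ ^ m * ((σ ^ m)⁻¹ * g) := by group
      rw [← map_pow]
      conv_lhs => rw [h2]
      rw [map_mul, h1, mul_one]
    have hσc := hAtt ℓ hℓ hℓT A hA σ hσ
    have h2 := S58ER_charpoly_residual ρ σ _ _ hσc
    have h3 := S58ER_charpoly_pow ρ.residual.finrank_eq (ρ.residual.ρ σ) _ _ h2 m
    rw [hg, h3]
    have hV : LUC_V (algebraMap O (IsLocalRing.ResidueField O) ((W.apOfModel ℓ : ℤ) : O))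
        (algebraMap O (IsLocalRing.ResidueField O) ((ℓ : ℕ) : O)) m =
        ((LUC_V (W.apOfModel ℓ) (ℓ : ℤ) m : ℤ) : IsLocalRing.ResidueField O) := by
      have := LUC_V_map (Int.castRingHom (IsLocalRing.ResidueField O)) (W.apOfModel ℓ) (ℓ : ℤ) m
      rw [map_intCast, map_natCast]
      simpa using this.symm
    rw [hV, map_natCast, Nat.cast_pow]
  · -- the relation on `W[p]`
    intro P hP
    have hρ := S41NE_rho_eq_of_agree W p ζ g (σ ^ m) hgσ2
    have hgP : ∀ Q : (W.baseChange ℚbar).toAffine.Point, p • Q = 0 → g • Q = (σ ^ m) • Q := by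
      intro Q hQ
      exact congrArg (fun f : Equiv.Perm (S41NE_X W p) => (f (S41NE_X.mk' Q hQ)).pt) hρ
    have hgP1 : p • (g • P) = 0 := by rw [← S41NE_gsmul_nsmul, hP, S41NE_gsmul_zero]
    have hrel := S58ER_rel_pow W A hℓ hA hgood hℓp' σ hσ m P hP
    rw [hgP _ hgP1, hgP P hP, Nat.cast_pow]
    exact hrel
  · -- roots of unity
    intro ζ' hζ'
    obtain ⟨j, -, rfl⟩ := hζ.eq_pow_of_pow_eq_one hζ'
    rw [map_pow, hgσ2 ζ (S41NE_zeta_mem_field W p ζ), S58ER_zeta_pow hζ hp.pos hℓ hℓp' A hA σ hσ m,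
      ← pow_mul, ← pow_mul, mul_comm]

end Fermat.Agent.S58
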