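import Fermat.Agent.S41.NEAct
import Fermat.Agent.S41.NEFde

/-!
# TRACK 12 (S58), package FIN = (W4) (helper3): `W[m](ℚ̄)` is finite and `G_ℚ` acts on it through a
finite extension — for EVERY `m ≠ 0`.  Prefix `S58FIN_`.

`W : WeierstrassCurve ℤ`, `Δ ≠ 0`, points `(W.baseChange ℚ̄).toAffine.Point` with the Galois action
`σ • P` of `S41/NERed.lean`; `S41NE_X W m`, `S41NE_rho W m`, `S41NE_field W m ζ` of `S41/NEAct.lean`
(defined there for every `m : ℕ`; only their finiteness was proved for odd primes).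

* `S58FIN_card_X`   : `#W[m] = m²`;  `S58FIN_finite_X`, `S58FIN_finite_set`;
* `S58FIN_field_fd` : `S41NE_field W m ζ` is finite-dimensional over `ℚ`;
* `S58FIN_smul_eq_of_agree`, `S58FIN_zeta_eq_of_agree` : automorphisms agreeing on
  `S41NE_field W m ζ` agree on every point killed by `m` and at `ζ`;
* `S58FIN_exists_field` : ONE finite extension `K ⊇ L` controlling `W[m]` and a finite set of
  constants;
* **`S58FIN_fde`** : (FDE) on `W[m]`: every `g ∈ G_ℚ` agrees on `L`, at the constants `cs` and on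
  `W[m]` with a power `σ^n` of a Frobenius at a prime `ℓ ∉ T` (and `σ` with a power of `g`);
* `S58FIN_isOpen` : the pointwise stabiliser of `W[m]` is open (`GR_IsOpen`), normal;
* `S58FIN_exists_order` : a point of exact order `λ^n` (`λ` prime): `λ^n • P = 0`,
  `λ^(n-1) • P ≠ 0`.
-/

set_option autoImplicit false
set_option linter.unusedSectionVars false
set_option linter.unusedVariables false
set_option linter.style.haveILetI false

namespace Fermat.Agent.S58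

open WeierstrassCurve Fermat.Agent.Lib Fermat.Agent.GalRep Fermat.Agent.S41 Fermat.Agent.S31

local notation "ℚbar" => AlgebraicClosure ℚ

variable (W : WeierstrassCurve ℤ)

/-! ### finiteness -/

/-- `#W[m](ℚ̄) = m²` for every `m ≠ 0`. -/
theorem S58FIN_card_X (hΔ : W.Δ ≠ 0) {m : ℕ} (hm : m ≠ 0) :
    Nat.card (S41NE_X W m) = m ^ 2 := by
  have hmF : ((m : ℤ) : ℚbar) ≠ 0 := by
    exact_mod_cast hm
  have h := (S41NC_zsmul_kd (W.baseChange ℚbar) (S41NE_baseChange_Δ_ne_zero W hΔ) (m : ℤ) hmF).1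
  rw [Int.natAbs_natCast] at h
  rw [← h]
  refine Nat.card_congr (Equiv.subtypeEquivRight fun Q => ?_)
  rw [AddMonoidHom.mem_ker]
  show m • Q = 0 ↔ (m : ℤ) • Q = 0
  rw [natCast_zsmul]

theorem S58FIN_finite_X (hΔ : W.Δ ≠ 0) {m : ℕ} (hm : m ≠ 0) : Finite (S41NE_X W m) :=
  Nat.finite_of_card_ne_zero (by rw [S58FIN_card_X W hΔ hm]; exact pow_ne_zero 2 hm)

/-- the set of the points killed by `m` is finite. -/
theorem S58FIN_finite_set (hΔ : W.Δ ≠ 0) {m : ℕ} (hm : m ≠ 0) :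
    {P : (W.baseChange ℚbar).toAffine.Point | m • P = 0}.Finite := by
  exact Set.finite_coe_iff.mp (S58FIN_finite_X W hΔ hm)

/-- multiplication by `m ≠ 0` is onto `W(ℚ̄)`. -/
theorem S58FIN_nsmul_surjective (hΔ : W.Δ ≠ 0) {m : ℕ} (hm : m ≠ 0)
    (Q : (W.baseChange ℚbar).toAffine.Point) :
    ∃ P : (W.baseChange ℚbar).toAffine.Point, m • P = Q :=
  S41NC_nsmul_surjective (W.baseChange ℚbar) (S41NE_baseChange_Δ_ne_zero W hΔ)
    (by exact_mod_cast hm) Q

/-- **a point of exact order `λ^n`**. -/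
theorem S58FIN_exists_order (hΔ : W.Δ ≠ 0) {l : ℕ} (hl : l.Prime) (n : ℕ) (hn : 0 < n) :
    ∃ P : (W.baseChange ℚbar).toAffine.Point, l ^ n • P = 0 ∧ l ^ (n - 1) • P ≠ 0 := by
  -- a point `P₁ ≠ 0` killed by `l`, then divide by `l^(n-1)`
  have hcard := S58FIN_card_X W hΔ hl.ne_zero
  haveI := S58FIN_finite_X W hΔ hl.ne_zero
  have h1 : 1 < Nat.card (S41NE_X W l) := by
    rw [hcard]
    exact Nat.one_lt_pow (by norm_num) hl.one_lt
  haveI : Nontrivial (S41NE_X W l) := (Finite.one_lt_card_iff_nontrivial).1 h1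
  obtain ⟨P₁, hP₁⟩ := exists_ne (S41NE_X.mk' (W := W) (p := l) 0 (nsmul_zero _))
  have hP₁0 : P₁.pt ≠ 0 := fun h0 => hP₁ (S41NE_X.ext h0)
  obtain ⟨P, hP⟩ := S58FIN_nsmul_surjective W hΔ (pow_ne_zero (n - 1) hl.ne_zero) P₁.pt
  refine ⟨P, ?_, by rw [hP]; exact hP₁0⟩
  obtain ⟨k, rfl⟩ : ∃ k, n = k + 1 := ⟨n - 1, by omega⟩
  rw [pow_succ', mul_smul]
  simp only [Nat.add_sub_cancel] at hP
  rw [hP]
  exact P₁.pt_spec

/-! ### the field of definition -/

/-- `S41NE_field W m ζ` is a finite extension of `ℚ` for every `m ≠ 0`. -/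
theorem S58FIN_field_fd (hΔ : W.Δ ≠ 0) {m : ℕ} (hm : m ≠ 0) (ζ : ℚbar) :
    FiniteDimensional ℚ (S41NE_field W m ζ) := by
  haveI := S58FIN_finite_X W hΔ hm
  have hfin : (S41NE_gens W m ζ).Finite :=
    (Set.finite_iUnion fun P => S41NE_coords_finite W _).union (Set.finite_singleton ζ)
  haveI : Finite (S41NE_gens W m ζ) := hfin.to_subtype
  exact IntermediateField.finiteDimensional_adjoin
    (fun x _ => (AlgebraicClosure.isAlgebraic ℚ).isIntegral.isIntegral x)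

/-- automorphisms agreeing on `S41NE_field W m ζ` agree on every point killed by `m`. -/
theorem S58FIN_smul_eq_of_agree (m : ℕ) (ζ : ℚbar) (g g' : GQ)
    (h : ∀ x ∈ S41NE_field W m ζ, g x = g' x)
    {P : (W.baseChange ℚbar).toAffine.Point} (hP : m • P = 0) : g • P = g' • P := by
  have h1 := S41NE_rho_eq_of_agree W m ζ g g' h
  have h2 := congrArg (fun f : Equiv.Perm (S41NE_X W m) => (f (S41NE_X.mk' P hP)).pt) h1
  simpa only [S41NE_rho_apply_pt, S41NE_X.pt_mk'] using h2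

theorem S58FIN_zeta_eq_of_agree (m : ℕ) (ζ : ℚbar) (g g' : GQ)
    (h : ∀ x ∈ S41NE_field W m ζ, g x = g' x) : g ζ = g' ζ :=
  h ζ (S41NE_zeta_mem_field W m ζ)

/-- **ONE finite extension** `K ⊇ L` containing the finite set `cs` of constants and controlling
the action on `W[m]`. -/
theorem S58FIN_exists_field (hΔ : W.Δ ≠ 0) {m : ℕ} (hm : m ≠ 0)
    (L : IntermediateField ℚ ℚbar) [FiniteDimensional ℚ L] (cs : Finset ℚbar) :
    ∃ K : IntermediateField ℚ ℚbar, FiniteDimensional ℚ K ∧ L ≤ K ∧ (∀ c ∈ cs, c ∈ K) ∧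
      ∀ g g' : GQ, (∀ x ∈ K, g x = g' x) →
        ∀ P : (W.baseChange ℚbar).toAffine.Point, m • P = 0 → g • P = g' • P := by
  haveI h1 := S58FIN_field_fd W hΔ hm (1 : ℚbar)
  haveI h2 : FiniteDimensional ℚ (IntermediateField.adjoin ℚ (cs : Set ℚbar)) :=
    IntermediateField.finiteDimensional_adjoin
      (fun x _ => (AlgebraicClosure.isAlgebraic ℚ).isIntegral.isIntegral x)
  refine ⟨L ⊔ S41NE_field W m 1 ⊔ IntermediateField.adjoin ℚ (cs : Set ℚbar), ?_, ?_, ?_, ?_⟩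
  · haveI : FiniteDimensional ℚ ↥(L ⊔ S41NE_field W m 1) :=
      IntermediateField.finiteDimensional_sup _ _
    exact IntermediateField.finiteDimensional_sup _ _
  · exact le_trans le_sup_left le_sup_left
  · intro c hc
    exact (le_sup_right : IntermediateField.adjoin ℚ (cs : Set ℚbar) ≤ _)
      (IntermediateField.subset_adjoin ℚ _ hc)
  · intro g g' h P hP
    exact S58FIN_smul_eq_of_agree W m 1 g g'
      (fun x hx => h x ((le_trans le_sup_right le_sup_left :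
        S41NE_field W m 1 ≤ L ⊔ S41NE_field W m 1 ⊔ IntermediateField.adjoin ℚ (cs : Set ℚbar)) hx)) hP

/-! ### (FDE) on `W[m]` -/

/-- **(FDE) on `W[m]`**: every `g ∈ G_ℚ` agrees on a given finite extension `L`, on a finite set
`cs` of constants and on `W[m]` with a power `σ^n` of a Frobenius `σ` at a prime `ℓ ∉ T`;
moreover `σ` agrees there with a power of `g`. -/
theorem S58FIN_fde (hΔ : W.Δ ≠ 0) {m : ℕ} (hm : m ≠ 0)
    (L : IntermediateField ℚ ℚbar) [FiniteDimensional ℚ L] (cs : Finset ℚbar)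
    (g : GQ) (T : Finset ℕ) :
    ∃ (ℓ : ℕ) (σ : GQ) (n n' : ℕ), ℓ.Prime ∧ ℓ ∉ T ∧ GR_IsFrob ℓ σ ∧
      (∀ x ∈ L, g x = (σ ^ n) x) ∧ (∀ c ∈ cs, g c = (σ ^ n) c) ∧
      (∀ P : (W.baseChange ℚbar).toAffine.Point, m • P = 0 → g • P = (σ ^ n) • P) ∧
      (∀ x ∈ L, σ x = (g ^ n') x) ∧ (∀ c ∈ cs, σ c = (g ^ n') c) ∧
      (∀ P : (W.baseChange ℚbar).toAffine.Point, m • P = 0 → σ • P = (g ^ n') • P) := by
  obtain ⟨K, hK, hLK, hcs, hact⟩ := S58FIN_exists_field W hΔ hm L cs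
  haveI := hK
  obtain ⟨ℓ, σ, n, n', hℓ, hℓT, hσ, h1, h2⟩ := S41NE_fde g K T
  exact ⟨ℓ, σ, n, n', hℓ, hℓT, hσ, fun x hx => h1 x (hLK hx), fun c hc => h1 c (hcs c hc),
    fun P hP => hact g (σ ^ n) h1 P hP, fun x hx => h2 x (hLK hx), fun c hc => h2 c (hcs c hc),
    fun P hP => hact σ (g ^ n') h2 P hP⟩

/-! ### the stabiliser of `W[m]` -/

/-- the pointwise stabiliser of `W[m](ℚ̄)` in `G_ℚ`. -/
def S58FIN_stab (m : ℕ) : Subgroup GQ where
  carrier := {g | ∀ P : (W.baseChange ℚbar).toAffine.Point, m • P = 0 → g • P = P}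
  one_mem' := fun P _ => S41NE_gsmul_one W P
  mul_mem' := by
    intro a b ha hb P hP
    rw [S41NE_gsmul_mul, hb P hP, ha P hP]
  inv_mem' := by
    intro a ha P hP
    have h1 : (a⁻¹ * a) • P = a⁻¹ • P := by
      rw [S41NE_gsmul_mul, ha P hP]
    rw [← h1, inv_mul_cancel, S41NE_gsmul_one]

theorem S58FIN_mem_stab {m : ℕ} {g : GQ} :
    g ∈ S58FIN_stab W m ↔
      ∀ P : (W.baseChange ℚbar).toAffine.Point, m • P = 0 → g • P = P := Iff.rfl

/-- the stabiliser of `W[m]` is open. -/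
theorem S58FIN_isOpen (hΔ : W.Δ ≠ 0) {m : ℕ} (hm : m ≠ 0) : GR_IsOpen (S58FIN_stab W m) := by
  refine ⟨S41NE_field W m 1, S58FIN_field_fd W hΔ hm 1, fun σ hσ P hP => ?_⟩
  have := S58FIN_smul_eq_of_agree W m 1 σ 1 (fun x hx => by rw [hσ x hx]; rfl) hP
  rw [this, S41NE_gsmul_one]

/-- the stabiliser of `W[m]` is normal. -/
theorem S58FIN_stab_normal (m : ℕ) : (S58FIN_stab W m).Normal := by
  refine ⟨fun n hn g P hP => ?_⟩
  have hP' : m • (g⁻¹ • P) = 0 := by
    rw [← S41NE_gsmul_nsmul, hP, S41NE_gsmul_zero]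
  rw [S41NE_gsmul_mul, S41NE_gsmul_mul, hn _ hP', ← S41NE_gsmul_mul, mul_inv_cancel,
    S41NE_gsmul_one]

end Fermat.Agent.S58
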