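import Mathlib
import Fermat.Prelude.Def_CuspForm_Newforms
import Fermat.Prelude.Def_FLTPrelim_Modularity

/-!
# S58 (conductor–level matching), package A (helper13): the newform of an eigensystem

Prefix `S58A_`.  Pure logic on the Prelude's definitions (`GoodEigensystemOccursAt`, `IsNewform`).

* `S58A_exists_newform` : for a normalised eigenform `f` of level `N ≠ 0` there are a divisor
  `M₀ ∣ N` and a form `g₀` of level `M₀` which is a NEWFORM in the Prelude's sense and has the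
  same `q`-coefficients as `f` at all primes `ℓ ∤ N`.  (`M₀` is the least divisor of `N` at which
  the good eigensystem of `f` occurs; no Atkin–Lehner theory.)
* `S58A_occurs_mono` : transitivity of "occurs at" along divisors.
* `S58A_ne_zero` : a level without cubes of primes is not `0`.
* `S58A_newform_of_modular` : the same for a modular model `W` of level `N`: a newform `g₀` of
  level `M₀ ∣ N` with `a_ℓ(g₀) = a_ℓ(W)` at all good primes `ℓ ∤ N`.
-/

set_option autoImplicit false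

open ModularFormClass

namespace Fermat.Agent.S58

open CuspForm

/-- if the good eigensystem of `g` (level `M ∣ N`, agreeing with `f` off `N`) occurs at `M'`,
then the good eigensystem of `f` occurs at `M'`. -/
theorem S58A_occurs_mono {N M : ℕ} (hMN : M ∣ N)
    (f : CuspForm (CongruenceSubgroup.Gamma0 N) 2)
    (g : CuspForm (CongruenceSubgroup.Gamma0 M) 2)
    (hg : ∀ ℓ : ℕ, ℓ.Prime → ¬ ℓ ∣ N → qCoeff g ℓ = qCoeff f ℓ)
    {M' : ℕ} (h : GoodEigensystemOccursAt g M') : GoodEigensystemOccursAt f M' := by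
  obtain ⟨h', hh', hco⟩ := h
  refine ⟨h', hh', fun ℓ hℓ hℓN => ?_⟩
  have hℓM : ¬ ℓ ∣ M := fun hd => hℓN (hd.trans hMN)
  rw [hco ℓ hℓ hℓM, hg ℓ hℓ hℓN]

/-- **package A**: the newform attached to the good eigensystem of a normalised eigenform. -/
theorem S58A_exists_newform {N : ℕ} (hN : N ≠ 0)
    (f : CuspForm (CongruenceSubgroup.Gamma0 N) 2) (hf : f.IsNormalizedEigenform) :
    ∃ (M₀ : ℕ) (_ : M₀ ∣ N) (g₀ : CuspForm (CongruenceSubgroup.Gamma0 M₀) 2),
      g₀.IsNewform ∧ ∀ ℓ : ℕ, ℓ.Prime → ¬ ℓ ∣ N → qCoeff g₀ ℓ = qCoeff f ℓ := by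
  classical
  have hex : ∃ M : ℕ, M ∣ N ∧ GoodEigensystemOccursAt f M :=
    ⟨N, dvd_rfl, GoodEigensystemOccursAt.refl hf⟩
  obtain ⟨hM₀N, g₀, hg₀, hco⟩ := Nat.find_spec hex
  refine ⟨Nat.find hex, hM₀N, g₀, ⟨hg₀, fun M' hM' hne hocc => ?_⟩, hco⟩
  have hM₀0 : Nat.find hex ≠ 0 := fun h0 => hN (Nat.eq_zero_of_zero_dvd (h0 ▸ hM₀N))
  have hlt : M' < Nat.find hex :=
    lt_of_le_of_ne (Nat.le_of_dvd (Nat.pos_of_ne_zero hM₀0) hM') hne
  exact Nat.find_min hex hlt ⟨hM'.trans hM₀N, S58A_occurs_mono hM₀N f g₀ hco hocc⟩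

/-- a level that is not divisible by the cube of any prime is not `0`. -/
theorem S58A_ne_zero {N : ℕ} (hN3 : ∀ q : ℕ, q.Prime → ¬ q ^ 3 ∣ N) : N ≠ 0 := by
  rintro rfl
  exact hN3 2 Nat.prime_two (dvd_zero _)

/-- **package A for a modular model**: the newform `g₀` of level `M₀ ∣ N` attached to a modular
model `W` of level `N`; it has the coefficients of `W` at all good primes `ℓ ∤ N`. -/
theorem S58A_newform_of_modular (W : WeierstrassCurve ℤ) {N : ℕ} (hN : N ≠ 0)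
    (hW : W.IsModularModelOfLevel N) :
    ∃ (M₀ : ℕ) (_ : M₀ ∣ N) (g₀ : CuspForm (CongruenceSubgroup.Gamma0 M₀) 2),
      g₀.IsNewform ∧ ∀ ℓ : ℕ, ℓ.Prime → W.IsGoodPrimeFor ℓ → ¬ ℓ ∣ N →
        qCoeff g₀ ℓ = (W.apOfModel ℓ : ℂ) := by
  obtain ⟨f, hf, hfW⟩ := hW
  obtain ⟨M₀, hM₀, g₀, hg₀, hco⟩ := S58A_exists_newform hN f hf
  exact ⟨M₀, hM₀, g₀, hg₀, fun ℓ hℓ hgood hℓN => (hco ℓ hℓ hℓN).trans (hfW ℓ hℓ hgood hℓN)⟩

end Fermat.Agent.S58
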