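import Mathlib
import Fermat.Agent.S41.Dict
import Fermat.Agent.S41.DegPoly
import Fermat.Agent.S41.DegId
import Fermat.Agent.GalRep.DimExt
import Fermat.Agent.GalRep.DimAsm

/-!
# S58 (conductor–level matching), package G = STABILISE UP (helper19).  Prefix `S58G_`.

The Prelude's `IsNormalizedEigenform` at level `N` asks for `a_{p^(r+2)} = a_p a_{p^(r+1)}` at the
primes `p ∣ N`, so an eigenform of level `N₀ ∣ R` has to be `q`-stabilised at the primes
`q ∣ R / N₀` to become an eigenform of level `R`.  We do it on the Hecke side (no operator `B_q`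
on forms is needed): the degeneracy map `α : parInt N → parInt (N q)` is injective and equivariant
for the Hecke polynomials away from `q` (`S41D_hα`, `S41D_trA_alpha`), hence the eigencharacter of
`f` away from `q` factors through the Hecke algebra away from `q` of level `N q`; going-up
(`GRD6_exists_lift`) extends it to the full Hecke algebra of level `N q`, and the dictionary
(`GRD_exists_eigenform`, `S41F_isNormalizedEigenform`) gives the form.

* `S58G_transfer` : a character away from `q` which kills the Hecke polynomials away from `q`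
  acting as zero on `parInt M'` is the eigencharacter away from `q` of a normalised eigenform of
  level `M'` (the proof of `S35A_exists_lower`, for any pair of levels);
* `S58G_alpha_injective` : `α` is injective;
* **`S58G_raise`** : `f` normalised eigenform of level `N`, `q ∤ N` prime `⇒` a normalised
  eigenform `g` of level `N q` with `a_ℓ(g) = a_ℓ(f)` for all primes `ℓ ≠ q`;
* **`S58G_stab`** : `N₀ ∣ R`, `R` squarefree `⇒` a normalised eigenform `g` of level `R` with
  `a_ℓ(g) = a_ℓ(f)` for all primes `ℓ ∤ R`.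
-/

set_option autoImplicit false
set_option linter.style.haveILetI false
set_option linter.unusedSectionVars false
set_option linter.unusedVariables false
set_option maxHeartbeats 1000000

open scoped TensorProduct
open CuspForm ModularCurve CongruenceSubgroup ModularFormClass ModularCurve.Period

namespace Fermat.Agent.S58

open Fermat.Agent.S16 Fermat.Agent.GalRep Fermat.Agent.S41

section transfer

variable (M M' q : ℕ) [NeZero M] [NeZero M']

/-- **transfer of an eigensystem away from `q`** to the level `M'`. -/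
theorem S58G_transfer (g : CuspForm (Gamma0 M) 2)
    (hker : ∀ t : S41D_R q, GRD_heckeL M' (S41D_incR q t) = 0 →
      S41F_charC g (S41D_incR q t) = 0) :
    ∃ g' : CuspForm (Gamma0 M') 2, g'.IsNormalizedEigenform ∧
      ∀ ℓ : Nat.Primes, (ℓ : ℕ) ≠ q → qCoeff g' (ℓ : ℕ) = qCoeff g (ℓ : ℕ) := by
  haveI := finite_parInt M'
  haveI := free_parInt M'
  haveI : Module.Finite ℤ (HeckeAlg ⧸ RingHom.ker (GRD_heckeL M')) :=
    S41F_finite_quot (GRD_heckeL M')
  -- the action away from `q`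
  let ρq : S41D_R q →+* Module.End ℤ ↥(parInt M') := (GRD_heckeL M').comp (S41D_incR q)
  have hle : RingHom.ker ρq ≤ (RingHom.ker (GRD_heckeL M')).comap (S41D_incR q) :=
    fun t ht => ht
  let ι : (S41D_R q ⧸ RingHom.ker ρq) →+* (HeckeAlg ⧸ RingHom.ker (GRD_heckeL M')) :=
    Ideal.quotientMap (RingHom.ker (GRD_heckeL M')) (S41D_incR q) hle
  have hι : Function.Injective ι := Ideal.quotientMap_injective' (fun t ht => ht)
  have hint : ι.IsIntegral := by
    intro b
    obtain ⟨p, hp, hpb⟩ := (IsIntegral.of_finite ℤ b : IsIntegral ℤ b)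
    refine ⟨p.map (Int.castRingHom _), hp.map _, ?_⟩
    rw [Polynomial.eval₂_map]
    have hcomp : ι.comp (Int.castRingHom (S41D_R q ⧸ RingHom.ker ρq)) =
        algebraMap ℤ (HeckeAlg ⧸ RingHom.ker (GRD_heckeL M')) := RingHom.ext_int _ _
    rw [hcomp]
    exact hpb
  let χA : (S41D_R q ⧸ RingHom.ker ρq) →+* ℂ :=
    Ideal.Quotient.lift (RingHom.ker ρq) ((S41F_charC g).comp (S41D_incR q))
      (fun t ht => hker t ht)
  obtain ⟨K'', hF, hA, hfd, χ', hχ'⟩ := GRD6_exists_lift ι hι hint χA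
  letI := hF
  letI := hA
  haveI := hfd
  haveI : Algebra.IsIntegral ℂ K'' := Algebra.IsIntegral.of_finite ℂ K''
  have hbij : Function.Bijective (algebraMap ℂ K'') :=
    IsAlgClosed.algebraMap_bijective_of_isIntegral
  let e : ℂ ≃+* K'' := RingEquiv.ofBijective (algebraMap ℂ K'') hbij
  let lam : HeckeAlg →+* ℂ :=
    (e.symm : K'' →+* ℂ).comp (χ'.comp (Ideal.Quotient.mk (RingHom.ker (GRD_heckeL M'))))
  have hlam0 : ∀ P : HeckeAlg, heckeEvalForms M' 2 P = 0 → lam P = 0 := by
    intro P hP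
    have h1 : GRD_heckeL M' P = 0 := (S41F_heckeL_eq_zero_iff M' P).mpr hP
    have h2 : Ideal.Quotient.mk (RingHom.ker (GRD_heckeL M')) P = 0 :=
      Ideal.Quotient.eq_zero_iff_mem.mpr h1
    show e.symm (χ' (Ideal.Quotient.mk (RingHom.ker (GRD_heckeL M')) P)) = 0
    rw [h2, map_zero, map_zero]
  have hlam1 : ∀ t : S41D_R q, lam (S41D_incR q t) = S41F_charC g (S41D_incR q t) := by
    intro t
    show e.symm (χ' (Ideal.Quotient.mk (RingHom.ker (GRD_heckeL M')) (S41D_incR q t))) = _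
    have h1 : Ideal.Quotient.mk (RingHom.ker (GRD_heckeL M')) (S41D_incR q t)
        = ι (Ideal.Quotient.mk (RingHom.ker ρq) t) := rfl
    rw [h1, hχ', RingEquiv.symm_apply_eq]
    rfl
  obtain ⟨g', hg', hg'1⟩ := GRD_exists_eigenform M' lam hlam0
  obtain ⟨hnorm, hcoef⟩ := S41F_isNormalizedEigenform lam hg' hg'1
  refine ⟨g', hnorm, fun ℓ hℓ => ?_⟩
  rw [hcoef ℓ, ← S41D_incR_X q ⟨ℓ, hℓ⟩, hlam1, S41D_incR_X, S41F_charC_heckeGen]

end transfer

section raise

variable (N q : ℕ) [NeZero N] [NeZero (N * q)] [Fact q.Prime]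

/-- the degeneracy map `α : parInt N → parInt (N q)` is injective. -/
theorem S58G_alpha_injective (hqN : ¬ q ∣ N) : Function.Injective (S41D_alpha N q) := by
  haveI := free_parInt N
  rw [injective_iff_map_eq_zero]
  intro χ hχ
  have h := S41D_trA_alpha N q hqN χ
  rw [hχ, map_zero] at h
  have hq : ((q : ℤ) + 1) ≠ 0 := by positivity
  exact (smul_eq_zero.mp h.symm).resolve_left hq

/-- **raising the level by a prime `q ∤ N`.** -/
theorem S58G_raise (hqN : ¬ q ∣ N) {f : CuspForm (Gamma0 N) 2} (hf : f.IsNormalizedEigenform) :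
    ∃ g : CuspForm (Gamma0 (N * q)) 2, g.IsNormalizedEigenform ∧
      ∀ ℓ : Nat.Primes, (ℓ : ℕ) ≠ q → qCoeff g (ℓ : ℕ) = qCoeff f (ℓ : ℕ) := by
  refine S58G_transfer N (N * q) q f (fun t ht => ?_)
  have h0 : S41D_rho' N q t = 0 := ht
  have h1 : S41D_rho N q t = 0 := by
    refine LinearMap.ext fun χ => ?_
    apply S58G_alpha_injective N q hqN
    have h2 := congrArg (fun g : ↥(parInt N) →ₗ[ℤ] ↥(parInt (N * q)) => g χ) (S41D_hα N q t)
    simp only [LinearMap.comp_apply] at h2
    rw [h2, h0]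
    simp
  exact S41F_charC_eq_zero hf (S41D_incR q t) h1

end raise

section stab

/-- transport along an equality of levels. -/
theorem S58G_cast {M M' : ℕ} (h : M = M') {f : CuspForm (Gamma0 M) 2}
    (hf : f.IsNormalizedEigenform) :
    ∃ g : CuspForm (Gamma0 M') 2, g.IsNormalizedEigenform ∧ ∀ n : ℕ, qCoeff g n = qCoeff f n := by
  subst h
  exact ⟨f, hf, fun _ => rfl⟩

/-- **stabilising up**, by induction on the number of primes to be added. -/
theorem S58G_stab_aux (k : ℕ) : ∀ (N₀ m : ℕ) [NeZero N₀], m ≠ 0 → Squarefree (N₀ * m) →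
    m.primeFactors.card = k →
    ∀ {f : CuspForm (Gamma0 N₀) 2}, f.IsNormalizedEigenform →
    ∃ g : CuspForm (Gamma0 (N₀ * m)) 2, g.IsNormalizedEigenform ∧
      ∀ ℓ : ℕ, ℓ.Prime → ¬ ℓ ∣ N₀ * m → qCoeff g ℓ = qCoeff f ℓ := by
  induction k with
  | zero =>
    intro N₀ m _ hm0 hR hk f hf
    rw [Finset.card_eq_zero, Nat.primeFactors_eq_empty] at hk
    have hm : m = 1 := hk.resolve_left hm0
    obtain ⟨g, hg, hc⟩ := S58G_cast (M := N₀) (M' := N₀ * m) (by rw [hm, mul_one]) hf
    exact ⟨g, hg, fun ℓ _ _ => hc ℓ⟩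
  | succ k ih =>
    intro N₀ m _ hm0 hR hk f hf
    have hN₀ : N₀ ≠ 0 := NeZero.ne N₀
    have hne : m.primeFactors.Nonempty := by
      rw [← Finset.card_pos, hk]
      exact Nat.succ_pos k
    obtain ⟨q, hq⟩ := hne
    have hqp : q.Prime := Nat.prime_of_mem_primeFactors hq
    have hqm : q ∣ m := Nat.dvd_of_mem_primeFactors hq
    obtain ⟨m', rfl⟩ := hqm
    haveI : Fact q.Prime := ⟨hqp⟩
    have hm'0 : m' ≠ 0 := fun h => hm0 (by rw [h, mul_zero])
    have hRR : N₀ * (q * m') = (N₀ * m') * q := by ring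
    have hsq : Squarefree ((N₀ * m') * q) := hRR ▸ hR
    have hR' : Squarefree (N₀ * m') := hsq.of_mul_left
    have hqR' : ¬ q ∣ N₀ * m' := by
      intro hd
      obtain ⟨c, hc⟩ := hd
      have : q * q ∣ (N₀ * m') * q := ⟨c, by rw [hc]; ring⟩
      exact hqp.not_isUnit (hsq q this)
    have hqm' : ¬ q ∣ m' := fun h => hqR' (Dvd.dvd.mul_left h N₀)
    have hk' : m'.primeFactors.card = k := by
      have h1 : (q * m').primeFactors = insert q m'.primeFactors := by
        rw [Nat.primeFactors_mul hqp.ne_zero hm'0, Nat.Prime.primeFactors hqp]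
        rfl
      rw [h1, Finset.card_insert_of_notMem
        (fun h => hqm' (Nat.dvd_of_mem_primeFactors h))] at hk
      exact Nat.succ_injective hk
    obtain ⟨g', hg', hcoef'⟩ := ih N₀ m' hm'0 hR' hk' hf
    haveI : NeZero (N₀ * m') := ⟨Nat.mul_ne_zero hN₀ hm'0⟩
    haveI : NeZero ((N₀ * m') * q) := ⟨Nat.mul_ne_zero (Nat.mul_ne_zero hN₀ hm'0) hqp.ne_zero⟩
    obtain ⟨g'', hg'', hcoef''⟩ := S58G_raise (N₀ * m') q hqR' hg'
    obtain ⟨g, hg, hc⟩ := S58G_cast (M := (N₀ * m') * q) (M' := N₀ * (q * m')) hRR.symm hg''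
    refine ⟨g, hg, fun ℓ hℓ hℓR => ?_⟩
    have hℓq : ℓ ≠ q := by
      rintro rfl
      exact hℓR (Dvd.dvd.mul_left (Dvd.intro m' rfl) N₀)
    have hℓR' : ¬ ℓ ∣ N₀ * m' := by
      intro hd
      apply hℓR
      rw [hRR]
      exact Dvd.dvd.mul_right hd q
    rw [hc ℓ, hcoef'' ⟨ℓ, hℓ⟩ hℓq, hcoef' ℓ hℓ hℓR']

/-- **STABILISE UP**: a normalised eigenform of level `N₀ ∣ R`, `R` squarefree, has the same
eigenvalues at the primes `ℓ ∤ R` as a normalised eigenform of level `R`. -/
theorem S58G_stab (N₀ R : ℕ) [NeZero N₀] [NeZero R] (hR : Squarefree R) (hdvd : N₀ ∣ R)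
    {f : CuspForm (Gamma0 N₀) 2} (hf : f.IsNormalizedEigenform) :
    ∃ g : CuspForm (Gamma0 R) 2, g.IsNormalizedEigenform ∧
      ∀ ℓ : ℕ, ℓ.Prime → ¬ ℓ ∣ R → qCoeff g ℓ = qCoeff f ℓ := by
  obtain ⟨m, rfl⟩ := hdvd
  have hm0 : m ≠ 0 := fun h => (NeZero.ne (N₀ * m)) (by rw [h, mul_zero])
  exact S58G_stab_aux _ N₀ m hm0 hR rfl hf

end stab

end Fermat.Agent.S58
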