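import Mathlib
import Fermat.Prelude.Def_WeierstrassCurve_ConductorLevel
import Fermat.Prelude.Def_FLTPrelim_ModularRep
import Fermat.Agent.S58.Newform

/-!
# S58 (conductor–level matching), TOP WIRE (helper13)

Prefix `S58W_`.  `S58W_main` proves the statement of S58 (verbatim conclusion
`W.IsModularModelOfLevel W.conductorLevel`) from package A (`S58A_newform_of_modular`, landed)
and three NAMED HOLES, each a `Prop` about the newform `g₀` of level `M₀ ∣ N` of package A: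

* `S58W_HoleF`  (cases F(i), F(ii) of the route: S35 / S36 + comparison): every prime `q ∣ M₀`
  is a bad prime of `W` and `q² ∤ M₀`;
* `S58W_HoleH`  (target H: comparison at Frobenius): `a_ℓ(g₀) = a_ℓ(W)` at the good primes
  `ℓ ∣ N` (they do not divide `M₀` by F);
* `S58W_HoleG`  (stabilisation G, pure `q`-expansions): a normalised eigenform of level `M₀ ∣ R`
  (`R ≠ 0`) gives a normalised eigenform of level `R` with the same `a_ℓ`, `ℓ ∤ R`.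

Also: `S58W_disc_ne_zero` (`Δ ≠ 0` is free), `S58W_dvd_conductor` (`M₀ ∣ rad Δ` from F).
-/

set_option autoImplicit false
set_option linter.unusedVariables false

open ModularFormClass

namespace Fermat.Agent.S58

open CuspForm WeierstrassCurve

/-- `Δ ≠ 0` is free: otherwise every prime divides `N ≠ 0`. -/
theorem S58W_disc_ne_zero (W : WeierstrassCurve ℤ) {N : ℕ} (hN : N ≠ 0)
    (hbad : ∀ ℓ : ℕ, ℓ.Prime → (ℓ : ℤ) ∣ W.Δ → ℓ ∣ N) : W.Δ ≠ 0 := by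
  intro h0
  obtain ⟨ℓ, hℓN, hℓ⟩ := Nat.exists_infinite_primes (N + 1)
  have hd : ℓ ∣ N := hbad ℓ hℓ (h0 ▸ dvd_zero _)
  have := Nat.le_of_dvd (Nat.pos_of_ne_zero hN) hd
  omega

/-- a squarefree-type level supported on the bad primes divides the conductor level. -/
theorem S58W_dvd_conductor (W : WeierstrassCurve ℤ) (hΔ : W.Δ ≠ 0) {M₀ : ℕ} (hM₀ : M₀ ≠ 0)
    (hF : ∀ q : ℕ, q.Prime → q ∣ M₀ → (q : ℤ) ∣ W.Δ ∧ ¬ q ^ 2 ∣ M₀) :
    M₀ ∣ W.conductorLevel := by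
  have hR : W.conductorLevel ≠ 0 := (W.conductorLevel_pos).ne'
  rw [← Nat.factorization_le_iff_dvd hM₀ hR]
  intro q
  by_cases hq : q.Prime
  · by_cases hqM : q ∣ M₀
    · obtain ⟨hqΔ, hq2⟩ := hF q hq hqM
      have h1 : M₀.factorization q ≤ 1 := by
        by_contra hcon
        have hcon' : 2 ≤ M₀.factorization q := by omega
        exact hq2 ((hq.pow_dvd_iff_le_factorization hM₀).2 hcon')
      have h2 : 1 ≤ W.conductorLevel.factorization q := by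
        have hd : q ∣ W.conductorLevel := (W.prime_dvd_conductorLevel_iff hΔ hq).2 hqΔ
        have hd' : q ^ 1 ∣ W.conductorLevel := by rwa [pow_one]
        exact (hq.pow_dvd_iff_le_factorization hR).1 hd'
      exact h1.trans h2
    · rw [Nat.factorization_eq_zero_of_not_dvd hqM]
      exact Nat.zero_le _
  · rw [Nat.factorization_eq_zero_of_not_prime _ hq]
    exact Nat.zero_le _

/-- the data of package A for `W` at level `N`. -/
def S58W_IsNewformOf (W : WeierstrassCurve ℤ) (N M₀ : ℕ)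
    (g₀ : CuspForm (CongruenceSubgroup.Gamma0 M₀) 2) : Prop :=
  M₀ ∣ N ∧ g₀.IsNewform ∧ ∀ ℓ : ℕ, ℓ.Prime → W.IsGoodPrimeFor ℓ → ¬ ℓ ∣ N →
    qCoeff g₀ ℓ = (W.apOfModel ℓ : ℂ)

/-- **HOLE F** (S35 / S36 + comparison): the level of the newform is supported on the bad primes
and is not divisible by the square of a prime. -/
def S58W_HoleF (W : WeierstrassCurve ℤ) (N p : ℕ) : Prop :=
  ∀ (M₀ : ℕ) (g₀ : CuspForm (CongruenceSubgroup.Gamma0 M₀) 2), S58W_IsNewformOf W N M₀ g₀ →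
    ∀ q : ℕ, q.Prime → q ∣ M₀ → (q : ℤ) ∣ W.Δ ∧ ¬ q ^ 2 ∣ M₀

/-- **HOLE H** (comparison at Frobenius): the newform has the coefficients of `W` at the good
primes dividing `N`. -/
def S58W_HoleH (W : WeierstrassCurve ℤ) (N p : ℕ) : Prop :=
  ∀ (M₀ : ℕ) (g₀ : CuspForm (CongruenceSubgroup.Gamma0 M₀) 2), S58W_IsNewformOf W N M₀ g₀ →
    (∀ q : ℕ, q.Prime → q ∣ M₀ → (q : ℤ) ∣ W.Δ ∧ ¬ q ^ 2 ∣ M₀) →
    ∀ ℓ : ℕ, ℓ.Prime → W.IsGoodPrimeFor ℓ → ℓ ∣ N → qCoeff g₀ ℓ = (W.apOfModel ℓ : ℂ)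

/-- **HOLE G** (stabilisation): raising the level of a normalised eigenform along `M₀ ∣ R`. -/
def S58W_HoleG : Prop :=
  ∀ (M₀ R : ℕ), M₀ ∣ R → R ≠ 0 → ∀ g₀ : CuspForm (CongruenceSubgroup.Gamma0 M₀) 2,
    g₀.IsNormalizedEigenform →
    ∃ g : CuspForm (CongruenceSubgroup.Gamma0 R) 2, g.IsNormalizedEigenform ∧
      ∀ ℓ : ℕ, ℓ.Prime → ¬ ℓ ∣ R → qCoeff g ℓ = qCoeff g₀ ℓ

/-- **S58 from the holes** (the hypotheses `hss`, `hp2`, `hirr`, `hp2N` of the statement are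
consumed by the providers of `HF` and `HH`; they are passed to them here). -/
theorem S58W_main
    (W : WeierstrassCurve ℤ) (hss : W.IsSemistableModel) (N : ℕ)
    (p : ℕ) [Fact p.Prime] (hp2 : p ≠ 2) (hirr : W.ModRepIsIrreducible p)
    (hp2N : ¬ p ^ 2 ∣ N)
    (hN : W.IsModularModelOfLevel N) (hbad : ∀ ℓ : ℕ, ℓ.Prime → (ℓ : ℤ) ∣ W.Δ → ℓ ∣ N)
    (hN3 : ∀ q : ℕ, q.Prime → ¬ q ^ 3 ∣ N)
    (HF : W.IsSemistableModel → p ≠ 2 → W.ModRepIsIrreducible p → ¬ p ^ 2 ∣ N →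
      (∀ ℓ : ℕ, ℓ.Prime → (ℓ : ℤ) ∣ W.Δ → ℓ ∣ N) → (∀ q : ℕ, q.Prime → ¬ q ^ 3 ∣ N) →
      S58W_HoleF W N p)
    (HH : W.IsSemistableModel → p ≠ 2 → W.ModRepIsIrreducible p → ¬ p ^ 2 ∣ N →
      (∀ ℓ : ℕ, ℓ.Prime → (ℓ : ℤ) ∣ W.Δ → ℓ ∣ N) → (∀ q : ℕ, q.Prime → ¬ q ^ 3 ∣ N) →
      S58W_HoleH W N p)
    (HG : S58W_HoleG) :
    W.IsModularModelOfLevel W.conductorLevel := by
  have hN0 : N ≠ 0 := S58A_ne_zero hN3
  have hΔ : W.Δ ≠ 0 := S58W_disc_ne_zero W hN0 hbad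
  obtain ⟨M₀, hM₀N, g₀, hg₀, hco⟩ := S58A_newform_of_modular W hN0 hN
  have hdat : S58W_IsNewformOf W N M₀ g₀ := ⟨hM₀N, hg₀, hco⟩
  have hM₀0 : M₀ ≠ 0 := fun h0 => hN0 (Nat.eq_zero_of_zero_dvd (h0 ▸ hM₀N))
  have hF := HF hss hp2 hirr hp2N hbad hN3 M₀ g₀ hdat
  have hH := HH hss hp2 hirr hp2N hbad hN3 M₀ g₀ hdat hF
  have hdvd : M₀ ∣ W.conductorLevel := S58W_dvd_conductor W hΔ hM₀0 hF
  obtain ⟨g, hg, hgco⟩ := HG M₀ W.conductorLevel hdvd (W.conductorLevel_pos).ne' g₀ hg₀.1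
  refine ⟨g, hg, fun ℓ hℓ hgood hℓR => ?_⟩
  rw [hgco ℓ hℓ hℓR]
  by_cases hℓN : ℓ ∣ N
  · exact hH ℓ hℓ hgood hℓN
  · exact hco ℓ hℓ hgood hℓN

end Fermat.Agent.S58
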