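import Mathlib
import Fermat.Agent.S58.Stab
import Fermat.Agent.S58.Wire

/-!
# S58 (conductor–level matching), package G = STABILISE UP, general level (helper19).
Prefix `S58G_`.

`S58/Stab.lean` raises the level by a prime `q ∤ N`.  Here the hypothesis `q ∤ N` is removed (the
restriction `α : parInt N → parInt (N q)` is injective for every prime `q`, because `Γ₀(N q)` has
finite index in `Γ₀(N)` and `ℤ` is torsion free), so that the level can be raised along any
`M₀ ∣ R`, `R ≠ 0`: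

* `S58G_alpha_injective'` : `α` is injective (no hypothesis on `q`);
* `S58G_raise'` : `f` normalised eigenform of level `N`, `q` prime `⇒` a normalised eigenform `g`
  of level `N q` with `a_ℓ(g) = a_ℓ(f)` for all primes `ℓ ≠ q`;
* `S58G_stab'` : `N₀ ∣ R`, `R ≠ 0` `⇒` a normalised eigenform `g` of level `R` with
  `a_ℓ(g) = a_ℓ(f)` for all primes `ℓ ∤ R`;
* **`S58G_holeG : S58W_HoleG`** : the hole G of the top wire `S58/Wire.lean`, verbatim.
-/

set_option autoImplicit false
set_option linter.style.haveILetI false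
set_option linter.unusedSectionVars false
set_option linter.unusedVariables false
set_option maxHeartbeats 1000000

open scoped TensorProduct
open CuspForm ModularCurve CongruenceSubgroup ModularFormClass ModularCurve.Period

namespace Fermat.Agent.S58

open Fermat.Agent.S16 Fermat.Agent.GalRep Fermat.Agent.S41

section raise'

variable (N q : ℕ) [NeZero N] [NeZero (N * q)] [Fact q.Prime]

/-- the degeneracy map `α : parInt N → parInt (N q)` is injective, for every prime `q`. -/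
theorem S58G_alpha_injective' : Function.Injective (S41D_alpha N q) := by
  haveI : NeZero q := ⟨(Fact.out : q.Prime).ne_zero⟩
  haveI hfi := S41D_res_finiteIndex N q
  rw [injective_iff_map_eq_zero]
  intro χ hχ
  apply Subtype.ext
  refine AddMonoidHom.ext fun γ => ?_
  obtain ⟨γ, rfl⟩ := Additive.ofMul.surjective γ
  obtain ⟨n, hn0, -, hn⟩ :=
    Subgroup.exists_pow_mem_of_index_ne_zero (H := (S41A_res N q).range)
      (Subgroup.FiniteIndex.index_ne_zero) γ
  obtain ⟨δ, hδ⟩ := hn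
  have h1 : ((S41D_alpha N q χ : ↥(parInt (N * q))) : Additive (Gamma0 (N * q)) →+ ℤ)
      (Additive.ofMul δ) = 0 := by
    rw [hχ]
    rfl
  rw [S41D_alpha_apply, hδ, ofMul_pow, map_nsmul] at h1
  have h2 : (n : ℤ) * (χ : Additive (Gamma0 N) →+ ℤ) (Additive.ofMul γ) = 0 := by
    rw [← nsmul_eq_mul]
    exact h1
  rcases mul_eq_zero.mp h2 with h | h
  · exact absurd (by exact_mod_cast h) hn0.ne'
  · exact h

/-- **raising the level by a prime `q`** (`q ∣ N` allowed). -/
theorem S58G_raise' {f : CuspForm (Gamma0 N) 2} (hf : f.IsNormalizedEigenform) :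
    ∃ g : CuspForm (Gamma0 (N * q)) 2, g.IsNormalizedEigenform ∧
      ∀ ℓ : Nat.Primes, (ℓ : ℕ) ≠ q → qCoeff g (ℓ : ℕ) = qCoeff f (ℓ : ℕ) := by
  refine S58G_transfer N (N * q) q f (fun t ht => ?_)
  have h0 : S41D_rho' N q t = 0 := ht
  have h1 : S41D_rho N q t = 0 := by
    refine LinearMap.ext fun χ => ?_
    apply S58G_alpha_injective' N q
    have h2 := congrArg (fun g : ↥(parInt N) →ₗ[ℤ] ↥(parInt (N * q)) => g χ) (S41D_hα N q t)
    simp only [LinearMap.comp_apply] at h2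
    rw [h2, h0]
    simp
  exact S41F_charC_eq_zero hf (S41D_incR q t) h1

end raise'

section stab'

/-- **stabilising up**, by induction on the number of prime factors (with multiplicity) to be
added. -/
theorem S58G_stab_aux' (k : ℕ) : ∀ (N₀ m : ℕ) [NeZero N₀], m ≠ 0 →
    m.primeFactorsList.length = k →
    ∀ {f : CuspForm (Gamma0 N₀) 2}, f.IsNormalizedEigenform →
    ∃ g : CuspForm (Gamma0 (N₀ * m)) 2, g.IsNormalizedEigenform ∧
      ∀ ℓ : ℕ, ℓ.Prime → ¬ ℓ ∣ N₀ * m → qCoeff g ℓ = qCoeff f ℓ := by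
  induction k with
  | zero =>
    intro N₀ m _ hm0 hk f hf
    rw [List.length_eq_zero_iff, Nat.primeFactorsList_eq_nil] at hk
    have hm : m = 1 := hk.resolve_left hm0
    obtain ⟨g, hg, hc⟩ := S58G_cast (M := N₀) (M' := N₀ * m) (by rw [hm, mul_one]) hf
    exact ⟨g, hg, fun ℓ _ _ => hc ℓ⟩
  | succ k ih =>
    intro N₀ m _ hm0 hk f hf
    have hN₀ : N₀ ≠ 0 := NeZero.ne N₀
    have hm1 : m ≠ 1 := by
      rintro rfl
      simp at hk
    obtain ⟨q, hqp, hqm⟩ := Nat.exists_prime_and_dvd hm1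
    obtain ⟨m', rfl⟩ := hqm
    haveI : Fact q.Prime := ⟨hqp⟩
    have hm'0 : m' ≠ 0 := fun h => hm0 (by rw [h, mul_zero])
    have hRR : N₀ * (q * m') = (N₀ * m') * q := by ring
    have hk' : m'.primeFactorsList.length = k := by
      have h1 := Nat.perm_primeFactorsList_mul hqp.ne_zero hm'0
      have h2 := h1.length_eq
      rw [List.length_append, Nat.primeFactorsList_prime hqp, hk] at h2
      simp only [List.length_singleton] at h2
      omega
    obtain ⟨g', hg', hcoef'⟩ := ih N₀ m' hm'0 hk' hf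
    haveI : NeZero (N₀ * m') := ⟨Nat.mul_ne_zero hN₀ hm'0⟩
    haveI : NeZero ((N₀ * m') * q) := ⟨Nat.mul_ne_zero (Nat.mul_ne_zero hN₀ hm'0) hqp.ne_zero⟩
    obtain ⟨g'', hg'', hcoef''⟩ := S58G_raise' (N₀ * m') q hg'
    obtain ⟨g, hg, hc⟩ := S58G_cast (M := (N₀ * m') * q) (M' := N₀ * (q * m')) hRR.symm hg''
    refine ⟨g, hg, fun ℓ hℓ hℓR => ?_⟩
    have hℓq : ℓ ≠ q := by
      rintro rfl
      exact hℓR (Dvd.dvd.mul_left (Dvd.intro m' rfl) N₀)
    have hℓR' : ¬ ℓ ∣ N₀ * m' := by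
      intro hd
      apply hℓR
      rw [hRR]
      exact Dvd.dvd.mul_right hd q
    rw [hc ℓ, hcoef'' ⟨ℓ, hℓ⟩ hℓq, hcoef' ℓ hℓ hℓR']

/-- **STABILISE UP, general level**: a normalised eigenform of level `N₀ ∣ R`, `R ≠ 0`, has the
same eigenvalues at the primes `ℓ ∤ R` as a normalised eigenform of level `R`. -/
theorem S58G_stab' (N₀ R : ℕ) (hR : R ≠ 0) (hdvd : N₀ ∣ R)
    {f : CuspForm (Gamma0 N₀) 2} (hf : f.IsNormalizedEigenform) :
    ∃ g : CuspForm (Gamma0 R) 2, g.IsNormalizedEigenform ∧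
      ∀ ℓ : ℕ, ℓ.Prime → ¬ ℓ ∣ R → qCoeff g ℓ = qCoeff f ℓ := by
  obtain ⟨m, rfl⟩ := hdvd
  have hm0 : m ≠ 0 := fun h => hR (by rw [h, mul_zero])
  have hN₀ : N₀ ≠ 0 := fun h => hR (by rw [h, zero_mul])
  haveI : NeZero N₀ := ⟨hN₀⟩
  exact S58G_stab_aux' _ N₀ m hm0 rfl hf

/-- **HOLE G of the top wire**, verbatim. -/
theorem S58G_holeG : S58W_HoleG :=
  fun M₀ R hdvd hR g₀ hg₀ => S58G_stab' M₀ R hR hdvd hg₀

end stab'

end Fermat.Agent.S58
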