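import Mathlib

/-!
# S58 (conductor–level matching), package CC (helper27) — prefix `S58CC_`

A complex conjugation in `Gal(ℚ̄/ℚ)`: complex conjugation of `ℂ` restricted to
`algebraicClosure ℚ ℂ` (a normal extension of `ℚ`), transported to `AlgebraicClosure ℚ`
by `IsAlgClosure.equiv`.

* `S58CC_conjC`        : complex conjugation on `algebraicClosure ℚ ℂ`;
* `S58CC_conjC_coe`    : it is the restriction of `starRingEnd ℂ`;
* `S58CC_c`            : the transported element of `Gal(ℚ̄/ℚ)`;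
* `S58CC_c_mul_self`   : `S58CC_c * S58CC_c = 1`;
* `S58CC_c_ne_one`     : `S58CC_c ≠ 1`;
* `S58CC_exists`       : **`∃ c : Ω ≃ₐ[ℚ] Ω, c * c = 1 ∧ c ≠ 1`**.
-/

set_option autoImplicit false

namespace Fermat.Agent.S58

local notation "Ω" => AlgebraicClosure ℚ

theorem S58CC_isAlgClosure_C : IsAlgClosure ℚ (algebraicClosure ℚ ℂ) :=
  algebraicClosure.isAlgClosure ℚ ℂ

theorem S58CC_isAlgClosure_Ω : IsAlgClosure ℚ Ω :=
  AlgebraicClosure.instIsAlgClosure ℚ

theorem S58CC_normal_C : Normal ℚ (algebraicClosure ℚ ℂ) :=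
  @IsAlgClosure.normal ℚ (algebraicClosure ℚ ℂ) _ _ _ S58CC_isAlgClosure_C

/-- complex conjugation on the algebraic closure of `ℚ` in `ℂ`. -/
noncomputable def S58CC_conjC : algebraicClosure ℚ ℂ ≃ₐ[ℚ] algebraicClosure ℚ ℂ :=
  haveI := S58CC_normal_C
  (Complex.conjAe.restrictScalars ℚ).restrictNormal (algebraicClosure ℚ ℂ)

theorem S58CC_conjC_coe (x : algebraicClosure ℚ ℂ) :
    ((S58CC_conjC x : algebraicClosure ℚ ℂ) : ℂ) = (starRingEnd ℂ) (x : ℂ) := by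
  have hN := S58CC_normal_C
  exact AlgEquiv.restrictNormal_commutes (Complex.conjAe.restrictScalars ℚ)
    (algebraicClosure ℚ ℂ) x

theorem S58CC_conjC_conjC (x : algebraicClosure ℚ ℂ) : S58CC_conjC (S58CC_conjC x) = x := by
  apply Subtype.ext
  rw [S58CC_conjC_coe, S58CC_conjC_coe]
  exact Complex.conj_conj _

/-- `I`, as an element of `algebraicClosure ℚ ℂ`. -/
noncomputable def S58CC_I : algebraicClosure ℚ ℂ :=
  ⟨Complex.I, by
    rw [mem_algebraicClosure_iff]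
    refine ⟨Polynomial.X ^ 2 + 1, ?_, ?_⟩
    · intro h
      have := congrArg (Polynomial.eval 0) h
      simp at this
    · simp⟩

theorem S58CC_conjC_I : S58CC_conjC S58CC_I ≠ S58CC_I := by
  intro h
  have h1 := congrArg (fun x : algebraicClosure ℚ ℂ => (x : ℂ)) h
  simp only [S58CC_conjC_coe] at h1
  have h2 : (starRingEnd ℂ) Complex.I = Complex.I := h1
  rw [Complex.conj_I] at h2
  have h3 := congrArg Complex.im h2
  simp at h3
  norm_num at h3

/-- the comparison isomorphism `algebraicClosure ℚ ℂ ≃ₐ[ℚ] AlgebraicClosure ℚ`. -/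
noncomputable def S58CC_e : algebraicClosure ℚ ℂ ≃ₐ[ℚ] Ω :=
  @IsAlgClosure.equiv ℚ _ _ (algebraicClosure ℚ ℂ) Ω _ _ _ _ S58CC_isAlgClosure_Ω _ _
    S58CC_isAlgClosure_C

/-- **a complex conjugation** in `Gal(ℚ̄/ℚ)`. -/
noncomputable def S58CC_c : Ω ≃ₐ[ℚ] Ω :=
  (S58CC_e.symm.trans S58CC_conjC).trans S58CC_e

theorem S58CC_c_apply (x : Ω) : S58CC_c x = S58CC_e (S58CC_conjC (S58CC_e.symm x)) := rfl

theorem S58CC_c_c (x : Ω) : S58CC_c (S58CC_c x) = x := by
  rw [S58CC_c_apply, S58CC_c_apply, AlgEquiv.symm_apply_apply, S58CC_conjC_conjC,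
    AlgEquiv.apply_symm_apply]

theorem S58CC_c_mul_self : S58CC_c * S58CC_c = 1 := by
  refine AlgEquiv.ext fun x => ?_
  rw [AlgEquiv.mul_apply, S58CC_c_c, AlgEquiv.one_apply]

theorem S58CC_c_ne_one : S58CC_c ≠ 1 := by
  intro h
  have h1 := congrArg (fun σ : Ω ≃ₐ[ℚ] Ω => σ (S58CC_e S58CC_I)) h
  simp only [S58CC_c_apply, AlgEquiv.symm_apply_apply, AlgEquiv.one_apply] at h1
  exact S58CC_conjC_I (S58CC_e.injective h1)

/-- **CC**: `Gal(ℚ̄/ℚ)` contains an involution `c ≠ 1` (a complex conjugation). -/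
theorem S58CC_exists : ∃ c : Ω ≃ₐ[ℚ] Ω, c * c = 1 ∧ c ≠ 1 :=
  ⟨S58CC_c, S58CC_c_mul_self, S58CC_c_ne_one⟩

end Fermat.Agent.S58
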