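import Mathlib

/-!
# S58 (conductor–level matching), package HRES, abstract core (helper27 + helper10) — prefix `S58H_`

`G` acts (raw action `act`) on a group `X` of exponent `p` and order `p²`, irreducibly;
`ρ : G →* End_k V` is a 2-dimensional representation over a field `k` of characteristic `p`
satisfying the RELATION `(R)`: for every `g` the characteristic polynomial of `ρ g` is
`X² − t X + d` with integers `t`, `d` such that `g² − t g + d = 0` on `X`.  If some involution
`c` has `det ρ(c) = −1` and `p` is odd, then `ρ` is ABSOLUTELY IRREDUCIBLE: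

* `S58H_absIrr` : every `G`-stable subspace `U` of `K ⊗[k] V` is `⊥` or `⊤`.

Proof.  Let `U` be a stable line, `ψ : G →* K` its character.  `H := ker (ψ, det ∘ ρ)` is normal,
contains the commutators, and every `h ∈ H` has `t ≡ 2`, `d ≡ 1 mod p`, so it acts unipotently
on `X`; a `p`-group fixed-point count (helper10) and irreducibility give that `H` acts trivially
on `X`.  Hence `c` commutes with the action, `c = ± 1` on `X`, and comparing the relations of `g`
and `g c` shows that every `g` is a scalar on `X`: a contradiction with irreducibility.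

The lemmas of the section `action` are helper10's (compiled by him, taken verbatim).
-/

set_option autoImplicit false
set_option linter.unusedVariables false
set_option linter.unusedSectionVars false
set_option linter.style.haveILetI false

open Polynomial TensorProduct

namespace Fermat.Agent.S58

section action

variable {G : Type*} [Group G] {X : Type*} [AddCommGroup X]
  (act : G → X → X)
  (h1 : ∀ x, act 1 x = x) (hmul : ∀ g h x, act (g * h) x = act g (act h x))
  (hadd : ∀ g x y, act g (x + y) = act g x + act g y)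

include hadd in
theorem S58H_act_zero (g : G) : act g 0 = 0 := by
  have h := hadd g 0 0
  rw [add_zero] at h
  exact left_eq_add.1 h

/-- the action as an additive homomorphism. -/
def S58H_hom (hadd : ∀ g x y, act g (x + y) = act g x + act g y) (g : G) : X →+ X where
  toFun := act g
  map_zero' := S58H_act_zero act hadd g
  map_add' := hadd g

theorem S58H_hom_apply (g : G) (x : X) : S58H_hom act hadd g x = act g x := rfl

include hadd in
theorem S58H_act_neg (g : G) (x : X) : act g (-x) = -act g x :=
  map_neg (S58H_hom act hadd g) x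

include hadd in
theorem S58H_act_sub (g : G) (x y : X) : act g (x - y) = act g x - act g y :=
  map_sub (S58H_hom act hadd g) x y

include hadd in
theorem S58H_act_zsmul (g : G) (n : ℤ) (x : X) : act g (n • x) = n • act g x :=
  map_zsmul (S58H_hom act hadd g) n x

include hadd in
theorem S58H_act_nsmul (g : G) (n : ℕ) (x : X) : act g (n • x) = n • act g x :=
  map_nsmul (S58H_hom act hadd g) n x

include h1 hmul in
theorem S58H_act_inv_act (g : G) (x : X) : act g⁻¹ (act g x) = x := by
  rw [← hmul, inv_mul_cancel, h1]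

include h1 hmul in
theorem S58H_act_act_inv (g : G) (x : X) : act g (act g⁻¹ x) = x := by
  rw [← hmul, mul_inv_cancel, h1]

/-- the action as a homomorphism to the permutations of `X`. -/
def S58H_perm (h1 : ∀ x, act 1 x = x) (hmul : ∀ g h x, act (g * h) x = act g (act h x)) :
    G →* Equiv.Perm X where
  toFun g :=
    { toFun := act g
      invFun := act g⁻¹
      left_inv := S58H_act_inv_act act h1 hmul g
      right_inv := S58H_act_act_inv act h1 hmul g }
  map_one' := by
    ext x
    exact h1 x
  map_mul' g h := by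
    ext x
    exact hmul g h x

theorem S58H_perm_apply (g : G) (x : X) : S58H_perm act h1 hmul g x = act g x := rfl

include h1 hmul hadd in
/-- a unipotent element: `h ^ m` acts as `x ↦ x + m (h x − x)`. -/
theorem S58H_pow_act_eq (h : G) (hu : ∀ x, act h (act h x) - (2 : ℤ) • act h x + x = 0)
    (m : ℕ) (x : X) : act (h ^ m) x = x + m • (act h x - x) := by
  have hfix : ∀ x, act h (act h x - x) = act h x - x := by
    intro x
    rw [S58H_act_sub act hadd]
    have := hu x
    have e : act h (act h x) = (2 : ℤ) • act h x - x := by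
      rw [← sub_eq_zero]
      rw [← this]
      abel
    rw [e, two_zsmul]
    abel
  induction m generalizing x with
  | zero => rw [pow_zero, h1, zero_smul, add_zero]
  | succ m ih =>
    have e2 : act h (act h x) - act h x = act h x - x := by
      rw [← S58H_act_sub act hadd, hfix]
    rw [pow_succ, hmul, ih (act h x), e2, succ_nsmul]
    abel

include h1 hmul hadd in
/-- a unipotent element of a group of exponent `p`: `h ^ p` acts trivially. -/
theorem S58H_pow_act (p : ℕ) (hXp : ∀ x : X, p • x = 0) (h : G)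
    (hu : ∀ x, act h (act h x) - (2 : ℤ) • act h x + x = 0) (x : X) :
    act (h ^ p) x = x := by
  rw [S58H_pow_act_eq act h1 hmul hadd h hu p x, hXp, add_zero]

include h1 hmul hadd in
/-- **fixed points**: a subgroup acting unipotently on a group of exponent `p` and order `p²`
has a nonzero fixed point. -/
theorem S58H_exists_fixed (p : ℕ) [Fact p.Prime] (hXp : ∀ x : X, p • x = 0)
    (hcard : Nat.card X = p ^ 2) (H : Subgroup G)
    (hu : ∀ h ∈ H, ∀ x, act h (act h x) - (2 : ℤ) • act h x + x = 0) :
    ∃ x : X, x ≠ 0 ∧ ∀ h ∈ H, act h x = x := by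
  classical
  have hp : p.Prime := Fact.out
  have : Finite X := Nat.finite_of_card_ne_zero (by rw [hcard]; exact pow_ne_zero 2 hp.ne_zero)
  set φ := S58H_perm act h1 hmul with hφ
  set P : Subgroup (Equiv.Perm X) := H.map φ with hP
  have hPp : IsPGroup p P := by
    rintro ⟨σ, hσ⟩
    obtain ⟨h, hh, rfl⟩ := hσ
    refine ⟨1, ?_⟩
    apply Subtype.ext
    rw [pow_one]
    show (φ h) ^ p = 1
    rw [← map_pow]
    ext x
    exact S58H_pow_act act h1 hmul hadd p hXp h (hu h hh) x
  have hmod := hPp.card_modEq_card_fixedPoints X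
  have hdvd : p ∣ Nat.card (MulAction.fixedPoints P X) := by
    have h0 : Nat.card X ≡ 0 [MOD p] := by
      rw [hcard]
      exact (Nat.modEq_zero_iff_dvd).2 (dvd_pow_self p two_ne_zero)
    exact (Nat.modEq_zero_iff_dvd).1 (hmod.symm.trans h0)
  have hzero : (0 : X) ∈ MulAction.fixedPoints P X := by
    rintro ⟨σ, hσ⟩
    obtain ⟨h, hh, rfl⟩ := hσ
    exact S58H_act_zero act hadd h
  have hpos : 0 < Nat.card (MulAction.fixedPoints P X) :=
    Nat.card_pos_iff.2 ⟨⟨⟨0, hzero⟩⟩, inferInstance⟩
  have h2 : 1 < Nat.card (MulAction.fixedPoints P X) :=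
    lt_of_lt_of_le hp.one_lt (Nat.le_of_dvd hpos hdvd)
  obtain ⟨⟨x, hx⟩, hne⟩ : ∃ y : MulAction.fixedPoints P X, y ≠ ⟨0, hzero⟩ := by
    by_contra hcon
    push Not at hcon
    haveI : Subsingleton (MulAction.fixedPoints P X) :=
      ⟨fun a b => (hcon a).trans (hcon b).symm⟩
    have : Nat.card (MulAction.fixedPoints P X) ≤ 1 := Finite.card_le_one_iff_subsingleton.2 this
    omega
  refine ⟨x, fun h0 => hne (Subtype.ext h0), fun h hh => ?_⟩
  exact hx ⟨φ h, Subgroup.mem_map_of_mem φ hh⟩

variable (hirr : ∀ Y : AddSubgroup X, (∀ g : G, ∀ x ∈ Y, act g x ∈ Y) → Y = ⊥ ∨ Y = ⊤)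

include h1 hmul hadd hirr in
/-- a normal subgroup acting unipotently on an irreducible `X` acts trivially. -/
theorem S58H_trivial_of_unip (p : ℕ) [Fact p.Prime] (hXp : ∀ x : X, p • x = 0)
    (hcard : Nat.card X = p ^ 2) (H : Subgroup G) [H.Normal]
    (hu : ∀ h ∈ H, ∀ x, act h (act h x) - (2 : ℤ) • act h x + x = 0) :
    ∀ h ∈ H, ∀ x, act h x = x := by
  obtain ⟨x₀, hx₀, hfix⟩ := S58H_exists_fixed act h1 hmul hadd p hXp hcard H hu
  set Y : AddSubgroup X :=
    { carrier := {x | ∀ h ∈ H, act h x = x}
      zero_mem' := fun h _ => S58H_act_zero act hadd h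
      add_mem' := fun {a b} ha hb h hh => by rw [hadd, ha h hh, hb h hh]
      neg_mem' := fun {a} ha h hh => by rw [S58H_act_neg act hadd, ha h hh] } with hY
  have hstab : ∀ g : G, ∀ x ∈ Y, act g x ∈ Y := by
    intro g x hx h hh
    have hconj : g⁻¹ * h * g ∈ H := by
      have := ‹H.Normal›.conj_mem h hh g⁻¹
      rwa [inv_inv] at this
    have e : h * g = g * (g⁻¹ * h * g) := by group
    rw [← hmul, e, hmul, hx _ hconj]
  rcases hirr Y hstab with hbot | htop
  · exfalso
    apply hx₀
    have : x₀ ∈ Y := hfix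
    rw [hbot] at this
    exact (AddSubgroup.mem_bot).1 this
  · intro h hh x
    have : x ∈ Y := by rw [htop]; exact AddSubgroup.mem_top x
    exact this h hh

include h1 hmul hadd hirr in
/-- an involution commuting with the action on an irreducible `X` of odd exponent is `± 1`. -/
theorem S58H_scalar_of_invol (p : ℕ) [Fact p.Prime] (hp2 : p ≠ 2) (hXp : ∀ x : X, p • x = 0)
    (c : G) (hcc : c * c = 1) (hcomm : ∀ g x, act g (act c x) = act c (act g x)) :
    (∀ x, act c x = x) ∨ (∀ x, act c x = -x) := by
  have hp : p.Prime := Fact.out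
  have hc2 : ∀ x, act c (act c x) = x := fun x => by rw [← hmul, hcc, h1]
  set Yp : AddSubgroup X :=
    { carrier := {x | act c x = x}
      zero_mem' := S58H_act_zero act hadd c
      add_mem' := fun {a b} ha hb => by
        show act c (a + b) = a + b
        rw [hadd, ha, hb]
      neg_mem' := fun {a} ha => by
        show act c (-a) = -a
        rw [S58H_act_neg act hadd, ha] } with hYp
  have hstab : ∀ g : G, ∀ x ∈ Yp, act g x ∈ Yp := by
    intro g x hx
    show act c (act g x) = act g x
    rw [← hcomm, hx]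
  rcases hirr Yp hstab with hbot | htop
  · right
    intro x
    have hmem : act c x + x ∈ Yp := by
      show act c (act c x + x) = act c x + x
      rw [hadd, hc2, add_comm]
    rw [hbot] at hmem
    exact eq_neg_of_add_eq_zero_left ((AddSubgroup.mem_bot).1 hmem)
  · left
    intro x
    have : x ∈ Yp := by rw [htop]; exact AddSubgroup.mem_top x
    exact this

end action

section linalg

variable {k : Type*} [Field k] {V : Type*} [AddCommGroup V] [Module k V]

/-- Cayley–Hamilton for a characteristic polynomial `X² − t X + d`. -/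
theorem S58H_cayley [Module.Finite k V] (f : Module.End k V) (t d : k)
    (hf : LinearMap.charpoly f = X ^ 2 - C t * X + C d) (v : V) :
    f (f v) - t • f v + d • v = 0 := by
  have h := LinearMap.aeval_self_charpoly f
  rw [hf] at h
  have h2 := congrArg (fun e : Module.End k V => e v) h
  simpa [pow_two, Algebra.algebraMap_eq_smul_one] using h2

/-- the determinant of an endomorphism of a plane with characteristic polynomial
`X² − t X + d` is `d`. -/
theorem S58H_det [Module.Finite k V] (hV : Module.finrank k V = 2) (f : Module.End k V)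
    (t d : k) (hf : LinearMap.charpoly f = X ^ 2 - C t * X + C d) : LinearMap.det f = d := by
  rw [LinearMap.det_eq_sign_charpoly_coeff, hV, hf]
  simp

end linalg

section core

variable {G : Type*} [Group G] {X : Type*} [AddCommGroup X]
  (act : G → X → X)
  (h1 : ∀ x, act 1 x = x) (hmul : ∀ g h x, act (g * h) x = act g (act h x))
  (hadd : ∀ g x y, act g (x + y) = act g x + act g y)

/-- on a group of exponent `p`, `a • x` depends only on `a mod p`. -/
theorem S58H_zsmul_congr (p : ℕ) (hXp : ∀ x : X, p • x = 0) {a b : ℤ}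
    (hab : (p : ℤ) ∣ a - b) (x : X) : a • x = b • x := by
  obtain ⟨m, hm⟩ := hab
  have e : a = b + m * (p : ℤ) := by linarith
  rw [e, add_smul, mul_smul, natCast_zsmul, hXp, smul_zero, add_zero]

/-- on a group of exponent `p`, an integer prime to `p` acts injectively. -/
theorem S58H_zsmul_eq_zero (p : ℕ) [Fact p.Prime] (hXp : ∀ x : X, p • x = 0) {e : ℤ}
    (he : ¬ (p : ℤ) ∣ e) {x : X} (hx : e • x = 0) : x = 0 := by
  have hp : p.Prime := Fact.out
  have hcop : IsCoprime (p : ℤ) e :=
    (Prime.coprime_iff_not_dvd (Nat.prime_iff_prime_int.1 hp)).2 he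
  obtain ⟨a, b, hab⟩ := hcop
  have : (a * (p : ℤ) + b * e) • x = 0 := by
    rw [add_smul, mul_smul, mul_smul, natCast_zsmul, hXp, hx, smul_zero, smul_zero, add_zero]
  rwa [hab, one_smul] at this

/-- if every element acts as a scalar on `X` (exponent `p`, order `p²`), then `X` is not
irreducible. -/
theorem S58H_not_all_scalar
    (hirr : ∀ Y : AddSubgroup X, (∀ g : G, ∀ x ∈ Y, act g x ∈ Y) → Y = ⊥ ∨ Y = ⊤)
    (p : ℕ) [Fact p.Prime] (hXp : ∀ x : X, p • x = 0) (hcard : Nat.card X = p ^ 2)
    (hsc : ∀ g : G, ∃ n : ℤ, ∀ x, act g x = n • x) : False := by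
  have hp : p.Prime := Fact.out
  have hfin : Finite X := Nat.finite_of_card_ne_zero (by rw [hcard]; exact pow_ne_zero 2 hp.ne_zero)
  have hnt : Nontrivial X := by
    apply (Finite.one_lt_card_iff_nontrivial).1
    rw [hcard]
    exact Nat.one_lt_pow two_ne_zero hp.one_lt
  obtain ⟨x₀, hx₀⟩ := exists_ne (0 : X)
  have hstab : ∀ g : G, ∀ x ∈ AddSubgroup.zmultiples x₀, act g x ∈ AddSubgroup.zmultiples x₀ := by
    intro g x hx
    obtain ⟨n, hn⟩ := hsc g
    rw [hn]
    exact AddSubgroup.zsmul_mem _ hx n
  rcases hirr _ hstab with hbot | htop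
  · apply hx₀
    have : x₀ ∈ AddSubgroup.zmultiples x₀ := AddSubgroup.mem_zmultiples x₀
    rw [hbot] at this
    exact (AddSubgroup.mem_bot).1 this
  · have hc1 : Nat.card (AddSubgroup.zmultiples x₀) = p ^ 2 := by
      rw [htop, AddSubgroup.card_top, hcard]
    rw [Nat.card_zmultiples] at hc1
    have hdvd : addOrderOf x₀ ∣ p := addOrderOf_dvd_of_nsmul_eq_zero (hXp x₀)
    have hle : addOrderOf x₀ ≤ p := Nat.le_of_dvd hp.pos hdvd
    have hlt : p < p ^ 2 := by
      calc p = p ^ 1 := (pow_one p).symm
        _ < p ^ 2 := Nat.pow_lt_pow_right hp.one_lt (by norm_num)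
    omega

end core

section main

/-- **the abstract core of HRES**: absolute irreducibility from the relation `(R)`, the
irreducibility of `Pt` and an involution of determinant `-1`. -/
theorem S58H_absIrr {G : Type*} [Group G] {Pt : Type*} [AddCommGroup Pt]
    (act : G → Pt → Pt) (h1 : ∀ x, act 1 x = x)
    (hmul : ∀ g h x, act (g * h) x = act g (act h x))
    (hadd : ∀ g x y, act g (x + y) = act g x + act g y)
    (hirr : ∀ Y : AddSubgroup Pt, (∀ g : G, ∀ x ∈ Y, act g x ∈ Y) → Y = ⊥ ∨ Y = ⊤)
    (p : ℕ) [Fact p.Prime] (hp2 : p ≠ 2) (hXp : ∀ x : Pt, p • x = 0)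
    (hcard : Nat.card Pt = p ^ 2)
    {k : Type*} [Field k] [CharP k p] {V : Type*} [AddCommGroup V] [Module k V]
    [Module.Finite k V]
    (hV : Module.finrank k V = 2) (ρ : G →* Module.End k V)
    (hR : ∀ g : G, ∃ t d : ℤ, LinearMap.charpoly (ρ g) = X ^ 2 - C (t : k) * X + C (d : k) ∧
      ∀ x : Pt, act g (act g x) - t • act g x + d • x = 0)
    (c : G) (hcc : c * c = 1) (hdet : LinearMap.det (ρ c) = -1)
    (K : Type*) [Field K] [Algebra k K]
    (U : Submodule K (K ⊗[k] V)) (hU : ∀ g : G, ∀ x ∈ U, (ρ g).baseChange K x ∈ U) :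
    U = ⊥ ∨ U = ⊤ := by
  classical
  have hp : p.Prime := Fact.out
  by_contra hcon
  push Not at hcon
  obtain ⟨hbot, htop⟩ := hcon
  -- `U` is a line
  have hfr : Module.finrank K (K ⊗[k] V) = 2 := by rw [Module.finrank_baseChange, hV]
  haveI : Module.Finite K (K ⊗[k] V) := Module.finite_of_finrank_eq_succ hfr
  have hU1 : Module.finrank K U = 1 := by
    have h1 : Module.finrank K U < Module.finrank K (K ⊗[k] V) := Submodule.finrank_lt htop
    have h2 : 1 ≤ Module.finrank K U := Submodule.one_le_finrank_iff.2 hbot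
    omega
  haveI hfreeU : Module.Free K U := Module.Free.of_divisionRing K U
  obtain ⟨⟨w, hwU⟩, hw0, hspan⟩ := (finrank_eq_one_iff' (K := K) (V := U)).1 hU1
  have hw0' : w ≠ 0 := fun h => hw0 (Subtype.ext h)
  have hψex : ∀ g : G, ∃ b : K, (ρ g).baseChange K w = b • w := by
    intro g
    obtain ⟨b, hb⟩ := hspan ⟨_, hU g w hwU⟩
    exact ⟨b, (congrArg Subtype.val hb).symm⟩
  choose ψ hψ using hψex
  have hinj : ∀ a b : K, a • w = b • w → a = b := fun a b h => smul_left_injective K hw0' h
  have hψ1 : ψ 1 = 1 := by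
    apply hinj
    rw [← hψ, map_one, LinearMap.baseChange_one, one_smul]
    rfl
  have hψmul : ∀ g h, ψ (g * h) = ψ g * ψ h := by
    intro g h
    apply hinj
    rw [← hψ, map_mul, LinearMap.baseChange_mul, Module.End.mul_apply, hψ h, map_smul, hψ g,
      smul_smul, mul_comm]
  let ψm : G →* K := { toFun := ψ, map_one' := hψ1, map_mul' := hψmul }
  let φ : G →* K × k := ψm.prod (LinearMap.det.comp ρ)
  have hφ : ∀ g, φ g = (ψ g, LinearMap.det (ρ g)) := fun g => rfl
  -- the determinant is `d`
  have hdetd : ∀ g : G, ∀ t d : ℤ,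
      LinearMap.charpoly (ρ g) = X ^ 2 - C (t : k) * X + C (d : k) →
      LinearMap.det (ρ g) = (d : k) := fun g t d h => S58H_det hV (ρ g) _ _ h
  have hdet_ne : ∀ g : G, LinearMap.det (ρ g) ≠ 0 := by
    intro g h0
    have : LinearMap.det (ρ g) * LinearMap.det (ρ g⁻¹) = 1 := by
      rw [← map_mul, ← map_mul, mul_inv_cancel, map_one, map_one]
    rw [h0, zero_mul] at this
    exact zero_ne_one this
  have hcast : ∀ a b : ℤ, ((a : k) = (b : k)) → (p : ℤ) ∣ a - b := by
    intro a b hab
    have := (CharP.intCast_eq_intCast k p).1 hab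
    exact (Int.modEq_iff_dvd.1 this.symm)
  -- the kernel `H` acts unipotently, hence trivially, on `Pt`
  have hu : ∀ h ∈ φ.ker, ∀ x, act h (act h x) - (2 : ℤ) • act h x + x = 0 := by
    intro h hh x
    rw [MonoidHom.mem_ker, hφ, Prod.mk_eq_one] at hh
    obtain ⟨hh1, hh2⟩ := hh
    obtain ⟨t, d, hch, hrel⟩ := hR h
    have hd : (d : k) = 1 := by rw [← hdetd h t d hch, hh2]
    have hchK : LinearMap.charpoly ((ρ h).baseChange K) =
        X ^ 2 - C (algebraMap k K (t : k)) * X + C (algebraMap k K (d : k)) := by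
      rw [LinearMap.charpoly_baseChange, hch]
      simp
    have hCH := S58H_cayley ((ρ h).baseChange K) _ _ hchK w
    rw [hψ h, hh1, one_smul, hψ h, hh1, one_smul, hd, map_one, one_smul] at hCH
    have ht : (t : k) = 2 := by
      have e1 : ((2 : K) - algebraMap k K (t : k)) • w = 0 := by
        linear_combination (norm := module) hCH
      have e2 : (2 : K) - algebraMap k K (t : k) = 0 := by
        rcases smul_eq_zero.1 e1 with h | h
        · exact h
        · exact absurd h hw0'
      have e3 : algebraMap k K (t : k) = algebraMap k K 2 := by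
        rw [map_ofNat]
        exact (sub_eq_zero.1 e2).symm
      exact (algebraMap k K).injective e3
    have ht' : (p : ℤ) ∣ t - 2 := hcast t 2 (by rw [ht]; norm_num)
    have hd' : (p : ℤ) ∣ d - 1 := hcast d 1 (by rw [hd]; norm_num)
    have := hrel x
    rw [S58H_zsmul_congr p hXp ht' (act h x), S58H_zsmul_congr p hXp hd' x, one_smul] at this
    exact this
  have htriv := S58H_trivial_of_unip act h1 hmul hadd hirr p hXp hcard φ.ker hu
  -- `c` commutes with the action
  have hcomm : ∀ g x, act g (act c x) = act c (act g x) := by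
    intro g x
    have hz : g * c * g⁻¹ * c⁻¹ ∈ φ.ker := by
      rw [MonoidHom.mem_ker, map_mul, map_mul, map_mul]
      have e : φ g * φ c * φ g⁻¹ * φ c⁻¹ = (φ g * φ g⁻¹) * (φ c * φ c⁻¹) := by
        rw [mul_mul_mul_comm, mul_assoc (φ g)]
        rw [mul_comm (φ c) (φ g⁻¹), ← mul_assoc, mul_mul_mul_comm]
        rw [mul_assoc, mul_assoc]
      rw [e, ← map_mul, ← map_mul, mul_inv_cancel, mul_inv_cancel, map_one, mul_one]
    have h3 := htriv _ hz (act (c * g) x)
    rw [← hmul] at h3
    have e : g * c * g⁻¹ * c⁻¹ * (c * g) = g * c := by group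
    rw [e, hmul, hmul] at h3
    exact h3
  have hsc := S58H_scalar_of_invol act h1 hmul hadd hirr p hp2 hXp c hcc hcomm
  -- `2 ≠ 0` in `k`
  have h2k : (2 : k) ≠ 0 := by
    intro h
    have h' : ((2 : ℕ) : k) = 0 := by exact_mod_cast h
    have := (CharP.cast_eq_zero_iff k p 2).1 h'
    exact hp2 ((Nat.prime_dvd_prime_iff_eq hp Nat.prime_two).1 this)
  -- every `g` is a scalar on `Pt`
  apply S58H_not_all_scalar act hirr p hXp hcard
  intro g
  obtain ⟨t, d, hch, hrel⟩ := hR g
  obtain ⟨t', d', hch', hrel'⟩ := hR (g * c)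
  have hd : LinearMap.det (ρ g) = (d : k) := hdetd g t d hch
  have hd' : (d' : k) = -(d : k) := by
    rw [← hdetd (g * c) t' d' hch', map_mul, map_mul, hdet, hd]
    ring
  have he : ¬ (p : ℤ) ∣ d - d' := by
    intro hdvd
    have h0 : (((d - d' : ℤ)) : k) = 0 := by
      exact_mod_cast (CharP.intCast_eq_zero_iff k p (d - d')).2 hdvd
    rw [Int.cast_sub, hd'] at h0
    have h3 : (2 : k) * (d : k) = 0 := by
      rw [← h0]
      ring
    rcases mul_eq_zero.1 h3 with h | h
    · exact h2k h
    · exact hdet_ne g (hd.trans h)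
  -- the relation `s • g x = (d - d') • x`
  have hkey : ∃ s : ℤ, ∀ x, s • act g x = (d - d') • x := by
    rcases hsc with hc1 | hc1
    · refine ⟨t - t', fun x => ?_⟩
      have r1 := hrel x
      have r2 := hrel' x
      rw [hmul, hmul, hc1, hc1] at r2
      rw [sub_smul, sub_smul]
      have : act g (act g x) = t • act g x - d • x := by
        rw [← sub_eq_zero, ← r1]
        abel
      rw [this] at r2
      rw [← sub_eq_zero, ← r2]
      abel
    · refine ⟨t + t', fun x => ?_⟩
      have r1 := hrel x
      have r2 := hrel' x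
      simp only [hmul, hc1, S58H_act_neg act hadd, neg_neg, smul_neg] at r2
      rw [add_smul, sub_smul]
      have : act g (act g x) = t • act g x - d • x := by
        rw [← sub_eq_zero, ← r1]
        abel
      rw [this] at r2
      rw [← sub_eq_zero, ← r2]
      abel
  obtain ⟨s, hs⟩ := hkey
  have hnt : ∃ x₀ : Pt, x₀ ≠ 0 := by
    have hfin : Finite Pt :=
      Nat.finite_of_card_ne_zero (by rw [hcard]; exact pow_ne_zero 2 hp.ne_zero)
    have hnt : Nontrivial Pt := by
      apply (Finite.one_lt_card_iff_nontrivial).1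
      rw [hcard]
      exact Nat.one_lt_pow two_ne_zero hp.one_lt
    exact exists_ne (0 : Pt)
  obtain ⟨x₀, hx₀⟩ := hnt
  have hps : ¬ (p : ℤ) ∣ s := by
    intro hdvd
    have h0 : s • act g x₀ = 0 := by
      rw [S58H_zsmul_congr p hXp (a := s) (b := 0) (by simpa using hdvd), zero_smul]
    rw [hs] at h0
    exact hx₀ (S58H_zsmul_eq_zero p hXp he h0)
  have hcop : IsCoprime (p : ℤ) s :=
    (Prime.coprime_iff_not_dvd (Nat.prime_iff_prime_int.1 hp)).2 hps
  obtain ⟨a, b, hab⟩ := hcop
  refine ⟨b * (d - d'), fun x => ?_⟩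
  have : (a * (p : ℤ) + b * s) • act g x = (b * (d - d')) • x := by
    rw [add_smul, mul_smul, mul_smul, natCast_zsmul, hXp, smul_zero, zero_add, hs, mul_smul]
  rwa [hab, one_smul] at this

end main

end Fermat.Agent.S58
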