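import Mathlib

/-!
# S58 (conductor–level matching), package ODD (helper6) — prefix `S58O_`

Artin–Schreier-lite.  Let `C` be an algebraically closed field with `2 ≠ 0` and `c` a ring
endomorphism of `C` with `c ∘ c = id`, `c ≠ id`; `F = {x | c x = x}`.

* `S58O_neg_one_not_sq` : `-1` is not a square in `F`;
* `S58O_sum_two_sq`     : a sum of two squares of `F` is a square of `F`;
* `S58O_sum_sq`         : a finite sum of squares of `F` is a square of `F`;
* `S58O_root_fixed`     : a root of unity of odd order fixed by `c` is `1`;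
* `S58O_inv`            : **`c ζ = ζ⁻¹`** for every root of unity `ζ` of odd order;
* `S58O_inv_gal`        : the same for an involution `c ≠ 1` of `Gal(ℚ̄/ℚ)`
  (so the cyclotomic character of every such `c` is `-1`: the residual representations attached
  to an eigenform are ODD in the sense of the prelude).
-/

set_option autoImplicit false

namespace Fermat.Agent.S58

section abs

variable {C : Type*} [Field C] [IsAlgClosed C] (c : C →+* C) (hcc : ∀ x, c (c x) = x)
  (h2 : (2 : C) ≠ 0) (hne : ∃ x, c x ≠ x)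

include hcc h2 hne in
/-- `-1` is not a square in the fixed field. -/
theorem S58O_neg_one_not_sq : ¬ ∃ j, c j = j ∧ j ^ 2 = -1 := by
  rintro ⟨j, hj, hj2⟩
  obtain ⟨x, hx⟩ := hne
  set δ : C := x - c x with hδ
  have hδ0 : δ ≠ 0 := fun h => hx (sub_eq_zero.1 h).symm
  have hcδ : c δ = -δ := by
    rw [hδ, map_sub, hcc]
    ring
  obtain ⟨α, hα⟩ := IsAlgClosed.exists_pow_nat_eq δ (n := 2) (by norm_num)
  set N : C := α * c α with hN
  have hcN : c N = N := by
    rw [hN, map_mul, hcc]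
    ring
  have hN2 : N ^ 2 = -δ ^ 2 := by
    have : N ^ 2 = α ^ 2 * c (α ^ 2) := by
      rw [hN, map_pow]
      ring
    rw [this, hα, hcδ]
    ring
  -- `δ² = (j N)²`, so `δ = ± j N` is fixed by `c`
  have h3 : (δ - j * N) * (δ + j * N) = 0 := by
    have : (δ - j * N) * (δ + j * N) = δ ^ 2 - j ^ 2 * N ^ 2 := by ring
    rw [this, hj2, hN2]
    ring
  have hfix : c δ = δ := by
    rcases mul_eq_zero.1 h3 with h | h
    · have e : δ = j * N := sub_eq_zero.1 h
      rw [e, map_mul, hj, hcN]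
    · have e : δ = -(j * N) := eq_neg_of_add_eq_zero_left h
      rw [e, map_neg, map_mul, hj, hcN]
  rw [hcδ] at hfix
  have h4 : (2 : C) * δ = 0 := by linear_combination -hfix
  rcases mul_eq_zero.1 h4 with h | h
  · exact h2 h
  · exact hδ0 h

include hcc h2 hne in
/-- a sum of two squares of the fixed field is a square of the fixed field. -/
theorem S58O_sum_two_sq (a b : C) (ha : c a = a) (hb : c b = b) :
    ∃ s, c s = s ∧ s ^ 2 = a ^ 2 + b ^ 2 := by
  obtain ⟨i, hi⟩ := IsAlgClosed.exists_pow_nat_eq (-1 : C) (n := 2) (by norm_num)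
  have hci2 : (c i) ^ 2 = -1 := by rw [← map_pow, hi, map_neg, map_one]
  have hci : c i = -i := by
    have h3 : (c i - i) * (c i + i) = 0 := by
      have : (c i - i) * (c i + i) = (c i) ^ 2 - i ^ 2 := by ring
      rw [this, hci2, hi]
      ring
    rcases mul_eq_zero.1 h3 with h | h
    · exact absurd ⟨i, sub_eq_zero.1 h, hi⟩ (S58O_neg_one_not_sq c hcc h2 hne)
    · exact eq_neg_of_add_eq_zero_left h
  obtain ⟨w, hw⟩ := IsAlgClosed.exists_pow_nat_eq (a + b * i) (n := 2) (by norm_num)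
  refine ⟨w * c w, ?_, ?_⟩
  · rw [map_mul, hcc]
    ring
  · have : (w * c w) ^ 2 = w ^ 2 * c (w ^ 2) := by
      rw [map_pow]
      ring
    rw [this, hw, map_add, map_mul, ha, hb, hci]
    linear_combination (-(b ^ 2)) * hi

include hcc h2 hne in
/-- a finite sum of squares of the fixed field is a square of the fixed field. -/
theorem S58O_sum_sq (f : ℕ → C) (hf : ∀ k, c (f k) = f k) (n : ℕ) :
    ∃ s, c s = s ∧ s ^ 2 = ∑ k ∈ Finset.range n, f k ^ 2 := by
  induction n with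
  | zero => exact ⟨0, map_zero c, by simp⟩
  | succ n ih =>
    obtain ⟨s, hs, hs2⟩ := ih
    obtain ⟨t, ht, ht2⟩ := S58O_sum_two_sq c hcc h2 hne s (f n) hs (hf n)
    exact ⟨t, ht, by rw [ht2, hs2, Finset.sum_range_succ]⟩

include hcc h2 hne in
/-- a root of unity of odd order fixed by `c` is `1`. -/
theorem S58O_root_fixed {n : ℕ} (hn : Odd n) {ζ : C} (hζ : ζ ^ n = 1) (hfix : c ζ = ζ) :
    ζ = 1 := by
  by_contra hζ1
  obtain ⟨m, rfl⟩ := hn
  -- `η² = ζ`
  set η : C := ζ ^ (m + 1) with hη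
  have hη2 : η ^ 2 = ζ := by
    rw [hη, ← pow_mul]
    have : (m + 1) * 2 = (2 * m + 1) + 1 := by ring
    rw [this, pow_succ, hζ, one_mul]
  have hcη : c η = η := by rw [hη, map_pow, hfix]
  -- the geometric sum vanishes
  have hgeo : ∑ k ∈ Finset.range (2 * m + 1), ζ ^ k = 0 := by
    have h := mul_geom_sum ζ (2 * m + 1)
    rw [hζ, sub_self] at h
    rcases mul_eq_zero.1 h with h | h
    · exact absurd (sub_eq_zero.1 h) hζ1
    · exact h
  have hsum : ∑ k ∈ Finset.range (2 * m + 1), (η ^ k) ^ 2 = 0 := by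
    rw [← hgeo]
    refine Finset.sum_congr rfl fun k _ => ?_
    rw [← pow_mul, mul_comm, pow_mul, hη2]
  -- `-1 = Σ_{1 ≤ k} (η^k)²`
  rw [Finset.sum_range_succ'] at hsum
  obtain ⟨s, hs, hs2⟩ := S58O_sum_sq c hcc h2 hne (fun k => η ^ (k + 1))
    (fun k => by rw [map_pow, hcη]) (2 * m)
  apply S58O_neg_one_not_sq c hcc h2 hne
  refine ⟨s, hs, ?_⟩
  rw [hs2]
  simp only [pow_zero, one_pow] at hsum
  linear_combination hsum

include hcc h2 hne in
/-- **ODD**: an involution `c ≠ id` of an algebraically closed field inverts every root of unity of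
odd order. -/
theorem S58O_inv {n : ℕ} (hn : Odd n) {ζ : C} (hζ : ζ ^ n = 1) : c ζ = ζ⁻¹ := by
  have hn0 : n ≠ 0 := hn.pos.ne'
  have hζ0 : ζ ≠ 0 := by
    intro h
    rw [h, zero_pow hn0] at hζ
    exact zero_ne_one hζ
  have hu : ζ * c ζ = 1 := by
    apply S58O_root_fixed c hcc h2 hne hn
    · rw [mul_pow, ← map_pow, hζ, map_one, mul_one]
    · rw [map_mul, hcc, mul_comm]
  exact eq_inv_of_mul_eq_one_right hu

end abs

section gal

local notation "Ω" => AlgebraicClosure ℚ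

/-- **ODD for `Gal(ℚ̄/ℚ)`**: an involution `c ≠ 1` inverts every root of unity of odd order. -/
theorem S58O_inv_gal (c : Ω ≃ₐ[ℚ] Ω) (hc : c * c = 1) (hc1 : c ≠ 1) {n : ℕ} (hn : Odd n)
    {ζ : Ω} (hζ : ζ ^ n = 1) : c ζ = ζ⁻¹ := by
  have hcc : ∀ x, (c : Ω →+* Ω) ((c : Ω →+* Ω) x) = x := by
    intro x
    have := congrArg (fun σ : Ω ≃ₐ[ℚ] Ω => σ x) hc
    simpa using this
  have hne : ∃ x, (c : Ω →+* Ω) x ≠ x := by
    by_contra h
    apply hc1
    refine AlgEquiv.ext fun x => ?_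
    by_contra hx
    exact h ⟨x, hx⟩
  exact S58O_inv (c : Ω →+* Ω) hcc two_ne_zero hne hn hζ

/-- the cyclotomic exponent of an involution `c ≠ 1` is `-1`: if `c ζ = ζ ^ a` for a primitive
`n`-th root of unity `ζ`, `n` odd, then `a ≡ -1 mod n`. -/
theorem S58O_exponent (c : Ω ≃ₐ[ℚ] Ω) (hc : c * c = 1) (hc1 : c ≠ 1) {n : ℕ} (hn : Odd n)
    {ζ : Ω} (hζ : IsPrimitiveRoot ζ n) {a : ℕ} (ha : c ζ = ζ ^ a) :
    ((a : ZMod n)) = -1 := by
  have h1 := S58O_inv_gal c hc hc1 hn hζ.pow_eq_one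
  have hn0 : n ≠ 0 := hn.pos.ne'
  have hζ0 : ζ ≠ 0 := hζ.ne_zero hn0
  have h2 : ζ ^ (a + 1) = 1 := by
    rw [pow_succ, ← ha, h1, inv_mul_cancel₀ hζ0]
  have h3 : n ∣ a + 1 := (hζ.pow_eq_one_iff_dvd _).1 h2
  have h4 : ((a + 1 : ℕ) : ZMod n) = 0 := (ZMod.natCast_eq_zero_iff _ _).2 h3
  push_cast at h4
  exact eq_neg_of_add_eq_zero_left h4

end gal

end Fermat.Agent.S58
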