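import Fermat.Agent.S58.Defs
import Fermat.Agent.S58.Odd
import Fermat.Agent.S31.Lucas

/-!
# TRACK 12 (S58), package HRES, piece H1 (helper6) — prefix `S58HO_`

The ODD half of `S58D_THres`, from `S58D_TEres W p` (only the clauses "residual characteristic
polynomial" and "action on `μ_p`" are used) and the package ODD (`S58O_exponent`):

* `S58HO_det_neg_one` : `det ρ̄(c) = −1` for every involution `c ≠ 1` of `G_ℚ`;
* `S58HO_isOdd`       : `ρ.residual.IsOdd`.
-/

set_option autoImplicit false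
set_option linter.unusedSectionVars false
set_option linter.unusedVariables false
set_option linter.style.haveILetI false

open Polynomial
open scoped Pointwise

namespace Fermat.Agent.S58

open WeierstrassCurve Fermat.Agent.GalRep Fermat.Agent.S31

local notation "ℚbar" => AlgebraicClosure ℚ

/-- `det ρ̄(c) = −1` for every involution `c ≠ 1`. -/
theorem S58HO_det_neg_one (W : WeierstrassCurve ℤ) {p : ℕ} (hp : p.Prime) (hp2 : p ≠ 2)
    (hres : S58D_TEres W p)
    (O : Type) [CommRing O] [IsDomain O] [IsDiscreteValuationRing O]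
    [IsAdicComplete (IsLocalRing.maximalIdeal O) O] [CharZero O]
    (hpO : (p : O) ∈ IsLocalRing.maximalIdeal O) (ρ : GaloisRepAdic O) (T : Finset ℕ)
    (hAtt : S58D_Att W ρ T) (c : GQ) (hcc : c * c = 1) (hc1 : c ≠ 1) :
    LinearMap.det (ρ.residual.ρ c) = -1 := by
  obtain ⟨V, D, hch, -, hζ⟩ := hres O hpO ρ T hAtt c
  have hdet : LinearMap.det (ρ.residual.ρ c) = ((D : ℕ) : IsLocalRing.ResidueField O) :=
    LUC_det_of_charpoly ρ.residual.finrank_eq _ _ _ hch
  rw [hdet]
  haveI : NeZero ((p : ℕ) : ℚ) := ⟨Nat.cast_ne_zero.2 hp.ne_zero⟩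
  obtain ⟨ζ, hprim⟩ := HasEnoughRootsOfUnity.exists_primitiveRoot ℚbar p
  have hodd : Odd p := hp.odd_of_ne_two hp2
  have h1 : ((D : ℕ) : ZMod p) = -1 :=
    S58O_exponent c hcc hc1 hodd hprim (hζ ζ hprim.pow_eq_one)
  have h2 : (((D + 1 : ℕ)) : ZMod p) = 0 := by
    rw [Nat.cast_add, h1, Nat.cast_one, neg_add_cancel]
  have h3 : p ∣ D + 1 := (ZMod.natCast_eq_zero_iff _ _).1 h2
  have hpk : ((p : ℕ) : IsLocalRing.ResidueField O) = 0 := by
    have := (IsLocalRing.residue_eq_zero_iff (p : O)).2 hpO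
    rwa [map_natCast] at this
  obtain ⟨e, he⟩ := h3
  have h4 : (((D + 1 : ℕ)) : IsLocalRing.ResidueField O) = 0 := by
    rw [he, Nat.cast_mul, hpk, zero_mul]
  rw [Nat.cast_add, Nat.cast_one] at h4
  exact eq_neg_of_add_eq_zero_left h4

/-- **the ODD half of `S58D_THres`**. -/
theorem S58HO_isOdd (W : WeierstrassCurve ℤ) {p : ℕ} (hp : p.Prime) (hp2 : p ≠ 2)
    (hres : S58D_TEres W p)
    (O : Type) [CommRing O] [IsDomain O] [IsDiscreteValuationRing O]
    [IsAdicComplete (IsLocalRing.maximalIdeal O) O] [CharZero O]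
    (hpO : (p : O) ∈ IsLocalRing.maximalIdeal O) (ρ : GaloisRepAdic O) (T : Finset ℕ)
    (hAtt : S58D_Att W ρ T) : ρ.residual.IsOdd :=
  fun c hcc hc1 => S58HO_det_neg_one W hp hp2 hres O hpO ρ T hAtt c hcc hc1

end Fermat.Agent.S58
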