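import Fermat.Agent.S58.CompRes
import Fermat.Agent.S58.HresOdd
import Fermat.Agent.S58.HresAbs
import Fermat.Agent.S58.Conj
import Fermat.Agent.S41.NETransfer

/-!
# TRACK 12 (S58), package HRES, the concrete assembly (helper6) — prefix `S58HM_`

`S58HM_thres : p.Prime → p ≠ 2 → W.ModRepIsIrreducible p → W.Δ ≠ 0 → S58D_THres W p`

from the abstract core `S58H_absIrr` (helper27 / helper10), the bridge `S41NT_irr`, the target
`S58ER_teres` (E-res), the ODD half `S58HO_isOdd` and complex conjugation `S58CC_c`.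
-/

set_option autoImplicit false
set_option linter.unusedSectionVars false
set_option linter.unusedVariables false
set_option linter.style.haveILetI false

open Polynomial TensorProduct
open scoped Pointwise

namespace Fermat.Agent.S58

open WeierstrassCurve Fermat.Agent.Lib Fermat.Agent.GalRep Fermat.Agent.S41 Fermat.Agent.S31

local notation "ℚbar" => AlgebraicClosure ℚ

/-- the residue field has characteristic `p`. -/
theorem S58HM_charP {O : Type} [CommRing O] [IsLocalRing O] {p : ℕ} (hp : p.Prime)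
    (hpO : (p : O) ∈ IsLocalRing.maximalIdeal O) : CharP (IsLocalRing.ResidueField O) p := by
  have hpk : ((p : ℕ) : IsLocalRing.ResidueField O) = 0 := by
    have := (IsLocalRing.residue_eq_zero_iff (p : O)).2 hpO
    rwa [map_natCast] at this
  exact ringChar.of_eq (CharP.ringChar_of_prime_eq_zero hp hpk)

/-- the bridge: irreducibility of `W[p]` in the raw form of `S58H_absIrr`. -/
theorem S58HM_hirr (W : WeierstrassCurve ℤ) {p : ℕ} (hp : p.Prime)
    (hirr : W.ModRepIsIrreducible p) (hΔ : W.Δ ≠ 0) (Y : AddSubgroup (S58ER_K W p))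
    (hY : ∀ g : GQ, ∀ x ∈ Y, (S58ER_F W p g) x ∈ Y) : Y = ⊥ ∨ Y = ⊤ := by
  haveI : (W.map (Int.castRingHom ℚ)).IsElliptic :=
    ⟨by rw [WeierstrassCurve.map_Δ, eq_intCast]; exact IsUnit.mk0 _ (Int.cast_ne_zero.2 hΔ)⟩
  obtain ⟨-, hbr⟩ := S41NT_irr (W.map (Int.castRingHom ℚ)) (W := W) ⟨1, one_smul _ _⟩ hp hirr
  have hinj : Function.Injective (S58ER_K W p).subtype := Subtype.val_injective
  have hNp : ∀ P ∈ Y.map (S58ER_K W p).subtype, p • P = 0 := by
    rintro P ⟨y, -, rfl⟩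
    exact (S58ER_mem_K W p y.1).1 y.2
  have hNσ : ∀ σ : GQ, ∀ P ∈ Y.map (S58ER_K W p).subtype,
      σ • P ∈ Y.map (S58ER_K W p).subtype := by
    rintro σ P ⟨y, hy, rfl⟩
    exact ⟨(S58ER_F W p σ) y, hY σ y hy, rfl⟩
  rcases hbr (Y.map (S58ER_K W p).subtype) hNp hNσ with h | h
  · left
    exact (AddSubgroup.map_eq_bot_iff_of_injective Y hinj).1 h
  · right
    rw [eq_top_iff]
    intro y _
    obtain ⟨y', hy', e⟩ := h y.1 ((S58ER_mem_K W p y.1).1 y.2)
    have : y' = y := Subtype.ext e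
    rwa [this] at hy'

/-- **TARGET `S58D_THres`**. -/
theorem S58HM_thres (W : WeierstrassCurve ℤ) {p : ℕ} (hp : p.Prime) (hp2 : p ≠ 2)
    (hirr : W.ModRepIsIrreducible p) (hΔ : W.Δ ≠ 0) : S58D_THres W p := by
  intro O _ _ _ _ _ hpO ρ T hAtt
  have hres := S58ER_teres W hΔ hp hp2
  refine ⟨?_, S58HO_isOdd W hp hp2 hres O hpO ρ T hAtt⟩
  haveI : Fact p.Prime := ⟨hp⟩
  haveI : CharP (IsLocalRing.ResidueField O) p := S58HM_charP hp hpO
  intro U hU
  have hcard : Nat.card (S58ER_K W p) = p ^ 2 := S41NE_card_X W hΔ hp hp2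
  have hR : ∀ g : GQ, ∃ t d : ℤ, LinearMap.charpoly (ρ.residual.ρ g) =
      X ^ 2 - C ((t : ℤ) : IsLocalRing.ResidueField O) * X +
        C ((d : ℤ) : IsLocalRing.ResidueField O) ∧
      ∀ x : S58ER_K W p, (S58ER_F W p g) ((S58ER_F W p g) x) - t • (S58ER_F W p g) x + d • x = 0 := by
    intro g
    obtain ⟨V, D, hch, hrel, -⟩ := hres O hpO ρ T hAtt g
    refine ⟨V, (D : ℤ), ?_, fun x => ?_⟩
    · rw [Int.cast_natCast]
      exact hch
    · apply Subtype.ext
      rw [AddSubgroup.coe_add, AddSubgroup.coe_sub, AddSubgroup.coe_zsmul, AddSubgroup.coe_zsmul,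
        S58ER_F_apply, S58ER_F_apply]
      exact hrel x.1 ((S58ER_mem_K W p x.1).1 x.2)
  exact S58H_absIrr (G := GQ) (Pt := S58ER_K W p) (fun g x => (S58ER_F W p g) x)
    (fun x => Subtype.ext (S41NE_gsmul_one W x.1))
    (fun g h x => Subtype.ext (S41NE_gsmul_mul W g h x.1))
    (fun g x y => map_add (S58ER_F W p g) x y)
    (fun Y hY => S58HM_hirr W hp hirr hΔ Y hY)
    p hp2 (fun x => Subtype.ext ((S58ER_mem_K W p x.1).1 x.2)) hcard
    ρ.residual.finrank_eq ρ.residual.ρ hR S58CC_c S58CC_c_mul_self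
    (S58HO_det_neg_one W hp hp2 hres O hpO ρ T hAtt S58CC_c S58CC_c_mul_self S58CC_c_ne_one)
    (AlgebraicClosure (IsLocalRing.ResidueField O)) U hU

end Fermat.Agent.S58
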