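import Fermat.Agent.S58.Defs
import Fermat.Agent.GalRep.W1Eigen
import Fermat.Agent.GalRep.W1Alg
import Fermat.Agent.GalRep.CoefA
import Fermat.Agent.S22.Main

/-!
# TRACK 12 (S58), package COEF (helper22): the target `S58D_TCoef` — prefix `S58CF_`

`S58CF_TCoef : S58D_TCoef` (literal): for a normalised eigenform `g` of level `M`, any prime `λ`
and any finite `S ⊇ primes(M)`: the eigencharacter `chig` of the Hecke algebra away from `S`
(`GRW_eigenChar`), a complete DVR `O'` of characteristic zero with finite residue field and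
`λ ∈ 𝔪`, and an INJECTIVE ring hom `iota : chig.range → O'`.

Construction: `chig` factors through the ring of integers of a number field `E`
(`GRW_exists_numberField`, `e : E → ℂ`), `𝔭` a maximal ideal of `𝓞 E` containing `λ`,
`O'` the complete DVR of `GR_coefA` at `𝔭` (`ι : 𝓞 E → O'` injective, `ι⁻¹ 𝔪 = 𝔭`);
`iota := ι ∘ (e|_{𝓞 E})⁻¹` on `chig.range ⊆ e(𝓞 E)`.
-/

set_option autoImplicit false
set_option linter.unusedSectionVars false
set_option linter.unusedVariables false
set_option linter.style.haveILetI false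

open Polynomial CuspForm ModularFormClass CongruenceSubgroup NumberField

noncomputable section

namespace Fermat.Agent.S58

open Fermat.Agent.GalRep

/-- an injective ring hom `f : A → ℂ` whose range contains the subring `R` gives an injective
ring hom `R → A`, a section of `f`. -/
theorem S58CF_exists_section {A : Type} [CommRing A] (f : A →+* ℂ) (hf : Function.Injective f)
    (R : Subring ℂ) (hR : R ≤ f.range) :
    ∃ s : R →+* A, Function.Injective s ∧ ∀ x : R, f (s x) = (x : ℂ) := by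
  let E : A ≃+* f.range := RingEquiv.ofBijective f.rangeRestrict
    ⟨fun a b h => hf (congrArg Subtype.val h), f.rangeRestrict_surjective⟩
  refine ⟨(E.symm : f.range →+* A).comp (Subring.inclusion hR), ?_, ?_⟩
  · intro x y h
    have h1 : Subring.inclusion hR x = Subring.inclusion hR y := E.symm.injective h
    exact Subring.inclusion_injective hR h1
  · intro x
    have h1 : E (E.symm (Subring.inclusion hR x)) = Subring.inclusion hR x :=
      E.apply_symm_apply _
    exact congrArg Subtype.val h1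

/-- **COEF**: the target `S58D_TCoef`, literally. -/
theorem S58CF_TCoef : S58D_TCoef := by
  intro M _ g hg lam hlam S hMS
  haveI : Fact lam.Prime := ⟨hlam⟩
  have hMS' : ∀ q : ℕ, q.Prime → q ∣ M → q ∈ (↑S : Set ℕ) := fun q hq hqM =>
    Finset.mem_coe.mpr (hMS q hq hqM)
  refine ⟨GRW_eigenChar hg hMS', fun ℓ hℓ hℓM hℓS => GRW_eigenChar_T hg hMS' hℓ hℓM hℓS, ?_⟩
  haveI hfin : Module.Finite ℤ (CuspForm.heckeAlgebra M 2 (↑S : Set ℕ)) :=
    Fermat.Agent.S22.moduleFinite_heckeAlgebra M 2 _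
  obtain ⟨E, _, _, e, χ₁, hχ₁⟩ :=
    GRW_exists_numberField (GRW_eigenChar (S := (↑S : Set ℕ)) hg hMS')
  -- a maximal ideal of `𝓞 E` over `lam`
  have hne : Ideal.span {((lam : ℕ) : 𝓞 E)} ≠ ⊤ := by
    rw [Ne, Ideal.span_singleton_eq_top]
    intro hu
    have h1 : IsUnit ((lam : ℕ) : ℤ) := by
      have h2 : IsUnit (algebraMap ℤ (𝓞 E) ((lam : ℕ) : ℤ)) := by
        rw [map_natCast]
        exact hu
      have h3 : IsIntegral ℤ ((lam : ℕ) : ℤ) := isIntegral_algebraMap
      exact (isUnit_map_iff (algebraMap ℤ (𝓞 E)) _).1 h2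
    rw [Int.isUnit_iff] at h1
    have h4 := hlam.one_lt
    omega
  obtain ⟨𝔭, h𝔭, hle⟩ := Ideal.exists_le_maximal _ hne
  haveI := h𝔭
  have hlam𝔭 : ((lam : ℕ) : 𝓞 E) ∈ 𝔭 := hle (Ideal.mem_span_singleton_self _)
  obtain ⟨O', i1, i2, i3, i4, i5, i6, ι, hιinj, hιcomap⟩ := GR_coefA E 𝔭
  have hlamO' : ((lam : ℕ) : O') ∈ IsLocalRing.maximalIdeal O' := by
    have h1 : ((lam : ℕ) : 𝓞 E) ∈ (IsLocalRing.maximalIdeal O').comap ι := by
      rw [hιcomap]
      exact hlam𝔭
    simpa using h1
  refine ⟨O', i1, i2, i3, i4, i5, i6, hlamO', ?_⟩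
  -- the section
  have hf : Function.Injective (e.comp (algebraMap (𝓞 E) E)) :=
    e.injective.comp (FaithfulSMul.algebraMap_injective (𝓞 E) E)
  have hR : (GRW_eigenChar (S := (↑S : Set ℕ)) hg hMS').range ≤
      (e.comp (algebraMap (𝓞 E) E)).range := by
    rintro x ⟨T, rfl⟩
    exact ⟨χ₁ T, hχ₁ T⟩
  obtain ⟨s, hs, -⟩ := S58CF_exists_section (e.comp (algebraMap (𝓞 E) E)) hf _ hR
  exact ⟨ι.comp s, hιinj.comp hs⟩

end Fermat.Agent.S58
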