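import Mathlib
import Fermat.Agent.S31.Lucas

/-!
# TRACK 12 (S58), package E (helper24), part 1: algebra

* `S58E_quad_pow` : in a ring, `F² − T F + Q = 0` with `T` commuting with `F` implies
  `(F^m)² − V_m(T,Q) F^m + Q^m = 0` (`V_m` the Lucas sequence `LUC_V`).
* `S58E_rel_pow`  : the same for one vector `x` of a `ℤ`-module with an endomorphism `F` such that
  `F (F x) − a • F x + q • x = 0` at every vector of the orbit (relation given on an `F`-stable set).
* `S58E_trace_mem`, `S58E_trace_sub_mem`, `S58E_det_sub_mem` : congruences of trace and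
  determinant of endomorphisms of a free module of rank `2` which agree modulo `I`.
-/

set_option autoImplicit false
set_option linter.unusedSectionVars false
set_option linter.unusedVariables false
set_option linter.style.haveILetI false

namespace Fermat.Agent.S58

open Polynomial Fermat.Agent.S31

section Ring

variable {R : Type*} [Ring R]

/-- `F² − T F + Q = 0`, `T` commuting with `F` ⇒ `(F^m)² − V_m F^m + Q^m = 0`. -/
theorem S58E_quad_pow {F T Q : R} (hT : Commute T F) (hq : F ^ 2 - T * F + Q = 0) (m : ℕ) :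
    (F ^ m) ^ 2 - LUC_V T Q m * F ^ m + Q ^ m = 0 := by
  have hV := LUC_pow_add_pow_of_quadratic hT hq m
  have hc : Commute (T - F) F := (hT.sub_left (Commute.refl F))
  have hprod : (T - F) * F = Q := by
    have : (T - F) * F = -(F ^ 2 - T * F) := by
      rw [sub_mul, pow_two]; abel
    rw [this]
    have h2 : F ^ 2 - T * F = -Q := by
      rw [eq_neg_iff_add_eq_zero]; exact hq
    rw [h2, neg_neg]
  have hpow : (T - F) ^ m * F ^ m = Q ^ m := by
    rw [← hc.mul_pow, hprod]
  rw [← hV, add_mul, ← hpow, pow_two]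
  abel

end Ring

section Module

variable {G : Type*} [AddCommGroup G]

/-- the relation `F² − aF + q = 0` on a stable set `H` implies the relation
`F^{2m} − V_m F^m + q^m = 0` on `H`. -/
theorem S58E_rel_pow (F : AddMonoid.End G) (a q : ℤ) (H : AddSubgroup G)
    (hH : ∀ x ∈ H, F x ∈ H)
    (hrel : ∀ x ∈ H, F (F x) - a • F x + q • x = 0) (m : ℕ) :
    ∀ x ∈ H, (F ^ m) ((F ^ m) x) - LUC_V a q m • (F ^ m) x + q ^ m • x = 0 := by
  -- the restriction of `F` to `H`
  let f : AddMonoid.End H :=
    { toFun := fun x => ⟨F x, hH x x.2⟩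
      map_zero' := Subtype.ext (map_zero F)
      map_add' := fun x y => Subtype.ext (map_add F (x : G) (y : G)) }
  have hf : ∀ (k : ℕ) (x : H), (((f ^ k) x : H) : G) = (F ^ k) x := by
    intro k
    induction k with
    | zero => intro x; rfl
    | succ k ih =>
      intro x
      rw [pow_succ, pow_succ]
      show (((f ^ k) (f x) : H) : G) = (F ^ k) (F x)
      rw [ih]
      rfl
  have hcast : ∀ (n : ℤ) (x : H), (((n : AddMonoid.End H) x : H) : G) = n • (x : G) := by
    intro n x
    have h1 : (n : AddMonoid.End H) = n • (1 : AddMonoid.End H) := by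
      rw [zsmul_eq_mul, mul_one]
    rw [h1]
    show ((n • ((1 : AddMonoid.End H) x) : H) : G) = n • (x : G)
    rw [AddSubgroup.coe_zsmul]
    rfl
  have hq : f ^ 2 - (a : AddMonoid.End H) * f + (q : AddMonoid.End H) = 0 := by
    ext x
    show (((f ^ 2 - (a : AddMonoid.End H) * f + (q : AddMonoid.End H)) x : H) : G) = 0
    have h1 : (f ^ 2 - (a : AddMonoid.End H) * f + (q : AddMonoid.End H)) x
        = (f ^ 2) x - (a : AddMonoid.End H) (f x) + (q : AddMonoid.End H) x := rfl
    rw [h1, AddSubgroup.coe_add, AddSubgroup.coe_sub, hf, hcast, hcast]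
    exact hrel x x.2
  have hT : Commute (a : AddMonoid.End H) f := Int.cast_commute a f
  have key := S58E_quad_pow hT hq m
  have hV : LUC_V (a : AddMonoid.End H) (q : AddMonoid.End H) m
      = ((LUC_V a q m : ℤ) : AddMonoid.End H) := by
    have := LUC_V_map (Int.castRingHom (AddMonoid.End H)) a q m
    simpa using this.symm
  intro x hx
  have h2 : ((((f ^ m) ^ 2 - LUC_V (a : AddMonoid.End H) (q : AddMonoid.End H) m * f ^ m
      + (q : AddMonoid.End H) ^ m) ⟨x, hx⟩ : H) : G) = 0 := by
    rw [key]; rfl
  have h3 : ((f ^ m) ^ 2 - LUC_V (a : AddMonoid.End H) (q : AddMonoid.End H) m * f ^ m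
      + (q : AddMonoid.End H) ^ m) ⟨x, hx⟩
      = (f ^ m) ((f ^ m) ⟨x, hx⟩) - (LUC_V (a : AddMonoid.End H) (q : AddMonoid.End H) m)
          ((f ^ m) ⟨x, hx⟩) + ((q : AddMonoid.End H) ^ m) ⟨x, hx⟩ := by
    rw [pow_two]; rfl
  rw [h3, hV, ← Int.cast_pow, AddSubgroup.coe_add, AddSubgroup.coe_sub, hf, hf, hcast, hcast, hf]
    at h2
  exact h2

end Module

section Trace

variable {T V : Type*} [CommRing T] [AddCommGroup V] [Module T V] [Module.Free T V]
  [Module.Finite T V]

/-- an endomorphism with image in `I • V` has trace in `I`. -/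
theorem S58E_trace_mem (I : Ideal T) (Z : Module.End T V)
    (hZ : ∀ v, Z v ∈ I • (⊤ : Submodule T V)) : LinearMap.trace T V Z ∈ I := by
  classical
  let b := Module.Free.chooseBasis T V
  rw [LinearMap.trace_eq_matrix_trace T b Z, Matrix.trace]
  refine Ideal.sum_mem _ fun i _ => ?_
  rw [Matrix.diag_apply, LinearMap.toMatrix_apply]
  have h : ∀ x ∈ I • (⊤ : Submodule T V), b.repr x i ∈ I := by
    intro x hx
    refine Submodule.smul_induction_on hx ?_ ?_
    · intro a ha w _
      rw [map_smul, Finsupp.smul_apply, smul_eq_mul]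
      exact I.mul_mem_right _ ha
    · intro x y hx hy
      rw [map_add, Finsupp.add_apply]
      exact I.add_mem hx hy
  exact h _ (hZ _)

/-- endomorphisms preserve `I • V`. -/
theorem S58E_map_mem (I : Ideal T) (Y : Module.End T V) :
    ∀ x ∈ I • (⊤ : Submodule T V), Y x ∈ I • (⊤ : Submodule T V) := by
  intro x hx
  refine Submodule.smul_induction_on hx ?_ ?_
  · intro a ha w _
    rw [map_smul]
    exact Submodule.smul_mem_smul ha Submodule.mem_top
  · intro x y hx hy
    rw [map_add]
    exact Submodule.add_mem _ hx hy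

/-- congruent endomorphisms have congruent traces. -/
theorem S58E_trace_sub_mem (I : Ideal T) (X Y : Module.End T V)
    (h : ∀ v, X v - Y v ∈ I • (⊤ : Submodule T V)) :
    LinearMap.trace T V X - LinearMap.trace T V Y ∈ I := by
  rw [← map_sub]
  exact S58E_trace_mem I _ (fun v => by simpa using h v)

/-- congruent endomorphisms have congruent squares. -/
theorem S58E_sq_sub_mem (I : Ideal T) (X Y : Module.End T V)
    (h : ∀ v, X v - Y v ∈ I • (⊤ : Submodule T V)) :
    ∀ v, (X ^ 2) v - (Y ^ 2) v ∈ I • (⊤ : Submodule T V) := by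
  intro v
  have h1 : (X ^ 2) v - (Y ^ 2) v = X (X v - Y v) + (X (Y v) - Y (Y v)) := by
    rw [pow_two, pow_two, Module.End.mul_apply, Module.End.mul_apply, map_sub]
    abel
  rw [h1]
  exact Submodule.add_mem _ (S58E_map_mem I X _ (h v)) (h (Y v))

/-- congruent endomorphisms of a free module of rank `2` have congruent determinants
(`2` invertible). -/
theorem S58E_det_sub_mem [Nontrivial T] (hV : Module.finrank T V = 2) (I : Ideal T)
    (h2 : IsUnit (2 : T))
    (X Y : Module.End T V) (h : ∀ v, X v - Y v ∈ I • (⊤ : Submodule T V)) :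
    LinearMap.det X - LinearMap.det Y ∈ I := by
  have hX := LUC_trace_pow hV X 2
  have hY := LUC_trace_pow hV Y 2
  rw [LUC_V_two] at hX hY
  have h1 := S58E_trace_sub_mem I X Y h
  have h3 := S58E_trace_sub_mem I (X ^ 2) (Y ^ 2) (S58E_sq_sub_mem I X Y h)
  have key : (LinearMap.det X - LinearMap.det Y) * 2
      = (LinearMap.trace T V X - LinearMap.trace T V Y)
          * (LinearMap.trace T V X + LinearMap.trace T V Y)
        - (LinearMap.trace T V (X ^ 2) - LinearMap.trace T V (Y ^ 2)) := by
    rw [hX, hY]; ring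
  have h4 : (LinearMap.det X - LinearMap.det Y) * 2 ∈ I := by
    rw [key]
    exact I.sub_mem (I.mul_mem_right _ h1) h3
  obtain ⟨u, hu⟩ := h2
  have h5 : LinearMap.det X - LinearMap.det Y
      = (LinearMap.det X - LinearMap.det Y) * 2 * ((u⁻¹ : Tˣ) : T) := by
    rw [mul_assoc, ← hu, Units.mul_inv, mul_one]
  rw [h5]
  exact I.mul_mem_right _ h4

/-- congruent endomorphisms of a finite free module have congruent determinants. -/
theorem S58E_det_sub_mem_gen (I : Ideal T) (X Y : Module.End T V)
    (h : ∀ v, X v - Y v ∈ I • (⊤ : Submodule T V)) :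
    LinearMap.det X - LinearMap.det Y ∈ I := by
  classical
  let b := Module.Free.chooseBasis T V
  have hrepr : ∀ i, ∀ x ∈ I • (⊤ : Submodule T V), b.repr x i ∈ I := by
    intro i x hx
    refine Submodule.smul_induction_on hx ?_ ?_
    · intro a ha w _
      rw [map_smul, Finsupp.smul_apply, smul_eq_mul]
      exact I.mul_mem_right _ ha
    · intro x y hx hy
      rw [map_add, Finsupp.add_apply]
      exact I.add_mem hx hy
  rw [← LinearMap.det_toMatrix b X, ← LinearMap.det_toMatrix b Y,
    ← Ideal.Quotient.eq_zero_iff_mem, map_sub, sub_eq_zero, RingHom.map_det, RingHom.map_det]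
  congr 1
  ext i j
  rw [RingHom.mapMatrix_apply, RingHom.mapMatrix_apply, Matrix.map_apply, Matrix.map_apply,
    ← sub_eq_zero, ← map_sub, Ideal.Quotient.eq_zero_iff_mem, LinearMap.toMatrix_apply,
    LinearMap.toMatrix_apply, ← Finsupp.sub_apply, ← map_sub]
  exact hrepr i _ (h _)

end Trace

end Fermat.Agent.S58
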