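import Fermat.Agent.S58.Wire
import Fermat.Agent.S58.Rel
import Fermat.Prelude.Def_GaloisRep_Adic
import Fermat.Prelude.Def_GaloisRep_LocalConditions

/-!
# TRACK 12 (S58), the TARGETS of the packages (designer helper6) — prefix `S58D_`

`W : WeierstrassCurve ℤ`, points `P : (W.baseChange ℚ̄).toAffine.Point` with the Galois action of
`S41/NERed.lean` (as in `S58/Rel.lean`).  Every package proves its target LITERALLY
(`theorem … : S58D_T… W …`), possibly with the hypotheses listed in the doc-string.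

* `S58D_Att W ρ T`   : `ρ` has the Frobenius characteristic polynomials of `W` off the finite set `T`;
* `S58D_TOrd`        : (W1) points of exact order `λ^(n+1)`;
* `S58D_TFix`        : (W3') at the bad primes `q ≠ p`: one inertia-fixed point of exact order;
* `S58D_TEunip`, `S58D_TEfrob`, `S58D_TEres` : the three outputs of the comparison (E);
* `S58D_THres`       : `hres` of S36;
* `S58D_TCount`      : `a_q(W) ≠ ±(q + 1)`;
* `S58D_TCoef`       : the entry data of S35 / S36 (`chig`, `O'`, `iota` injective).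
-/

set_option autoImplicit false

open Polynomial
open scoped Pointwise

namespace Fermat.Agent.S58

open WeierstrassCurve Fermat.Agent.GalRep

local notation "ℚbar" => AlgebraicClosure ℚ

/-- `ρ` is **attached to `W` off `T`**: `charpoly ρ(σ) = X² − a_ℓ(W) X + ℓ` for every Frobenius
element `σ` at every prime `ℓ ∉ T`. -/
def S58D_Att (W : WeierstrassCurve ℤ) {O : Type} [CommRing O] [IsLocalRing O]
    (ρ : GaloisRepAdic O) (T : Finset ℕ) : Prop :=
  ∀ ℓ : ℕ, ℓ.Prime → ℓ ∉ T → ∀ A : ValuationSubring ℚbar, A.LiesOverPrime ℓ →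
    ∀ σ : GQ, A.IsFrobeniusAt σ ℓ →
      LinearMap.charpoly (ρ.ρ σ) = X ^ 2 - C (((W.apOfModel ℓ : ℤ) : O)) * X + C ((ℓ : O))

/-- (W1) [helper20; hypothesis `W.Δ ≠ 0`]: points of exact order `λ^(n+1)`. -/
def S58D_TOrd (W : WeierstrassCurve ℤ) : Prop :=
  ∀ lam : ℕ, lam.Prime → ∀ n : ℕ, ∃ x : (W.baseChange ℚbar).toAffine.Point,
    lam ^ (n + 1) • x = 0 ∧ lam ^ n • x ≠ 0

/-- (W3') [U-mult: helper9, helper7, helper12, helper14; hypothesis `W.IsSemistableModel`]:
at a BAD prime `q ≠ p` every inertia element fixes a point of exact order `p^(n+1)`. -/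
def S58D_TFix (W : WeierstrassCurve ℤ) (p : ℕ) : Prop :=
  ∀ q : ℕ, q.Prime → q ≠ p → (q : ℤ) ∣ W.Δ → ∀ A : ValuationSubring ℚbar, A.LiesOverPrime q →
    ∀ τ : GQ, τ ∈ A.inertiaSubgroupIn ℚ → ∀ n : ℕ,
      ∃ x : (W.baseChange ℚbar).toAffine.Point, p ^ (n + 1) • x = 0 ∧ p ^ n • x ≠ 0 ∧ τ • x = x

/-- (E-unip) [helper24; hypotheses `W.Δ ≠ 0`, `S58D_TOrd W`, `S58D_TFix W p`]: a representation
attached to `W` off a finite set, over a complete DVR of residue characteristic `p`, is unipotent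
on inertia at every prime `q ≠ p`. -/
def S58D_TEunip (W : WeierstrassCurve ℤ) (p : ℕ) : Prop :=
  ∀ (O : Type) [CommRing O] [IsDomain O] [IsDiscreteValuationRing O]
    [IsAdicComplete (IsLocalRing.maximalIdeal O) O] [CharZero O],
    (p : O) ∈ IsLocalRing.maximalIdeal O → ∀ (ρ : GaloisRepAdic O) (T : Finset ℕ),
      S58D_Att W ρ T → ∀ q : ℕ, q.Prime → q ≠ p → ρ.IsUnipotentOnInertiaAt q

/-- (E-frob) [helper24; hypotheses `W.Δ ≠ 0`, `S58D_TOrd W`]: a representation attached to `W`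
off a finite set `T`, residue characteristic `lam`, has the Frobenius characteristic polynomial
of `W` at EVERY good prime `q ≠ lam` (also for `q ∈ T`). -/
def S58D_TEfrob (W : WeierstrassCurve ℤ) : Prop :=
  ∀ (lam : ℕ), lam.Prime → ∀ (O : Type) [CommRing O] [IsDomain O] [IsDiscreteValuationRing O]
    [IsAdicComplete (IsLocalRing.maximalIdeal O) O] [CharZero O],
    (lam : O) ∈ IsLocalRing.maximalIdeal O → ∀ (ρ : GaloisRepAdic O) (T : Finset ℕ),
      S58D_Att W ρ T → ∀ q : ℕ, q.Prime → q ≠ lam → ¬ (q : ℤ) ∣ W.Δ →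
        ∀ A : ValuationSubring ℚbar, A.LiesOverPrime q → ∀ σ : GQ, A.IsFrobeniusAt σ q →
          LinearMap.charpoly (ρ.ρ σ) = X ^ 2 - C (((W.apOfModel q : ℤ) : O)) * X + C ((q : O))

/-- (E-res) [helper24; hypothesis `W.Δ ≠ 0`]: for every `g` the residual characteristic
polynomial is `X² − V X + D` with integers `V`, `D` such that `g² − V g + D = 0` on `W[p]` and
`g ζ = ζ ^ D` on the `p`-th roots of unity. -/
def S58D_TEres (W : WeierstrassCurve ℤ) (p : ℕ) : Prop :=
  ∀ (O : Type) [CommRing O] [IsDomain O] [IsDiscreteValuationRing O]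
    [IsAdicComplete (IsLocalRing.maximalIdeal O) O] [CharZero O],
    (p : O) ∈ IsLocalRing.maximalIdeal O → ∀ (ρ : GaloisRepAdic O) (T : Finset ℕ),
      S58D_Att W ρ T → ∀ g : GQ, ∃ (V : ℤ) (D : ℕ),
        LinearMap.charpoly (ρ.residual.ρ g) =
          X ^ 2 - C ((V : IsLocalRing.ResidueField O)) * X + C ((D : IsLocalRing.ResidueField O)) ∧
        (∀ P : (W.baseChange ℚbar).toAffine.Point, p • P = 0 →
          g • g • P - V • g • P + (D : ℤ) • P = 0) ∧
        ∀ ζ : ℚbar, ζ ^ p = 1 → g ζ = ζ ^ D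

/-- (HRES) [helper10 + helper27 (abstract core), helper8 (KOL), CC; hypotheses `p ≠ 2`,
`W.ModRepIsIrreducible p`, `S58D_TEres W p`]: `hres` of S36. -/
def S58D_THres (W : WeierstrassCurve ℤ) (p : ℕ) : Prop :=
  ∀ (O : Type) [CommRing O] [IsDomain O] [IsDiscreteValuationRing O]
    [IsAdicComplete (IsLocalRing.maximalIdeal O) O] [CharZero O],
    (p : O) ∈ IsLocalRing.maximalIdeal O → ∀ (ρ : GaloisRepAdic O) (T : Finset ℕ),
      S58D_Att W ρ T → ρ.residual.IsAbsolutelyIrreducible ∧ ρ.residual.IsOdd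

/-- (F-COUNT) [helper1]: `a_q(W) ≠ ±(q + 1)`. -/
def S58D_TCount (W : WeierstrassCurve ℤ) : Prop :=
  ∀ q : ℕ, q.Prime → W.apOfModel q ≠ (q : ℤ) + 1 ∧ W.apOfModel q ≠ -((q : ℤ) + 1)

/-- (COEF) [helper22, helper11, helper29, helper18]: the entry data of S35 / S36 for a normalised
eigenform, ANY prime `lam` and ANY finite `S ⊇ primes(M)`: the eigencharacter `chig` and an
INJECTIVE `iota` into a complete DVR of residue characteristic `lam`. -/
def S58D_TCoef : Prop :=
  ∀ (M : ℕ) [NeZero M] (g : CuspForm (CongruenceSubgroup.Gamma0 M) 2), g.IsNormalizedEigenform →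
    ∀ (lam : ℕ), lam.Prime → ∀ S : Finset ℕ, (∀ q : ℕ, q.Prime → q ∣ M → q ∈ S) →
      ∃ chig : CuspForm.heckeAlgebra M 2 (↑S : Set ℕ) →+* ℂ,
        (∀ (ℓ : ℕ) (hℓ : ℓ.Prime) (hℓM : ¬ ℓ ∣ M) (hℓS : ℓ ∉ (↑S : Set ℕ)),
          chig (CuspForm.heckeAlgebra.T hℓ hℓM hℓS) = ModularFormClass.qCoeff g ℓ) ∧
        ∃ (O' : Type) (_ : CommRing O') (_ : IsDomain O') (_ : IsDiscreteValuationRing O')
          (_ : IsAdicComplete (IsLocalRing.maximalIdeal O') O')
          (_ : Finite (IsLocalRing.ResidueField O')) (_ : CharZero O'),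
          (lam : O') ∈ IsLocalRing.maximalIdeal O' ∧
          ∃ iota : chig.range →+* O', Function.Injective iota

end Fermat.Agent.S58
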