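import Mathlib
import Fermat.Agent.S58.CompAlg
import Fermat.Agent.S41.NEFde
import Fermat.Agent.S41.NERed
import Fermat.Agent.S41.NERoots
import Fermat.Agent.S41.NEAct
import Fermat.Agent.S41.NEUnip
import Fermat.Prelude.Def_GaloisRep_Adic
import Fermat.Agent.GalRep.Cyc
import Fermat.Agent.S58.Fin
import Fermat.Agent.S58.Defs

/-!
# TRACK 12 (S58), package E (helper24): COMPARISON

`ρ` a `GaloisRepAdic O` attached to `W` off a finite set `S` (`S58D_Att W ρ S`); `W` an integral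
Weierstrass curve with `Δ ≠ 0`; `p` a prime (also `p = 2`) lying in the maximal ideal of `O`.

* `S58E_es`       : Eichler–Shimura relation `σ² − a_ℓ σ + ℓ = 0` on `W[p^k](ℚ̄)` (`ℓ ∤ pΔ`).
* `S58E_gen`      : for every `g ∈ G_ℚ`, `n`, every finite set `Ps` of points killed by `p^n` and every
  primitive `p^n`-th root of unity `ζ` there are `t : ℤ`, `d : ℕ` with
  `tr ρ(g) ≡ t`, `det ρ(g) ≡ d` mod `𝔪^n`, `g² − t g + d = 0` on `Ps` and `g ζ = ζ^d`.
* `S58E_charpoly` : if for every `n` the element `g` satisfies `g² − t g + d = 0` at ONE point of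
  exact order `p^(n+1)` and `g ζ = ζ^d` for one primitive `p^(n+1)`-th root of unity, then
  `charpoly ρ(g) = X² − t X + d`.
* `S58E_inertia_zeta` : inertia at `q` fixes the roots of unity of order prime to `q`.
* `S58E_unip`, `S58E_frob`, `S58E_res` : the three applications.
* **`S58E_TEfrob`, `S58E_TEunip`, `S58E_TEres`** : the targets `S58D_TEfrob W`, `S58D_TEunip W p`,
  `S58D_TEres W p` of `S58/Defs.lean`, literally.
-/

set_option autoImplicit false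
set_option linter.unusedSectionVars false
set_option linter.unusedVariables false
set_option linter.style.haveILetI false

open scoped Pointwise

namespace Fermat.Agent.S58

open WeierstrassCurve Polynomial Fermat.Agent.Lib Fermat.Agent.GalRep Fermat.Agent.S31
  Fermat.Agent.S41 Fermat.Agent.S05 Fermat.Agent.S51 Fermat.Agent.S18

local notation "ℚbar" => AlgebraicClosure ℚ

section es

variable (W : WeierstrassCurve ℤ) {ℓ : ℕ} (A : ValuationSubring ℚbar)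

/-- **Eichler–Shimura relation for `W` at level `p^k`**. -/
theorem S58E_es (hℓ : ℓ.Prime) (hA : A.LiesOverPrime ℓ) (hgood : ¬ (ℓ : ℤ) ∣ W.Δ) {p : ℕ}
    (hp : p.Prime) (hℓp : ℓ ≠ p) (k : ℕ) (σ : GQ) (hσ : A.IsFrobeniusAt σ ℓ)
    (P : (W.baseChange ℚbar).toAffine.Point) (hP : p ^ k • P = 0) :
    σ • σ • P - W.apOfModel ℓ • σ • P + (ℓ : ℤ) • P = 0 := by
  classical
  haveI : Fact ℓ.Prime := ⟨hℓ⟩
  haveI : CharP (IsLocalRing.ResidueField A) ℓ := S18_residue_charP A ℓ hℓ hA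
  letI : Algebra (ZMod ℓ) (IsLocalRing.ResidueField A) := ZMod.algebra _ ℓ
  haveI : IsAlgClosed (IsLocalRing.ResidueField A) := S18_residue_isAlgClosed A
  obtain ⟨red, hker, hfrob⟩ := S41NE_red W A hA hgood
  set Q : (W.baseChange ℚbar).toAffine.Point :=
    σ • σ • P - W.apOfModel ℓ • σ • P + (ℓ : ℤ) • P with hQ
  have hpQ : p ^ k • Q = 0 := by
    have h1 : p ^ k • (σ • P) = 0 := by
      rw [← S41NE_gsmul_nsmul, hP, S41NE_gsmul_zero]
    have h2 : p ^ k • (σ • σ • P) = 0 := by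
      rw [← S41NE_gsmul_nsmul, h1, S41NE_gsmul_zero]
    have h1' : ((p ^ k : ℕ) : ℤ) • (σ • P) = 0 := by rw [natCast_zsmul, h1]
    have h2' : ((p ^ k : ℕ) : ℤ) • (σ • σ • P) = 0 := by rw [natCast_zsmul, h2]
    have hP' : ((p ^ k : ℕ) : ℤ) • P = 0 := by rw [natCast_zsmul, hP]
    rw [← natCast_zsmul, hQ, zsmul_add, zsmul_sub, h2',
      smul_comm ((p ^ k : ℕ) : ℤ) (W.apOfModel ℓ), h1',
      zsmul_zero, sub_zero, zero_add, smul_comm ((p ^ k : ℕ) : ℤ) (ℓ : ℤ), hP', zsmul_zero]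
  have hredQ : red Q = 0 := by
    rw [hQ, map_add, map_sub, map_zsmul, map_zsmul, hfrob σ hσ, hfrob σ hσ]
    exact ft_TR ℓ (W.reductionMod ℓ) (S41NE_reductionMod_Δ_ne_zero W hℓ hgood) _ (red P)
  have hv : A.valuation ((p ^ k : ℕ) : ℚbar) = 1 := by
    rw [Nat.cast_pow, map_pow, S41NE_valuation_prime A hℓ hA hp hℓp, one_pow]
  exact S05_eq_zero_of_inE1_gen A (S41NE_integral W A) (hker Q hredQ) hv hpQ

end es

section act

variable (W : WeierstrassCurve ℤ)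

/-- the action of `σ` on `W(ℚ̄)` as an additive endomorphism. -/
noncomputable def S58E_act (σ : GQ) : AddMonoid.End (W.baseChange ℚbar).toAffine.Point :=
  { toFun := fun P => σ • P
    map_zero' := S41NE_gsmul_zero W σ
    map_add' := S41NE_gsmul_add W σ }

lemma S58E_act_apply (σ : GQ) (P : (W.baseChange ℚbar).toAffine.Point) :
    S58E_act W σ P = σ • P := rfl

lemma S58E_act_pow (σ : GQ) (m : ℕ) (P : (W.baseChange ℚbar).toAffine.Point) :
    (S58E_act W σ ^ m) P = (σ ^ m) • P := by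
  induction m generalizing P with
  | zero =>
    rw [pow_zero, pow_zero, S41NE_gsmul_one]
    rfl
  | succ m ih =>
    rw [pow_succ, pow_succ, S41NE_gsmul_mul]
    show (S58E_act W σ ^ m) (S58E_act W σ P) = _
    rw [ih]
    rfl

/-- automorphisms which agree on the coordinates of `P` act in the same way on `P`. -/
lemma S58E_smul_eq_of_agree (g g' : GQ) (P : (W.baseChange ℚbar).toAffine.Point)
    (h : ∀ z ∈ S41NE_coords W P, g z = g' z) : g • P = g' • P := by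
  rcases P with _ | ⟨x, y, hxy⟩
  · rfl
  · have hx : g x = g' x := h x (Or.inl rfl)
    have hy : g y = g' y := h y (Or.inr rfl)
    show Affine.Point.map (W' := W.toAffine) g.toAlgHom (Affine.Point.some x y hxy) =
      Affine.Point.map (W' := W.toAffine) g'.toAlgHom (Affine.Point.some x y hxy)
    rw [Affine.Point.map_some, Affine.Point.map_some]
    exact S41NE_some_eq' _ _ hx hy

/-- the points killed by `N`. -/
noncomputable def S58E_tors (N : ℕ) : AddSubgroup (W.baseChange ℚbar).toAffine.Point :=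
  (nsmulAddMonoidHom N : (W.baseChange ℚbar).toAffine.Point →+ _).ker

lemma S58E_mem_tors {N : ℕ} {P : (W.baseChange ℚbar).toAffine.Point} :
    P ∈ S58E_tors W N ↔ N • P = 0 := by
  rw [S58E_tors, AddMonoidHom.mem_ker]
  rfl

/-- **Frobenius powers** satisfy the Lucas relation on `W[p^k]`. -/
theorem S58E_es_pow {ℓ : ℕ} (A : ValuationSubring ℚbar) (hℓ : ℓ.Prime) (hA : A.LiesOverPrime ℓ)
    (hgood : ¬ (ℓ : ℤ) ∣ W.Δ) {p : ℕ} (hp : p.Prime) (hℓp : ℓ ≠ p) (k : ℕ) (σ : GQ)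
    (hσ : A.IsFrobeniusAt σ ℓ) (m : ℕ)
    (P : (W.baseChange ℚbar).toAffine.Point) (hP : p ^ k • P = 0) :
    (σ ^ m) • (σ ^ m) • P - LUC_V (W.apOfModel ℓ) (ℓ : ℤ) m • (σ ^ m) • P
      + (ℓ : ℤ) ^ m • P = 0 := by
  have key := S58E_rel_pow (S58E_act W σ) (W.apOfModel ℓ) (ℓ : ℤ) (S58E_tors W (p ^ k))
    (fun x hx => by
      rw [S58E_mem_tors] at hx ⊢
      show p ^ k • (σ • x) = 0
      rw [← S41NE_gsmul_nsmul, hx, S41NE_gsmul_zero])
    (fun x hx => by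
      rw [S58E_mem_tors] at hx
      exact S58E_es W A hℓ hA hgood hp hℓp k σ hσ x hx) m P ((S58E_mem_tors W).2 hP)
  rw [S58E_act_pow, S58E_act_pow] at key
  exact key

end act

section gen

variable {O : Type} [CommRing O] [IsLocalRing O]

variable (ρ : GaloisRepAdic O) (W : WeierstrassCurve ℤ)

/-- **(E-gen)**: every `g ∈ G_ℚ` is, to any precision, a power of a Frobenius element at a good
prime, simultaneously for `ρ`, for finitely many points of `W[p^n]` and for `μ_{p^n}`. -/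
theorem S58E_gen (hΔ : W.Δ ≠ 0) {p : ℕ} (hp : p.Prime)
    (hpO : (p : O) ∈ IsLocalRing.maximalIdeal O) (S : Finset ℕ)
    (hρ : S58D_Att W ρ S)
    (g : GQ) (n : ℕ) (Ps : Finset (W.baseChange ℚbar).toAffine.Point)
    (hPs : ∀ P ∈ Ps, p ^ n • P = 0) (ζ : ℚbar) (hζ : IsPrimitiveRoot ζ (p ^ n)) :
    ∃ (t : ℤ) (d : ℕ),
      LinearMap.trace O ρ.V (ρ.ρ g) - (t : O) ∈ IsLocalRing.maximalIdeal O ^ n ∧
      LinearMap.det (ρ.ρ g) - (d : O) ∈ IsLocalRing.maximalIdeal O ^ n ∧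
      (∀ P ∈ Ps, g • g • P - t • g • P + (d : ℤ) • P = 0) ∧ g ζ = ζ ^ d := by
  classical
  -- the field
  obtain ⟨Lρ, hLρfin, hLρ⟩ := ρ.isAdicContinuous n
  haveI := hLρfin
  set gens : Set ℚbar :=
    (⋃ P ∈ Ps, (S41NE_coords W P ∪ S41NE_coords W (g • P))) ∪ {ζ} with hgens
  have hgfin : gens.Finite := by
    refine Set.Finite.union ?_ (Set.finite_singleton ζ)
    refine Set.Finite.biUnion Ps.finite_toSet fun P _ => ?_
    exact (S41NE_coords_finite W P).union (S41NE_coords_finite W (g • P))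
  set L₁ : IntermediateField ℚ ℚbar := IntermediateField.adjoin ℚ gens with hL₁
  haveI : FiniteDimensional ℚ L₁ := by
    haveI : Finite gens := hgfin.to_subtype
    exact IntermediateField.finiteDimensional_adjoin
      (fun x _ => (AlgebraicClosure.isAlgebraic ℚ).isIntegral.isIntegral x)
  haveI : FiniteDimensional ℚ (L₁ ⊔ Lρ : IntermediateField ℚ ℚbar) :=
    IntermediateField.finiteDimensional_sup L₁ Lρ
  -- the finite set of excluded primes
  set T : Finset ℕ := S ∪ {p} ∪ W.Δ.natAbs.primeFactors with hT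
  obtain ⟨ℓ, σ, m, m', hℓ, hℓT, ⟨A, hA, hσA⟩, hgσ, -⟩ :=
    S41NE_fde g (L₁ ⊔ Lρ) T
  have hℓS : ℓ ∉ S := fun h => hℓT (by rw [hT]; simp [h])
  have hℓp : ℓ ≠ p := fun h => hℓT (by rw [hT]; simp [h])
  have hgood : ¬ (ℓ : ℤ) ∣ W.Δ := by
    intro h
    apply hℓT
    rw [hT]
    refine Finset.mem_union_right _ ?_
    rw [Nat.mem_primeFactors]
    refine ⟨hℓ, ?_, Int.natAbs_ne_zero.2 hΔ⟩
    have := Int.natAbs_dvd_natAbs.2 h
    simpa using this
  have hagree₁ : ∀ z ∈ gens, g z = (σ ^ m) z := fun z hz =>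
    hgσ z ((le_sup_left : L₁ ≤ L₁ ⊔ Lρ) (IntermediateField.subset_adjoin ℚ _ hz))
  have hagreeρ : ∀ z ∈ Lρ, g z = (σ ^ m) z := fun z hz =>
    hgσ z ((le_sup_right : Lρ ≤ L₁ ⊔ Lρ) hz)
  -- the representation
  have hchar := hρ ℓ hℓ hℓS A hA σ hσA
  have hV := ρ.finrank_eq
  have htr : LinearMap.trace O ρ.V (ρ.ρ (σ ^ m)) = ((LUC_V (W.apOfModel ℓ) (ℓ : ℤ) m : ℤ) : O) := by
    rw [map_pow, LUC_trace_pow_of_charpoly hV _ _ _ hchar m]
    have := LUC_V_map (Int.castRingHom O) (W.apOfModel ℓ) (ℓ : ℤ) m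
    rw [eq_intCast, eq_intCast, eq_intCast, Int.cast_natCast] at this
    exact this.symm
  have hdet : LinearMap.det (ρ.ρ (σ ^ m)) = ((ℓ ^ m : ℕ) : O) := by
    rw [map_pow, map_pow, LUC_det_of_charpoly hV _ _ _ hchar, Nat.cast_pow]
  have hcong : ∀ v : ρ.V, ρ.ρ g v - ρ.ρ (σ ^ m) v
      ∈ (IsLocalRing.maximalIdeal O ^ n) • (⊤ : Submodule O ρ.V) := by
    intro v
    have hu : ∀ x ∈ Lρ, ((σ ^ m)⁻¹ * g) x = x := by
      intro x hx
      show (σ ^ m)⁻¹ (g x) = x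
      rw [hagreeρ x hx]
      show ((σ ^ m)⁻¹ * (σ ^ m)) x = x
      rw [inv_mul_cancel]
      rfl
    have h1 := hLρ ((σ ^ m)⁻¹ * g) hu v
    have h2 : ρ.ρ g v - ρ.ρ (σ ^ m) v = ρ.ρ (σ ^ m) (ρ.ρ ((σ ^ m)⁻¹ * g) v - v) := by
      rw [map_sub, ← Module.End.mul_apply, ← map_mul, mul_inv_cancel_left]
    rw [h2]
    exact S58E_map_mem _ _ _ h1
  refine ⟨LUC_V (W.apOfModel ℓ) (ℓ : ℤ) m, ℓ ^ m, ?_, ?_, ?_, ?_⟩
  · rw [← htr]
    exact S58E_trace_sub_mem _ _ _ hcong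
  · rw [← hdet]
    exact S58E_det_sub_mem_gen _ _ _ hcong
  · intro P hP
    have e1 : g • P = (σ ^ m) • P :=
      S58E_smul_eq_of_agree W g (σ ^ m) P (fun z hz => hagree₁ z (by
        rw [hgens]
        exact Or.inl (Set.mem_biUnion hP (Or.inl hz))))
    have e2 : g • g • P = (σ ^ m) • g • P :=
      S58E_smul_eq_of_agree W g (σ ^ m) (g • P) (fun z hz => hagree₁ z (by
        rw [hgens]
        exact Or.inl (Set.mem_biUnion hP (Or.inr hz))))
    rw [e2, e1]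
    have := S58E_es_pow W A hℓ hA hgood hp hℓp n σ hσA m P (hPs P hP)
    rw [Nat.cast_pow]
    exact this
  · have hn : 0 < p ^ n := pow_pos hp.pos n
    have hℓn : ¬ ℓ ∣ p ^ n := by
      intro h
      exact hℓp ((Nat.prime_dvd_prime_iff_eq hℓ hp).1 (hℓ.dvd_of_dvd_pow h))
    have h1 : σ ζ = ζ ^ ℓ := S41NE_zeta_frob hζ hn hℓ hℓn A hA σ hσA
    rw [hagree₁ ζ (by rw [hgens]; exact Or.inr rfl)]
    exact S41NE_pow_apply_zeta σ h1 m

/-- `g • P = 0 → P = 0`. -/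
lemma S58E_gsmul_eq_zero (g : GQ) {P : (W.baseChange ℚbar).toAffine.Point} (h : g • P = 0) :
    P = 0 := by
  have h1 : g⁻¹ • g • P = P := by
    rw [← S41NE_gsmul_mul, inv_mul_cancel, S41NE_gsmul_one]
  rw [← h1, h, S41NE_gsmul_zero]

/-- **(E-charpoly)**: if for every `n` the element `g` satisfies `g² − t g + d = 0` at one point
of exact order `p^(n+1)` and `g ζ = ζ^d` for one primitive `p^(n+1)`-th root of unity, then
`charpoly ρ(g) = X² − t X + d`. -/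
theorem S58E_charpoly [IsNoetherianRing O] (hΔ : W.Δ ≠ 0) {p : ℕ} (hp : p.Prime)
    (hpO : (p : O) ∈ IsLocalRing.maximalIdeal O) (S : Finset ℕ)
    (hρ : S58D_Att W ρ S)
    (g : GQ) (t : ℤ) (d : ℕ)
    (hx : ∀ n : ℕ, ∃ (x : (W.baseChange ℚbar).toAffine.Point) (ζ : ℚbar),
      p ^ (n + 1) • x = 0 ∧ p ^ n • x ≠ 0 ∧ IsPrimitiveRoot ζ (p ^ (n + 1)) ∧
        g • g • x - t • g • x + (d : ℤ) • x = 0 ∧ g ζ = ζ ^ d) :
    LinearMap.charpoly (ρ.ρ g) = X ^ 2 - C (t : O) * X + C (d : O) := by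
  classical
  haveI : Fact p.Prime := ⟨hp⟩
  have hpow : ∀ (n : ℕ) (c : ℤ), ((p ^ (n + 1) : ℕ) : ℤ) ∣ c →
      (c : O) ∈ IsLocalRing.maximalIdeal O ^ (n + 1) := by
    intro n c hc
    obtain ⟨e, rfl⟩ := hc
    push_cast
    exact Ideal.mul_mem_right _ _ (Ideal.pow_mem_pow hpO (n + 1))
  have key : ∀ n : ℕ,
      LinearMap.trace O ρ.V (ρ.ρ g) - (t : O) ∈ IsLocalRing.maximalIdeal O ^ (n + 1) ∧
      LinearMap.det (ρ.ρ g) - (d : O) ∈ IsLocalRing.maximalIdeal O ^ (n + 1) := by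
    intro n
    obtain ⟨x, ζ, hx1, hx2, hζ, hrel, hgζ⟩ := hx n
    obtain ⟨t₁, d₁, h1, h2, h3, h4⟩ :=
      S58E_gen ρ W hΔ hp hpO S hρ g (n + 1) {x} (by
        intro P hP
        rw [Finset.mem_singleton] at hP
        rw [hP]; exact hx1) ζ hζ
    have h3x := h3 x (Finset.mem_singleton_self x)
    -- `d₁ ≡ d`
    have hd : ((p ^ (n + 1) : ℕ) : ℤ) ∣ (d₁ : ℤ) - d := by
      rw [← hζ.zpow_eq_one_iff_dvd]
      have hζ0 : ζ ≠ 0 := hζ.ne_zero (pow_pos hp.pos _).ne'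
      rw [zpow_sub₀ hζ0, zpow_natCast, zpow_natCast, ← h4, ← hgζ]
      exact div_self (by
        intro h0
        exact hζ0 (by
          have := congrArg (fun z => (g⁻¹ : GQ) z) h0
          simpa using this))
    have hdx : ((d₁ : ℤ) - d) • x = 0 := by
      obtain ⟨e, he⟩ := hd
      rw [he, mul_comm, mul_smul, natCast_zsmul, hx1, zsmul_zero]
    -- `t₁ ≡ t`
    have hsub : (t - t₁) • (g • x) = 0 := by
      have e1 : (t - t₁) • (g • x)
          = (g • g • x - t₁ • g • x + (d₁ : ℤ) • x) - (g • g • x - t • g • x + (d : ℤ) • x)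
            - ((d₁ : ℤ) - d) • x := by
        rw [sub_smul, sub_smul]; abel
      rw [e1, h3x, hrel, hdx]; simp
    have hgx1 : p ^ (n + 1) • (g • x) = 0 := by
      rw [← S41NE_gsmul_nsmul, hx1, S41NE_gsmul_zero]
    have hgx2 : ¬ p ^ n • (g • x) = 0 := by
      intro h0
      rw [← S41NE_gsmul_nsmul] at h0
      exact hx2 (S58E_gsmul_eq_zero W g h0)
    have hord : addOrderOf (g • x) = p ^ (n + 1) := addOrderOf_eq_prime_pow hgx2 hgx1
    have ht : ((p ^ (n + 1) : ℕ) : ℤ) ∣ t - t₁ := by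
      rw [← hord]
      exact (addOrderOf_dvd_iff_zsmul_eq_zero).2 hsub
    constructor
    · have e : LinearMap.trace O ρ.V (ρ.ρ g) - (t : O)
          = (LinearMap.trace O ρ.V (ρ.ρ g) - (t₁ : O)) - ((t - t₁ : ℤ) : O) := by
        push_cast; ring
      rw [e]
      exact Ideal.sub_mem _ h1 (hpow n _ ht)
    · have e : LinearMap.det (ρ.ρ g) - (d : O)
          = (LinearMap.det (ρ.ρ g) - (d₁ : O)) + (((d₁ : ℤ) - d : ℤ) : O) := by
        push_cast; ring
      rw [e]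
      exact Ideal.add_mem _ h2 (hpow n _ hd)
  have hbot : ∀ z : O, (∀ n : ℕ, z ∈ IsLocalRing.maximalIdeal O ^ (n + 1)) → z = 0 := by
    intro z hz
    have h := Ideal.iInf_pow_eq_bot_of_isLocalRing (IsLocalRing.maximalIdeal O)
      (IsLocalRing.maximalIdeal.isMaximal O).ne_top
    have hmem : z ∈ ⨅ i : ℕ, IsLocalRing.maximalIdeal O ^ i := by
      rw [Ideal.mem_iInf]
      intro i
      rcases i with _ | i
      · rw [pow_zero, Ideal.one_eq_top]; exact Submodule.mem_top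
      · exact hz i
    rw [h] at hmem
    exact hmem
  have htr : LinearMap.trace O ρ.V (ρ.ρ g) = (t : O) :=
    sub_eq_zero.1 (hbot _ fun n => (key n).1)
  have hdet : LinearMap.det (ρ.ρ g) = (d : O) :=
    sub_eq_zero.1 (hbot _ fun n => (key n).2)
  rw [LUC_charpoly_eq ρ.finrank_eq, htr, hdet]

/-- primitive roots of unity of order `p^n` exist in `ℚ̄`. -/
theorem S58E_exists_zeta {p : ℕ} (hp : p.Prime) (n : ℕ) :
    ∃ ζ : ℚbar, IsPrimitiveRoot ζ (p ^ n) := by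
  haveI : NeZero p := ⟨hp.ne_zero⟩
  exact HasEnoughRootsOfUnity.exists_primitiveRoot ℚbar (p ^ n)

/-- the inertia group at `q` fixes the roots of unity of order prime to `q`. -/
theorem S58E_inertia_zeta {q : ℕ} (hq : q.Prime) (A : ValuationSubring ℚbar)
    (hA : A.LiesOverPrime q) (τ : GQ) (hτ : τ ∈ A.inertiaSubgroupIn ℚ) {m : ℕ} (hqm : ¬ q ∣ m)
    (ζ : ℚbar) (hζ : ζ ^ m = 1) : τ ζ = ζ := by
  have hm0 : m ≠ 0 := by
    rintro rfl
    exact hqm (dvd_zero q)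
  have hζ0 : ζ ≠ 0 := by
    rintro rfl
    rw [zero_pow hm0] at hζ
    exact zero_ne_one hζ
  have hζA : ζ ∈ A := GR_cyc_mem_of_pow_eq_one A hm0 hζ
  have hinvA : ζ⁻¹ ∈ A := GR_cyc_mem_of_pow_eq_one A hm0 (by rw [inv_pow, hζ, inv_one])
  have h1 : τ ζ - ζ ∈ A.nonunits := S05_inertia_sub_mem_nonunits A hτ hζA
  have hη : (τ ζ * ζ⁻¹) ^ m = 1 := by
    rw [mul_pow, ← map_pow, hζ, map_one, inv_pow, hζ, inv_one, mul_one]
  have h2 : τ ζ * ζ⁻¹ - 1 ∈ A.nonunits := by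
    have e : τ ζ * ζ⁻¹ - 1 = (τ ζ - ζ) * ζ⁻¹ := by
      rw [sub_mul, mul_inv_cancel₀ hζ0]
    rw [e, A.mem_nonunits_iff, map_mul]
    calc A.valuation (τ ζ - ζ) * A.valuation ζ⁻¹ ≤ A.valuation (τ ζ - ζ) * 1 :=
          mul_le_mul_right ((A.valuation_le_one_iff _).2 hinvA) _
      _ = A.valuation (τ ζ - ζ) := mul_one _
      _ < 1 := A.mem_nonunits_iff.mp h1
  have hmu : (m : ℚbar) ∉ A.nonunits := by
    rw [A.mem_nonunits_iff, S58R_valuation_nat A hq hA hqm]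
    exact lt_irrefl _
  have h3 := GR_cyc_eq_one_of_sub_mem A hη hmu h2
  have h4 : τ ζ = τ ζ * ζ⁻¹ * ζ := by
    rw [mul_assoc, inv_mul_cancel₀ hζ0, mul_one]
  rw [h4, h3, one_mul]

/-- **(E-unip)**: an element fixing, for every `n`, a point of exact order `p^(n+1)` and the
`p`-power roots of unity has characteristic polynomial `(X − 1)²`. -/
theorem S58E_unip [IsNoetherianRing O] (hΔ : W.Δ ≠ 0) {p : ℕ} (hp : p.Prime)
    (hpO : (p : O) ∈ IsLocalRing.maximalIdeal O) (S : Finset ℕ)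
    (hρ : S58D_Att W ρ S)
    (g : GQ)
    (hζ : ∀ (n : ℕ) (ζ : ℚbar), ζ ^ p ^ n = 1 → g ζ = ζ)
    (hx : ∀ n : ℕ, ∃ x : (W.baseChange ℚbar).toAffine.Point,
      p ^ (n + 1) • x = 0 ∧ p ^ n • x ≠ 0 ∧ g • x = x) :
    LinearMap.charpoly (ρ.ρ g) = (X - 1) ^ 2 := by
  have h := S58E_charpoly ρ W hΔ hp hpO S hρ g 2 1 (fun n => by
    obtain ⟨x, hx1, hx2, hgx⟩ := hx n
    obtain ⟨ζ, hζ'⟩ := S58E_exists_zeta hp (n + 1)
    refine ⟨x, ζ, hx1, hx2, hζ', ?_, ?_⟩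
    · rw [hgx, hgx, Nat.cast_one, one_smul, show (2 : ℤ) • x = x + x from two_zsmul x]
      abel
    · rw [pow_one]; exact hζ (n + 1) ζ hζ'.pow_eq_one)
  rw [h]
  simp only [Int.cast_ofNat, Nat.cast_one, map_one, map_ofNat]
  ring

/-- **(E-frob)**: a Frobenius element at a good prime `q ≠ p` of `W` has characteristic
polynomial `X² − a_q(W) X + q` (no condition `q ∉ S`). -/
theorem S58E_frob [IsNoetherianRing O] (hΔ : W.Δ ≠ 0) (hord : S58D_TOrd W) {p : ℕ}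
    (hp : p.Prime)
    (hpO : (p : O) ∈ IsLocalRing.maximalIdeal O) (S : Finset ℕ)
    (hρ : S58D_Att W ρ S)
    {q : ℕ} (hq : q.Prime) (hqp : q ≠ p) (hgood : ¬ (q : ℤ) ∣ W.Δ)
    (A : ValuationSubring ℚbar) (hA : A.LiesOverPrime q) (g : GQ) (hg : A.IsFrobeniusAt g q) :
    LinearMap.charpoly (ρ.ρ g) = X ^ 2 - C ((W.apOfModel q : ℤ) : O) * X + C ((q : O)) := by
  refine S58E_charpoly ρ W hΔ hp hpO S hρ g (W.apOfModel q) q (fun n => ?_)
  obtain ⟨x, hx1, hx2⟩ := hord p hp n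
  obtain ⟨ζ, hζ'⟩ := S58E_exists_zeta hp (n + 1)
  refine ⟨x, ζ, hx1, hx2, hζ', S58E_es W A hq hA hgood hp hqp (n + 1) g hg x hx1, ?_⟩
  have hqn : ¬ q ∣ p ^ (n + 1) := by
    intro h
    exact hqp ((Nat.prime_dvd_prime_iff_eq hq hp).1 (hq.dvd_of_dvd_pow h))
  exact S41NE_zeta_frob hζ' (pow_pos hp.pos _) hq hqn A hA g hg

/-- **(E-res)**, trace/determinant form: the comparison modulo `𝔪` on the whole of `W[p]`. -/
theorem S58E_res (hΔ : W.Δ ≠ 0) {p : ℕ} (hp : p.Prime)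
    (hpO : (p : O) ∈ IsLocalRing.maximalIdeal O) (S : Finset ℕ)
    (hρ : S58D_Att W ρ S)
    (g : GQ) (ζ : ℚbar) (hζ : IsPrimitiveRoot ζ p) :
    ∃ (t : ℤ) (d : ℕ),
      LinearMap.trace O ρ.V (ρ.ρ g) - (t : O) ∈ IsLocalRing.maximalIdeal O ∧
      LinearMap.det (ρ.ρ g) - (d : O) ∈ IsLocalRing.maximalIdeal O ∧
      (∀ P : (W.baseChange ℚbar).toAffine.Point, p • P = 0 →
        g • g • P - t • g • P + (d : ℤ) • P = 0) ∧ g ζ = ζ ^ d := by
  classical
  have hfin : {P : (W.baseChange ℚbar).toAffine.Point | p • P = 0}.Finite :=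
    S58FIN_finite_set W hΔ hp.ne_zero
  obtain ⟨t, d, h1, h2, h3, h4⟩ :=
    S58E_gen ρ W hΔ hp hpO S hρ g 1 hfin.toFinset (by
      intro P hP
      rw [Set.Finite.mem_toFinset] at hP
      rw [pow_one]; exact hP) ζ (by rw [pow_one]; exact hζ)
  refine ⟨t, d, ?_, ?_, fun P hP => h3 P (by rw [Set.Finite.mem_toFinset]; exact hP), h4⟩
  · rw [pow_one] at h1; exact h1
  · rw [pow_one] at h2; exact h2

end gen

/-! ### The three targets of `S58/Defs.lean`, literally -/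

section targets

variable (W : WeierstrassCurve ℤ)

/-- **TARGET `S58D_TEfrob`**. -/
theorem S58E_TEfrob (hΔ : W.Δ ≠ 0) (hord : S58D_TOrd W) : S58D_TEfrob W := by
  intro lam hlam O _ _ _ _ _ hlamO ρ T hρ q hq hqlam hgood A hA σ hσ
  exact S58E_frob ρ W hΔ hord hlam hlamO T hρ hq hqlam hgood A hA σ hσ

/-- **TARGET `S58D_TEunip`**. -/
theorem S58E_TEunip (hΔ : W.Δ ≠ 0) {p : ℕ} (hp : p.Prime) (hord : S58D_TOrd W)
    (hfix : S58D_TFix W p) : S58D_TEunip W p := by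
  intro O _ _ _ _ _ hpO ρ T hρ q hq hqp A hA τ hτ
  refine S58E_unip ρ W hΔ hp hpO T hρ τ (fun n ζ hζ => ?_) (fun n => ?_)
  · exact S58E_inertia_zeta hq A hA τ hτ (S58R_not_dvd_pow hq hp hqp n) ζ hζ
  · by_cases hbad : (q : ℤ) ∣ W.Δ
    · exact hfix q hq hqp hbad A hA τ hτ n
    · obtain ⟨x, hx1, hx2⟩ := hord p hp n
      exact ⟨x, hx1, hx2, S58R_fix_good_pow W A hq hA hbad hp hqp (n + 1) τ hτ x hx1⟩

/-- **TARGET `S58D_TEres`**. -/
theorem S58E_TEres (hΔ : W.Δ ≠ 0) {p : ℕ} (hp : p.Prime) : S58D_TEres W p := by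
  intro O _ _ _ _ _ hpO ρ T hρ g
  obtain ⟨ζ₀, hζ₀⟩ := S58E_exists_zeta hp 1
  rw [pow_one] at hζ₀
  obtain ⟨t, d, h1, h2, h3, h4⟩ := S58E_res ρ W hΔ hp hpO T hρ g ζ₀ hζ₀
  refine ⟨t, d, ?_, h3, ?_⟩
  · have hbc : LinearMap.charpoly (ρ.residual.ρ g)
        = (LinearMap.charpoly (ρ.ρ g)).map (algebraMap O (IsLocalRing.ResidueField O)) :=
      LinearMap.charpoly_baseChange (A := IsLocalRing.ResidueField O) (ρ.ρ g)
    have htr : algebraMap O (IsLocalRing.ResidueField O) (LinearMap.trace O ρ.V (ρ.ρ g))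
        = ((t : ℤ) : IsLocalRing.ResidueField O) := by
      have := (IsLocalRing.residue_eq_zero_iff _).2 h1
      rw [map_sub, sub_eq_zero, map_intCast] at this
      exact this
    have hdet : algebraMap O (IsLocalRing.ResidueField O) (LinearMap.det (ρ.ρ g))
        = ((d : ℕ) : IsLocalRing.ResidueField O) := by
      have := (IsLocalRing.residue_eq_zero_iff _).2 h2
      rw [map_sub, sub_eq_zero, map_natCast] at this
      exact this
    rw [hbc, LUC_charpoly_eq ρ.finrank_eq]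
    simp only [Polynomial.map_add, Polynomial.map_sub, Polynomial.map_mul, Polynomial.map_pow,
      Polynomial.map_X, Polynomial.map_C]
    rw [htr, hdet]
  · intro ζ hζ
    haveI : NeZero p := ⟨hp.ne_zero⟩
    obtain ⟨k, -, rfl⟩ := hζ₀.eq_pow_of_pow_eq_one hζ
    rw [map_pow, h4, ← pow_mul, ← pow_mul, mul_comm]

end targets

end Fermat.Agent.S58
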