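import Mathlib
import Fermat.Prelude.Def_FLTPrelim_Modularity

/-!
# S58, package F-COUNT (helper1): the trivial bound for the number of points

Prelude + Mathlib only.  Prefix `S58C_`.

For a Weierstrass curve `W` over a finite field `F` (no hypothesis on the discriminant):
`1 ≤ #W(F) ≤ 2 #F + 1` (the point at infinity; for every `x` at most two `y`).  Hence for
`W : WeierstrassCurve ℤ` and every prime `q`:  `- q ≤ W.apOfModel q ≤ q`, so
`W.apOfModel q ≠ q + 1`, `W.apOfModel q ≠ - (q + 1)`, and no `m > 2 q + 1` divides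
`W.apOfModel q - (q + 1)` or `W.apOfModel q + (q + 1)`.

* `S58C_card_pos`, `S58C_card_le` : the two bounds over a finite field;
* `S58C_apOfModel_le`, `S58C_neg_le_apOfModel`, `S58C_abs_apOfModel_le`;
* `S58C_apOfModel_ne_add_one`, `S58C_apOfModel_ne_neg_add_one` (in `ℤ`),
  `S58C_cast_apOfModel_ne_add_one`, `S58C_cast_apOfModel_ne_neg_add_one` (in a ring of
  characteristic `0`);
* `S58C_not_dvd_sub`, `S58C_not_dvd_add` : the finite-level forms.
-/

set_option autoImplicit false
set_option linter.style.longLine false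
set_option linter.unusedSectionVars false
set_option linter.unusedVariables false
set_option linter.style.haveILetI false

noncomputable section

namespace Fermat.Agent.S58

open Polynomial

section field

variable {F : Type*} [Field F]

/-- the quadratic polynomial in `y` cut out by the Weierstrass equation at a fixed `x`. -/
def S58C_quad (W : WeierstrassCurve.Affine F) (x : F) : F[X] :=
  X ^ 2 + C (W.a₁ * x + W.a₃) * X - C (x ^ 3 + W.a₂ * x ^ 2 + W.a₄ * x + W.a₆)

theorem S58C_quad_natDegree (W : WeierstrassCurve.Affine F) (x : F) :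
    (S58C_quad W x).natDegree = 2 := by
  unfold S58C_quad
  compute_degree!

theorem S58C_quad_ne_zero (W : WeierstrassCurve.Affine F) (x : F) : S58C_quad W x ≠ 0 := by
  intro h
  have := S58C_quad_natDegree W x
  rw [h, natDegree_zero] at this
  omega

theorem S58C_equation_iff (W : WeierstrassCurve.Affine F) (x y : F) :
    W.Equation x y ↔ (S58C_quad W x).IsRoot y := by
  rw [WeierstrassCurve.Affine.equation_iff]
  simp only [S58C_quad, IsRoot, eval_sub, eval_add, eval_pow, eval_X, eval_mul, eval_C]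
  constructor <;> intro h <;> linear_combination h

/-- for a fixed `x` there are at most two `y`. -/
theorem S58C_fiber_card_le [Fintype F] [DecidableEq F] (W : WeierstrassCurve.Affine F) (x : F)
    [DecidablePred fun y : F => W.Equation x y] :
    (Finset.univ.filter (fun y : F => W.Equation x y)).card ≤ 2 := by
  have hsub : Finset.univ.filter (fun y : F => W.Equation x y) ⊆
      (S58C_quad W x).roots.toFinset := by
    intro y hy
    simp only [Finset.mem_filter, Finset.mem_univ, true_and] at hy
    rw [Multiset.mem_toFinset, mem_roots (S58C_quad_ne_zero W x)]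
    exact (S58C_equation_iff W x y).1 hy
  calc (Finset.univ.filter (fun y : F => W.Equation x y)).card
      ≤ (S58C_quad W x).roots.toFinset.card := Finset.card_le_card hsub
    _ ≤ Multiset.card (S58C_quad W x).roots := Multiset.toFinset_card_le _
    _ ≤ (S58C_quad W x).natDegree := card_roots' _
    _ = 2 := S58C_quad_natDegree W x

/-- the points as a subset of `Option (Σ x, {y // equation})`. -/
def S58C_code (W : WeierstrassCurve.Affine F) :
    W.Point → Option (Σ x : F, {y : F // W.Equation x y})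
  | .zero => none
  | .some x y h => some ⟨x, ⟨y, h.1⟩⟩

theorem S58C_code_injective (W : WeierstrassCurve.Affine F) :
    Function.Injective (S58C_code W) := by
  rintro (_ | ⟨x₁, y₁, h₁⟩) (_ | ⟨x₂, y₂, h₂⟩) h
  · rfl
  · simp [S58C_code] at h
  · simp [S58C_code] at h
  · simp only [S58C_code, Option.some.injEq, Sigma.mk.injEq] at h
    obtain ⟨rfl, h2⟩ := h
    have h3 := eq_of_heq h2
    have h4 : y₁ = y₂ := congrArg Subtype.val h3
    subst h4
    rfl

end field

section card

variable {F : Type*} [Field F] [Finite F]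

/-- `1 ≤ #W(F)`. -/
theorem S58C_card_pos (W : WeierstrassCurve F) : 1 ≤ W.card := by
  haveI : Nonempty W.toAffine.Point := ⟨0⟩
  exact Nat.card_pos

/-- `#W(F) ≤ 2 #F + 1`. -/
theorem S58C_card_le (W : WeierstrassCurve F) : W.card ≤ 2 * Nat.card F + 1 := by
  classical
  haveI : Fintype F := Fintype.ofFinite F
  have h1 : W.card ≤ Nat.card (Option (Σ x : F, {y : F // W.toAffine.Equation x y})) :=
    Nat.card_le_card_of_injective _ (S58C_code_injective W.toAffine)
  have h2 : Nat.card (Option (Σ x : F, {y : F // W.toAffine.Equation x y})) ≤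
      2 * Nat.card F + 1 := by
    rw [Nat.card_eq_fintype_card, Fintype.card_option, Fintype.card_sigma,
      Nat.card_eq_fintype_card]
    have h3 : ∀ x : F, Fintype.card {y : F // W.toAffine.Equation x y} ≤ 2 := by
      intro x
      rw [Fintype.card_subtype]
      exact S58C_fiber_card_le W.toAffine x
    have h4 : ∑ x : F, Fintype.card {y : F // W.toAffine.Equation x y} ≤
        ∑ _x : F, 2 := Finset.sum_le_sum fun x _ => h3 x
    rw [Finset.sum_const, Finset.card_univ, smul_eq_mul, mul_comm] at h4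
    omega
  exact h1.trans h2

end card

section ap

variable (W : WeierstrassCurve ℤ) (q : ℕ)

theorem S58C_apOfModel_eq [NeZero q] :
    W.apOfModel q = (q : ℤ) + 1 - ((W.reductionMod q).card : ℤ) := by
  unfold WeierstrassCurve.apOfModel WeierstrassCurve.traceOfFrobenius
  rw [Nat.card_zmod]

/-- `1 ≤ #W(𝔽_q) ≤ 2 q + 1`. -/
theorem S58C_card_bounds (hq : q.Prime) :
    1 ≤ (W.reductionMod q).card ∧ (W.reductionMod q).card ≤ 2 * q + 1 := by
  haveI : Fact q.Prime := ⟨hq⟩
  refine ⟨S58C_card_pos (W.reductionMod q), ?_⟩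
  have h := S58C_card_le (W.reductionMod q)
  rwa [Nat.card_zmod] at h

theorem S58C_apOfModel_le (hq : q.Prime) : W.apOfModel q ≤ q := by
  haveI : NeZero q := ⟨hq.ne_zero⟩
  have h := (S58C_card_bounds W q hq).1
  rw [S58C_apOfModel_eq]
  omega

theorem S58C_neg_le_apOfModel (hq : q.Prime) : -(q : ℤ) ≤ W.apOfModel q := by
  haveI : NeZero q := ⟨hq.ne_zero⟩
  have h := (S58C_card_bounds W q hq).2
  rw [S58C_apOfModel_eq]
  omega

theorem S58C_abs_apOfModel_le (hq : q.Prime) : |W.apOfModel q| ≤ q :=
  abs_le.2 ⟨S58C_neg_le_apOfModel W q hq, S58C_apOfModel_le W q hq⟩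

theorem S58C_apOfModel_ne_add_one (hq : q.Prime) : W.apOfModel q ≠ (q : ℤ) + 1 := by
  have := S58C_apOfModel_le W q hq
  omega

theorem S58C_apOfModel_ne_neg_add_one (hq : q.Prime) : W.apOfModel q ≠ -((q : ℤ) + 1) := by
  have := S58C_neg_le_apOfModel W q hq
  omega

/-- in a ring of characteristic `0`. -/
theorem S58C_cast_apOfModel_ne_add_one (hq : q.Prime) {R : Type*} [Ring R] [CharZero R] :
    ((W.apOfModel q : ℤ) : R) ≠ (q : R) + 1 := by
  intro h
  apply S58C_apOfModel_ne_add_one W q hq
  have : ((W.apOfModel q : ℤ) : R) = (((q : ℤ) + 1 : ℤ) : R) := by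
    rw [h]; push_cast; rfl
  exact_mod_cast this

theorem S58C_cast_apOfModel_ne_neg_add_one (hq : q.Prime) {R : Type*} [Ring R] [CharZero R] :
    ((W.apOfModel q : ℤ) : R) ≠ -((q : R) + 1) := by
  intro h
  apply S58C_apOfModel_ne_neg_add_one W q hq
  have : ((W.apOfModel q : ℤ) : R) = ((-((q : ℤ) + 1) : ℤ) : R) := by
    rw [h]; push_cast; rfl
  exact_mod_cast this

/-- the finite-level form: `a_q(W) ≢ q + 1` modulo every `m > 2 q + 1`. -/
theorem S58C_not_dvd_sub (hq : q.Prime) (m : ℕ) (hm : 2 * q + 1 < m) :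
    ¬ (m : ℤ) ∣ W.apOfModel q - ((q : ℤ) + 1) := by
  haveI : NeZero q := ⟨hq.ne_zero⟩
  intro hd
  obtain ⟨h1, h2⟩ := S58C_card_bounds W q hq
  have h3 : W.apOfModel q - ((q : ℤ) + 1) = -((W.reductionMod q).card : ℤ) := by
    rw [S58C_apOfModel_eq]; ring
  rw [h3, dvd_neg] at hd
  have h5 : (0 : ℤ) < ((W.reductionMod q).card : ℤ) := by exact_mod_cast h1
  have h4 := Int.le_of_dvd h5 hd
  omega

/-- the finite-level form: `a_q(W) ≢ - (q + 1)` modulo every `m > 2 q + 1`. -/
theorem S58C_not_dvd_add (hq : q.Prime) (m : ℕ) (hm : 2 * q + 1 < m) :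
    ¬ (m : ℤ) ∣ W.apOfModel q + ((q : ℤ) + 1) := by
  haveI : NeZero q := ⟨hq.ne_zero⟩
  intro hd
  obtain ⟨h1, h2⟩ := S58C_card_bounds W q hq
  have h3 : W.apOfModel q + ((q : ℤ) + 1) =
      2 * (q : ℤ) + 2 - ((W.reductionMod q).card : ℤ) := by
    rw [S58C_apOfModel_eq]; ring
  rw [h3] at hd
  have h5 : (0 : ℤ) < 2 * (q : ℤ) + 2 - ((W.reductionMod q).card : ℤ) := by omega
  have h4 := Int.le_of_dvd h5 hd
  omega

end ap

end Fermat.Agent.S58
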