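import Mathlib
import Fermat.Agent.S41.NEAct
import Fermat.Agent.S58.Defs

/-!
# S58 (conductor–level matching), package W1 + W4 = TORS (helper20)

Prefix `S58B_`.  Everything is a statement about POINTS of `W(ℚ̄)`; no basis of the torsion is
chosen.

General part (`F` algebraically closed, `Δ ≠ 0`, `(m : F) ≠ 0`), on top of `S41NC_zsmul_kd`:

* `S58B_card_gen` : `#W[m] = m²`;
* `S58B_nsmul_surj_gen` : `[m]` is onto;
* `S58B_exists_order_gen` : a point `P` with `λ ^ (n+1) • P = 0`, `λ ^ n • P ≠ 0`;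
* `S58B_dvd_of_forall_zsmul_gen` : an integer killing `W[λ ^ n]` is divisible by `λ ^ n`.

Over `ℚ̄` (`W : WeierstrassCurve ℤ`, `Δ ≠ 0`):

* **`S58B_TOrd`** : the TARGET `S58D_TOrd W` of `S58/Defs.lean`, from `W.Δ ≠ 0`;
* (W1) `S58B_card`, `S58B_finite`, `S58B_nsmul_surj`, `S58B_exists_order`, `S58B_exists_order'`,
  `S58B_exists_addOrderOf`, `S58B_dvd_of_forall_zsmul`, `S58B_dvd_of_forall_nsmul`;
* (W4) `S58B_field W m T` : the field generated over `ℚ` by the coordinates of the points of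
  `W[m](ℚ̄)` and by a set `T`; it is finite over `ℚ` for `T` finite
  (`S58B_field_finiteDimensional`), contains `T` (`S58B_mem_field`), and two automorphisms which
  agree on it act in the same way on `W[m](ℚ̄)` (`S58B_smul_eq_of_agree`);
  `S58B_exists_field` packages the three facts.
* `S58B_smul_mem` : `W[m](ℚ̄)` is stable under `G_ℚ`.
-/

set_option autoImplicit false
set_option linter.unusedSectionVars false
set_option linter.unusedVariables false
set_option linter.style.haveILetI false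

namespace Fermat.Agent.S58

open WeierstrassCurve Fermat.Agent.Lib Fermat.Agent.GalRep Fermat.Agent.S41

local notation "ℚbar" => AlgebraicClosure ℚ

section general

variable {F : Type*} [Field F] [DecidableEq F] [IsAlgClosed F] (W : WeierstrassCurve F)

/-- `#W[m] = m²` for `m` invertible in `F`. -/
theorem S58B_card_gen (hΔ : W.Δ ≠ 0) {m : ℕ} (hm : (m : F) ≠ 0) :
    Nat.card {Q : W.toAffine.Point // m • Q = 0} = m ^ 2 := by
  have h := (S41NC_zsmul_kd W hΔ (m : ℤ) (by exact_mod_cast hm)).1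
  rw [Int.natAbs_natCast] at h
  rw [← h]
  refine Nat.card_congr (Equiv.subtypeEquivRight fun Q => ?_)
  rw [AddMonoidHom.mem_ker]
  show m • Q = 0 ↔ (m : ℤ) • Q = 0
  rw [natCast_zsmul]

/-- `[m]` is onto for `m` invertible in `F`. -/
theorem S58B_nsmul_surj_gen (hΔ : W.Δ ≠ 0) {m : ℕ} (hm : (m : F) ≠ 0)
    (Q : W.toAffine.Point) : ∃ P : W.toAffine.Point, m • P = Q := by
  obtain ⟨P, hP⟩ := (S41NC_zsmul_kd W hΔ (m : ℤ) (by exact_mod_cast hm)).2 Q
  refine ⟨P, ?_⟩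
  rw [← natCast_zsmul]
  exact hP

/-- a nonzero point killed by the prime `λ`. -/
theorem S58B_exists_prime_order_gen (hΔ : W.Δ ≠ 0) {lam : ℕ} (hlam : lam.Prime)
    (hF : (lam : F) ≠ 0) : ∃ P : W.toAffine.Point, lam • P = 0 ∧ P ≠ 0 := by
  by_contra hcon
  push Not at hcon
  have hcard := S58B_card_gen W hΔ hF
  haveI : Subsingleton {Q : W.toAffine.Point // lam • Q = 0} :=
    ⟨fun a b => Subtype.ext ((hcon a.1 a.2).trans (hcon b.1 b.2).symm)⟩
  have h1 : Nat.card {Q : W.toAffine.Point // lam • Q = 0} ≤ 1 :=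
    Finite.card_le_one_iff_subsingleton.2 inferInstance
  rw [hcard] at h1
  have h2 : 2 ≤ lam := hlam.two_le
  nlinarith

/-- **(W1)** a point of exact order `λ ^ (n + 1)`. -/
theorem S58B_exists_order_gen (hΔ : W.Δ ≠ 0) {lam : ℕ} (hlam : lam.Prime)
    (hF : (lam : F) ≠ 0) (n : ℕ) :
    ∃ P : W.toAffine.Point, lam ^ (n + 1) • P = 0 ∧ lam ^ n • P ≠ 0 := by
  obtain ⟨P₁, h1, h2⟩ := S58B_exists_prime_order_gen W hΔ hlam hF
  have hn : ((lam ^ n : ℕ) : F) ≠ 0 := by
    rw [Nat.cast_pow]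
    exact pow_ne_zero n hF
  obtain ⟨P, hP⟩ := S58B_nsmul_surj_gen W hΔ hn P₁
  refine ⟨P, ?_, ?_⟩
  · rw [pow_succ, mul_nsmul, hP, h1]
  · rw [hP]
    exact h2

/-- an integer which kills `W[λ ^ n]` is divisible by `λ ^ n`. -/
theorem S58B_dvd_of_forall_zsmul_gen (hΔ : W.Δ ≠ 0) {lam : ℕ} (hlam : lam.Prime)
    (hF : (lam : F) ≠ 0) (n : ℕ) (c : ℤ)
    (h : ∀ P : W.toAffine.Point, lam ^ n • P = 0 → c • P = 0) : ((lam ^ n : ℕ) : ℤ) ∣ c := by
  rcases n with _ | n
  · simp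
  · obtain ⟨P, h1, h2⟩ := S58B_exists_order_gen W hΔ hlam hF n
    haveI : Fact lam.Prime := ⟨hlam⟩
    have ho : addOrderOf P = lam ^ (n + 1) := addOrderOf_eq_prime_pow h2 h1
    rw [← ho]
    exact (addOrderOf_dvd_iff_zsmul_eq_zero).2 (h P h1)

end general

section Qbar

variable (W : WeierstrassCurve ℤ)

/-- **(W1)** `#W[m](ℚ̄) = m²`. -/
theorem S58B_card (hΔ : W.Δ ≠ 0) {m : ℕ} (hm : m ≠ 0) :
    Nat.card {P : (W.baseChange ℚbar).toAffine.Point // m • P = 0} = m ^ 2 :=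
  S58B_card_gen (W.baseChange ℚbar) (S41NE_baseChange_Δ_ne_zero W hΔ) (Nat.cast_ne_zero.2 hm)

/-- **(W4)** `W[m](ℚ̄)` is finite. -/
theorem S58B_finite (hΔ : W.Δ ≠ 0) {m : ℕ} (hm : m ≠ 0) :
    Finite {P : (W.baseChange ℚbar).toAffine.Point // m • P = 0} :=
  Nat.finite_of_card_ne_zero (by rw [S58B_card W hΔ hm]; exact pow_ne_zero 2 hm)

/-- `[m]` is onto on `W(ℚ̄)`. -/
theorem S58B_nsmul_surj (hΔ : W.Δ ≠ 0) {m : ℕ} (hm : m ≠ 0)
    (Q : (W.baseChange ℚbar).toAffine.Point) :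
    ∃ P : (W.baseChange ℚbar).toAffine.Point, m • P = Q :=
  S58B_nsmul_surj_gen (W.baseChange ℚbar) (S41NE_baseChange_Δ_ne_zero W hΔ)
    (Nat.cast_ne_zero.2 hm) Q

/-- **(W1)** a point of `W(ℚ̄)` of exact order `λ ^ (n + 1)`. -/
theorem S58B_exists_order (hΔ : W.Δ ≠ 0) {lam : ℕ} (hlam : lam.Prime) (n : ℕ) :
    ∃ P : (W.baseChange ℚbar).toAffine.Point, lam ^ (n + 1) • P = 0 ∧ lam ^ n • P ≠ 0 :=
  S58B_exists_order_gen (W.baseChange ℚbar) (S41NE_baseChange_Δ_ne_zero W hΔ) hlam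
    (Nat.cast_ne_zero.2 hlam.ne_zero) n

/-- **TARGET `S58D_TOrd`** (W1): points of exact order `λ ^ (n + 1)`. -/
theorem S58B_TOrd (hΔ : W.Δ ≠ 0) : S58D_TOrd W :=
  fun _ hlam n => S58B_exists_order W hΔ hlam n

/-- **(W1)**, in the form of the route: for `n ≥ 1` a point with `λ ^ n • P = 0` and
`λ ^ (n - 1) • P ≠ 0`. -/
theorem S58B_exists_order' (hΔ : W.Δ ≠ 0) {lam : ℕ} (hlam : lam.Prime) {n : ℕ} (hn : n ≠ 0) :
    ∃ P : (W.baseChange ℚbar).toAffine.Point, lam ^ n • P = 0 ∧ lam ^ (n - 1) • P ≠ 0 := by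
  obtain ⟨k, rfl⟩ := Nat.exists_eq_succ_of_ne_zero hn
  simpa using S58B_exists_order W hΔ hlam k

/-- a point of `W(ℚ̄)` of order `λ ^ n`. -/
theorem S58B_exists_addOrderOf (hΔ : W.Δ ≠ 0) {lam : ℕ} (hlam : lam.Prime) (n : ℕ) :
    ∃ P : (W.baseChange ℚbar).toAffine.Point, addOrderOf P = lam ^ n := by
  rcases n with _ | n
  · exact ⟨0, by simp⟩
  · obtain ⟨P, h1, h2⟩ := S58B_exists_order W hΔ hlam n
    haveI : Fact lam.Prime := ⟨hlam⟩
    exact ⟨P, addOrderOf_eq_prime_pow h2 h1⟩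

/-- **(W1)** an integer which kills `W[λ ^ n](ℚ̄)` is divisible by `λ ^ n`. -/
theorem S58B_dvd_of_forall_zsmul (hΔ : W.Δ ≠ 0) {lam : ℕ} (hlam : lam.Prime) (n : ℕ) (c : ℤ)
    (h : ∀ P : (W.baseChange ℚbar).toAffine.Point, lam ^ n • P = 0 → c • P = 0) :
    ((lam : ℤ) ^ n) ∣ c := by
  have := S58B_dvd_of_forall_zsmul_gen (W.baseChange ℚbar) (S41NE_baseChange_Δ_ne_zero W hΔ) hlam
    (Nat.cast_ne_zero.2 hlam.ne_zero) n c h
  rwa [Nat.cast_pow] at this

/-- the same for a natural number. -/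
theorem S58B_dvd_of_forall_nsmul (hΔ : W.Δ ≠ 0) {lam : ℕ} (hlam : lam.Prime) (n : ℕ) (c : ℕ)
    (h : ∀ P : (W.baseChange ℚbar).toAffine.Point, lam ^ n • P = 0 → c • P = 0) :
    lam ^ n ∣ c := by
  have := S58B_dvd_of_forall_zsmul W hΔ hlam n (c : ℤ) (fun P hP => by
    rw [natCast_zsmul]; exact h P hP)
  exact_mod_cast this

/-- `W[m](ℚ̄)` is stable under `G_ℚ`. -/
theorem S58B_smul_mem (σ : GQ) {m : ℕ} {P : (W.baseChange ℚbar).toAffine.Point}
    (hP : m • P = 0) : m • (σ • P) = 0 := by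
  rw [← S41NE_gsmul_nsmul, hP, S41NE_gsmul_zero]

/-- the generators of the field of definition of `W[m](ℚ̄)` and of `T`. -/
def S58B_gens (m : ℕ) (T : Set ℚbar) : Set ℚbar :=
  (⋃ P : {P : (W.baseChange ℚbar).toAffine.Point // m • P = 0}, S41NE_coords W P.1) ∪ T

/-- **(W4)** the field generated over `ℚ` by the coordinates of the points of `W[m](ℚ̄)` and by
the set `T`. -/
noncomputable def S58B_field (m : ℕ) (T : Set ℚbar) : IntermediateField ℚ ℚbar :=
  IntermediateField.adjoin ℚ (S58B_gens W m T)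

theorem S58B_mem_field (m : ℕ) (T : Set ℚbar) {z : ℚbar} (hz : z ∈ T) :
    z ∈ S58B_field W m T :=
  IntermediateField.subset_adjoin ℚ _ (Or.inr hz)

theorem S58B_coords_mem_field (m : ℕ) (T : Set ℚbar)
    {P : (W.baseChange ℚbar).toAffine.Point} (hP : m • P = 0) {z : ℚbar}
    (hz : z ∈ S41NE_coords W P) : z ∈ S58B_field W m T :=
  IntermediateField.subset_adjoin ℚ _ (Or.inl (Set.mem_iUnion.2 ⟨⟨P, hP⟩, hz⟩))

/-- the field is monotone in `T`. -/
theorem S58B_field_mono (m : ℕ) {T T' : Set ℚbar} (h : T ⊆ T') :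
    S58B_field W m T ≤ S58B_field W m T' :=
  IntermediateField.adjoin.mono ℚ _ _ (Set.union_subset_union_right _ h)

/-- **(W4)** the field of definition of `W[m](ℚ̄)` and of a finite set is finite over `ℚ`. -/
theorem S58B_field_finiteDimensional (hΔ : W.Δ ≠ 0) {m : ℕ} (hm : m ≠ 0) {T : Set ℚbar}
    (hT : T.Finite) : FiniteDimensional ℚ (S58B_field W m T) := by
  haveI := S58B_finite W hΔ hm
  have hfin : (S58B_gens W m T).Finite :=
    (Set.finite_iUnion fun P => S41NE_coords_finite W _).union hT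
  haveI : Finite (S58B_gens W m T) := hfin.to_subtype
  exact IntermediateField.finiteDimensional_adjoin
    (fun x _ => (AlgebraicClosure.isAlgebraic ℚ).isIntegral.isIntegral x)

/-- **(W4)** automorphisms which agree on the field act in the same way on `W[m](ℚ̄)`. -/
theorem S58B_smul_eq_of_agree (m : ℕ) (T : Set ℚbar) (g g' : GQ)
    (h : ∀ x ∈ S58B_field W m T, g x = g' x)
    (P : (W.baseChange ℚbar).toAffine.Point) (hP : m • P = 0) : g • P = g' • P := by
  have hc := fun z (hz : z ∈ S41NE_coords W P) => h z (S58B_coords_mem_field W m T hP hz)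
  clear hP
  rcases P with _ | ⟨x, y, hxy⟩
  · rfl
  · have hx : g x = g' x := hc x (Or.inl rfl)
    have hy : g y = g' y := hc y (Or.inr rfl)
    show Affine.Point.map (W' := W.toAffine) g.toAlgHom (Affine.Point.some x y hxy) =
      Affine.Point.map (W' := W.toAffine) g'.toAlgHom (Affine.Point.some x y hxy)
    rw [Affine.Point.map_some, Affine.Point.map_some]
    exact S41NE_some_eq' _ _ hx hy

/-- an automorphism which is the identity on the field fixes `W[m](ℚ̄)` pointwise. -/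
theorem S58B_smul_eq_of_fix (m : ℕ) (T : Set ℚbar) (g : GQ)
    (h : ∀ x ∈ S58B_field W m T, g x = x)
    (P : (W.baseChange ℚbar).toAffine.Point) (hP : m • P = 0) : g • P = P := by
  have := S58B_smul_eq_of_agree W m T g 1 (fun x hx => by rw [h x hx]; rfl) P hP
  rwa [S41NE_gsmul_one] at this

/-- **(W4)**, packaged: `W[m](ℚ̄)` is finite and `G_ℚ` acts on it through a finite extension of
`ℚ`, which may be taken to contain any given finite set. -/
theorem S58B_exists_field (hΔ : W.Δ ≠ 0) {m : ℕ} (hm : m ≠ 0) {T : Set ℚbar} (hT : T.Finite) :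
    ∃ L : IntermediateField ℚ ℚbar, FiniteDimensional ℚ L ∧ T ⊆ L ∧
      (∀ g g' : GQ, (∀ x ∈ L, g x = g' x) →
        ∀ P : (W.baseChange ℚbar).toAffine.Point, m • P = 0 → g • P = g' • P) ∧
      (∀ g : GQ, (∀ x ∈ L, g x = x) →
        ∀ P : (W.baseChange ℚbar).toAffine.Point, m • P = 0 → g • P = P) :=
  ⟨S58B_field W m T, S58B_field_finiteDimensional W hΔ hm hT,
    fun z hz => S58B_mem_field W m T hz,
    fun g g' h P hP => S58B_smul_eq_of_agree W m T g g' h P hP,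
    fun g h P hP => S58B_smul_eq_of_fix W m T g h P hP⟩

end Qbar

end Fermat.Agent.S58
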