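import Mathlib

/-!
# S58, package U-mult (second route), part 1: the group of a nodal Weierstrass cubic

`W` a Weierstrass curve over a field `k` with a node at `(x₀, y₀)` with tangent slopes `α ≠ β`
(datum `S58N_Node`).  The polynomial parametrisation

  `u ↦ (x₀ + δ²(u² - u), y₀ + βδ²(u² - u) + δ³(u³ - u²))`,  `δ = α - β`,

maps `k ∖ {0, 1}` to the nonsingular points, and `u = 1/(1 - t)` turns it into an injective group
homomorphism `kˣ → W.Point`.  Consequence: a primitive `m`-th root of unity gives a point of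
exact order `m` (`S58N_exists_order`).
-/

set_option autoImplicit false

namespace Fermat.Agent.S58

open WeierstrassCurve WeierstrassCurve.Affine

section Param

variable {k : Type*} [Field k]

/-- node datum: `(x₀, y₀)` is a singular point of `W` with tangent slopes `α ≠ β`. -/
structure S58N_Node (W : WeierstrassCurve.Affine k) (x₀ y₀ α β : k) : Prop where
  hE : y₀ ^ 2 + W.a₁ * x₀ * y₀ + W.a₃ * y₀ = x₀ ^ 3 + W.a₂ * x₀ ^ 2 + W.a₄ * x₀ + W.a₆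
  hDy : 2 * y₀ + W.a₁ * x₀ + W.a₃ = 0
  hDx : W.a₁ * y₀ = 3 * x₀ ^ 2 + 2 * W.a₂ * x₀ + W.a₄
  hsum : α + β = -W.a₁
  hprod : α * β = -(W.a₂ + 3 * x₀)
  hne : α ≠ β

variable {W : WeierstrassCurve.Affine k} {x₀ y₀ α β : k}

lemma S58N_Node.a₁_eq (h : S58N_Node W x₀ y₀ α β) : W.a₁ = -(α + β) := by
  linear_combination h.hsum

lemma S58N_Node.a₂_eq (h : S58N_Node W x₀ y₀ α β) : W.a₂ = -(α * β) - 3 * x₀ := by
  linear_combination h.hprod

lemma S58N_Node.a₃_eq (h : S58N_Node W x₀ y₀ α β) : W.a₃ = -2 * y₀ + (α + β) * x₀ := by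
  linear_combination h.hDy - x₀ * h.hsum

lemma S58N_Node.a₄_eq (h : S58N_Node W x₀ y₀ α β) :
    W.a₄ = -(α + β) * y₀ + 3 * x₀ ^ 2 + 2 * (α * β) * x₀ := by
  linear_combination -h.hDx + y₀ * h.hsum - 2 * x₀ * h.hprod

lemma S58N_Node.a₆_eq (h : S58N_Node W x₀ y₀ α β) :
    W.a₆ = -y₀ ^ 2 + (α + β) * x₀ * y₀ - x₀ ^ 3 - α * β * x₀ ^ 2 := by
  have h1 := h.a₁_eq
  have h2 := h.a₂_eq
  have h3 := h.a₃_eq
  have h4 := h.a₄_eq
  have hE := h.hE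
  rw [h1, h2, h3, h4] at hE
  linear_combination -hE

/-- `X`-coordinate of the parametrisation. -/
def S58N_X (x₀ α β u : k) : k := x₀ + (α - β) ^ 2 * (u ^ 2 - u)

/-- `Y`-coordinate of the parametrisation. -/
def S58N_Y (x₀ y₀ α β u : k) : k :=
  y₀ + β * (α - β) ^ 2 * (u ^ 2 - u) + (α - β) ^ 3 * (u ^ 3 - u ^ 2)

lemma S58N_equation (h : S58N_Node W x₀ y₀ α β) (u : k) :
    W.Equation (S58N_X x₀ α β u) (S58N_Y x₀ y₀ α β u) := by
  rw [Affine.equation_iff, h.a₁_eq, h.a₂_eq, h.a₃_eq, h.a₄_eq, h.a₆_eq, S58N_X, S58N_Y]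
  ring

lemma S58N_sub_ne (h : S58N_Node W x₀ y₀ α β) : α - β ≠ 0 := sub_ne_zero.2 h.hne

/-- the `y`-derivative at the parametrised point. -/
lemma S58N_dY (h : S58N_Node W x₀ y₀ α β) (u : k) :
    S58N_Y x₀ y₀ α β u - W.negY (S58N_X x₀ α β u) (S58N_Y x₀ y₀ α β u) =
      (α - β) ^ 3 * (u ^ 2 - u) * (2 * u - 1) := by
  rw [Affine.negY, h.a₁_eq, h.a₃_eq, S58N_X, S58N_Y]
  ring

/-- the `x`-derivative at the parametrised point. -/
lemma S58N_dX (h : S58N_Node W x₀ y₀ α β) (u : k) :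
    W.a₁ * S58N_Y x₀ y₀ α β u -
        (3 * S58N_X x₀ α β u ^ 2 + 2 * W.a₂ * S58N_X x₀ α β u + W.a₄) =
      -((α - β) ^ 3 * (u ^ 2 - u) * (β * (2 * u - 1) + (α - β) * (3 * u ^ 2 - 2 * u))) := by
  rw [h.a₁_eq, h.a₂_eq, h.a₄_eq, S58N_X, S58N_Y]
  ring

lemma S58N_nonsingular (h : S58N_Node W x₀ y₀ α β) {u : k} (hu0 : u ≠ 0) (hu1 : u ≠ 1) :
    W.Nonsingular (S58N_X x₀ α β u) (S58N_Y x₀ y₀ α β u) := by
  rw [Affine.nonsingular_iff]
  refine ⟨S58N_equation h u, ?_⟩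
  have hδ := S58N_sub_ne h
  have huu : u ^ 2 - u ≠ 0 := by
    have : u ^ 2 - u = u * (u - 1) := by ring
    rw [this]
    exact mul_ne_zero hu0 (sub_ne_zero.2 hu1)
  by_contra hcon
  rw [not_or, not_not, not_not] at hcon
  obtain ⟨hx, hy⟩ := hcon
  have e1 := S58N_dX h u
  have e2 := S58N_dY h u
  rw [Affine.negY] at e2
  have hy0 : (α - β) ^ 3 * (u ^ 2 - u) * (2 * u - 1) = 0 := by
    rw [← e2]; linear_combination hy
  have hx0 : (α - β) ^ 3 * (u ^ 2 - u) * (β * (2 * u - 1) + (α - β) * (3 * u ^ 2 - 2 * u)) = 0 := by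
    have : W.a₁ * S58N_Y x₀ y₀ α β u -
        (3 * S58N_X x₀ α β u ^ 2 + 2 * W.a₂ * S58N_X x₀ α β u + W.a₄) = 0 := by
      linear_combination hx
    rw [e1] at this
    exact neg_eq_zero.1 this
  have hc : (α - β) ^ 3 * (u ^ 2 - u) ≠ 0 := mul_ne_zero (pow_ne_zero 3 hδ) huu
  have h2u : 2 * u - 1 = 0 := (mul_eq_zero.1 hy0).resolve_left hc
  have h3u : β * (2 * u - 1) + (α - β) * (3 * u ^ 2 - 2 * u) = 0 :=
    (mul_eq_zero.1 hx0).resolve_left hc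
  rw [h2u, mul_zero, zero_add] at h3u
  have h4 : 3 * u ^ 2 - 2 * u = 0 := (mul_eq_zero.1 h3u).resolve_left hδ
  have hu2 : u ^ 2 = 0 := by linear_combination (2 * u) * h2u - h4
  exact hu0 ((pow_eq_zero_iff two_ne_zero).1 hu2)

variable [DecidableEq k]

/-- the parametrised point (for `u ≠ 0, 1`; `0` otherwise). -/
noncomputable def S58N_pt (h : S58N_Node W x₀ y₀ α β) (u : k) : W.Point :=
  if hu : u ≠ 0 ∧ u ≠ 1 then Point.some _ _ (S58N_nonsingular h hu.1 hu.2) else 0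

lemma S58N_pt_of (h : S58N_Node W x₀ y₀ α β) {u : k} (hu0 : u ≠ 0) (hu1 : u ≠ 1) :
    S58N_pt h u = Point.some _ _ (S58N_nonsingular h hu0 hu1) := by
  rw [S58N_pt, dif_pos ⟨hu0, hu1⟩]

lemma S58N_pt_ne_zero (h : S58N_Node W x₀ y₀ α β) {u : k} (hu0 : u ≠ 0) (hu1 : u ≠ 1) :
    S58N_pt h u ≠ 0 := by
  rw [S58N_pt_of h hu0 hu1]
  exact Point.some_ne_zero _

/-- negation: `-P(u) = P(1 - u)`. -/
lemma S58N_neg (h : S58N_Node W x₀ y₀ α β) {u : k} (hu0 : u ≠ 0) (hu1 : u ≠ 1) :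
    -S58N_pt h u = S58N_pt h (1 - u) := by
  have hv0 : 1 - u ≠ 0 := sub_ne_zero.2 (Ne.symm hu1)
  have hv1 : 1 - u ≠ 1 := by
    intro e
    apply hu0
    linear_combination -e
  rw [S58N_pt_of h hu0 hu1, S58N_pt_of h hv0 hv1, Point.neg_some]
  have eX : S58N_X x₀ α β (1 - u) = S58N_X x₀ α β u := by
    simp only [S58N_X]; ring
  have eY : S58N_Y x₀ y₀ α β (1 - u) = W.negY (S58N_X x₀ α β u) (S58N_Y x₀ y₀ α β u) := by
    rw [Affine.negY, h.a₁_eq, h.a₃_eq]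
    simp only [S58N_X, S58N_Y]; ring
  simp only [eX, eY]

/-- `X(u₁) = X(u₂)` iff `u₁ = u₂` or `u₁ + u₂ = 1`. -/
lemma S58N_X_eq_iff (h : S58N_Node W x₀ y₀ α β) (u₁ u₂ : k) :
    S58N_X x₀ α β u₁ = S58N_X x₀ α β u₂ ↔ u₁ = u₂ ∨ u₁ + u₂ = 1 := by
  have hδ := S58N_sub_ne h
  have key : S58N_X x₀ α β u₁ - S58N_X x₀ α β u₂ = (α - β) ^ 2 * ((u₁ - u₂) * (u₁ + u₂ - 1)) := by
    simp only [S58N_X]; ring
  rw [← sub_eq_zero, key, mul_eq_zero, mul_eq_zero, sub_eq_zero, sub_eq_zero]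
  constructor
  · rintro (h0 | h0)
    · exact absurd h0 (pow_ne_zero 2 hδ)
    · exact h0
  · exact fun h0 => Or.inr h0

/-- the slope of the chord / tangent. -/
lemma S58N_slope (h : S58N_Node W x₀ y₀ α β) {u₁ u₂ : k} (h₁0 : u₁ ≠ 0) (h₁1 : u₁ ≠ 1)
    (hs : u₁ + u₂ ≠ 1) :
    W.slope (S58N_X x₀ α β u₁) (S58N_X x₀ α β u₂) (S58N_Y x₀ y₀ α β u₁) (S58N_Y x₀ y₀ α β u₂) =
      β + (α - β) * (u₁ ^ 2 + u₁ * u₂ + u₂ ^ 2 - u₁ - u₂) / (u₁ + u₂ - 1) := by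
  have hδ := S58N_sub_ne h
  have hs' : u₁ + u₂ - 1 ≠ 0 := sub_ne_zero.2 hs
  by_cases hx : S58N_X x₀ α β u₁ = S58N_X x₀ α β u₂
  · -- tangent
    have hu : u₁ = u₂ := ((S58N_X_eq_iff h u₁ u₂).1 hx).resolve_right hs
    subst hu
    have h2 : 2 * u₁ - 1 ≠ 0 := by
      intro e; apply hs'; linear_combination e
    have huu : u₁ ^ 2 - u₁ ≠ 0 := by
      have : u₁ ^ 2 - u₁ = u₁ * (u₁ - 1) := by ring
      rw [this]
      exact mul_ne_zero h₁0 (sub_ne_zero.2 h₁1)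
    have hy : S58N_Y x₀ y₀ α β u₁ ≠ W.negY (S58N_X x₀ α β u₁) (S58N_Y x₀ y₀ α β u₁) := by
      intro e
      have := S58N_dY h u₁
      rw [← e, sub_self] at this
      exact mul_ne_zero (mul_ne_zero (pow_ne_zero 3 hδ) huu) h2 this.symm
    rw [Affine.slope_of_Y_ne rfl hy, S58N_dY h u₁]
    have e1 := S58N_dX h u₁
    have e1' : 3 * S58N_X x₀ α β u₁ ^ 2 + 2 * W.a₂ * S58N_X x₀ α β u₁ + W.a₄ -
        W.a₁ * S58N_Y x₀ y₀ α β u₁ =
          (α - β) ^ 3 * (u₁ ^ 2 - u₁) * (β * (2 * u₁ - 1) + (α - β) * (3 * u₁ ^ 2 - 2 * u₁)) := by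
      linear_combination -e1
    have hinv : (2 * u₁ - 1)⁻¹ * (2 * u₁ - 1) = 1 := inv_mul_cancel₀ h2
    rw [e1', show u₁ + u₁ - 1 = 2 * u₁ - 1 by ring,
      div_eq_iff (mul_ne_zero (mul_ne_zero (pow_ne_zero 3 hδ) huu) h2), div_eq_mul_inv]
    linear_combination (-(α - β) ^ 4 * (u₁ ^ 2 - u₁) * (3 * u₁ ^ 2 - 2 * u₁)) * hinv
  · rw [Affine.slope_of_X_ne hx]
    have hne : u₁ ≠ u₂ := fun e => hx (by rw [e])
    have hd : u₁ - u₂ ≠ 0 := sub_ne_zero.2 hne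
    have eX : S58N_X x₀ α β u₁ - S58N_X x₀ α β u₂ = (α - β) ^ 2 * ((u₁ - u₂) * (u₁ + u₂ - 1)) := by
      simp only [S58N_X]; ring
    have eY : S58N_Y x₀ y₀ α β u₁ - S58N_Y x₀ y₀ α β u₂ =
        (α - β) ^ 2 * (u₁ - u₂) * (β * (u₁ + u₂ - 1) +
          (α - β) * (u₁ ^ 2 + u₁ * u₂ + u₂ ^ 2 - u₁ - u₂)) := by
      simp only [S58N_Y]; ring
    rw [eX, eY]
    field_simp

/-- **addition formula**: `P(u₁) + P(u₂) = P(u₁u₂/(u₁ + u₂ - 1))` for `u₁ + u₂ ≠ 1`. -/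
theorem S58N_add (h : S58N_Node W x₀ y₀ α β) {u₁ u₂ : k} (h₁0 : u₁ ≠ 0) (h₁1 : u₁ ≠ 1)
    (h₂0 : u₂ ≠ 0) (h₂1 : u₂ ≠ 1) (hs : u₁ + u₂ ≠ 1) :
    S58N_pt h u₁ + S58N_pt h u₂ = S58N_pt h (u₁ * u₂ / (u₁ + u₂ - 1)) := by
  have hδ := S58N_sub_ne h
  have hs' : u₁ + u₂ - 1 ≠ 0 := sub_ne_zero.2 hs
  have h30 : u₁ * u₂ / (u₁ + u₂ - 1) ≠ 0 := div_ne_zero (mul_ne_zero h₁0 h₂0) hs'
  have h31 : u₁ * u₂ / (u₁ + u₂ - 1) ≠ 1 := by
    intro e
    rw [div_eq_one_iff_eq hs'] at e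
    have : (u₁ - 1) * (u₂ - 1) = 0 := by linear_combination e
    rcases mul_eq_zero.1 this with h0 | h0
    · exact h₁1 (sub_eq_zero.1 h0)
    · exact h₂1 (sub_eq_zero.1 h0)
  rw [S58N_pt_of h h₁0 h₁1, S58N_pt_of h h₂0 h₂1, S58N_pt_of h h30 h31]
  have hxy : ¬(S58N_X x₀ α β u₁ = S58N_X x₀ α β u₂ ∧
      S58N_Y x₀ y₀ α β u₁ = W.negY (S58N_X x₀ α β u₂) (S58N_Y x₀ y₀ α β u₂)) := by
    rintro ⟨hx, hy⟩
    have hu : u₁ = u₂ := ((S58N_X_eq_iff h u₁ u₂).1 hx).resolve_right hs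
    subst hu
    have h2 : 2 * u₁ - 1 ≠ 0 := by
      intro e; apply hs'; linear_combination e
    have huu : u₁ ^ 2 - u₁ ≠ 0 := by
      have : u₁ ^ 2 - u₁ = u₁ * (u₁ - 1) := by ring
      rw [this]
      exact mul_ne_zero h₁0 (sub_ne_zero.2 h₁1)
    have := S58N_dY h u₁
    rw [← hy, sub_self] at this
    exact mul_ne_zero (mul_ne_zero (pow_ne_zero 3 hδ) huu) h2 this.symm
  rw [Point.add_some hxy]
  have hsl := S58N_slope h h₁0 h₁1 hs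
  have eX : W.addX (S58N_X x₀ α β u₁) (S58N_X x₀ α β u₂)
      (W.slope (S58N_X x₀ α β u₁) (S58N_X x₀ α β u₂) (S58N_Y x₀ y₀ α β u₁)
        (S58N_Y x₀ y₀ α β u₂)) = S58N_X x₀ α β (u₁ * u₂ / (u₁ + u₂ - 1)) := by
    rw [hsl, Affine.addX, h.a₁_eq, h.a₂_eq]
    simp only [S58N_X]
    field_simp
    ring
  have eY : W.addY (S58N_X x₀ α β u₁) (S58N_X x₀ α β u₂) (S58N_Y x₀ y₀ α β u₁)
      (W.slope (S58N_X x₀ α β u₁) (S58N_X x₀ α β u₂) (S58N_Y x₀ y₀ α β u₁)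
        (S58N_Y x₀ y₀ α β u₂)) = S58N_Y x₀ y₀ α β (u₁ * u₂ / (u₁ + u₂ - 1)) := by
    rw [Affine.addY, Affine.negAddY, Affine.negY, eX, hsl, h.a₁_eq, h.a₃_eq]
    simp only [S58N_X, S58N_Y]
    field_simp
    ring
  simp only [eX, eY]

/-- the point attached to `t ∈ kˣ`: `P(1/(1 - t))`, and `0` for `t = 1`. -/
noncomputable def S58N_f (h : S58N_Node W x₀ y₀ α β) (t : k) : W.Point :=
  if t = 1 then 0 else S58N_pt h (1 - t)⁻¹

lemma S58N_f_one (h : S58N_Node W x₀ y₀ α β) : S58N_f h 1 = 0 := by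
  rw [S58N_f, if_pos rfl]

lemma S58N_u_ne_zero {t : k} (ht1 : t ≠ 1) : (1 - t)⁻¹ ≠ 0 :=
  inv_ne_zero (sub_ne_zero.2 (Ne.symm ht1))

lemma S58N_u_ne_one {t : k} (ht0 : t ≠ 0) : (1 - t)⁻¹ ≠ 1 := by
  intro e
  rw [inv_eq_one] at e
  apply ht0
  linear_combination -e

lemma S58N_f_ne_zero (h : S58N_Node W x₀ y₀ α β) {t : k} (ht0 : t ≠ 0) (ht1 : t ≠ 1) :
    S58N_f h t ≠ 0 := by
  rw [S58N_f, if_neg ht1]
  exact S58N_pt_ne_zero h (S58N_u_ne_zero ht1) (S58N_u_ne_one ht0)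

/-- multiplicativity of the parametrisation. -/
theorem S58N_f_mul (h : S58N_Node W x₀ y₀ α β) {t s : k} (ht0 : t ≠ 0) (hs0 : s ≠ 0) :
    S58N_f h (t * s) = S58N_f h t + S58N_f h s := by
  by_cases ht1 : t = 1
  · subst ht1
    rw [one_mul, S58N_f_one, zero_add]
  by_cases hs1 : s = 1
  · subst hs1
    rw [mul_one, S58N_f_one, add_zero]
  have h1t : 1 - t ≠ 0 := sub_ne_zero.2 (Ne.symm ht1)
  have h1s : 1 - s ≠ 0 := sub_ne_zero.2 (Ne.symm hs1)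
  by_cases hts : t * s = 1
  · rw [hts, S58N_f_one]
    have e : (1 - s)⁻¹ = 1 - (1 - t)⁻¹ := by
      have hs : s = t⁻¹ := eq_inv_of_mul_eq_one_right hts
      rw [hs]
      field_simp
      ring
    rw [S58N_f, if_neg ht1, S58N_f, if_neg hs1, e,
      ← S58N_neg h (S58N_u_ne_zero ht1) (S58N_u_ne_one ht0), add_neg_cancel]
  · have h1ts : 1 - t * s ≠ 0 := sub_ne_zero.2 (Ne.symm hts)
    have hsum : (1 - t)⁻¹ + (1 - s)⁻¹ ≠ 1 := by
      intro e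
      apply h1ts
      field_simp at e
      linear_combination e
    rw [S58N_f, if_neg hts, S58N_f, if_neg ht1, S58N_f, if_neg hs1,
      S58N_add h (S58N_u_ne_zero ht1) (S58N_u_ne_one ht0) (S58N_u_ne_zero hs1)
        (S58N_u_ne_one hs0) hsum]
    congr 1
    have hd : (1 - t)⁻¹ + (1 - s)⁻¹ - 1 ≠ 0 := sub_ne_zero.2 hsum
    rw [eq_div_iff hd]
    field_simp
    ring

/-- the parametrisation as a group homomorphism `kˣ → W.Point`. -/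
noncomputable def S58N_hom (h : S58N_Node W x₀ y₀ α β) : kˣ →* Multiplicative W.Point where
  toFun t := Multiplicative.ofAdd (S58N_f h (t : k))
  map_one' := by
    rw [Units.val_one, S58N_f_one]
    rfl
  map_mul' t s := by
    rw [Units.val_mul, S58N_f_mul h t.ne_zero s.ne_zero]
    rfl

lemma S58N_hom_injective (h : S58N_Node W x₀ y₀ α β) : Function.Injective (S58N_hom h) := by
  rw [injective_iff_map_eq_one]
  intro t ht
  by_contra ht1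
  have ht1' : (t : k) ≠ 1 := fun e => ht1 (Units.ext e)
  have : S58N_f h (t : k) = 0 := ht
  exact S58N_f_ne_zero h t.ne_zero ht1' this

/-- **a point of exact order `m`** on the nodal cubic, from an element of order `m` of `kˣ`. -/
theorem S58N_exists_order_of (h : S58N_Node W x₀ y₀ α β) (ζ : kˣ) :
    ∃ Q : W.Point, addOrderOf Q = orderOf ζ := by
  refine ⟨S58N_f h (ζ : k), ?_⟩
  have := orderOf_injective (S58N_hom h) (S58N_hom_injective h) ζ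
  rw [← this]
  exact (orderOf_ofAdd_eq_addOrderOf _).symm

/-- **a point of exact order `m`** on the nodal cubic over an algebraically closed field in which
`m ≠ 0`. -/
theorem S58N_exists_order [IsAlgClosed k] (h : S58N_Node W x₀ y₀ α β) {m : ℕ}
    (hm : (m : k) ≠ 0) : ∃ Q : W.Point, addOrderOf Q = m := by
  haveI : NeZero (m : k) := ⟨hm⟩
  obtain ⟨ζ, hζ⟩ := HasEnoughRootsOfUnity.exists_primitiveRoot k m
  have hm0 : m ≠ 0 := by
    rintro rfl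
    exact hm Nat.cast_zero
  have hζ0 : ζ ≠ 0 := hζ.ne_zero hm0
  have hord : orderOf (Units.mk0 ζ hζ0) = m := by
    have h1 : orderOf ((Units.mk0 ζ hζ0 : kˣ) : k) = m := by
      rw [Units.val_mk0]
      exact hζ.eq_orderOf.symm
    rw [← h1]
    exact (orderOf_units (G := k) (y := Units.mk0 ζ hζ0)).symm
  obtain ⟨Q, hQ⟩ := S58N_exists_order_of h (Units.mk0 ζ hζ0)
  exact ⟨Q, hQ.trans hord⟩

end Param

end Fermat.Agent.S58
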