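import Mathlib

/-!
# S58, U-mult second route, step N1 (helper23): a Weierstrass cubic with `Δ = 0`, `c₄ ≠ 0` over an
algebraically closed field has a node

Prefix `S58NE_`.  Mathlib only, any characteristic (2 and 3 included).

* `S58NE_exists_raw` : `k` algebraically closed, `W.Δ = 0`, `W.c₄ ≠ 0` ⇒ there are `x₀ y₀ α β` with
  the curve equation at `(x₀, y₀)`, both partial derivatives zero there, and `α ≠ β` the two roots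
  of the tangent-cone polynomial `T² + a₁ T - (a₂ + 3 x₀)`.
* `S58NE_not_nonsingular` : the same point in Mathlib's language (`W.toAffine.Equation x₀ y₀`,
  `¬ W.toAffine.Nonsingular x₀ y₀`).

Proof (helper14's plan): `x₀ := (18 b₆ - b₂ b₄) / c₄`; the identities `S58NE_id1`, `S58NE_id2`
give `b₄(x₀) = 0 = b₆(x₀)`; `y₀` a root of the curve equation; `(2y₀ + a₁x₀ + a₃)² = b₆(x₀) = 0`;
`g := a₁y₀ - (3x₀² + 2a₂x₀ + a₄)` has `2g = -b₄(x₀) = 0` and `Δ = g² (c₄ + 64 g)`, so `g = 0`.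
-/

set_option autoImplicit false

namespace Fermat.Agent.S58

open WeierstrassCurve Polynomial

variable {k : Type*} [Field k]

theorem S58NE_id1 (W : WeierstrassCurve k) :
    W.c₄ ^ 2 * W.b₄ + W.c₄ * (18 * W.b₆ - W.b₂ * W.b₄) * W.b₂ + 6 * (18 * W.b₆ - W.b₂ * W.b₄) ^ 2
      = -72 * W.Δ := by
  simp only [WeierstrassCurve.Δ, WeierstrassCurve.c₄, WeierstrassCurve.b₂, WeierstrassCurve.b₄,
    WeierstrassCurve.b₆, WeierstrassCurve.b₈]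
  ring

theorem S58NE_id2 (W : WeierstrassCurve k) :
    W.c₄ ^ 3 * W.b₆ + 2 * W.c₄ ^ 2 * (18 * W.b₆ - W.b₂ * W.b₄) * W.b₄
      + W.c₄ * (18 * W.b₆ - W.b₂ * W.b₄) ^ 2 * W.b₂ + 4 * (18 * W.b₆ - W.b₂ * W.b₄) ^ 3
      = 4 * W.c₆ * W.Δ := by
  simp only [WeierstrassCurve.Δ, WeierstrassCurve.c₄, WeierstrassCurve.c₆, WeierstrassCurve.b₂,
    WeierstrassCurve.b₄, WeierstrassCurve.b₆, WeierstrassCurve.b₈]
  ring

/-- `c₄` in terms of the translated `b₂`, `b₄`. -/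
theorem S58NE_c₄_eq (W : WeierstrassCurve k) (x₀ : k) :
    W.c₄ = (W.b₂ + 12 * x₀) ^ 2 - 24 * (W.b₄ + x₀ * W.b₂ + 6 * x₀ ^ 2) := by
  simp only [WeierstrassCurve.c₄]
  ring

/-- the `x`-coordinate of the singular point: `b₄(x₀) = 0` and `b₆(x₀) = 0`. -/
theorem S58NE_x₀ (W : WeierstrassCurve k) (hΔ : W.Δ = 0) (hc₄ : W.c₄ ≠ 0) :
    ∃ x₀ : k, W.b₄ + x₀ * W.b₂ + 6 * x₀ ^ 2 = 0 ∧
      W.b₆ + 2 * x₀ * W.b₄ + x₀ ^ 2 * W.b₂ + 4 * x₀ ^ 3 = 0 ∧ (W.b₂ + 12 * x₀) ^ 2 = W.c₄ := by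
  refine ⟨(18 * W.b₆ - W.b₂ * W.b₄) / W.c₄, ?_, ?_, ?_⟩
  · have h := S58NE_id1 W
    rw [hΔ, mul_zero] at h
    have h2 : W.c₄ ^ 2 * (W.b₄ + (18 * W.b₆ - W.b₂ * W.b₄) / W.c₄ * W.b₂ +
        6 * ((18 * W.b₆ - W.b₂ * W.b₄) / W.c₄) ^ 2) = 0 := by
      rw [← h]
      field_simp
    exact (mul_eq_zero.1 h2).resolve_left (pow_ne_zero _ hc₄)
  · have h := S58NE_id2 W
    rw [hΔ, mul_zero] at h
    have h2 : W.c₄ ^ 3 * (W.b₆ + 2 * ((18 * W.b₆ - W.b₂ * W.b₄) / W.c₄) * W.b₄ +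
        ((18 * W.b₆ - W.b₂ * W.b₄) / W.c₄) ^ 2 * W.b₂ +
        4 * ((18 * W.b₆ - W.b₂ * W.b₄) / W.c₄) ^ 3) = 0 := by
      rw [← h]
      field_simp
    exact (mul_eq_zero.1 h2).resolve_left (pow_ne_zero _ hc₄)
  · have h := S58NE_id1 W
    rw [hΔ, mul_zero] at h
    have h2 : W.c₄ ^ 2 * (W.b₄ + (18 * W.b₆ - W.b₂ * W.b₄) / W.c₄ * W.b₂ +
        6 * ((18 * W.b₆ - W.b₂ * W.b₄) / W.c₄) ^ 2) = 0 := by
      rw [← h]
      field_simp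
    have h3 := (mul_eq_zero.1 h2).resolve_left (pow_ne_zero _ hc₄)
    have h4 := S58NE_c₄_eq W ((18 * W.b₆ - W.b₂ * W.b₄) / W.c₄)
    rw [h3, mul_zero, sub_zero] at h4
    exact h4.symm

/-- a monic quadratic has a root in an algebraically closed field. -/
theorem S58NE_quad_root [IsAlgClosed k] (b c : k) : ∃ y : k, y ^ 2 + b * y + c = 0 := by
  have hdeg : (C (1 : k) * X ^ 2 + C b * X + C c).degree = 2 := degree_quadratic one_ne_zero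
  obtain ⟨y, hy⟩ := IsAlgClosed.exists_root (C (1 : k) * X ^ 2 + C b * X + C c)
    (by rw [hdeg]; norm_num)
  refine ⟨y, ?_⟩
  have := hy
  simp only [IsRoot.def, eval_add, eval_mul, eval_C, eval_pow, eval_X, one_mul] at this
  exact this

/-- **N1**: a Weierstrass cubic with `Δ = 0` and `c₄ ≠ 0` over an algebraically closed field has
a node: a singular point `(x₀, y₀)` with two distinct tangent slopes `α`, `β`. -/
theorem S58NE_exists_raw [IsAlgClosed k] (W : WeierstrassCurve k) (hΔ : W.Δ = 0)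
    (hc₄ : W.c₄ ≠ 0) :
    ∃ x₀ y₀ α β : k,
      (y₀ ^ 2 + W.a₁ * x₀ * y₀ + W.a₃ * y₀ = x₀ ^ 3 + W.a₂ * x₀ ^ 2 + W.a₄ * x₀ + W.a₆) ∧
      (2 * y₀ + W.a₁ * x₀ + W.a₃ = 0) ∧
      (W.a₁ * y₀ = 3 * x₀ ^ 2 + 2 * W.a₂ * x₀ + W.a₄) ∧
      (α + β = -W.a₁) ∧ (α * β = -(W.a₂ + 3 * x₀)) ∧ α ≠ β := by
  obtain ⟨x₀, hb4, hb6, hb2⟩ := S58NE_x₀ W hΔ hc₄
  obtain ⟨y₀, hy₀⟩ := S58NE_quad_root (W.a₁ * x₀ + W.a₃)
    (-(x₀ ^ 3 + W.a₂ * x₀ ^ 2 + W.a₄ * x₀ + W.a₆))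
  have hE : y₀ ^ 2 + W.a₁ * x₀ * y₀ + W.a₃ * y₀ = x₀ ^ 3 + W.a₂ * x₀ ^ 2 + W.a₄ * x₀ + W.a₆ := by
    linear_combination hy₀
  -- `hDy`
  have hsq : (2 * y₀ + W.a₁ * x₀ + W.a₃) ^ 2 = 0 := by
    have e : (2 * y₀ + W.a₁ * x₀ + W.a₃) ^ 2 =
        W.b₆ + 2 * x₀ * W.b₄ + x₀ ^ 2 * W.b₂ + 4 * x₀ ^ 3 := by
      simp only [WeierstrassCurve.b₂, WeierstrassCurve.b₄, WeierstrassCurve.b₆]
      linear_combination 4 * hE
    rw [e, hb6]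
  have hDy : 2 * y₀ + W.a₁ * x₀ + W.a₃ = 0 := pow_eq_zero_iff (two_ne_zero) |>.1 hsq
  -- `hDx`
  obtain ⟨g, hg⟩ : ∃ g : k, g = W.a₁ * y₀ - (3 * x₀ ^ 2 + 2 * W.a₂ * x₀ + W.a₄) := ⟨_, rfl⟩
  have h2g : 2 * g = 0 := by
    have e : 2 * g = -(W.b₄ + x₀ * W.b₂ + 6 * x₀ ^ 2) := by
      simp only [WeierstrassCurve.b₂, WeierstrassCurve.b₄]
      rw [hg]
      linear_combination W.a₁ * hDy
    rw [e, hb4, neg_zero]
  have h3 : W.a₃ = -(2 * y₀) - W.a₁ * x₀ := by linear_combination hDy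
  have h4 : W.a₄ = W.a₁ * y₀ - 3 * x₀ ^ 2 - 2 * W.a₂ * x₀ - g := by rw [hg]; ring
  have h6 : W.a₆ = y₀ ^ 2 + W.a₁ * x₀ * y₀ + W.a₃ * y₀ - x₀ ^ 3 - W.a₂ * x₀ ^ 2 - W.a₄ * x₀ := by
    linear_combination -hE
  have hΔg : W.Δ = g ^ 2 * ((W.b₂ + 12 * x₀) ^ 2 + 64 * g) := by
    simp only [WeierstrassCurve.Δ, WeierstrassCurve.b₂, WeierstrassCurve.b₄,
      WeierstrassCurve.b₆, WeierstrassCurve.b₈]
    rw [h6, h4, h3]
    ring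
  have hg0 : g = 0 := by
    by_contra hgne
    rw [hΔ, hb2] at hΔg
    have h5 : W.c₄ + 64 * g = 0 :=
      (mul_eq_zero.1 hΔg.symm).resolve_left (pow_ne_zero _ hgne)
    apply hc₄
    linear_combination h5 - 32 * h2g
  have hDx : W.a₁ * y₀ = 3 * x₀ ^ 2 + 2 * W.a₂ * x₀ + W.a₄ := by
    rw [hg0] at hg
    linear_combination -hg
  -- the slopes
  obtain ⟨α, hα⟩ := S58NE_quad_root W.a₁ (-(W.a₂ + 3 * x₀))
  refine ⟨x₀, y₀, α, -W.a₁ - α, hE, hDy, hDx, by ring, by linear_combination -hα, ?_⟩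
  intro hαβ
  apply hc₄
  rw [← hb2]
  have e : W.b₂ + 12 * x₀ = 0 := by
    simp only [WeierstrassCurve.b₂]
    have h2α : 2 * α = -W.a₁ := by linear_combination hαβ
    linear_combination -4 * hα + (2 * α + W.a₁) * h2α
  rw [e]
  ring

/-- the singular point of `S58NE_exists_raw` in Mathlib's language. -/
theorem S58NE_not_nonsingular (W : WeierstrassCurve k) {x₀ y₀ : k}
    (hE : y₀ ^ 2 + W.a₁ * x₀ * y₀ + W.a₃ * y₀ = x₀ ^ 3 + W.a₂ * x₀ ^ 2 + W.a₄ * x₀ + W.a₆)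
    (hDy : 2 * y₀ + W.a₁ * x₀ + W.a₃ = 0)
    (hDx : W.a₁ * y₀ = 3 * x₀ ^ 2 + 2 * W.a₂ * x₀ + W.a₄) :
    W.toAffine.Equation x₀ y₀ ∧ ¬ W.toAffine.Nonsingular x₀ y₀ := by
  refine ⟨(Affine.equation_iff _ _).2 hE, fun h => ?_⟩
  rw [Affine.nonsingular_iff] at h
  rcases h.2 with h1 | h1
  · exact h1 hDx
  · exact h1 (by linear_combination hDy)

end Fermat.Agent.S58
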