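import Mathlib
import Fermat.Agent.S58.Rel
import Fermat.Agent.S05.Final
import Fermat.Agent.Lib.DivPolyCount

/-!
# S58, package U-mult, second route (helper14), steps (N3) + (N4) (helper28): lifting a torsion point
of the reduced curve and fixing it by inertia

`W : WeierstrassCurve ℤ` with `Δ ≠ 0`, `A` a valuation ring of `ℚ̄` over a prime `ℓ` (ANY reduction
type of `W` at `ℓ`, `ℓ = 2` allowed), `k` the residue field of `A`, `W̃ = W.map (ℤ → k)`, `m` odd with
`ℓ ∤ m`.  Prefix `S58NL_`.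

* `S58NL_res_eval`   : evaluation of an integral polynomial commutes with the residue map;
* `S58NL_exists_root`: a root in `k` of the reduction of `f ∈ ℤ[X]` (leading coefficient a unit of
  `A`, all roots in `A`) lifts to a root of `f` in `A`;
* `S58NL_equation`   : integral points of `W(ℚ̄)` reduce to points of the cubic `W̃`;
* **`S58NL_lift`**   : for every point `Q̄` of `W̃(k)` (Mathlib's `Point`: nonsingular points) of
  exact order `m` there is `P ∈ W(ℚ̄)` of exact order `m` fixed by the inertia group at `A`.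
-/

set_option autoImplicit false
set_option linter.unusedSectionVars false
set_option linter.unusedVariables false
set_option linter.style.haveILetI false
set_option synthInstance.maxHeartbeats 400000
set_option maxHeartbeats 1000000

open scoped Pointwise
open Polynomial

namespace Fermat.Agent.S58

open WeierstrassCurve Fermat.Agent.Lib Fermat.Agent.S05 Fermat.Agent.S51 Fermat.Agent.S18
  Fermat.Agent.GalRep Fermat.Agent.S41

local notation "ℚbar" => AlgebraicClosure ℚ

variable (W : WeierstrassCurve ℤ) {ℓ : ℕ} (A : ValuationSubring ℚbar)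

/-- evaluation of an integral polynomial at an element of `A` commutes with the residue map. -/
theorem S58NL_res_eval (f : ℤ[X]) (x : ↥A) :
    ∃ e : ↥A, (e : ℚbar) = (f.map (algebraMap ℤ ℚbar)).eval (x : ℚbar) ∧
      IsLocalRing.residue A e =
        (f.map (ft_resHom A (S41NE_int_mem A))).eval (IsLocalRing.residue A x) := by
  refine ⟨f.eval₂ ((algebraMap ℤ ℚbar).codRestrict A.toSubring (S41NE_int_mem A)) x, ?_, ?_⟩
  · rw [Polynomial.eval_map]
    have h := Polynomial.hom_eval₂ f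
      ((algebraMap ℤ ℚbar).codRestrict A.toSubring (S41NE_int_mem A)) A.subtype x
    have hc : A.subtype.comp ((algebraMap ℤ ℚbar).codRestrict A.toSubring (S41NE_int_mem A))
        = algebraMap ℤ ℚbar := RingHom.ext_int _ _
    rw [hc] at h
    exact h
  · rw [Polynomial.eval_map]
    exact Polynomial.hom_eval₂ f
      ((algebraMap ℤ ℚbar).codRestrict A.toSubring (S41NE_int_mem A)) (IsLocalRing.residue A) x

/-- the valuation of a product of elements of valuation one is one. -/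
theorem S58NL_val_prod (s : Multiset ℚbar) (h : ∀ r ∈ s, A.valuation r = 1) :
    A.valuation s.prod = 1 := by
  induction s using Multiset.induction_on with
  | empty => simp
  | cons a s ih =>
    rw [Multiset.prod_cons, map_mul, h a (Multiset.mem_cons_self a s),
      ih (fun r hr => h r (Multiset.mem_cons_of_mem hr)), one_mul]

/-- **lifting roots**: a root in `k` of the reduction of `f ∈ ℤ[X]`, whose leading coefficient
is a unit of `A` and whose roots lie in `A`, is the residue of a root of `f`. -/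
theorem S58NL_exists_root (f : ℤ[X])
    (hlc : A.valuation ((f.map (algebraMap ℤ ℚbar)).leadingCoeff) = 1)
    (hroots : ∀ r : ℚbar, (f.map (algebraMap ℤ ℚbar)).eval r = 0 → r ∈ A)
    (xbar : IsLocalRing.ResidueField A)
    (hx : (f.map (ft_resHom A (S41NE_int_mem A))).eval xbar = 0) :
    ∃ (r : ℚbar) (hr : r ∈ A), (f.map (algebraMap ℤ ℚbar)).eval r = 0 ∧
      IsLocalRing.residue A ⟨r, hr⟩ = xbar := by
  classical
  by_contra hcon
  push Not at hcon
  obtain ⟨x, rfl⟩ := IsLocalRing.residue_surjective xbar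
  set fQ := f.map (algebraMap ℤ ℚbar) with hfQ
  have hfQ0 : fQ ≠ 0 := by
    intro h0
    rw [h0, leadingCoeff_zero, map_zero] at hlc
    exact zero_ne_one hlc
  obtain ⟨e, he, hres⟩ := S58NL_res_eval A f x
  rw [hx] at hres
  have hsplit := (IsAlgClosed.splits fQ).eq_prod_roots
  have hval : A.valuation (fQ.eval (x : ℚbar)) = 1 := by
    rw [hsplit, eval_mul, eval_C, map_mul, hlc, one_mul, eval_multiset_prod]
    refine S58NL_val_prod A _ (fun t ht => ?_)
    rw [Multiset.mem_map] at ht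
    obtain ⟨g, hg, rfl⟩ := ht
    rw [Multiset.mem_map] at hg
    obtain ⟨r, hr, rfl⟩ := hg
    have hr0 : fQ.eval r = 0 := (Polynomial.mem_roots hfQ0).1 hr
    have hrA : r ∈ A := hroots r hr0
    rw [eval_sub, eval_X, eval_C]
    have hne := hcon r hrA hr0
    have hmem : (x : ℚbar) - r ∈ A := A.sub_mem x.2 hrA
    by_contra hv
    have hlt : A.valuation ((x : ℚbar) - r) < 1 :=
      lt_of_le_of_ne ((A.valuation_le_one_iff _).2 hmem) hv
    have h1 : ((x : ℚbar) - r) ∈ A.nonunits := (A.mem_nonunits_iff).2 hlt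
    have h2 : (⟨(x : ℚbar) - r, hmem⟩ : ↥A) ∈ IsLocalRing.maximalIdeal ↥A :=
      (ValuationSubring.coe_mem_nonunits_iff (A := A)).mp h1
    have h3 : IsLocalRing.residue A (⟨(x : ℚbar) - r, hmem⟩ : ↥A) = 0 :=
      (IsLocalRing.residue_eq_zero_iff _).2 h2
    have h4 : (⟨(x : ℚbar) - r, hmem⟩ : ↥A) = x - ⟨r, hrA⟩ := rfl
    rw [h4, map_sub, sub_eq_zero] at h3
    exact hne h3.symm
  have h5 : e ∈ IsLocalRing.maximalIdeal ↥A := (IsLocalRing.residue_eq_zero_iff _).1 hres
  have h6 : (e : ℚbar) ∈ A.nonunits := (ValuationSubring.coe_mem_nonunits_iff (A := A)).mpr h5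
  rw [he, A.mem_nonunits_iff, hval] at h6
  exact lt_irrefl _ h6

/-- integral points of `W(ℚ̄)` reduce to points of the cubic `W̃ = W.map (ℤ → k)`. -/
theorem S58NL_equation {x y : ℚbar} (hx : x ∈ A) (hy : y ∈ A)
    (h : (W.baseChange ℚbar).toAffine.Equation x y) :
    (W.map (ft_resHom A (S41NE_int_mem A))).toAffine.Equation
      (IsLocalRing.residue A ⟨x, hx⟩) (IsLocalRing.residue A ⟨y, hy⟩) := by
  rw [Affine.equation_iff] at h ⊢
  have hA : (⟨y, hy⟩ : ↥A) ^ 2 +
      ((algebraMap ℤ ℚbar).codRestrict A.toSubring (S41NE_int_mem A) W.a₁) * ⟨x, hx⟩ * ⟨y, hy⟩ +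
      ((algebraMap ℤ ℚbar).codRestrict A.toSubring (S41NE_int_mem A) W.a₃) * ⟨y, hy⟩ =
      (⟨x, hx⟩ : ↥A) ^ 3 +
      ((algebraMap ℤ ℚbar).codRestrict A.toSubring (S41NE_int_mem A) W.a₂) * ⟨x, hx⟩ ^ 2 +
      ((algebraMap ℤ ℚbar).codRestrict A.toSubring (S41NE_int_mem A) W.a₄) * ⟨x, hx⟩ +
      ((algebraMap ℤ ℚbar).codRestrict A.toSubring (S41NE_int_mem A) W.a₆) := by
    apply Subtype.ext
    exact h
  have := congrArg (IsLocalRing.residue A) hA
  simp only [map_add, map_mul, map_pow] at this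
  exact this

/-- the residue of the "derivative" `2y + a₁x + a₃` of an integral point. -/
theorem S58NL_deriv {x y : ℚbar} (hx : x ∈ A) (hy : y ∈ A) :
    ∃ hD : 2 * y + (W.baseChange ℚbar).toAffine.a₁ * x + (W.baseChange ℚbar).toAffine.a₃ ∈ A,
      IsLocalRing.residue A ⟨_, hD⟩ =
        2 * IsLocalRing.residue A ⟨y, hy⟩ +
          (W.map (ft_resHom A (S41NE_int_mem A))).toAffine.a₁ * IsLocalRing.residue A ⟨x, hx⟩ +
          (W.map (ft_resHom A (S41NE_int_mem A))).toAffine.a₃ := by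
  have h2 : (2 : ℚbar) ∈ A := by
    have := natCast_mem A 2
    exact_mod_cast this
  have hD : 2 * y + (W.baseChange ℚbar).toAffine.a₁ * x + (W.baseChange ℚbar).toAffine.a₃ ∈ A :=
    A.add_mem _ _ (A.add_mem _ _ (A.mul_mem _ _ h2 hy) (A.mul_mem _ _ (S41NE_int_mem A W.a₁) hx))
      (S41NE_int_mem A W.a₃)
  refine ⟨hD, ?_⟩
  have hA : (⟨_, hD⟩ : ↥A) = 2 * ⟨y, hy⟩ +
      ((algebraMap ℤ ℚbar).codRestrict A.toSubring (S41NE_int_mem A) W.a₁) * ⟨x, hx⟩ +
      ((algebraMap ℤ ℚbar).codRestrict A.toSubring (S41NE_int_mem A) W.a₃) := by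
    apply Subtype.ext
    rfl
  rw [hA]
  simp only [map_add, map_mul, map_ofNat]
  rfl

/-- `Δ ≠ 0` over `ℚ̄`. -/
theorem S58NL_Δ_ne_zero (hΔ : W.Δ ≠ 0) : (W.baseChange ℚbar).toAffine.Δ ≠ 0 := by
  show (W.map (algebraMap ℤ ℚbar)).Δ ≠ 0
  rw [WeierstrassCurve.map_Δ]
  intro h0
  apply hΔ
  have h1 : ((W.Δ : ℤ) : ℚbar) = 0 := by rwa [eq_intCast] at h0
  exact_mod_cast h1

/-- all roots of `preΨ_m` over `ℚ̄` lie in `A` (`m` odd, `ℓ ∤ m`). -/
theorem S58NL_root_mem (hΔ : W.Δ ≠ 0) (hℓ : ℓ.Prime) (hA : A.LiesOverPrime ℓ) {m : ℕ}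
    (hodd : Odd m) (hm : ¬ ℓ ∣ m) (r : ℚbar)
    (hr : ((W.preΨ (m : ℤ)).map (algebraMap ℤ ℚbar)).eval r = 0) : r ∈ A := by
  obtain ⟨P, y, h, rfl⟩ :=
    S51_c_exists_isX (W := (W.baseChange ℚbar).toAffine) (S58NL_Δ_ne_zero W hΔ) r
  have hr' : ((W.baseChange ℚbar).toAffine.preΨ (m : ℤ)).eval r = 0 := by
    show ((W.map (algebraMap ℤ ℚbar)).preΨ (m : ℤ)).eval r = 0
    rw [WeierstrassCurve.map_preΨ]
    exact hr
  have hP : m • (Affine.Point.some r y h : (W.baseChange ℚbar).toAffine.Point) = 0 :=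
    dpc_nsmul_eq_zero_of_eval _ h hodd hr'
  exact S05_isX_mem_of_torsion_gen A (S41NE_integral W A) (S58R_valuation_nat A hℓ hA hm) hP
    ⟨y, h, rfl⟩

variable [DecidableEq (IsLocalRing.ResidueField A)]

/-- **(N3) + (N4)**: a point `Q̄` of exact odd order `m` (`ℓ ∤ m`) of the reduced cubic `W̃(k)`
lifts to a point of exact order `m` of `W(ℚ̄)` which is fixed by the inertia group at `A`. -/
theorem S58NL_lift (hΔ : W.Δ ≠ 0) (hℓ : ℓ.Prime) (hA : A.LiesOverPrime ℓ) {m : ℕ}
    (hodd : Odd m) (hm : ¬ ℓ ∣ m)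
    (Q : (W.map (ft_resHom A (S41NE_int_mem A))).toAffine.Point) (hQ : addOrderOf Q = m) :
    ∃ P : (W.baseChange ℚbar).toAffine.Point, addOrderOf P = m ∧
      ∀ τ : GQ, τ ∈ A.inertiaSubgroupIn ℚ → τ • P = P := by
  have hmQ : m • Q = 0 := hQ ▸ addOrderOf_nsmul_eq_zero Q
  rcases Q with _ | ⟨xb, yb, hb⟩
  · have h1 : m = 1 := by
      rw [← hQ]
      exact addOrderOf_zero
    exact ⟨0, by rw [h1]; exact addOrderOf_zero, fun τ _ => rfl⟩
  have hval := S58R_valuation_nat A hℓ hA hm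
  have hev : ((W.preΨ (m : ℤ)).map (ft_resHom A (S41NE_int_mem A))).eval xb = 0 := by
    rw [← WeierstrassCurve.map_preΨ]
    exact dp_preΨ_eval_eq_zero (W.map (ft_resHom A (S41NE_int_mem A))).toAffine hb hodd hmQ
  have hlc : A.valuation (((W.preΨ (m : ℤ)).map (algebraMap ℤ ℚbar)).leadingCoeff) = 1 := by
    rw [← WeierstrassCurve.map_preΨ]
    rw [(dp_preΨ_data (W.map (algebraMap ℤ ℚbar)).toAffine hodd).2]
    exact hval
  obtain ⟨r, hrA, hr0, hrres⟩ := S58NL_exists_root A (W.preΨ (m : ℤ)) hlc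
    (S58NL_root_mem W A hΔ hℓ hA hodd hm) xb hev
  obtain ⟨P, y, h, rfl⟩ :=
    S51_c_exists_isX (W := (W.baseChange ℚbar).toAffine) (S58NL_Δ_ne_zero W hΔ) r
  have hW := S41NE_integral W A
  have hyA : y ∈ A := S05_y_mem A hW.a₁ hW.a₂ hW.a₃ hW.a₄ hW.a₆ h.1 hrA
  have hr' : ((W.baseChange ℚbar).toAffine.preΨ (m : ℤ)).eval r = 0 := by
    show ((W.map (algebraMap ℤ ℚbar)).preΨ (m : ℤ)).eval r = 0
    rw [WeierstrassCurve.map_preΨ]
    exact hr0
  have hmP : m • (Affine.Point.some r y h : (W.baseChange ℚbar).toAffine.Point) = 0 :=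
    dpc_nsmul_eq_zero_of_eval _ h hodd hr'
  -- the reduced point
  have heq := S58NL_equation W A hrA hyA h.1
  rw [hrres] at heq
  have hns' : (W.map (ft_resHom A (S41NE_int_mem A))).toAffine.Nonsingular xb
      (IsLocalRing.residue A ⟨y, hyA⟩) := by
    rcases Affine.Y_eq_of_X_eq heq hb.1 rfl with h1 | h1
    · rw [h1]; exact hb
    · rw [h1]; exact (Affine.nonsingular_neg xb yb).2 hb
  have hmQ' : m • (Affine.Point.some xb (IsLocalRing.residue A ⟨y, hyA⟩) hns' :
      (W.map (ft_resHom A (S41NE_int_mem A))).toAffine.Point) = 0 :=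
    dpc_nsmul_eq_zero_of_eval _ hns' hodd (by rw [WeierstrassCurve.map_preΨ]; exact hev)
  -- the derivative is a unit
  obtain ⟨hD, hDres⟩ := S58NL_deriv W A hrA hyA
  have hDunit : 2 * y + (W.baseChange ℚbar).toAffine.a₁ * r + (W.baseChange ℚbar).toAffine.a₃
      ∉ A.nonunits := by
    intro hnon
    have h0 : IsLocalRing.residue A ⟨_, hD⟩ = 0 :=
      (IsLocalRing.residue_eq_zero_iff _).2
        ((ValuationSubring.coe_mem_nonunits_iff (A := A)).mp hnon)
    rw [hDres, hrres] at h0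
    have hneg : IsLocalRing.residue A ⟨y, hyA⟩ =
        (W.map (ft_resHom A (S41NE_int_mem A))).toAffine.negY xb
          (IsLocalRing.residue A ⟨y, hyA⟩) := by
      rw [Affine.negY]
      linear_combination h0
    have h2 := Affine.Point.add_self_of_Y_eq (h₁ := hns') hneg
    obtain ⟨j, hj⟩ := hodd
    have h3 : (Affine.Point.some xb (IsLocalRing.residue A ⟨y, hyA⟩) hns' :
        (W.map (ft_resHom A (S41NE_int_mem A))).toAffine.Point) = 0 := by
      have h4 := hmQ'
      rw [hj, add_nsmul, one_nsmul, mul_nsmul, two_nsmul, h2, nsmul_zero, zero_add] at h4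
      exact h4
    exact Affine.Point.some_ne_zero hns' h3
  refine ⟨Affine.Point.some r y h, ?_, ?_⟩
  · apply Nat.dvd_antisymm (addOrderOf_dvd_of_nsmul_eq_zero hmP)
    have hd : addOrderOf (Affine.Point.some r y h : (W.baseChange ℚbar).toAffine.Point) ∣ m :=
      addOrderOf_dvd_of_nsmul_eq_zero hmP
    have hdodd : Odd (addOrderOf
        (Affine.Point.some r y h : (W.baseChange ℚbar).toAffine.Point)) := Odd.of_dvd_nat hodd hd
    have hdP := addOrderOf_nsmul_eq_zero
      (Affine.Point.some r y h : (W.baseChange ℚbar).toAffine.Point)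
    have hev_d := dp_preΨ_eval_eq_zero (W.baseChange ℚbar).toAffine h hdodd hdP
    obtain ⟨e, he, hres⟩ := S58NL_res_eval A (W.preΨ ((addOrderOf
        (Affine.Point.some r y h : (W.baseChange ℚbar).toAffine.Point) : ℕ) : ℤ)) ⟨r, hrA⟩
    have hev_d' : ((W.preΨ ((addOrderOf
        (Affine.Point.some r y h : (W.baseChange ℚbar).toAffine.Point) : ℕ) : ℤ)).map
        (algebraMap ℤ ℚbar)).eval r = 0 := by
      rw [← WeierstrassCurve.map_preΨ]
      exact hev_d
    rw [hev_d'] at he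
    have he0 : e = 0 := Subtype.ext he
    rw [he0, map_zero, hrres] at hres
    have hdQ := dpc_nsmul_eq_zero_of_eval (W.map (ft_resHom A (S41NE_int_mem A))).toAffine hb
      hdodd (by rw [WeierstrassCurve.map_preΨ]; exact hres.symm)
    rw [← hQ]
    exact addOrderOf_dvd_of_nsmul_eq_zero hdQ
  · intro τ hτ
    have hmem : ∀ z : ℚbar, τ z ∈ A ↔ z ∈ A := by
      intro z
      refine ⟨fun h => ?_, fun h => S05_inertia_mem A hτ h⟩
      have hinv : τ⁻¹ ∈ A.inertiaSubgroupIn ℚ := inv_mem hτ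
      have := S05_inertia_mem A hinv h
      rwa [show τ⁻¹ (τ z) = z from τ.symm_apply_apply z] at this
    have hin := S05_sub_inE1_of_unit (W' := W.toAffine) (S := ℚ) A hW τ
      (fun x hx => S05_inertia_sub_mem_nonunits A hτ hx) hmem h hrA hyA hDunit
    have h0 : m • (τ • (Affine.Point.some r y h : (W.baseChange ℚbar).toAffine.Point)
        - Affine.Point.some r y h) = 0 := by
      rw [nsmul_sub, ← S41NE_gsmul_nsmul, hmP, S41NE_gsmul_zero, sub_zero]
    exact sub_eq_zero.1 (S58R_torsion_inE1 W A hℓ hA hm hin h0)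

end Fermat.Agent.S58
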