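import Mathlib
import Fermat.Agent.S58.UNodeLift
import Fermat.Agent.S58.UNode1
import Fermat.Agent.S58.UNodeEx
import Fermat.Agent.S58.Defs

/-!
# S58, package U-mult, second route: the glue `N1 ∘ N2 ∘ N3` (helper28)

`W : WeierstrassCurve ℤ` semistable with `Δ ≠ 0`, `p` an odd prime.  At a bad prime `q ≠ p` and a
valuation ring `A` of `ℚ̄` over `q` the reduced cubic `W̃` over the (algebraically closed) residue
field has a node (N1, helper23), hence a point of exact order `p ^ (n + 1)` (N2, helper14), which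
lifts to a point of exact order `p ^ (n + 1)` of `W(ℚ̄)` fixed by the whole inertia group at `A`
(N3 + N4, `S58NL_lift`).  Prefix `S58NF_`.

* `S58NF_res_eq_zero_iff` : `res z = 0 ↔ q ∣ z` for `z : ℤ`;
* `S58NF_exists_fixed`   : for `m` odd, `q ∤ m`: a point of exact order `m` fixed by inertia;
* **`S58NF_TFix`**       : the target `S58D_TFix W p` (W3'), uniformly in `q` (`q = 2` included).
-/

set_option autoImplicit false
set_option linter.unusedSectionVars false
set_option linter.unusedVariables false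
set_option linter.style.haveILetI false
set_option synthInstance.maxHeartbeats 400000
set_option maxHeartbeats 1000000

open scoped Pointwise
open Polynomial

namespace Fermat.Agent.S58

open WeierstrassCurve Fermat.Agent.Lib Fermat.Agent.S05 Fermat.Agent.S51 Fermat.Agent.S18
  Fermat.Agent.GalRep Fermat.Agent.S41

local notation "ℚbar" => AlgebraicClosure ℚ

variable (W : WeierstrassCurve ℤ) {q : ℕ} (A : ValuationSubring ℚbar)

/-- the residue of an integer vanishes iff the residue characteristic divides it. -/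
theorem S58NF_res_eq_zero_iff (hq : q.Prime) (hA : A.LiesOverPrime q) (z : ℤ) :
    ft_resHom A (S41NE_int_mem A) z = 0 ↔ (q : ℤ) ∣ z := by
  haveI : CharP (IsLocalRing.ResidueField A) q := S18_residue_charP A q hq hA
  rw [eq_intCast]
  exact CharP.intCast_eq_zero_iff (IsLocalRing.ResidueField A) q z

/-- **a point of exact order `m` fixed by inertia** at a prime of multiplicative reduction. -/
theorem S58NF_exists_fixed (hΔ : W.Δ ≠ 0) (hq : q.Prime) (hA : A.LiesOverPrime q)
    (hbad : (q : ℤ) ∣ W.Δ) (hc₄ : ¬ (q : ℤ) ∣ W.c₄) {m : ℕ} (hodd : Odd m) (hm : ¬ q ∣ m) :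
    ∃ P : (W.baseChange ℚbar).toAffine.Point, addOrderOf P = m ∧
      ∀ τ : GQ, τ ∈ A.inertiaSubgroupIn ℚ → τ • P = P := by
  classical
  haveI : CharP (IsLocalRing.ResidueField A) q := S18_residue_charP A q hq hA
  haveI : IsAlgClosed (IsLocalRing.ResidueField A) := S18_residue_isAlgClosed A
  have hΔt : (W.map (ft_resHom A (S41NE_int_mem A))).Δ = 0 := by
    rw [WeierstrassCurve.map_Δ]
    exact (S58NF_res_eq_zero_iff A hq hA _).2 hbad
  have hct : (W.map (ft_resHom A (S41NE_int_mem A))).c₄ ≠ 0 := by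
    rw [WeierstrassCurve.map_c₄]
    exact fun h => hc₄ ((S58NF_res_eq_zero_iff A hq hA _).1 h)
  obtain ⟨x₀, y₀, α, β, hE, hDy, hDx, hsum, hprod, hne⟩ :=
    S58NE_exists_raw (W.map (ft_resHom A (S41NE_int_mem A))) hΔt hct
  have hnode : S58N_Node (W.map (ft_resHom A (S41NE_int_mem A))).toAffine x₀ y₀ α β :=
    ⟨hE, hDy, hDx, hsum, hprod, hne⟩
  have hmk : ((m : ℕ) : IsLocalRing.ResidueField A) ≠ 0 := by
    intro h0
    exact hm ((CharP.cast_eq_zero_iff (IsLocalRing.ResidueField A) q m).1 h0)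
  obtain ⟨Q, hQ⟩ := S58N_exists_order hnode hmk
  exact S58NL_lift W A hΔ hq hA hodd hm Q hQ

/-- **(W3')**: the target `S58D_TFix W p` for a semistable model, `p` an odd prime. -/
theorem S58NF_TFix (hss : W.IsSemistableModel) (hΔ : W.Δ ≠ 0) {p : ℕ} (hp : p.Prime)
    (hp2 : p ≠ 2) : S58D_TFix W p := by
  intro q hq hqp hbad A hA τ hτ n
  have hodd : Odd (p ^ (n + 1)) := (hp.odd_of_ne_two hp2).pow
  have hm : ¬ q ∣ p ^ (n + 1) := S58R_not_dvd_pow hq hp hqp (n + 1)
  obtain ⟨P, hP, hfix⟩ := S58NF_exists_fixed W A hΔ hq hA hbad (hss q hq hbad) hodd hm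
  refine ⟨P, ?_, ?_, hfix τ hτ⟩
  · rw [← hP]
    exact addOrderOf_nsmul_eq_zero P
  · intro h0
    have h1 : addOrderOf P ∣ p ^ n := addOrderOf_dvd_of_nsmul_eq_zero h0
    rw [hP] at h1
    have h2 : p ^ (n + 1) ≤ p ^ n := Nat.le_of_dvd (pow_pos hp.pos n) h1
    have h3 : p ^ n < p ^ (n + 1) := Nat.pow_lt_pow_right hp.one_lt (Nat.lt_succ_self n)
    omega

end Fermat.Agent.S58
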