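import Fermat.Agent.S58.Top
import Fermat.Agent.S58.Coef
import Fermat.Agent.S58.Count
import Fermat.Agent.S58.Tors
import Fermat.Agent.S58.Comp
import Fermat.Agent.S58.UNodeFix

/-!
# S58 (conductor–level matching), TOP ASSEMBLY 2 (helper13) — prefix `S58X2_`

`S58X2_main` : the statement of S58 (verbatim hypotheses and conclusion) from ONE target only,

* `p ≠ 2 → W.ModRepIsIrreducible p → W.Δ ≠ 0 → S58D_THres W p`   (HRES),

all the others being plugged: COEF (`S58CF_TCoef`), F-COUNT (`S58C_apOfModel_ne_add_one`,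
`S58C_apOfModel_ne_neg_add_one`), (W1) (`S58B_TOrd`), E-frob (`S58E_TEfrob`), E-unip
(`S58E_TEunip`), U-mult (`S58NF_TFix`).
-/

set_option autoImplicit false
set_option linter.unusedVariables false

namespace Fermat.Agent.S58

open CuspForm WeierstrassCurve

/-- (F-COUNT), the target literally. -/
theorem S58X2_TCount (W : WeierstrassCurve ℤ) : S58D_TCount W :=
  fun q hq => ⟨S58C_apOfModel_ne_add_one W q hq, S58C_apOfModel_ne_neg_add_one W q hq⟩

/-- **S58 from (HRES) only.** -/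
theorem S58X2_main
    (W : WeierstrassCurve ℤ) (hss : W.IsSemistableModel) (N : ℕ)
    (p : ℕ) [Fact p.Prime] (hp2 : p ≠ 2) (hirr : W.ModRepIsIrreducible p)
    (hp2N : ¬ p ^ 2 ∣ N)
    (hN : W.IsModularModelOfLevel N) (hbad : ∀ ℓ : ℕ, ℓ.Prime → (ℓ : ℤ) ∣ W.Δ → ℓ ∣ N)
    (hN3 : ∀ q : ℕ, q.Prime → ¬ q ^ 3 ∣ N)
    (HHr : p ≠ 2 → W.ModRepIsIrreducible p → W.Δ ≠ 0 → S58D_THres W p) :
    W.IsModularModelOfLevel W.conductorLevel :=
  have hp : p.Prime := Fact.out
  S58X_main W hss N p hp2 hirr hp2N hN hbad hN3 S58CF_TCoef (S58X2_TCount W)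
    (fun hΔ => S58E_TEfrob W hΔ (S58B_TOrd W hΔ))
    (fun hss' hΔ => S58E_TEunip W hΔ hp (S58B_TOrd W hΔ) (S58NF_TFix W hss' hΔ hp hp2))
    HHr

end Fermat.Agent.S58
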