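import Mathlib
import Fermat.Agent.GalRep.W1
import Fermat.Prelude.Def_FLTPrelim_Modularity

/-!
# S58 (conductor–level matching), package APPLY35, layer P-GEN DATA (helper29)

Prefix `S58PG_`.  The coefficient data of S35 / S36 for a normalised eigenform `g₀` of level `M₀`,
a prime `lam` and ANY finite set `S` of primes containing the primes of `M₀`
(e.g. `S = primes(M₀) ∪ {lam}`, as needed by the target H of the route: a good prime `ℓ ∣ N`,
`ℓ ∤ M₀` must stay OUTSIDE `S`; then `a_ℓ(g₀)` is not known to be rational and the coefficient ring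
is a `GR_coefA`-type complete DVR receiving `ℤ[a_ℓ(g₀) : ℓ ∉ S]`).

* `S58PG_chig hg₀ hMS : heckeAlgebra M₀ 2 ↑S →+* ℂ` : the eigencharacter (`= GRW_eigenChar`),
  `S58PG_hchig` : `chig (T_ℓ) = a_ℓ(g₀)` (the hypothesis `hchig` of S35 / S36);
* `S58PG_rangeToO` : for a finite `ℤ`-algebra `𝕋` and `χ : 𝕋 →+* ℂ` there are a number field `E`
  and an INJECTIVE ring hom `χ.range →+* 𝓞 E`;
* **`S58PG_data`** : `∃ O'` (complete DVR, finite residue field, characteristic `0`),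
  `(lam : O') ∈ 𝔪`, `∃ iota : chig.range →+* O'` injective;
* `S58PG_iota_intCast`, `S58PG_iota_of_coe_eq` : `(x : ℂ) = n` (`n : ℤ`) ⇒ `iota x = n`;
  `S58PG_coe_of_iota_eq` : `iota` injective, `iota x = n` ⇒ `(x : ℂ) = n` (back to `ℂ`);
* `S58PG_hiota` : `a_ℓ(g₀) = a_ℓ(W)` ⇒ `iota (chig.rangeRestrict T_ℓ) = a_ℓ(W)`;
  `S58PG_back` : `iota (chig.rangeRestrict T_ℓ) = n` ⇒ `a_ℓ(g₀) = n`.
-/

set_option autoImplicit false
set_option linter.unusedSectionVars false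
set_option linter.unusedVariables false
set_option linter.style.haveILetI false

open ModularFormClass CongruenceSubgroup

namespace Fermat.Agent.S58

open CuspForm Fermat.Agent.GalRep IsLocalRing NumberField

section chig

variable {M₀ : ℕ} [NeZero M₀] {g₀ : CuspForm (Gamma0 M₀) 2}

/-- the eigencharacter of a normalised eigenform, on the Hecke algebra away from a finite set
`S` of primes containing the primes of the level. -/
noncomputable def S58PG_chig (hg₀ : g₀.IsNormalizedEigenform) {S : Finset ℕ}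
    (hMS : ∀ q : ℕ, q.Prime → q ∣ M₀ → q ∈ S) :
    CuspForm.heckeAlgebra M₀ 2 (↑S : Set ℕ) →+* ℂ :=
  GRW_eigenChar (S := (↑S : Set ℕ)) hg₀ (fun q hq hqM => Finset.mem_coe.2 (hMS q hq hqM))

/-- `hchig` of S35 / S36. -/
theorem S58PG_hchig (hg₀ : g₀.IsNormalizedEigenform) {S : Finset ℕ}
    (hMS : ∀ q : ℕ, q.Prime → q ∣ M₀ → q ∈ S) :
    ∀ (ℓ : ℕ) (hℓ : ℓ.Prime) (hℓM : ¬ ℓ ∣ M₀) (hℓS : ℓ ∉ (↑S : Set ℕ)),
      S58PG_chig hg₀ hMS (CuspForm.heckeAlgebra.T hℓ hℓM hℓS) = ModularFormClass.qCoeff g₀ ℓ :=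
  fun ℓ hℓ hℓM hℓS => GRW_eigenChar_T hg₀ _ hℓ hℓM hℓS

end chig

section rangeToO

/-- a ring hom from a finite `ℤ`-algebra to `ℂ`: its range embeds into the ring of integers of
a number field. -/
theorem S58PG_rangeToO {𝕋 : Type} [CommRing 𝕋] [Module.Finite ℤ 𝕋] (χ : 𝕋 →+* ℂ) :
    ∃ (E : Type) (_ : Field E) (_ : NumberField E) (r : χ.range →+* 𝓞 E),
      Function.Injective r := by
  obtain ⟨E, _, _, e, χ₁, hχ₁⟩ := GRW_exists_numberField χ
  have hinj : Function.Injective (e.comp (algebraMap (𝓞 E) E)) :=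
    e.injective.comp (FaithfulSMul.algebraMap_injective (𝓞 E) E)
  have hker : RingHom.ker χ.rangeRestrict ≤ RingHom.ker χ₁ := by
    intro t ht
    rw [RingHom.mem_ker] at ht ⊢
    apply hinj
    rw [map_zero, RingHom.comp_apply, hχ₁]
    exact congrArg (fun x : χ.range => (x : ℂ)) ht
  refine ⟨E, inferInstance, inferInstance,
    RingHom.liftOfSurjective χ.rangeRestrict χ.rangeRestrict_surjective ⟨χ₁, hker⟩, ?_⟩
  intro x y hxy
  obtain ⟨t, rfl⟩ := χ.rangeRestrict_surjective x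
  obtain ⟨t', rfl⟩ := χ.rangeRestrict_surjective y
  rw [RingHom.liftOfSurjective_comp_apply, RingHom.liftOfSurjective_comp_apply] at hxy
  apply Subtype.ext
  show χ t = χ t'
  rw [← hχ₁ t, ← hχ₁ t']
  exact congrArg (fun z : 𝓞 E => e (algebraMap (𝓞 E) E z)) hxy

end rangeToO

section data

/-- a number ring has a maximal ideal containing a given prime number. -/
theorem S58PG_exists_max (E : Type) [Field E] [NumberField E] (lam : ℕ) (hlam : lam.Prime) :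
    ∃ 𝔭 : Ideal (𝓞 E), 𝔭.IsMaximal ∧ ((lam : ℕ) : 𝓞 E) ∈ 𝔭 := by
  have hprime : Prime (lam : ℤ) := Nat.prime_iff_prime_int.1 hlam
  have hP : (Ideal.span {(lam : ℤ)}).IsMaximal :=
    PrincipalIdealRing.isMaximal_of_irreducible hprime.irreducible
  have hker : RingHom.ker (algebraMap ℤ (𝓞 E)) ≤ Ideal.span {(lam : ℤ)} := by
    intro x hx
    rw [RingHom.mem_ker] at hx
    have hx0 : x = 0 := by
      have h1 : ((x : ℤ) : 𝓞 E) = 0 := by simpa using hx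
      exact_mod_cast h1
    rw [hx0]
    exact Ideal.zero_mem _
  obtain ⟨Q, hQ, hQc⟩ := Ideal.exists_ideal_over_maximal_of_isIntegral
    (S := 𝓞 E) (Ideal.span {(lam : ℤ)}) hker
  refine ⟨Q, hQ, ?_⟩
  have h1 : (lam : ℤ) ∈ Q.comap (algebraMap ℤ (𝓞 E)) := by
    rw [hQc]
    exact Ideal.mem_span_singleton_self _
  rw [Ideal.mem_comap] at h1
  simpa using h1

/-- **P-GEN DATA, abstract form**: a ring hom `χ` from a finite `ℤ`-algebra to `ℂ` and a prime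
`lam`: a complete discrete valuation ring `O'` of characteristic `0` with finite residue field,
`lam ∈ 𝔪`, and an INJECTIVE ring hom `χ.range →+* O'`. -/
theorem S58PG_data_gen {𝕋 : Type} [CommRing 𝕋] [Module.Finite ℤ 𝕋] (χ : 𝕋 →+* ℂ)
    (lam : ℕ) (hlam : lam.Prime) :
    ∃ (O' : Type) (_ : CommRing O') (_ : IsDomain O') (_ : IsDiscreteValuationRing O')
      (_ : IsAdicComplete (maximalIdeal O') O')
      (_ : Finite (ResidueField O')) (_ : CharZero O'),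
      ((lam : ℕ) : O') ∈ maximalIdeal O' ∧ ∃ iota : χ.range →+* O', Function.Injective iota := by
  obtain ⟨E, _, _, r, hr⟩ := S58PG_rangeToO χ
  obtain ⟨𝔭, h𝔭, hlam𝔭⟩ := S58PG_exists_max E lam hlam
  obtain ⟨𝒪', i1, i2, i3, i4, i5, i6, ι, hι, hιcomap⟩ := GR_coefA E 𝔭
  refine ⟨𝒪', i1, i2, i3, i4, i5, i6, ?_, ι.comp r, hι.comp hr⟩
  have h1 : ((lam : ℕ) : 𝓞 E) ∈ (maximalIdeal 𝒪').comap ι := by
    rw [hιcomap]; exact hlam𝔭
  simpa using h1

variable {M₀ : ℕ} [NeZero M₀] {g₀ : CuspForm (Gamma0 M₀) 2}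

/-- **P-GEN DATA** for the eigencharacter of a normalised eigenform: the binder list of
S35 / S36 (`O'` with its instances, `hlamO'`, `iota`), with `iota` injective. -/
theorem S58PG_data (hg₀ : g₀.IsNormalizedEigenform) (lam : ℕ) [Fact lam.Prime] {S : Finset ℕ}
    (hMS : ∀ q : ℕ, q.Prime → q ∣ M₀ → q ∈ S) :
    ∃ (O' : Type) (_ : CommRing O') (_ : IsDomain O') (_ : IsDiscreteValuationRing O')
      (_ : IsAdicComplete (maximalIdeal O') O')
      (_ : Finite (ResidueField O')) (_ : CharZero O'),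
      ((lam : ℕ) : O') ∈ maximalIdeal O' ∧
        ∃ iota : (S58PG_chig hg₀ hMS).range →+* O', Function.Injective iota := by
  haveI : Module.Finite ℤ (CuspForm.heckeAlgebra M₀ 2 (↑S : Set ℕ)) :=
    Fermat.Agent.S22.moduleFinite_heckeAlgebra M₀ 2 _
  exact S58PG_data_gen (S58PG_chig hg₀ hMS) lam Fact.out

end data

section back

variable {𝕋 : Type} [CommRing 𝕋] (χ : 𝕋 →+* ℂ) {O' : Type} [CommRing O']
  (iota : χ.range →+* O')

/-- `(x : ℂ) = n`, `n : ℤ` ⇒ `iota x = n`. -/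
theorem S58PG_iota_of_coe_eq {x : χ.range} {n : ℤ} (h : (x : ℂ) = (n : ℂ)) :
    iota x = (n : O') := by
  have hx : x = ((n : ℤ) : χ.range) := Subtype.ext (by rw [h]; simp)
  rw [hx, map_intCast]

/-- **back to `ℂ`**: `iota` injective, `iota x = n`, `n : ℤ` ⇒ `(x : ℂ) = n`. -/
theorem S58PG_coe_of_iota_eq (hinj : Function.Injective iota) {x : χ.range} {n : ℤ}
    (h : iota x = (n : O')) : (x : ℂ) = (n : ℂ) := by
  have hx : x = ((n : ℤ) : χ.range) := hinj (by rw [h, map_intCast])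
  rw [hx]
  simp

end back

section hiota

variable {M₀ : ℕ} [NeZero M₀] {g₀ : CuspForm (Gamma0 M₀) 2}
  (hg₀ : g₀.IsNormalizedEigenform) {S : Finset ℕ}
  (hMS : ∀ q : ℕ, q.Prime → q ∣ M₀ → q ∈ S)
  {O' : Type} [CommRing O'] (iota : (S58PG_chig hg₀ hMS).range →+* O')

/-- **`hiota`**: where `a_ℓ(g₀)` is the integer `n` (e.g. `n = W.apOfModel ℓ` for `ℓ ∤ N` good),
`iota (chig T_ℓ) = n`. -/
theorem S58PG_hiota {ℓ : ℕ} (hℓ : ℓ.Prime) (hℓM : ¬ ℓ ∣ M₀) (hℓS : ℓ ∉ (↑S : Set ℕ)) {n : ℤ}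
    (h : ModularFormClass.qCoeff g₀ ℓ = (n : ℂ)) :
    iota ((S58PG_chig hg₀ hMS).rangeRestrict (CuspForm.heckeAlgebra.T hℓ hℓM hℓS)) = (n : O') := by
  apply S58PG_iota_of_coe_eq
  show S58PG_chig hg₀ hMS (CuspForm.heckeAlgebra.T hℓ hℓM hℓS) = (n : ℂ)
  rw [S58PG_hchig hg₀ hMS ℓ hℓ hℓM hℓS, h]

/-- **back to `ℂ`**: `iota` injective and `iota (chig T_ℓ) = n` ⇒ `a_ℓ(g₀) = n`. -/
theorem S58PG_back (hinj : Function.Injective iota) {ℓ : ℕ} (hℓ : ℓ.Prime) (hℓM : ¬ ℓ ∣ M₀)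
    (hℓS : ℓ ∉ (↑S : Set ℕ)) {n : ℤ}
    (h : iota ((S58PG_chig hg₀ hMS).rangeRestrict (CuspForm.heckeAlgebra.T hℓ hℓM hℓS)) =
      (n : O')) :
    ModularFormClass.qCoeff g₀ ℓ = (n : ℂ) := by
  have h1 := S58PG_coe_of_iota_eq (S58PG_chig hg₀ hMS) iota hinj h
  rw [← S58PG_hchig hg₀ hMS ℓ hℓ hℓM hℓS]
  exact h1

/-- `hiota` for a model `W`: at the good primes `ℓ ∤ N` outside `S` (where
`a_ℓ(g₀) = a_ℓ(W)`), `iota (chig T_ℓ) = a_ℓ(W)`. -/
theorem S58PG_hiota_model (W : WeierstrassCurve ℤ) (N : ℕ)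
    (hco : ∀ ℓ : ℕ, ℓ.Prime → W.IsGoodPrimeFor ℓ → ¬ ℓ ∣ N →
      ModularFormClass.qCoeff g₀ ℓ = (W.apOfModel ℓ : ℂ))
    {ℓ : ℕ} (hℓ : ℓ.Prime) (hℓM : ¬ ℓ ∣ M₀) (hℓS : ℓ ∉ (↑S : Set ℕ))
    (hgood : W.IsGoodPrimeFor ℓ) (hℓN : ¬ ℓ ∣ N) :
    iota ((S58PG_chig hg₀ hMS).rangeRestrict (CuspForm.heckeAlgebra.T hℓ hℓM hℓS)) =
      ((W.apOfModel ℓ : ℤ) : O') :=
  S58PG_hiota hg₀ hMS iota hℓ hℓM hℓS (hco ℓ hℓ hgood hℓN)

end hiota

end Fermat.Agent.S58
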