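import Mathlib
import Fermat.Prelude.Def_CuspForm_Newforms
import Fermat.Prelude.Def_FLTPrelim_ModularRep
import Fermat.Agent.GalRep.W1Eigen

/-!
# S58 (TRACK 12), package APPLY35, part P-Z (helper11): the `ℤ_λ` data for S35 / S36

For a normalised eigenform `g₀` of level `M₀ ∣ N` (`N ≠ 0`) whose coefficients at the primes
`ℓ ∤ N` are the integers `a_ℓ(W)`, a prime `λ` and the finite set `S = {λ} ∪ primes(N)`:

* `S58PZ_S N lam`            : the finset `S`; `S58PZ_lam_mem`, `S58PZ_mem_of_dvd`, `S58PZ_not_mem`;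
* `S58PZ_range_le`           : a character of the Hecke algebra away from `S` with integer values
                               at the `T_ℓ` has its range inside `ℤ ⊂ ℂ`;
* `S58PZ_iota`               : the ring hom `R →+* O'` for a subring `R ≤ ℤ` of `ℂ` and ANY ring `O'`
                               (`S58PZ_iota_apply`: `iota x = (n : O')` if `x = n`);
* `S58PZ_data`               : `chig`, `iota` with `chig T_ℓ = a_ℓ(g₀)` and
                               `iota (chig T_ℓ) = (a_ℓ(W) : O')` — the inputs of S35 / S36;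
* `S58PZ_hlam`               : `(λ : ℤ_[λ]) ∈ maximalIdeal` (all other instances on `ℤ_[λ]` are in
                               Mathlib: domain, DVR, adically complete, finite residue field, char 0).
-/

set_option autoImplicit false

namespace Fermat.Agent.S58

open CuspForm ModularFormClass WeierstrassCurve CongruenceSubgroup Fermat.Agent.GalRep

/-- the finite set of primes `{λ} ∪ primes(N)`. -/
def S58PZ_S (N lam : ℕ) : Finset ℕ := insert lam N.primeFactors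

theorem S58PZ_lam_mem (N lam : ℕ) : lam ∈ S58PZ_S N lam := Finset.mem_insert_self _ _

theorem S58PZ_mem_of_dvd_self {N lam q : ℕ} (hN : N ≠ 0) (hq : q.Prime) (hqN : q ∣ N) :
    q ∈ S58PZ_S N lam :=
  Finset.mem_insert_of_mem (Nat.mem_primeFactors.2 ⟨hq, hqN, hN⟩)

theorem S58PZ_mem_of_dvd {N M lam q : ℕ} (hN : N ≠ 0) (hMN : M ∣ N) (hq : q.Prime)
    (hqM : q ∣ M) : q ∈ S58PZ_S N lam :=
  S58PZ_mem_of_dvd_self hN hq (hqM.trans hMN)

theorem S58PZ_mem_iff {N lam q : ℕ} (hN : N ≠ 0) :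
    q ∈ S58PZ_S N lam ↔ q = lam ∨ (q.Prime ∧ q ∣ N) := by
  unfold S58PZ_S
  rw [Finset.mem_insert, Nat.mem_primeFactors]
  constructor
  · rintro (h | ⟨h1, h2, -⟩)
    · exact Or.inl h
    · exact Or.inr ⟨h1, h2⟩
  · rintro (h | ⟨h1, h2⟩)
    · exact Or.inl h
    · exact Or.inr ⟨h1, h2, hN⟩

theorem S58PZ_not_mem {N lam ℓ : ℕ} (hN : N ≠ 0) (hℓ : ℓ.Prime)
    (h : ℓ ∉ (↑(S58PZ_S N lam) : Set ℕ)) : ℓ ≠ lam ∧ ¬ ℓ ∣ N := by
  rw [Finset.mem_coe, S58PZ_mem_iff hN] at h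
  exact ⟨fun h' => h (Or.inl h'), fun h' => h (Or.inr ⟨hℓ, h'⟩)⟩

theorem S58PZ_not_mem_of {N lam ℓ : ℕ} (hN : N ≠ 0) (hℓlam : ℓ ≠ lam) (hℓN : ¬ ℓ ∣ N) :
    ℓ ∉ (↑(S58PZ_S N lam) : Set ℕ) := by
  rw [Finset.mem_coe, S58PZ_mem_iff hN]
  rintro (h | ⟨-, h⟩)
  · exact hℓlam h
  · exact hℓN h

/-- a prime not dividing `N` is a good prime of `W` (all bad primes divide `N`). -/
theorem S58PZ_good (W : WeierstrassCurve ℤ) {N : ℕ}
    (hbad : ∀ ℓ : ℕ, ℓ.Prime → (ℓ : ℤ) ∣ W.Δ → ℓ ∣ N) {ℓ : ℕ} (hℓ : ℓ.Prime) (hℓN : ¬ ℓ ∣ N) :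
    W.IsGoodPrimeFor ℓ := fun h => hℓN (hbad ℓ hℓ h)

section range

variable {M : ℕ} [NeZero M]

/-- a character of the Hecke algebra away from `S ⊇ primes(M)` with integer values at all `T_ℓ`
has its range inside `ℤ ⊂ ℂ`. -/
theorem S58PZ_range_le (S : Set ℕ) (hMS : ∀ q : ℕ, q.Prime → q ∣ M → q ∈ S)
    (chig : CuspForm.heckeAlgebra M 2 S →+* ℂ) (a : ℕ → ℤ)
    (hchig : ∀ (ℓ : ℕ) (hℓ : ℓ.Prime) (hℓM : ¬ ℓ ∣ M) (hℓS : ℓ ∉ S),
      chig (CuspForm.heckeAlgebra.T hℓ hℓM hℓS) = (a ℓ : ℂ)) :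
    chig.range ≤ (Int.castRingHom ℂ).range := by
  rintro x ⟨⟨t, ht⟩, rfl⟩
  have key : ∀ (t : Module.End ℂ (CuspForm (Gamma0 M) 2))
      (ht : t ∈ Algebra.adjoin ℤ (CuspForm.heckeGenerators M 2 S)),
      chig ⟨t, ht⟩ ∈ (Int.castRingHom ℂ).range := by
    intro t ht
    induction ht using Algebra.adjoin_induction with
    | mem T hT =>
      rcases hT with ⟨ℓ, hℓ, hℓN, hℓS, rfl⟩ | ⟨q, hqN, hq, hqS, rfl⟩
      · exact ⟨a ℓ, (hchig ℓ hℓ hℓN hℓS).symm⟩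
      · exact absurd (hMS q hq hqN) hqS
    | algebraMap r =>
      refine ⟨r, ?_⟩
      have : (⟨algebraMap ℤ _ r, Subalgebra.algebraMap_mem _ r⟩ : CuspForm.heckeAlgebra M 2 S)
          = algebraMap ℤ (CuspForm.heckeAlgebra M 2 S) r := rfl
      rw [this, eq_intCast, eq_intCast, map_intCast]
    | add T T' hT hT' h h' =>
      have : (⟨T + T', Subalgebra.add_mem _ hT hT'⟩ : CuspForm.heckeAlgebra M 2 S)
          = ⟨T, hT⟩ + ⟨T', hT'⟩ := rfl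
      rw [this, map_add]
      exact Subring.add_mem _ h h'
    | mul T T' hT hT' h h' =>
      have : (⟨T * T', Subalgebra.mul_mem _ hT hT'⟩ : CuspForm.heckeAlgebra M 2 S)
          = ⟨T, hT⟩ * ⟨T', hT'⟩ := rfl
      rw [this, map_mul]
      exact Subring.mul_mem _ h h'
  exact key t ht

end range

section iota

/-- `ℤ ≃ (image of ℤ in ℂ)`. -/
noncomputable def S58PZ_intEquiv : ℤ ≃+* (Int.castRingHom ℂ).range :=
  RingEquiv.ofLeftInverse (g := fun z : ℂ => ⌊z.re⌋) (f := Int.castRingHom ℂ)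
    (fun n => by simp)

theorem S58PZ_intEquiv_coe (n : ℤ) : ((S58PZ_intEquiv n : (Int.castRingHom ℂ).range) : ℂ) = n :=
  rfl

/-- the integer behind an element of a subring of `ℂ` contained in `ℤ`. -/
noncomputable def S58PZ_toInt (R : Subring ℂ) (hR : R ≤ (Int.castRingHom ℂ).range) : R →+* ℤ :=
  (S58PZ_intEquiv.symm : (Int.castRingHom ℂ).range →+* ℤ).comp (Subring.inclusion hR)

theorem S58PZ_toInt_coe (R : Subring ℂ) (hR : R ≤ (Int.castRingHom ℂ).range) (x : R) :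
    ((S58PZ_toInt R hR x : ℤ) : ℂ) = (x : ℂ) := by
  have h := S58PZ_intEquiv.apply_symm_apply (Subring.inclusion hR x)
  have h2 := congrArg (fun y : (Int.castRingHom ℂ).range => (y : ℂ)) h
  simpa [S58PZ_toInt, S58PZ_intEquiv_coe] using h2

theorem S58PZ_toInt_eq (R : Subring ℂ) (hR : R ≤ (Int.castRingHom ℂ).range) (x : R) (n : ℤ)
    (hx : (x : ℂ) = (n : ℂ)) : S58PZ_toInt R hR x = n := by
  have h := S58PZ_toInt_coe R hR x
  rw [hx] at h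
  exact_mod_cast h

/-- the coefficient map `R →+* O'` for a subring `R ≤ ℤ` of `ℂ`. -/
noncomputable def S58PZ_iota (O' : Type) [CommRing O'] (R : Subring ℂ)
    (hR : R ≤ (Int.castRingHom ℂ).range) : R →+* O' :=
  (Int.castRingHom O').comp (S58PZ_toInt R hR)

theorem S58PZ_iota_apply (O' : Type) [CommRing O'] (R : Subring ℂ)
    (hR : R ≤ (Int.castRingHom ℂ).range) (x : R) (n : ℤ) (hx : (x : ℂ) = (n : ℂ)) :
    S58PZ_iota O' R hR x = (n : O') := by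
  unfold S58PZ_iota
  rw [RingHom.comp_apply, S58PZ_toInt_eq R hR x n hx, eq_intCast]

end iota

section data

variable {M₀ : ℕ} [NeZero M₀]

/-- **P-Z, the data**: the eigencharacter `chig` of `g₀` on the Hecke algebra away from
`S = {λ} ∪ primes(N)` and the coefficient map `iota : chig.range →+* O'` (ANY ring `O'`), with
`iota (chig T_ℓ) = a_ℓ(W)`. -/
theorem S58PZ_data (W : WeierstrassCurve ℤ) {N : ℕ} (hN : N ≠ 0)
    (hbad : ∀ ℓ : ℕ, ℓ.Prime → (ℓ : ℤ) ∣ W.Δ → ℓ ∣ N)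
    {g₀ : CuspForm (CongruenceSubgroup.Gamma0 M₀) 2} (hMN : M₀ ∣ N)
    (hg₀ : g₀.IsNormalizedEigenform)
    (hco : ∀ ℓ : ℕ, ℓ.Prime → W.IsGoodPrimeFor ℓ → ¬ ℓ ∣ N →
      qCoeff g₀ ℓ = (W.apOfModel ℓ : ℂ))
    (lam : ℕ) (O' : Type) [CommRing O'] :
    ∃ (chig : CuspForm.heckeAlgebra M₀ 2 (↑(S58PZ_S N lam) : Set ℕ) →+* ℂ)
      (iota : chig.range →+* O'),
      (∀ (ℓ : ℕ) (hℓ : ℓ.Prime) (hℓM : ¬ ℓ ∣ M₀) (hℓS : ℓ ∉ (↑(S58PZ_S N lam) : Set ℕ)),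
        chig (CuspForm.heckeAlgebra.T hℓ hℓM hℓS) = ModularFormClass.qCoeff g₀ ℓ) ∧
      (∀ (ℓ : ℕ) (hℓ : ℓ.Prime) (hℓM : ¬ ℓ ∣ M₀) (hℓS : ℓ ∉ (↑(S58PZ_S N lam) : Set ℕ)),
        (iota.comp chig.rangeRestrict) (CuspForm.heckeAlgebra.T hℓ hℓM hℓS) =
          ((W.apOfModel ℓ : ℤ) : O')) := by
  have hMS : ∀ q : ℕ, q.Prime → q ∣ M₀ → q ∈ (↑(S58PZ_S N lam) : Set ℕ) :=
    fun q hq hqM => Finset.mem_coe.2 (S58PZ_mem_of_dvd hN hMN hq hqM)
  have hval : ∀ (ℓ : ℕ) (hℓ : ℓ.Prime) (hℓM : ¬ ℓ ∣ M₀)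
      (hℓS : ℓ ∉ (↑(S58PZ_S N lam) : Set ℕ)),
      GRW_eigenChar hg₀ hMS (CuspForm.heckeAlgebra.T hℓ hℓM hℓS) =
        ((W.apOfModel ℓ : ℤ) : ℂ) := by
    intro ℓ hℓ hℓM hℓS
    rw [GRW_eigenChar_T hg₀ hMS hℓ hℓM hℓS]
    have hℓN := (S58PZ_not_mem hN hℓ hℓS).2
    exact hco ℓ hℓ (S58PZ_good W hbad hℓ hℓN) hℓN
  have hle : (GRW_eigenChar hg₀ hMS).range ≤ (Int.castRingHom ℂ).range :=
    S58PZ_range_le _ hMS _ (fun ℓ => W.apOfModel ℓ) hval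
  refine ⟨GRW_eigenChar hg₀ hMS, S58PZ_iota O' _ hle,
    fun ℓ hℓ hℓM hℓS => GRW_eigenChar_T hg₀ hMS hℓ hℓM hℓS, fun ℓ hℓ hℓM hℓS => ?_⟩
  rw [RingHom.comp_apply]
  exact S58PZ_iota_apply O' _ hle _ _ (hval ℓ hℓ hℓM hℓS)

end data

section padic

variable (lam : ℕ) [Fact lam.Prime]

/-- `λ` lies in the maximal ideal of `ℤ_[λ]`. -/
theorem S58PZ_hlam : (lam : ℤ_[lam]) ∈ IsLocalRing.maximalIdeal ℤ_[lam] := by
  rw [PadicInt.maximalIdeal_eq_span_p]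
  exact Ideal.subset_span rfl

end padic

end Fermat.Agent.S58
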