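import Fermat.Agent.S58.Defs
import Fermat.Agent.S35
import Fermat.Agent.S36
import Fermat.Agent.Lib.FrobExists

/-!
# S58, cases F(i), F(ii) (helper13) — prefix `S58F_`

`S58F_holeF : S58W_HoleF W N p`, LITERALLY the hole of the top wire `S58W_main`, from the targets
of `S58/Defs.lean`:

* `S58D_TCoef`  (entry data `chig`, `O'`, `iota` of S35 / S36),
* `S58D_TEfrob W`, `S58D_TCount W`  (case F(i):  `q ∥ M₀`, `q` good: S35 gives
  `charpoly ρ(Frob_q) = X² ∓ (q+1) X + q`, the comparison gives `X² − a_q(W) X + q`),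
* `S58D_TEunip W p`, `S58D_THres W p`  (case F(ii): `q² ∣ M₀`: S36 with `λ = p` gives a
  representation which is NOT unipotent on inertia at `q`, the comparison says it is),

and `Fermat.Agent.S35.result`, `Fermat.Agent.S36.result`.

Also `S58F_att` (the representation of S35 / S36 is attached to `W` off `S ⊇ primes(N)`) and
`S58F_mem_max` (`λ` stays in the maximal ideal along a local extension), reusable for H.
-/

set_option autoImplicit false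
set_option linter.unusedVariables false

open Polynomial
open ModularFormClass

namespace Fermat.Agent.S58

open CuspForm WeierstrassCurve Fermat.Agent.GalRep

/-- `λ` stays in the maximal ideal along a local homomorphism. -/
theorem S58F_mem_max {O' O'' : Type} [CommRing O'] [IsLocalRing O'] [CommRing O'']
    [IsLocalRing O''] [Algebra O' O''] [IsLocalHom (algebraMap O' O'')] (lam : ℕ)
    (h : (lam : O') ∈ IsLocalRing.maximalIdeal O') :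
    (lam : O'') ∈ IsLocalRing.maximalIdeal O'' := by
  have h1 : (lam : O'') = algebraMap O' O'' (lam : O') := (map_natCast _ _).symm
  rw [h1, IsLocalRing.mem_maximalIdeal, mem_nonunits_iff]
  rw [IsLocalRing.mem_maximalIdeal, mem_nonunits_iff] at h
  exact fun hu => h (isUnit_of_map_unit (algebraMap O' O'') _ hu)

/-- the value of the eigencharacter at `T_ℓ`, `ℓ ∤ N`, transported to `O''`, is `a_ℓ(W)`. -/
theorem S58F_coef (W : WeierstrassCurve ℤ) {N M₀ : ℕ} [NeZero M₀]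
    {g₀ : CuspForm (CongruenceSubgroup.Gamma0 M₀) 2}
    (hbad : ∀ ℓ : ℕ, ℓ.Prime → (ℓ : ℤ) ∣ W.Δ → ℓ ∣ N)
    (hdat : S58W_IsNewformOf W N M₀ g₀)
    (S : Finset ℕ)
    {O' : Type} [CommRing O']
    (chig : CuspForm.heckeAlgebra M₀ 2 (↑S : Set ℕ) →+* ℂ)
    (hchig : ∀ (ℓ : ℕ) (hℓ : ℓ.Prime) (hℓM : ¬ ℓ ∣ M₀) (hℓS : ℓ ∉ (↑S : Set ℕ)),
      chig (CuspForm.heckeAlgebra.T hℓ hℓM hℓS) = ModularFormClass.qCoeff g₀ ℓ)
    (iota : chig.range →+* O')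
    {O'' : Type} [CommRing O''] [Algebra O' O'']
    (ℓ : ℕ) (hℓ : ℓ.Prime) (hℓM : ¬ ℓ ∣ M₀) (hℓS : ℓ ∉ (↑S : Set ℕ)) (hℓN : ¬ ℓ ∣ N) :
    algebraMap O' O'' ((iota.comp chig.rangeRestrict) (CuspForm.heckeAlgebra.T hℓ hℓM hℓS)) =
      ((W.apOfModel ℓ : ℤ) : O'') := by
  have hgood : W.IsGoodPrimeFor ℓ := fun h => hℓN (hbad ℓ hℓ h)
  have h1 : chig.rangeRestrict (CuspForm.heckeAlgebra.T hℓ hℓM hℓS) =
      ((W.apOfModel ℓ : ℤ) : chig.range) := by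
    apply Subtype.ext
    rw [RingHom.coe_rangeRestrict, hchig ℓ hℓ hℓM hℓS, hdat.2.2 ℓ hℓ hgood hℓN]
    simp
  rw [RingHom.comp_apply, h1, map_intCast, map_intCast]

/-- the representation of S35 / S36 for `g₀` is attached to `W` off `S ⊇ primes(N)`. -/
theorem S58F_att (W : WeierstrassCurve ℤ) {N M₀ : ℕ} [NeZero M₀]
    {g₀ : CuspForm (CongruenceSubgroup.Gamma0 M₀) 2}
    (hbad : ∀ ℓ : ℕ, ℓ.Prime → (ℓ : ℤ) ∣ W.Δ → ℓ ∣ N)
    (hdat : S58W_IsNewformOf W N M₀ g₀)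
    (S : Finset ℕ) (hNS : ∀ q : ℕ, q.Prime → q ∣ N → q ∈ S)
    {O' : Type} [CommRing O']
    (chig : CuspForm.heckeAlgebra M₀ 2 (↑S : Set ℕ) →+* ℂ)
    (hchig : ∀ (ℓ : ℕ) (hℓ : ℓ.Prime) (hℓM : ¬ ℓ ∣ M₀) (hℓS : ℓ ∉ (↑S : Set ℕ)),
      chig (CuspForm.heckeAlgebra.T hℓ hℓM hℓS) = ModularFormClass.qCoeff g₀ ℓ)
    (iota : chig.range →+* O')
    {O'' : Type} [CommRing O''] [IsLocalRing O''] [Algebra O' O'']
    (ρ : GaloisRepAdic O'')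
    (hρ : ∀ (ℓ : ℕ) (hℓ : ℓ.Prime) (hℓM : ¬ ℓ ∣ M₀) (hℓS : ℓ ∉ (↑S : Set ℕ)),
      ∀ A : ValuationSubring (AlgebraicClosure ℚ), A.LiesOverPrime ℓ →
        ∀ σ : AlgebraicClosure ℚ ≃ₐ[ℚ] AlgebraicClosure ℚ, A.IsFrobeniusAt σ ℓ →
          LinearMap.charpoly (ρ.ρ σ) =
            X ^ 2 - C (algebraMap O' O'' ((iota.comp chig.rangeRestrict)
              (CuspForm.heckeAlgebra.T hℓ hℓM hℓS))) * X + C ((ℓ : O''))) :
    S58D_Att W ρ S := by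
  intro ℓ hℓ hℓS A hA σ hσ
  have hℓS' : ℓ ∉ (↑S : Set ℕ) := fun h => hℓS (Finset.mem_coe.1 h)
  have hℓN : ¬ ℓ ∣ N := fun h => hℓS (hNS ℓ hℓ h)
  have hℓM : ¬ ℓ ∣ M₀ := fun h => hℓN (h.trans hdat.1)
  rw [hρ ℓ hℓ hℓM hℓS' A hA σ hσ,
    S58F_coef W hbad hdat S chig hchig iota ℓ hℓ hℓM hℓS' hℓN]

/-- comparing `X² − a X + q` with `X² − b X + q`. -/
theorem S58F_coeff_one {O : Type} [CommRing O] (a b c d : O)
    (h : (X ^ 2 - C a * X + C c : O[X]) = X ^ 2 - C b * X + C d) : a = b := by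
  have h1 := congrArg (fun f : O[X] => f.coeff 1) h
  simp only [coeff_add, coeff_sub, coeff_X_pow, coeff_C_mul, coeff_X_one, coeff_C] at h1
  simpa using h1

/-- **case F(ii)**: `q² ∤ M₀`. -/
theorem S58F_case_ii (W : WeierstrassCurve ℤ) (N p : ℕ) [Fact p.Prime]
    (hp2 : p ≠ 2) (hp2N : ¬ p ^ 2 ∣ N)
    (hbad : ∀ ℓ : ℕ, ℓ.Prime → (ℓ : ℤ) ∣ W.Δ → ℓ ∣ N)
    (hN3 : ∀ q : ℕ, q.Prime → ¬ q ^ 3 ∣ N)
    (HEu : S58D_TEunip W p) (HHr : S58D_THres W p) (HCo : S58D_TCoef)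
    (M₀ : ℕ) (g₀ : CuspForm (CongruenceSubgroup.Gamma0 M₀) 2)
    (hdat : S58W_IsNewformOf W N M₀ g₀) (q : ℕ) (hq : q.Prime) : ¬ q ^ 2 ∣ M₀ := by
  intro hq2
  have hp : p.Prime := Fact.out
  have hN0 : N ≠ 0 := S58A_ne_zero hN3
  obtain ⟨hM₀N, hg₀, hco⟩ := hdat
  have hM₀0 : M₀ ≠ 0 := fun h0 => hN0 (Nat.eq_zero_of_zero_dvd (h0 ▸ hM₀N))
  have : NeZero M₀ := ⟨hM₀0⟩
  have hqp : q ≠ p := by
    rintro rfl
    exact hp2N (hq2.trans hM₀N)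
  have hfac : M₀.factorization q = 2 := by
    have h2 : 2 ≤ M₀.factorization q := (hq.pow_dvd_iff_le_factorization hM₀0).1 hq2
    have h3 : ¬ 3 ≤ M₀.factorization q := fun h =>
      hN3 q hq (((hq.pow_dvd_iff_le_factorization hM₀0).2 h).trans hM₀N)
    omega
  -- the set `S`
  let S : Finset ℕ := insert p N.primeFactors
  have hpS : p ∈ S := Finset.mem_insert_self _ _
  have hNS : ∀ r : ℕ, r.Prime → r ∣ N → r ∈ S := fun r hr hrN =>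
    Finset.mem_insert_of_mem (Nat.mem_primeFactors.2 ⟨hr, hrN, hN0⟩)
  have hMS : ∀ r : ℕ, r.Prime → r ∣ M₀ → r ∈ S := fun r hr hrM => hNS r hr (hrM.trans hM₀N)
  obtain ⟨chig, hchig, O', i1, i2, i3, i4, i5, i6, hlamO', iota, hinj⟩ :=
    HCo M₀ g₀ hg₀.1 p hp S hMS
  have hres : ∀ (O'' : Type) [CommRing O''] [IsDomain O''] [IsDiscreteValuationRing O'']
      [IsAdicComplete (IsLocalRing.maximalIdeal O'') O''] [Finite (IsLocalRing.ResidueField O'')]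
      [CharZero O''] [Algebra O' O''] [Module.Finite O' O''] [IsLocalHom (algebraMap O' O'')],
      Function.Injective (algebraMap O' O'') → ∀ (ρ : GaloisRepAdic O''),
      (∀ (ℓ : ℕ) (hℓ : ℓ.Prime) (hℓlam : ℓ ≠ p) (hℓM : ¬ ℓ ∣ M₀) (hℓS : ℓ ∉ (↑S : Set ℕ)),
        ∀ A : ValuationSubring (AlgebraicClosure ℚ), A.LiesOverPrime ℓ →
          ∀ σ : AlgebraicClosure ℚ ≃ₐ[ℚ] AlgebraicClosure ℚ, A.IsFrobeniusAt σ ℓ →
            LinearMap.charpoly (ρ.ρ σ) =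
              X ^ 2 - C (algebraMap O' O'' ((iota.comp chig.rangeRestrict)
                (CuspForm.heckeAlgebra.T hℓ hℓM hℓS))) * X + C ((ℓ : O'')))
      → ρ.residual.IsAbsolutelyIrreducible ∧ ρ.residual.IsOdd := by
    intro O'' _ _ _ _ _ _ _ _ _ hinj'' ρ hρ
    have hatt : S58D_Att W ρ S :=
      S58F_att W hbad ⟨hM₀N, hg₀, hco⟩ S hNS chig hchig iota ρ
        (fun ℓ hℓ hℓM hℓS => hρ ℓ hℓ
          (fun h => hℓS (Finset.mem_coe.2 (h ▸ hpS))) hℓM hℓS)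
    exact HHr O'' (S58F_mem_max p hlamO') ρ S hatt
  obtain ⟨O'', j1, j2, j3, j4, j5, j6, j7, j8, j9, hinj'', ρ, hρ, hnu⟩ :=
    Fermat.Agent.S36.result hg₀ p S O' hlamO' hp2 chig hchig iota hpS hMS hres
  have hatt : S58D_Att W ρ S :=
    S58F_att W hbad ⟨hM₀N, hg₀, hco⟩ S hNS chig hchig iota ρ hρ
  exact hnu q hq hqp hfac (HEu O'' (S58F_mem_max p hlamO') ρ S hatt q hq hqp)

/-- **case F(i)**: a prime `q ∥ M₀` is a bad prime of `W`. -/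
theorem S58F_case_i (W : WeierstrassCurve ℤ) (N : ℕ)
    (hbad : ∀ ℓ : ℕ, ℓ.Prime → (ℓ : ℤ) ∣ W.Δ → ℓ ∣ N)
    (hN3 : ∀ q : ℕ, q.Prime → ¬ q ^ 3 ∣ N)
    (HEf : S58D_TEfrob W) (HCt : S58D_TCount W) (HCo : S58D_TCoef)
    (M₀ : ℕ) (g₀ : CuspForm (CongruenceSubgroup.Gamma0 M₀) 2)
    (hdat : S58W_IsNewformOf W N M₀ g₀) (q : ℕ) (hq : q.Prime) (hqM : q ∣ M₀)
    (hq2 : ¬ q ^ 2 ∣ M₀) : (q : ℤ) ∣ W.Δ := by
  by_contra hgood
  have hN0 : N ≠ 0 := S58A_ne_zero hN3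
  obtain ⟨hM₀N, hg₀, hco⟩ := hdat
  have hM₀0 : M₀ ≠ 0 := fun h0 => hN0 (Nat.eq_zero_of_zero_dvd (h0 ▸ hM₀N))
  have : NeZero M₀ := ⟨hM₀0⟩
  -- an auxiliary prime `lam ≠ q`
  obtain ⟨lam, hlam, hqlam⟩ : ∃ lam : ℕ, lam.Prime ∧ q ≠ lam := by
    by_cases h2 : q = 2
    · exact ⟨3, Nat.prime_three, by omega⟩
    · exact ⟨2, Nat.prime_two, h2⟩
  have : Fact lam.Prime := ⟨hlam⟩
  let S : Finset ℕ := insert lam N.primeFactors
  have hlamS : lam ∈ S := Finset.mem_insert_self _ _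
  have hNS : ∀ r : ℕ, r.Prime → r ∣ N → r ∈ S := fun r hr hrN =>
    Finset.mem_insert_of_mem (Nat.mem_primeFactors.2 ⟨hr, hrN, hN0⟩)
  have hMS : ∀ r : ℕ, r.Prime → r ∣ M₀ → r ∈ S := fun r hr hrM => hNS r hr (hrM.trans hM₀N)
  obtain ⟨chig, hchig, O', i1, i2, i3, i4, i5, i6, hlamO', iota, hinj⟩ :=
    HCo M₀ g₀ hg₀.1 lam hlam S hMS
  obtain ⟨O'', j1, j2, j3, j4, j5, j6, j7, j8, j9, hinj'', ρ, hρ, hst⟩ :=
    Fermat.Agent.S35.result hg₀ lam S O' hlamO' chig hchig iota hlamS hMS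
  have hatt : S58D_Att W ρ S :=
    S58F_att W hbad ⟨hM₀N, hg₀, hco⟩ S hNS chig hchig iota ρ hρ
  obtain ⟨A, σ, hA, hσ⟩ := Fermat.Agent.Lib.exists_isFrobeniusAt q hq
  have hW := HEf lam hlam O'' (S58F_mem_max lam hlamO') ρ S hatt q hq hqlam hgood A hA σ hσ
  obtain ⟨hc1, hc2⟩ := HCt q hq
  rcases hst q hq hqlam hqM hq2 A hA σ hσ with h | h
  · rw [hW] at h
    have h1 := S58F_coeff_one _ _ _ _ h
    apply hc1
    have h2 : ((W.apOfModel q : ℤ) : O'') = (((q : ℤ) + 1 : ℤ) : O'') := by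
      rw [h1]; push_cast; ring
    exact Int.cast_injective h2
  · rw [hW] at h
    have h' : (X ^ 2 - C ((W.apOfModel q : ℤ) : O'') * X + C ((q : O'')) : O''[X]) =
        X ^ 2 - C (-((q : O'') + 1)) * X + C ((q : O'')) := by
      rw [h]; simp only [map_neg, neg_mul, sub_neg_eq_add]
    have h1 := S58F_coeff_one _ _ _ _ h'
    apply hc2
    have h2 : ((W.apOfModel q : ℤ) : O'') = ((-((q : ℤ) + 1) : ℤ) : O'') := by
      rw [h1]; push_cast; ring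
    exact Int.cast_injective h2

/-- **HOLE F, plugged** from the targets of `S58/Defs.lean`. -/
theorem S58F_holeF (W : WeierstrassCurve ℤ) (N p : ℕ) [Fact p.Prime]
    (hp2 : p ≠ 2) (hp2N : ¬ p ^ 2 ∣ N)
    (hbad : ∀ ℓ : ℕ, ℓ.Prime → (ℓ : ℤ) ∣ W.Δ → ℓ ∣ N)
    (hN3 : ∀ q : ℕ, q.Prime → ¬ q ^ 3 ∣ N)
    (HEu : S58D_TEunip W p) (HEf : S58D_TEfrob W) (HHr : S58D_THres W p)
    (HCt : S58D_TCount W) (HCo : S58D_TCoef) : S58W_HoleF W N p := by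
  intro M₀ g₀ hdat q hq hqM
  have hq2 : ¬ q ^ 2 ∣ M₀ :=
    S58F_case_ii W N p hp2 hp2N hbad hN3 HEu HHr HCo M₀ g₀ hdat q hq
  exact ⟨S58F_case_i W N hbad hN3 HEf HCt HCo M₀ g₀ hdat q hq hqM hq2, hq2⟩

end Fermat.Agent.S58
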