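import Fermat.Agent.S49.QCoeff
import Fermat.Agent.S49.Lattice
import Fermat.Agent.S35.Coef
import Fermat.Prelude.Def_CuspForm_HeckeAlgebra

/-!
# TRACK 12 (S58), package CHI + COEF (helper2) — prefix `S58CH_`

For a normalised eigenform `g` of level `M` (Prelude sense: a statement on `q`-coefficients):

* `S58CH_heckeT_apply` : `T_ℓ g = a_ℓ(g) • g` for every prime `ℓ ∤ M`;
* `S58CH_exists_chig`  : the eigencharacter `chig : heckeAlgebra M 2 S →+* ℂ` of the Prelude's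
  Hecke algebra away from `S ⊇ primes(M)`, with `chig T_ℓ = a_ℓ(g)` (the input `chig`, `hchig`
  of `Fermat.Agent.S35.result`, `Fermat.Agent.S36.result`);
  (= the first half of the target `S58D_TCoef`).
-/

set_option autoImplicit false
set_option linter.style.haveILetI false
set_option linter.unusedSectionVars false
set_option linter.unusedVariables false
set_option linter.style.longLine false
set_option synthInstance.maxHeartbeats 400000
set_option maxHeartbeats 1000000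

open CongruenceSubgroup ModularFormClass CuspForm

namespace Fermat.Agent.S58

open Fermat.Agent.S49 Fermat.Agent.S35 Fermat.Agent.S41

section chi

variable {M : ℕ} {g : CuspForm (Gamma0 M) 2}

/-- the Hecke relation on `q`-coefficients of a normalised eigenform, at a prime `ℓ ∤ M`. -/
theorem S58CH_coeff_rel (hg : g.IsNormalizedEigenform) {ℓ : ℕ} (hℓ : ℓ.Prime) (hℓM : ¬ ℓ ∣ M)
    (n : ℕ) :
    qCoeff g (n * ℓ) + (if ℓ ∣ n then (ℓ : ℂ) * qCoeff g (n / ℓ) else 0) =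
      qCoeff g ℓ * qCoeff g n := by
  rcases Nat.eq_zero_or_pos n with rfl | hn
  · simp [S49_qCoeff_zero]
  obtain ⟨r, m, hm, rfl⟩ := Nat.exists_eq_pow_mul_and_not_dvd hn.ne' ℓ hℓ.ne_one
  have hcop : ∀ k : ℕ, (ℓ ^ k).Coprime m := fun k =>
    Nat.Coprime.pow_left k ((Nat.Prime.coprime_iff_not_dvd hℓ).2 hm)
  have h1 : ℓ ^ r * m * ℓ = ℓ ^ (r + 1) * m := by ring
  rw [h1, hg.qCoeff_mul_of_coprime _ _ (hcop (r + 1)), hg.qCoeff_mul_of_coprime _ _ (hcop r)]
  rcases r with _ | r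
  · have hnd : ¬ ℓ ∣ ℓ ^ 0 * m := by simpa using hm
    rw [if_neg hnd, pow_zero, hg.qCoeff_one, zero_add, pow_one]
    ring
  · have hd : ℓ ∣ ℓ ^ (r + 1) * m := Dvd.dvd.mul_right (dvd_pow_self ℓ (Nat.succ_ne_zero r)) m
    have hdiv : ℓ ^ (r + 1) * m / ℓ = ℓ ^ r * m := by
      rw [pow_succ, mul_assoc, mul_comm ℓ m, ← mul_assoc]
      exact Nat.mul_div_cancel _ hℓ.pos
    rw [if_pos hd, hdiv, hg.qCoeff_mul_of_coprime _ _ (hcop r),
      hg.qCoeff_prime_pow_of_not_dvd ℓ r hℓ hℓM]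
    ring

/-- **a normalised eigenform is an eigenvector of `T_ℓ`**, `ℓ ∤ M`. -/
theorem S58CH_heckeT_apply (hg : g.IsNormalizedEigenform) {ℓ : ℕ} (hℓ : ℓ.Prime)
    (hℓM : ¬ ℓ ∣ M) : CuspForm.heckeTLin 2 hℓ hℓM g = qCoeff g ℓ • g := by
  rw [← sub_eq_zero]
  apply S49_eq_zero_of_qCoeff
  intro n
  rw [S49_qCoeff_sub, S49_qCoeff_smul, S49_qCoeff_heckeTLin, S58CH_coeff_rel hg hℓ hℓM, sub_self]

variable [NeZero M]

/-- every element of the Hecke algebra away from `S ⊇ primes(M)` acts on `g` by a scalar. -/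
theorem S58CH_exists_scalar (hg : g.IsNormalizedEigenform) (S : Set ℕ)
    (hMS : ∀ q : ℕ, q.Prime → q ∣ M → q ∈ S) (t : CuspForm.heckeAlgebra M 2 S) :
    ∃ c : ℂ, (t : Module.End ℂ (CuspForm (Gamma0 M) 2)) g = c • g := by
  obtain ⟨t, ht⟩ := t
  induction ht using Algebra.adjoin_induction with
  | mem T hT =>
    rcases hT with ⟨ℓ, hℓ, hℓN, hℓS, rfl⟩ | ⟨q, hqN, hq, hqS, rfl⟩
    · exact ⟨qCoeff g ℓ, S58CH_heckeT_apply hg hℓ hℓN⟩
    · exact absurd (hMS q hq hqN) hqS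
  | algebraMap r =>
    refine ⟨(r : ℂ), ?_⟩
    change (algebraMap ℤ (Module.End ℂ (CuspForm (Gamma0 M) 2)) r) g = _
    rw [Algebra.algebraMap_eq_smul_one, LinearMap.smul_apply, Module.End.one_apply,
      Int.cast_smul_eq_zsmul]
  | add T T' hT hT' h h' =>
    obtain ⟨c, hc⟩ := h
    obtain ⟨c', hc'⟩ := h'
    refine ⟨c + c', ?_⟩
    change (T + T') g = _
    rw [LinearMap.add_apply, add_smul]
    exact congrArg₂ (· + ·) hc hc'
  | mul T T' hT hT' h h' =>
    obtain ⟨c, hc⟩ := h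
    obtain ⟨c', hc'⟩ := h'
    refine ⟨c * c', ?_⟩
    change (T * T') g = _
    rw [Module.End.mul_apply]
    have h1 : T' g = c' • g := hc'
    have h2 : T g = c • g := hc
    rw [h1, map_smul, h2, smul_smul, mul_comm]

/-- **CHI**: the eigencharacter of the Prelude's Hecke algebra away from `S ⊇ primes(M)`. -/
theorem S58CH_exists_chig (hg : g.IsNormalizedEigenform) (S : Set ℕ)
    (hMS : ∀ q : ℕ, q.Prime → q ∣ M → q ∈ S) :
    ∃ chig : CuspForm.heckeAlgebra M 2 S →+* ℂ,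
      ∀ (ℓ : ℕ) (hℓ : ℓ.Prime) (hℓM : ¬ ℓ ∣ M) (hℓS : ℓ ∉ S),
        chig (CuspForm.heckeAlgebra.T hℓ hℓM hℓS) = qCoeff g ℓ := by
  have hg0 : g ≠ 0 := hg.ne_zero
  have hinj : ∀ c c' : ℂ, c • g = c' • g → c = c' := fun c c' h =>
    smul_left_injective ℂ hg0 h
  choose χ hχ using S58CH_exists_scalar hg S hMS
  have hone : χ 1 = 1 := by
    apply hinj
    rw [← hχ, one_smul]
    rfl
  have hmul : ∀ a b, χ (a * b) = χ a * χ b := by
    intro a b
    apply hinj
    rw [← hχ]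
    change (a : Module.End ℂ (CuspForm (Gamma0 M) 2)) ((b : Module.End ℂ _) g) = _
    rw [hχ b, map_smul, hχ a, smul_smul, mul_comm]
  have hzero : χ 0 = 0 := by
    apply hinj
    rw [← hχ, zero_smul]
    rfl
  have hadd : ∀ a b, χ (a + b) = χ a + χ b := by
    intro a b
    apply hinj
    rw [← hχ, add_smul, ← hχ a, ← hχ b]
    rfl
  refine ⟨{ toFun := χ, map_one' := hone, map_mul' := hmul, map_zero' := hzero,
            map_add' := hadd }, fun ℓ hℓ hℓM hℓS => ?_⟩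
  apply hinj
  change χ (CuspForm.heckeAlgebra.T hℓ hℓM hℓS) • g = _
  rw [← hχ, CuspForm.heckeAlgebra.coe_T]
  exact S58CH_heckeT_apply hg hℓ hℓM

end chi

end Fermat.Agent.S58
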