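import Mathlib
import Fermat.Agent.S31.Lucas
import Fermat.Prelude.Def_GaloisRep_Adic

/-!
# TRACK 12 (S58), package E-LIM (helper17): the algebra of the comparison (E) — Mathlib only

`O` a commutative ring, `V` a free `O`-module of finite rank, `I` an ideal.  Prefix `S58EL_`.

* `S58EL_charpoly_congr`  : `f ≡ h mod I V` ⇒ `charpoly f ≡ charpoly h mod I` (coefficientwise);
* `S58EL_charpoly_pow`    : rank 2, `charpoly f = X² − aX + c` ⇒
                            `charpoly (f ^ m) = X² − V_m(a, c) X + c ^ m`;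
* `S58EL_iInf_pow`        : Krull: an element of a noetherian local domain lying in every `𝔪 ^ n`
                            is `0`;
* **`S58EL_charpoly_of_congr`** : rank 2 over a noetherian local ring, `lam ∈ 𝔪`: if for every
  `n` there are `h ∈ End V` and integers `t`, `s` with `f ≡ h mod 𝔪ⁿ V`,
  `charpoly h = X² − tX + s`, `lamⁿ ∣ t − a`, `lamⁿ ∣ s − d`, then `charpoly f = X² − aX + d`;
* `S58EL_unip_of_congr`   : the case `(a, d) = (2, 1)`: `charpoly f = (X − 1)²`;
* `S58EL_lucas_pt`        : pointwise Lucas: on a subgroup `S` of an additive group stable under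
  `φ`, the relation `φ² − aφ + c = 0` gives `φ^(2m) − V_m(a, c) φ^m + c^m = 0` (`a c : ℤ`);
* `S58EL_dvd_of_exact`    : `c • x = 0` for `x` of exact order `lam ^ (n + 1)` (`lam` prime)
  ⇒ `lam ^ (n + 1) ∣ c`;
* `S58EL_unip_pt`, `S58EL_frob_pt` : the two pointwise conclusions (`V ≡ 2`, `V ≡ a`);
* `S58EL_congr_of_cont`   : continuity of `ρ : GaloisRepAdic O`: for every `n` a finite `L` such
  that `g = g'` on `L` ⇒ `ρ g ≡ ρ g' mod 𝔪ⁿ V`.
-/

set_option autoImplicit false
set_option linter.unusedSimpArgs false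
set_option linter.style.haveILetI false
set_option linter.unusedSectionVars false

open Polynomial

namespace Fermat.Agent.S58

open Fermat.Agent.S31

section congr

variable {O : Type*} [CommRing O] {V : Type*} [AddCommGroup V] [Module O V]
  [Module.Free O V] [Module.Finite O V]

/-- coordinates of an element of `I • ⊤` lie in `I`. -/
theorem S58EL_repr_mem {ι : Type*} (b : Module.Basis ι O V) (I : Ideal O) {v : V}
    (hv : v ∈ I • (⊤ : Submodule O V)) (i : ι) : b.repr v i ∈ I := by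
  refine Submodule.smul_induction_on hv ?_ ?_
  · intro r hr w _
    rw [map_smul, Finsupp.smul_apply, smul_eq_mul]
    exact I.mul_mem_right _ hr
  · intro x y hx hy
    rw [map_add, Finsupp.add_apply]
    exact I.add_mem hx hy

/-- **`f ≡ h mod I V` ⇒ `charpoly f ≡ charpoly h mod I`.** -/
theorem S58EL_charpoly_congr [Nontrivial O] (I : Ideal O) (f h : Module.End O V)
    (hfh : ∀ v : V, f v - h v ∈ I • (⊤ : Submodule O V)) :
    (LinearMap.charpoly f).map (Ideal.Quotient.mk I) =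
      (LinearMap.charpoly h).map (Ideal.Quotient.mk I) := by
  classical
  let b := Module.Free.chooseBasis O V
  rw [← LinearMap.charpoly_toMatrix f b, ← LinearMap.charpoly_toMatrix h b,
    ← Matrix.charpoly_map, ← Matrix.charpoly_map]
  congr 1
  ext i j
  simp only [Matrix.map_apply, LinearMap.toMatrix_apply]
  rw [Ideal.Quotient.eq, ← Finsupp.sub_apply, ← map_sub]
  exact S58EL_repr_mem b I (hfh (b j)) i

/-- coefficientwise form. -/
theorem S58EL_coeff_congr [Nontrivial O] (I : Ideal O) (f h : Module.End O V)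
    (hfh : ∀ v : V, f v - h v ∈ I • (⊤ : Submodule O V)) (k : ℕ) :
    (LinearMap.charpoly f).coeff k - (LinearMap.charpoly h).coeff k ∈ I := by
  have h1 := congrArg (fun p => p.coeff k) (S58EL_charpoly_congr I f h hfh)
  simp only [coeff_map] at h1
  exact Ideal.Quotient.eq.1 h1

/-- the characteristic polynomial of a power, in rank `2`. -/
theorem S58EL_charpoly_pow [Nontrivial O] (hV : Module.finrank O V = 2) (f : Module.End O V)
    (a c : O) (hf : LinearMap.charpoly f = X ^ 2 - C a * X + C c) (m : ℕ) :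
    LinearMap.charpoly (f ^ m) = X ^ 2 - C (LUC_V a c m) * X + C (c ^ m) := by
  rw [LUC_charpoly_eq hV (f ^ m), LUC_trace_pow_of_charpoly hV f a c hf m, map_pow,
    LUC_det_of_charpoly hV f a c hf]

end congr

section krull

variable {O : Type*} [CommRing O] [IsLocalRing O] [IsNoetherianRing O]

/-- Krull's intersection theorem in the form used here. -/
theorem S58EL_iInf_pow {x : O} (hx : ∀ n : ℕ, x ∈ IsLocalRing.maximalIdeal O ^ n) : x = 0 := by
  have h := Ideal.iInf_pow_eq_bot_of_isLocalRing (IsLocalRing.maximalIdeal O)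
    (IsLocalRing.maximalIdeal.isMaximal O).ne_top
  have hx' : x ∈ ⨅ n : ℕ, IsLocalRing.maximalIdeal O ^ n := by
    rw [Ideal.mem_iInf]
    exact hx
  rw [h] at hx'
  exact hx'

/-- an integer divisible by `lam ^ n` lies in `𝔪 ^ n` if `lam ∈ 𝔪`. -/
theorem S58EL_int_mem {lam : ℕ} (hlam : (lam : O) ∈ IsLocalRing.maximalIdeal O) {n : ℕ} {z : ℤ}
    (hz : (lam : ℤ) ^ n ∣ z) : (z : O) ∈ IsLocalRing.maximalIdeal O ^ n := by
  obtain ⟨w, rfl⟩ := hz
  push_cast
  exact Ideal.mul_mem_right _ _ (Ideal.pow_mem_pow hlam n)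

variable {V : Type*} [AddCommGroup V] [Module O V] [Module.Free O V] [Module.Finite O V]

/-- **E-LIM**: congruences to every precision give the characteristic polynomial. -/
theorem S58EL_charpoly_of_congr (hV : Module.finrank O V = 2) (f : Module.End O V)
    {lam : ℕ} (hlam : (lam : O) ∈ IsLocalRing.maximalIdeal O) (a d : ℤ)
    (H : ∀ n : ℕ, ∃ (h : Module.End O V) (t s : ℤ),
      (∀ v : V, f v - h v ∈ (IsLocalRing.maximalIdeal O ^ n) • (⊤ : Submodule O V)) ∧
      LinearMap.charpoly h = X ^ 2 - C ((t : ℤ) : O) * X + C ((s : ℤ) : O) ∧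
      (lam : ℤ) ^ n ∣ t - a ∧ (lam : ℤ) ^ n ∣ s - d) :
    LinearMap.charpoly f = X ^ 2 - C ((a : ℤ) : O) * X + C ((d : ℤ) : O) := by
  have htr : LinearMap.trace O V f = (a : O) := by
    rw [← sub_eq_zero]
    apply S58EL_iInf_pow
    intro n
    obtain ⟨h, t, s, hfh, hch, ht, hs⟩ := H n
    have h1 := S58EL_coeff_congr (IsLocalRing.maximalIdeal O ^ n) f h hfh 1
    rw [LUC_charpoly_eq hV f, hch] at h1
    simp only [coeff_add, coeff_sub, coeff_X_pow, coeff_C_mul, coeff_X_one, coeff_C] at h1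
    norm_num at h1
    have h2 : ((t : O) - (a : O)) ∈ IsLocalRing.maximalIdeal O ^ n := by
      have := S58EL_int_mem (O := O) hlam ht
      push_cast at this
      exact this
    have e : LinearMap.trace O V f - (a : O) =
        ((t : O) - (a : O)) - ((t : O) - LinearMap.trace O V f) := by ring
    rw [e]
    refine Ideal.sub_mem _ h2 ?_
    have e2 : (t : O) - LinearMap.trace O V f = -(LinearMap.trace O V f) + (t : O) := by ring
    rw [e2]
    exact h1
  have hdet : LinearMap.det f = (d : O) := by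
    rw [← sub_eq_zero]
    apply S58EL_iInf_pow
    intro n
    obtain ⟨h, t, s, hfh, hch, ht, hs⟩ := H n
    have h1 := S58EL_coeff_congr (IsLocalRing.maximalIdeal O ^ n) f h hfh 0
    rw [LUC_charpoly_eq hV f, hch] at h1
    simp only [coeff_add, coeff_sub, coeff_X_pow, coeff_C_mul, coeff_X_zero, coeff_C] at h1
    norm_num at h1
    have h2 : ((s : O) - (d : O)) ∈ IsLocalRing.maximalIdeal O ^ n := by
      have := S58EL_int_mem (O := O) hlam hs
      push_cast at this
      exact this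
    have e : LinearMap.det f - (d : O) =
        (LinearMap.det f - (s : O)) + ((s : O) - (d : O)) := by ring
    rw [e]
    exact Ideal.add_mem _ h1 h2
  rw [LUC_charpoly_eq hV f, htr, hdet]

/-- **E-LIM, unipotent case**: `(a, d) = (2, 1)` gives `charpoly f = (X − 1)²`. -/
theorem S58EL_unip_of_congr (hV : Module.finrank O V = 2) (f : Module.End O V)
    {lam : ℕ} (hlam : (lam : O) ∈ IsLocalRing.maximalIdeal O)
    (H : ∀ n : ℕ, ∃ (h : Module.End O V) (t s : ℤ),
      (∀ v : V, f v - h v ∈ (IsLocalRing.maximalIdeal O ^ n) • (⊤ : Submodule O V)) ∧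
      LinearMap.charpoly h = X ^ 2 - C ((t : ℤ) : O) * X + C ((s : ℤ) : O) ∧
      (lam : ℤ) ^ n ∣ t - 2 ∧ (lam : ℤ) ^ n ∣ s - 1) :
    LinearMap.charpoly f = (X - 1) ^ 2 := by
  rw [S58EL_charpoly_of_congr hV f hlam 2 1 H]
  have e1 : (((2 : ℤ) : O)) = 2 := by norm_num
  have e2 : (((1 : ℤ) : O)) = 1 := by norm_num
  rw [e1, e2]
  have e3 : (C (2 : O) : O[X]) = 2 := by
    rw [show (2 : O) = ((2 : ℕ) : O) by norm_num, Polynomial.C_eq_natCast]
    norm_num
  rw [e3, map_one]
  ring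

end krull

section lucas

/-- ring form: `F² − T F + Q = 0`, `T` central for `F` ⇒ `F^m F^m − V_m(T, Q) F^m + Q^m = 0`. -/
theorem S58EL_lucas_ring {R : Type*} [Ring R] {F T Q : R} (hT : Commute T F)
    (hq : F ^ 2 - T * F + Q = 0) (m : ℕ) :
    F ^ m * F ^ m - LUC_V T Q m * F ^ m + Q ^ m = 0 := by
  have hV := LUC_pow_add_pow_of_quadratic hT hq m
  have hc : Commute (T - F) F := hT.sub_left (Commute.refl F)
  have hprod : (T - F) * F = Q := by
    have : (T - F) * F = -(F ^ 2 - T * F) := by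
      rw [sub_mul, pow_two]
      abel
    rw [this, ← add_eq_zero_iff_neg_eq.mp hq]
  have hpow : (T - F) ^ m * F ^ m = Q ^ m := by
    rw [← hc.mul_pow, hprod]
  rw [← hV, add_mul, hpow]
  abel

variable {M : Type*} [AddCommGroup M]

/-- **pointwise Lucas**, for an additive endomorphism `φ` and the `N`-torsion: the relation
`φ² − aφ + c = 0` on `M[N]` gives `φ^m φ^m − V_m(a, c) φ^m + c^m = 0` on `M[N]`. -/
theorem S58EL_lucas_pt (φ : M →+ M) (N : ℕ) (a c : ℤ)
    (hrel : ∀ x : M, N • x = 0 → φ (φ x) - a • φ x + c • x = 0) (m : ℕ)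
    (x : M) (hx : N • x = 0) :
    (φ^[m]) ((φ^[m]) x) - LUC_V a c m • (φ^[m]) x + c ^ m • x = 0 := by
  classical
  let S : AddSubgroup M := (nsmulAddMonoidHom (α := M) N).ker
  have hS : ∀ y : M, y ∈ S ↔ N • y = 0 := fun y => by
    simp only [S, AddMonoidHom.mem_ker, nsmulAddMonoidHom_apply]
  have hφS : ∀ y : S, φ (y : M) ∈ S := fun y => by
    rw [hS, ← map_nsmul, (hS _).1 y.2, map_zero]
  let F : AddMonoid.End S := (φ.comp S.subtype).codRestrict S hφS
  have hF : ∀ y : S, ((F y : S) : M) = φ (y : M) := fun y => rfl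
  have hFm : ∀ (k : ℕ) (y : S), (((F ^ k) y : S) : M) = (φ^[k]) (y : M) := by
    intro k
    induction k with
    | zero => intro y; rfl
    | succ k ih =>
      intro y
      have e : (F ^ (k + 1)) y = (F ^ k) (F y) := by
        rw [pow_succ]
        rfl
      rw [e, ih, hF, Function.iterate_succ_apply]
  have hq : F ^ 2 - ((a : ℤ) : AddMonoid.End S) * F + ((c : ℤ) : AddMonoid.End S) = 0 := by
    rw [pow_two]
    refine AddMonoidHom.ext fun y => Subtype.ext ?_
    have h1 := hrel (y : M) ((hS _).1 y.2)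
    show φ (φ (y : M)) - a • φ (y : M) + c • (y : M) = 0
    exact h1
  have hT : Commute (((a : ℤ) : AddMonoid.End S)) F := Int.cast_commute a F
  have key := S58EL_lucas_ring hT hq m
  have hVmap : LUC_V ((a : ℤ) : AddMonoid.End S) ((c : ℤ) : AddMonoid.End S) m =
      ((LUC_V a c m : ℤ) : AddMonoid.End S) := by
    have := LUC_V_map (Int.castRingHom (AddMonoid.End S)) a c m
    simpa using this.symm
  rw [hVmap, ← Int.cast_pow] at key
  have key2 : ((((F ^ m * F ^ m - ((LUC_V a c m : ℤ) : AddMonoid.End S) * F ^ m +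
      ((c ^ m : ℤ) : AddMonoid.End S)) ⟨x, (hS x).2 hx⟩ : S)) : M) = 0 := by
    rw [key]
    rfl
  have e2 : ((((F ^ m * F ^ m - ((LUC_V a c m : ℤ) : AddMonoid.End S) * F ^ m +
      ((c ^ m : ℤ) : AddMonoid.End S)) ⟨x, (hS x).2 hx⟩ : S)) : M) =
      (((F ^ m) ((F ^ m) ⟨x, (hS x).2 hx⟩) : S) : M) -
        LUC_V a c m • (((F ^ m) ⟨x, (hS x).2 hx⟩ : S) : M) + c ^ m • x := rfl
  rw [e2, hFm, hFm] at key2
  exact key2

/-- **pointwise Lucas for a group action** by additive maps. -/
theorem S58EL_lucas_act {G : Type*} [Group G] [MulAction G M]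
    (hadd : ∀ (g : G) (x y : M), g • (x + y) = g • x + g • y)
    (σ : G) (N : ℕ) (a c : ℤ)
    (hrel : ∀ x : M, N • x = 0 → σ • σ • x - a • σ • x + c • x = 0) (m : ℕ)
    (x : M) (hx : N • x = 0) :
    σ ^ m • σ ^ m • x - LUC_V a c m • σ ^ m • x + c ^ m • x = 0 := by
  let φ : M →+ M := AddMonoidHom.mk' (fun y => σ • y) (hadd σ)
  have hφ : ∀ (k : ℕ) (y : M), (φ^[k]) y = σ ^ k • y := by
    intro k
    induction k with
    | zero => intro y; rw [Function.iterate_zero, id, pow_zero, one_smul]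
    | succ k ih =>
      intro y
      rw [Function.iterate_succ_apply', ih, pow_succ', mul_smul]
      rfl
  have := S58EL_lucas_pt φ N a c hrel m x hx
  rw [hφ, hφ] at this
  exact this

end lucas

section exact

variable {M : Type*} [AddCommGroup M]

/-- `c • x = 0` for `x` of exact order `lam ^ (n + 1)` ⇒ `lam ^ (n + 1) ∣ c`. -/
theorem S58EL_dvd_of_exact {lam : ℕ} (hlam : lam.Prime) {n : ℕ} {x : M}
    (h1 : lam ^ (n + 1) • x = 0) (h2 : lam ^ n • x ≠ 0) {c : ℤ} (hc : c • x = 0) :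
    (lam : ℤ) ^ (n + 1) ∣ c := by
  haveI : Fact lam.Prime := ⟨hlam⟩
  have ho : addOrderOf x = lam ^ (n + 1) := addOrderOf_eq_prime_pow h2 h1
  have h3 : ((addOrderOf x : ℕ) : ℤ) ∣ c := addOrderOf_dvd_iff_zsmul_eq_zero.2 hc
  rw [ho] at h3
  exact_mod_cast h3

/-- a fixed point of exact order: `τ x = x`, `τ τ x − V τ x + D x = 0`, `D ≡ 1` ⇒ `V ≡ 2`. -/
theorem S58EL_unip_pt {lam : ℕ} (hlam : lam.Prime) {n : ℕ} {x : M}
    (h1 : lam ^ (n + 1) • x = 0) (h2 : lam ^ n • x ≠ 0) {τx τ2x : M} (hτ : τx = x)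
    (hτ2 : τ2x = x) {V D : ℤ} (hrel : τ2x - V • τx + D • x = 0)
    (hD : (lam : ℤ) ^ (n + 1) ∣ D - 1) : (lam : ℤ) ^ (n + 1) ∣ V - 2 := by
  rw [hτ, hτ2] at hrel
  have h3 : (1 - V + D) • x = 0 := by
    rw [add_smul, sub_smul, one_smul]
    exact hrel
  have h4 := S58EL_dvd_of_exact hlam h1 h2 h3
  have e : V - 2 = (D - 1) - (1 - V + D) := by ring
  rw [e]
  exact dvd_sub hD h4

/-- two relations on a point of exact order: `y` of exact order `lam ^ (n + 1)`,
`z − a y + d x = 0`, `z − V y + D x = 0`, `lam^(n+1) x = 0`, `D ≡ d` ⇒ `V ≡ a`. -/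
theorem S58EL_frob_pt {lam : ℕ} (hlam : lam.Prime) {n : ℕ} {x y z : M}
    (hx : lam ^ (n + 1) • x = 0) (h1 : lam ^ (n + 1) • y = 0) (h2 : lam ^ n • y ≠ 0)
    {a d V D : ℤ} (hrel₁ : z - a • y + d • x = 0) (hrel₂ : z - V • y + D • x = 0)
    (hD : (lam : ℤ) ^ (n + 1) ∣ D - d) : (lam : ℤ) ^ (n + 1) ∣ V - a := by
  have hDx : (D - d) • x = 0 := by
    obtain ⟨w, hw⟩ := hD
    rw [hw, mul_comm, mul_smul]
    have : ((lam : ℤ) ^ (n + 1)) • x = 0 := by
      have := hx
      rw [← natCast_zsmul] at this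
      push_cast at this
      exact this
    rw [this, smul_zero]
  have h3 : (V - a) • y = 0 := by
    have e : (V - a) • y = (z - a • y + d • x) - (z - V • y + D • x) + (D - d) • x := by
      rw [sub_smul, sub_smul]
      abel
    rw [e, hrel₁, hrel₂, hDx]
    simp
  exact S58EL_dvd_of_exact hlam h1 h2 h3

end exact

section cont

/-- the image of `I • ⊤` under an endomorphism lies in `I • ⊤`. -/
theorem S58EL_map_smul_top {O : Type*} [CommRing O] {V : Type*} [AddCommGroup V] [Module O V]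
    (I : Ideal O) (f : Module.End O V) {v : V} (hv : v ∈ I • (⊤ : Submodule O V)) :
    f v ∈ I • (⊤ : Submodule O V) := by
  refine Submodule.smul_induction_on hv ?_ ?_
  · intro r hr w _
    rw [map_smul]
    exact Submodule.smul_mem_smul hr Submodule.mem_top
  · intro x y hx hy
    rw [map_add]
    exact Submodule.add_mem _ hx hy

/-- **continuity, two-element form**: for every `n` there is a finite `L` such that
`g = g'` on `L` implies `ρ g ≡ ρ g'` modulo `𝔪ⁿ V`. -/
theorem S58EL_congr_of_cont {O : Type} [CommRing O] [IsLocalRing O] (ρ : GaloisRepAdic O)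
    (n : ℕ) :
    ∃ L : IntermediateField ℚ (AlgebraicClosure ℚ), FiniteDimensional ℚ L ∧
      ∀ g g' : AlgebraicClosure ℚ ≃ₐ[ℚ] AlgebraicClosure ℚ, (∀ x ∈ L, g x = g' x) →
        ∀ v : ρ.V, ρ.ρ g v - ρ.ρ g' v ∈
          (IsLocalRing.maximalIdeal O ^ n) • (⊤ : Submodule O ρ.V) := by
  obtain ⟨L, hL, h1⟩ := ρ.isAdicContinuous n
  refine ⟨L, hL, fun g g' hgg' v => ?_⟩
  have hσ : ∀ x ∈ L, (g'⁻¹ * g) x = x := by
    intro x hx
    rw [AlgEquiv.mul_apply, hgg' x hx]
    exact g'.symm_apply_apply x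
  have h2 := h1 (g'⁻¹ * g) hσ v
  have h3 := S58EL_map_smul_top _ (ρ.ρ g') h2
  have e : ρ.ρ g' (ρ.ρ (g'⁻¹ * g) v - v) = ρ.ρ g v - ρ.ρ g' v := by
    rw [map_sub, ← Module.End.mul_apply, ← map_mul, mul_inv_cancel_left]
  rw [e] at h3
  exact h3

end cont

end Fermat.Agent.S58
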