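import Mathlib
import Fermat.Agent.S31.Lucas

/-!
# S58 (conductor–level matching), sub-lemma ER2 of the comparison (E) (helper19).
Prefix `S58EP_`.

The characteristic polynomial of a power in rank `2`: if `charpoly f = X² − a X + d` then
`charpoly (f ^ m) = X² − V_m(a, d) X + d ^ m`, `V_m = LUC_V` the Lucas sequence of
`S31/Lucas.lean`.

* `S58EP_charpoly_pow`        : endomorphisms of a free module of rank `2` over a commutative ring;
* `S58EP_matrix_charpoly_pow` : `2 × 2` matrices;
* `S58EP_charpoly_pow_int`, `S58EP_charpoly_pow_intNat` : the same with integers `a`, `d`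
  (`d : ℕ` in the second) cast to the ring — the shape of the targets `S58D_Att`, `S58D_TEres`;
* `S58EP_trace_pow`, `S58EP_det_pow` : trace and determinant of the power.
No `Nontrivial` hypothesis.
-/

set_option autoImplicit false

namespace Fermat.Agent.S58

open Polynomial Fermat.Agent.S31

section matrix

variable {R : Type*} [CommRing R]

/-- `charpoly (A ^ m) = X² − V_m(a, d) X + d ^ m` for a `2 × 2` matrix with
`charpoly A = X² − a X + d`. -/
theorem S58EP_matrix_charpoly_pow (A : Matrix (Fin 2) (Fin 2) R) (a d : R)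
    (h : A.charpoly = X ^ 2 - C a * X + C d) (m : ℕ) :
    (A ^ m).charpoly = X ^ 2 - C (LUC_V a d m) * X + C (d ^ m) := by
  rcases subsingleton_or_nontrivial R with hs | hn
  · exact Subsingleton.elim _ _
  · have h' := Matrix.charpoly_fin_two A
    rw [h] at h'
    have ha : A.trace = a := by
      have := congrArg (fun p : R[X] => p.coeff 1) h'
      simp only [coeff_add, coeff_sub, coeff_X_pow, coeff_C_mul, coeff_X_one, coeff_C] at this
      simpa using this.symm
    have hd : A.det = d := by
      have := congrArg (fun p : R[X] => p.coeff 0) h'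
      simp only [coeff_add, coeff_sub, coeff_X_pow, coeff_C_mul, coeff_X_zero, coeff_C] at this
      simpa using this.symm
    rw [Matrix.charpoly_fin_two, LUC_matrix_trace_pow, Matrix.det_pow, ha, hd]

end matrix

section endo

variable {R : Type*} [CommRing R]
variable {V : Type*} [AddCommGroup V] [Module R V] [Module.Free R V] [Module.Finite R V]

/-- **ER2**: `charpoly (f ^ m) = X² − V_m(a, d) X + d ^ m` for an endomorphism of a free module
of rank `2` with `charpoly f = X² − a X + d`. -/
theorem S58EP_charpoly_pow (hV : Module.finrank R V = 2) (f : Module.End R V) (a d : R)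
    (h : LinearMap.charpoly f = X ^ 2 - C a * X + C d) (m : ℕ) :
    LinearMap.charpoly (f ^ m) = X ^ 2 - C (LUC_V a d m) * X + C (d ^ m) := by
  rcases subsingleton_or_nontrivial R with hs | hn
  · exact Subsingleton.elim _ _
  · rw [LUC_charpoly_eq hV (f ^ m), LUC_trace_pow_of_charpoly hV f a d h m, map_pow,
      LUC_det_of_charpoly hV f a d h]

/-- the trace of the power. -/
theorem S58EP_trace_pow [Nontrivial R] (hV : Module.finrank R V = 2) (f : Module.End R V)
    (a d : R) (h : LinearMap.charpoly f = X ^ 2 - C a * X + C d) (m : ℕ) :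
    LinearMap.trace R V (f ^ m) = LUC_V a d m :=
  LUC_trace_pow_of_charpoly hV f a d h m

/-- the determinant of the power. -/
theorem S58EP_det_pow [Nontrivial R] (hV : Module.finrank R V = 2) (f : Module.End R V)
    (a d : R) (h : LinearMap.charpoly f = X ^ 2 - C a * X + C d) (m : ℕ) :
    LinearMap.det (f ^ m) = d ^ m := by
  rw [map_pow, LUC_det_of_charpoly hV f a d h]

/-- **ER2 with integers**: `charpoly f = X² − (a : R) X + (d : R)`, `a d : ℤ` `⇒`
`charpoly (f ^ m) = X² − (V_m(a, d) : R) X + ((d ^ m : ℤ) : R)`. -/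
theorem S58EP_charpoly_pow_int (hV : Module.finrank R V = 2) (f : Module.End R V) (a d : ℤ)
    (h : LinearMap.charpoly f = X ^ 2 - C ((a : ℤ) : R) * X + C ((d : ℤ) : R)) (m : ℕ) :
    LinearMap.charpoly (f ^ m) =
      X ^ 2 - C (((LUC_V a d m : ℤ)) : R) * X + C (((d ^ m : ℤ)) : R) := by
  have h1 := S58EP_charpoly_pow hV f _ _ h m
  have h2 : ((LUC_V a d m : ℤ) : R) = LUC_V ((a : ℤ) : R) ((d : ℤ) : R) m := by
    have := LUC_V_map (Int.castRingHom R) a d m
    simpa using this
  rw [h1, h2, Int.cast_pow]

/-- **ER2 with an integer trace and a natural determinant** (the shape of `S58D_Att`: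
`a = a_ℓ(W)`, `d = ℓ`). -/
theorem S58EP_charpoly_pow_intNat (hV : Module.finrank R V = 2) (f : Module.End R V) (a : ℤ)
    (d : ℕ)
    (h : LinearMap.charpoly f = X ^ 2 - C ((a : ℤ) : R) * X + C ((d : ℕ) : R)) (m : ℕ) :
    LinearMap.charpoly (f ^ m) =
      X ^ 2 - C (((LUC_V a (d : ℤ) m : ℤ)) : R) * X + C (((d ^ m : ℕ)) : R) := by
  have h' : LinearMap.charpoly f = X ^ 2 - C ((a : ℤ) : R) * X + C (((d : ℤ) : ℤ) : R) := by
    rw [h, Int.cast_natCast]
  have h1 := S58EP_charpoly_pow_int hV f a (d : ℤ) h' m
  rw [h1]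
  push_cast
  rfl

end endo

end Fermat.Agent.S58
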