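import Mathlib
import Fermat.Prelude.Def_GaloisRep_Adic

/-!
# S58 (TRACK 12), package E, sub-lemma ER3 (helper11): reduction of characteristic polynomials

For `ρ : GaloisRepAdic A` (`A` local) and `σ ∈ G_ℚ`:

* `S58ED_charpoly_residual`      : `charpoly (ρ.residual.ρ σ) = (charpoly (ρ.ρ σ)).map (residue A)`;
* `S58ED_charpoly_residual_quad` : `charpoly (ρ.ρ σ) = X² − C a X + C d` ⇒
                                   `charpoly (ρ.residual.ρ σ) = X² − C ā X + C d̄`;
* `S58ED_charpoly_residual_int`  : the same with `a = (V : ℤ)`, `d = (D : ℕ)` and the casts of `V`, `D`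
                                   to the residue field (the shape of `S58D_TEres`);
* `S58ED_charpoly_residual_int'` : the same with `a = (V : ℤ)`, `d = (D : ℤ)`;
* `S58ED_trace_residual`, `S58ED_det_residual` : trace and determinant;
* `S58ED_residual_eq_of_eq`      : `ρ.ρ σ = ρ.ρ τ ⇒ ρ.residual.ρ σ = ρ.residual.ρ τ`;
* `S58ED_residual_pow`           : `ρ.residual.ρ (σ ^ m) = (ρ.residual.ρ σ) ^ m`;
* `S58ED_residual_eq_of_level`   : `ρ.residual.ρ g = ρ.residual.ρ h` as soon as `g`, `h` agree on the
                                   finite level `L` of `ρ.residual` (in the form: `g⁻¹ * h` fixes `L`).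
-/

set_option autoImplicit false

namespace Fermat.Agent.S58

open Polynomial IsLocalRing

local notation "GQ58" => (AlgebraicClosure ℚ ≃ₐ[ℚ] AlgebraicClosure ℚ)

variable {A : Type} [CommRing A] [IsLocalRing A]

/-- the residual representation is the base change, elementwise. -/
theorem S58ED_residual_apply (ρ : GaloisRepAdic A) (σ : GQ58) :
    ρ.residual.ρ σ = (ρ.ρ σ).baseChange (ResidueField A) := rfl

/-- **ER3**: the characteristic polynomial of the residual representation is the reduction of the
characteristic polynomial. -/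
theorem S58ED_charpoly_residual (ρ : GaloisRepAdic A) (σ : GQ58) :
    LinearMap.charpoly (ρ.residual.ρ σ) = (LinearMap.charpoly (ρ.ρ σ)).map (residue A) := by
  change LinearMap.charpoly ((ρ.ρ σ).baseChange (ResidueField A)) = _
  rw [LinearMap.charpoly_baseChange]
  rfl

/-- **ER3**, quadratic form. -/
theorem S58ED_charpoly_residual_quad (ρ : GaloisRepAdic A) (σ : GQ58) (a d : A)
    (h : LinearMap.charpoly (ρ.ρ σ) = X ^ 2 - C a * X + C d) :
    LinearMap.charpoly (ρ.residual.ρ σ) = X ^ 2 - C (residue A a) * X + C (residue A d) := by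
  rw [S58ED_charpoly_residual, h, Polynomial.map_add, Polynomial.map_sub, Polynomial.map_mul,
    Polynomial.map_pow, Polynomial.map_X, Polynomial.map_C, Polynomial.map_C]

/-- **ER3**, quadratic form with an integer trace and a natural determinant (shape of
`S58D_TEres`). -/
theorem S58ED_charpoly_residual_int (ρ : GaloisRepAdic A) (σ : GQ58) (V : ℤ) (D : ℕ)
    (h : LinearMap.charpoly (ρ.ρ σ) = X ^ 2 - C ((V : A)) * X + C ((D : A))) :
    LinearMap.charpoly (ρ.residual.ρ σ) =
      X ^ 2 - C ((V : ResidueField A)) * X + C ((D : ResidueField A)) := by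
  rw [S58ED_charpoly_residual_quad ρ σ _ _ h, map_intCast (residue A) V,
    map_natCast (residue A) D]

/-- **ER3**, quadratic form with integer trace and integer determinant. -/
theorem S58ED_charpoly_residual_int' (ρ : GaloisRepAdic A) (σ : GQ58) (V D : ℤ)
    (h : LinearMap.charpoly (ρ.ρ σ) = X ^ 2 - C ((V : A)) * X + C ((D : A))) :
    LinearMap.charpoly (ρ.residual.ρ σ) =
      X ^ 2 - C ((V : ResidueField A)) * X + C ((D : ResidueField A)) := by
  rw [S58ED_charpoly_residual_quad ρ σ _ _ h, map_intCast (residue A) V,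
    map_intCast (residue A) D]

/-- the trace of the residual representation. -/
theorem S58ED_trace_residual (ρ : GaloisRepAdic A) (σ : GQ58) :
    LinearMap.trace (ResidueField A) ρ.residual.V (ρ.residual.ρ σ) =
      residue A (LinearMap.trace A ρ.V (ρ.ρ σ)) := by
  change LinearMap.trace (ResidueField A) (TensorProduct A (ResidueField A) ρ.V)
    ((ρ.ρ σ).baseChange (ResidueField A)) = _
  rw [LinearMap.trace_baseChange]
  rfl

/-- the determinant of the residual representation. -/
theorem S58ED_det_residual (ρ : GaloisRepAdic A) (σ : GQ58) :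
    LinearMap.det (ρ.residual.ρ σ) = residue A (LinearMap.det (ρ.ρ σ)) :=
  LinearMap.det_baseChange (A := ResidueField A) (ρ.ρ σ)

theorem S58ED_residual_eq_of_eq (ρ : GaloisRepAdic A) {σ τ : GQ58} (h : ρ.ρ σ = ρ.ρ τ) :
    ρ.residual.ρ σ = ρ.residual.ρ τ := by
  rw [S58ED_residual_apply, S58ED_residual_apply, h]

theorem S58ED_residual_pow (ρ : GaloisRepAdic A) (σ : GQ58) (m : ℕ) :
    ρ.residual.ρ (σ ^ m) = ρ.residual.ρ σ ^ m := map_pow _ _ _

/-- two elements which agree on the finite level of the residual representation have the same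
image (stated with `g⁻¹ * h` fixing the level). -/
theorem S58ED_residual_eq_of_level (ρ : GaloisRepAdic A)
    {L : IntermediateField ℚ (AlgebraicClosure ℚ)}
    (hL : ∀ σ : GQ58, (∀ x ∈ L, σ x = x) → ρ.residual.ρ σ = 1) {g h : GQ58}
    (hgh : ∀ x ∈ L, g x = h x) : ρ.residual.ρ g = ρ.residual.ρ h := by
  have h1 : ρ.residual.ρ (g⁻¹ * h) = 1 := by
    refine hL _ fun x hx => ?_
    have : (g⁻¹ * h) x = g⁻¹ (h x) := rfl
    rw [this, ← hgh x hx]
    change g.symm (g x) = x
    exact g.symm_apply_apply x
  have h2 : ρ.residual.ρ g * ρ.residual.ρ (g⁻¹ * h) = ρ.residual.ρ h := by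
    rw [← map_mul, mul_inv_cancel_left]
  rw [h1, mul_one] at h2
  exact h2

/-- the characteristic polynomial of `ρ̄(g)` when `g` agrees with `σ ^ m` on the finite level of
the residual representation and `charpoly ρ(σ ^ m) = X² − C a X + C d`. -/
theorem S58ED_charpoly_residual_of_level (ρ : GaloisRepAdic A)
    {L : IntermediateField ℚ (AlgebraicClosure ℚ)}
    (hL : ∀ σ : GQ58, (∀ x ∈ L, σ x = x) → ρ.residual.ρ σ = 1) {g σ : GQ58} (m : ℕ)
    (hg : ∀ x ∈ L, g x = (σ ^ m) x) (a d : A)
    (h : LinearMap.charpoly (ρ.ρ (σ ^ m)) = X ^ 2 - C a * X + C d) :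
    LinearMap.charpoly (ρ.residual.ρ g) = X ^ 2 - C (residue A a) * X + C (residue A d) := by
  rw [S58ED_residual_eq_of_level ρ hL hg]
  exact S58ED_charpoly_residual_quad ρ _ a d h

end Fermat.Agent.S58
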