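import Mathlib
import Fermat.Agent.GalRep.Cyc
import Fermat.Agent.GalRep.DS
import Fermat.Agent.S05.UnitDeriv

/-!
# S58, package E, sub-lemma ZETA (helper4) — prefix `S58EZ_`

* `S58EZ_inertia_zeta` : the inertia group at `A ∣ q` fixes every root of unity of order prime
  to `q`.
* `S58EZ_frob_zeta` : a Frobenius element at `A ∣ q` raises every root of unity of order prime
  to `q` to the `q`-th power.
-/

set_option autoImplicit false
set_option linter.unusedSectionVars false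
set_option linter.unusedVariables false

namespace Fermat.Agent.S58

open Fermat.Agent.GalRep Fermat.Agent.S05

local notation "ℚbar" => AlgebraicClosure ℚ

/-- two roots of unity of order prime to the residue characteristic that are congruent modulo
the maximal ideal of `A` are equal. -/
theorem S58EZ_eq_of_sub_mem {q : ℕ} (hq : q.Prime) (A : ValuationSubring ℚbar)
    (hA : A.LiesOverPrime q) {m : ℕ} (hqm : ¬ q ∣ m) {ζ ξ : ℚbar} (hζ : ζ ^ m = 1)
    (hξ : ξ ^ m = 1) (h : ξ - ζ ∈ A.nonunits) : ξ = ζ := by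
  have hm0 : m ≠ 0 := by
    rintro rfl
    exact hqm (dvd_zero q)
  have hζ0 : ζ ≠ 0 := by
    rintro rfl
    rw [zero_pow hm0] at hζ
    exact zero_ne_one hζ
  have hζA : ζ ∈ A := GR_cyc_mem_of_pow_eq_one A hm0 hζ
  have hζi : ζ⁻¹ ∈ A := by
    refine GR_cyc_mem_of_pow_eq_one A hm0 ?_
    rw [inv_pow, hζ, inv_one]
  have hη : (ξ * ζ⁻¹) ^ m = 1 := by
    rw [mul_pow, inv_pow, hξ, hζ, inv_one, mul_one]
  have hmA : (m : ℚbar) ∉ A.nonunits :=
    GR_cyc_coprime_not_mem A hA ((Nat.Prime.coprime_iff_not_dvd hq).2 hqm).symm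
  have hsub : ξ * ζ⁻¹ - 1 ∈ A.nonunits := by
    have e : ξ * ζ⁻¹ - 1 = (ξ - ζ) * ζ⁻¹ := by
      field_simp
    rw [e, A.mem_nonunits_iff, map_mul]
    calc A.valuation (ξ - ζ) * A.valuation ζ⁻¹ ≤ A.valuation (ξ - ζ) * 1 :=
          mul_le_mul_right ((A.valuation_le_one_iff _).2 hζi) _
      _ = A.valuation (ξ - ζ) := mul_one _
      _ < 1 := A.mem_nonunits_iff.mp h
  have h1 := GR_cyc_eq_one_of_sub_mem A hη hmA hsub
  have : ξ = ξ * ζ⁻¹ * ζ := by
    rw [mul_assoc, inv_mul_cancel₀ hζ0, mul_one]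
  rw [this, h1, one_mul]

/-- **inertia fixes the roots of unity of order prime to the residue characteristic.** -/
theorem S58EZ_inertia_zeta {q : ℕ} (hq : q.Prime) (A : ValuationSubring ℚbar)
    (hA : A.LiesOverPrime q) (τ : GQ) (hτ : τ ∈ A.inertiaSubgroupIn ℚ) {m : ℕ}
    (hqm : ¬ q ∣ m) (ζ : ℚbar) (hζ : ζ ^ m = 1) : τ ζ = ζ := by
  have hm0 : m ≠ 0 := by
    rintro rfl
    exact hqm (dvd_zero q)
  have hζA : ζ ∈ A := GR_cyc_mem_of_pow_eq_one A hm0 hζ
  have hτζ : (τ ζ) ^ m = 1 := by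
    rw [← map_pow, hζ, map_one]
  exact S58EZ_eq_of_sub_mem hq A hA hqm hζ hτζ (S05_inertia_sub_mem_nonunits A hτ hζA)

/-- **a Frobenius element at `A ∣ q` acts on the roots of unity of order prime to `q` by
`ζ ↦ ζ ^ q`.** -/
theorem S58EZ_frob_zeta {q : ℕ} (hq : q.Prime) (A : ValuationSubring ℚbar)
    (hA : A.LiesOverPrime q) (σ : GQ) (hσ : A.IsFrobeniusAt σ q) {m : ℕ}
    (hqm : ¬ q ∣ m) (ζ : ℚbar) (hζ : ζ ^ m = 1) : σ ζ = ζ ^ q := by
  have hm0 : m ≠ 0 := by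
    rintro rfl
    exact hqm (dvd_zero q)
  have hζA : ζ ∈ A := GR_cyc_mem_of_pow_eq_one A hm0 hζ
  have hσζ : (σ ζ) ^ m = 1 := by
    rw [← map_pow, hζ, map_one]
  have hζq : (ζ ^ q) ^ m = 1 := by
    rw [← pow_mul, mul_comm, pow_mul, hζ, one_pow]
  exact S58EZ_eq_of_sub_mem hq A hA hqm hζq hσζ (GR_frob_congr hσ ζ hζA)

end Fermat.Agent.S58
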