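import Fermat.Agent.S58.Fin
import Fermat.Agent.S58.Defs

/-!
# TRACK 12 (S58), package FIN (helper3), part 2: the target `S58D_TOrd` (W1), literally

`S58FIN_TOrd W hΔ : S58D_TOrd W` — points of exact order `λ^(n+1)` for every prime `λ` and every
`n` (from `S58FIN_exists_order`, i.e. `#W[λ] = λ²` and the surjectivity of `[λ^n]`).
-/

set_option autoImplicit false

namespace Fermat.Agent.S58

open WeierstrassCurve Fermat.Agent.GalRep

/-- **(W1)** = the target `S58D_TOrd` of `S58/Defs.lean`. -/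
theorem S58FIN_TOrd (W : WeierstrassCurve ℤ) (hΔ : W.Δ ≠ 0) : S58D_TOrd W := by
  intro lam hlam n
  obtain ⟨P, h1, h2⟩ := S58FIN_exists_order W hΔ hlam (n + 1) (Nat.succ_pos n)
  exact ⟨P, h1, by simpa using h2⟩

end Fermat.Agent.S58
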