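import Fermat.Agent.S58.CompRes
import Fermat.Agent.S41.NETransfer
import Fermat.Agent.S41.NEAct

/-!
# TRACK 12 (S58), package HRES, the `hirr` BRIDGE (helper23) — prefix `S58HI_`

From `W.ModRepIsIrreducible p` (Prelude) to the RAW irreducibility hypothesis of the abstract core
`S58H_absIrr` on the `p`-torsion subgroup `S58ER_K W p` of `W(ℚ̄)` with the action `S58ER_F W p`:

* `S58HI_disc_ne_zero` : `W.ModRepIsIrreducible p → W.Δ ≠ 0`;
* `S58HI_irr`   : every `G_ℚ`-stable subgroup of `S58ER_K W p` is `⊥` or `⊤`;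
* `S58HI_irr_raw` : the same for a raw action `act` with `∀ g x, (act g x : Point) = g • x`;
* `S58HI_torsion` : `p • x = 0` on `S58ER_K W p`;
* `S58HI_card`  : `Nat.card (S58ER_K W p) = p ^ 2` (`p` odd, `Δ ≠ 0`);
* `S58HI_F_one`, `S58HI_F_mul`, `S58HI_F_add` : the action laws of `S58ER_F`.
-/

set_option autoImplicit false
set_option linter.unusedSectionVars false
set_option linter.unusedVariables false
set_option linter.style.haveILetI false

open scoped Pointwise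

namespace Fermat.Agent.S58

open WeierstrassCurve Fermat.Agent.GalRep Fermat.Agent.S41

local notation "ℚbar" => AlgebraicClosure ℚ

/-- the raw irreducibility of `W[p](ℚ̄)` as a statement on subgroups of `W(ℚ̄)`. -/
theorem S58HI_irr_pt (W : WeierstrassCurve ℤ) (hΔ : W.Δ ≠ 0) {p : ℕ} (hp : p.Prime)
    (hirr : W.ModRepIsIrreducible p) :
    ∀ N : AddSubgroup (W.baseChange ℚbar).toAffine.Point,
      (∀ P ∈ N, p • P = 0) → (∀ σ : GQ, ∀ P ∈ N, σ • P ∈ N) →
      N = ⊥ ∨ ∀ P : (W.baseChange ℚbar).toAffine.Point, p • P = 0 → P ∈ N := by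
  have hΔ' : (W.map (Int.castRingHom ℚ)).Δ ≠ 0 := by
    rw [WeierstrassCurve.map_Δ]
    simpa using hΔ
  haveI : (W.map (Int.castRingHom ℚ)).IsElliptic := ⟨isUnit_iff_ne_zero.2 hΔ'⟩
  have hW : W.IsIntegralModelOf (W.map (Int.castRingHom ℚ)) := ⟨1, one_smul _ _⟩
  exact (S41NT_irr (W.map (Int.castRingHom ℚ)) hW hp hirr).2

/-- **the `hirr` bridge**: every `G_ℚ`-stable subgroup of the `p`-torsion is `⊥` or `⊤`. -/
theorem S58HI_irr (W : WeierstrassCurve ℤ) (hΔ : W.Δ ≠ 0) {p : ℕ} (hp : p.Prime)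
    (hirr : W.ModRepIsIrreducible p) (Y : AddSubgroup (S58ER_K W p))
    (hY : ∀ g : GQ, ∀ x ∈ Y, S58ER_F W p g x ∈ Y) : Y = ⊥ ∨ Y = ⊤ := by
  have key := S58HI_irr_pt W hΔ hp hirr (Y.map (S58ER_K W p).subtype) ?_ ?_
  · rcases key with h | h
    · left
      rw [eq_bot_iff]
      intro x hx
      have hx' : (x : (W.baseChange ℚbar).toAffine.Point) ∈ Y.map (S58ER_K W p).subtype :=
        ⟨x, hx, rfl⟩
      rw [h, AddSubgroup.mem_bot] at hx'
      rw [AddSubgroup.mem_bot]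
      exact Subtype.ext hx'
    · right
      rw [eq_top_iff]
      intro x _
      obtain ⟨y, hy, hyx⟩ := h x.1 ((S58ER_mem_K W p x.1).1 x.2)
      have : y = x := Subtype.ext hyx
      rwa [← this]
  · rintro P ⟨x, _, rfl⟩
    exact (S58ER_mem_K W p x.1).1 x.2
  · rintro σ P ⟨x, hx, rfl⟩
    exact ⟨S58ER_F W p σ x, hY σ x hx, rfl⟩

/-- the bridge for a RAW action on the `p`-torsion type. -/
theorem S58HI_irr_raw (W : WeierstrassCurve ℤ) (hΔ : W.Δ ≠ 0) {p : ℕ} (hp : p.Prime)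
    (hirr : W.ModRepIsIrreducible p) (act : GQ → S58ER_K W p → S58ER_K W p)
    (hact : ∀ g x, ((act g x : S58ER_K W p) : (W.baseChange ℚbar).toAffine.Point) = g • x.1)
    (Y : AddSubgroup (S58ER_K W p)) (hY : ∀ g : GQ, ∀ x ∈ Y, act g x ∈ Y) :
    Y = ⊥ ∨ Y = ⊤ := by
  refine S58HI_irr W hΔ hp hirr Y (fun g x hx => ?_)
  have : S58ER_F W p g x = act g x := Subtype.ext (hact g x).symm
  rw [this]
  exact hY g x hx

/-- `p` kills the `p`-torsion. -/
theorem S58HI_torsion (W : WeierstrassCurve ℤ) (p : ℕ) (x : S58ER_K W p) : p • x = 0 :=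
  Subtype.ext ((S58ER_mem_K W p x.1).1 x.2)

/-- `#W[p](ℚ̄) = p²` for `p` odd. -/
theorem S58HI_card (W : WeierstrassCurve ℤ) (hΔ : W.Δ ≠ 0) {p : ℕ} (hp : p.Prime) (hp2 : p ≠ 2) :
    Nat.card (S58ER_K W p) = p ^ 2 := by
  rw [← S41NE_card_X W hΔ hp hp2]
  rfl

theorem S58HI_F_one (W : WeierstrassCurve ℤ) (p : ℕ) (x : S58ER_K W p) :
    S58ER_F W p 1 x = x :=
  Subtype.ext (S41NE_gsmul_one W x.1)

theorem S58HI_F_mul (W : WeierstrassCurve ℤ) (p : ℕ) (g h : GQ) (x : S58ER_K W p) :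
    S58ER_F W p (g * h) x = S58ER_F W p g (S58ER_F W p h x) :=
  Subtype.ext (S41NE_gsmul_mul W g h x.1)

theorem S58HI_F_add (W : WeierstrassCurve ℤ) (p : ℕ) (g : GQ) (x y : S58ER_K W p) :
    S58ER_F W p g (x + y) = S58ER_F W p g x + S58ER_F W p g y :=
  map_add _ x y

end Fermat.Agent.S58
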