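import Mathlib
import Fermat.Agent.S31.Lucas

/-!
# TRACK 12 (S58), sub-lemma ER1 of the comparison (E) (helper25) — prefix `S58LA_`

Additive Lucas lemma: if an additive endomorphism `F` of an abelian group `M` satisfies the
quadratic relation `F² − a F + l = 0` (`a l : ℤ`), then its power `F ^ m` satisfies
`(F^m)² − V_m(a, l) F^m + l^m = 0`, `V_m = LUC_V` the Lucas sequence of `S31/Lucas.lean`.

* `S58LA_end`     : for `F : AddMonoid.End M`, powers in the ring `AddMonoid.End M`;
* `S58LA_iterate` : the same with the iterates `F^[m]` of `F : M →+ M`;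
* `S58LA_stable`  : the relation on an `F`-stable subgroup `T` only;
* `S58LA_smul`    : for a monoid `G` acting on `M` (`DistribMulAction`), `σ : G`, and a subgroup
  `T` stable under `σ` on which `σ σ P − a σ P + l P = 0`:
  `σ^m σ^m P − V_m σ^m P + l^m P = 0` on `T`;
* `S58LA_smul_torsion` : the same for `T = {P | n • P = 0}` (the shape of `S58R_es`).
-/

set_option autoImplicit false

namespace Fermat.Agent.S58

open Fermat.Agent.S31

section abstract

variable {M : Type*} [AddCommGroup M]

theorem S58LA_intCast_apply (z : ℤ) (P : M) : ((z : AddMonoid.End M)) P = z • P := rfl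

/-- in any ring: `F² − T F + Q = 0` with `T` central for `F` gives
`(F^m)² − V_m(T, Q) F^m + Q^m = 0`. -/
theorem S58LA_ring {R : Type*} [Ring R] {F T Q : R} (hT : Commute T F)
    (hq : F ^ 2 - T * F + Q = 0) (m : ℕ) :
    F ^ m * F ^ m - LUC_V T Q m * F ^ m + Q ^ m = 0 := by
  have h1 := LUC_pow_add_pow_of_quadratic hT hq m
  have hc : Commute F (T - F) := (hT.symm).sub_right (Commute.refl F)
  have hprod : F * (T - F) = Q := by
    have : F * (T - F) = -(F ^ 2 - T * F) := by
      rw [mul_sub, hT.symm.eq, pow_two]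
      abel
    rw [this, ← add_eq_zero_iff_neg_eq.mp hq]
  have h2 : (T - F) ^ m * F ^ m = Q ^ m := by
    rw [← hprod, hc.mul_pow, (hc.pow_pow m m).eq]
  rw [← h1, add_mul, h2]
  abel

/-- **ER1** in the endomorphism ring. -/
theorem S58LA_end (F : AddMonoid.End M) (a l : ℤ)
    (h : ∀ P : M, F (F P) - a • F P + l • P = 0) (m : ℕ) (P : M) :
    (F ^ m) ((F ^ m) P) - LUC_V a l m • (F ^ m) P + l ^ m • P = 0 := by
  have hT : Commute ((a : ℤ) : AddMonoid.End M) F := Int.cast_commute a F
  have hq : F ^ 2 - ((a : ℤ) : AddMonoid.End M) * F + ((l : ℤ) : AddMonoid.End M) = 0 := by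
    refine AddMonoidHom.ext fun P => ?_
    exact h P
  have h1 := S58LA_ring hT hq m
  have hV : LUC_V ((a : ℤ) : AddMonoid.End M) ((l : ℤ) : AddMonoid.End M) m =
      ((LUC_V a l m : ℤ) : AddMonoid.End M) :=
    (LUC_V_map (Int.castRingHom (AddMonoid.End M)) a l m).symm
  rw [hV, ← Int.cast_pow] at h1
  have h2 : (F ^ m * F ^ m - ((LUC_V a l m : ℤ) : AddMonoid.End M) * F ^ m +
      ((l ^ m : ℤ) : AddMonoid.End M)) P = (0 : AddMonoid.End M) P := DFunLike.congr_fun h1 P
  exact h2

/-- **ER1** with iterates. -/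
theorem S58LA_iterate (F : M →+ M) (a l : ℤ)
    (h : ∀ P : M, F (F P) - a • F P + l • P = 0) (m : ℕ) (P : M) :
    F^[m] (F^[m] P) - LUC_V a l m • F^[m] P + l ^ m • P = 0 :=
  S58LA_end (M := M) F a l h m P

/-- **ER1** on a stable subgroup. -/
theorem S58LA_stable (F : M →+ M) (a l : ℤ) (T : AddSubgroup M) (hT : ∀ P ∈ T, F P ∈ T)
    (h : ∀ P ∈ T, F (F P) - a • F P + l • P = 0) (m : ℕ) (P : M) (hP : P ∈ T) :
    F^[m] (F^[m] P) - LUC_V a l m • F^[m] P + l ^ m • P = 0 := by
  let FT : T →+ T := (F.comp T.subtype).codRestrict T (fun x => hT x x.2)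
  have hFT : ∀ x : T, ((FT x : T) : M) = F x := fun _ => rfl
  have hit : ∀ (k : ℕ) (x : T), ((FT^[k] x : T) : M) = F^[k] x := by
    intro k
    induction k with
    | zero => intro x; rfl
    | succ k ih =>
      intro x
      rw [Function.iterate_succ_apply', Function.iterate_succ_apply', hFT, ih]
  have h' : ∀ x : T, FT (FT x) - a • FT x + l • x = 0 := by
    intro x
    apply Subtype.ext
    have := h x x.2
    simpa [hFT] using this
  have h1 := S58LA_iterate FT a l h' m ⟨P, hP⟩
  have h2 := congrArg (fun x : T => (x : M)) h1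
  simpa [hit] using h2

end abstract

section action

variable {G M : Type*} [Monoid G] [AddCommGroup M] [DistribMulAction G M]

/-- **ER1** for an action: `σ σ P − a σ P + l P = 0` on a `σ`-stable subgroup `T` gives
`σ^m σ^m P − V_m(a, l) σ^m P + l^m P = 0` on `T`. -/
theorem S58LA_smul (σ : G) (a l : ℤ) (T : AddSubgroup M) (hT : ∀ P ∈ T, σ • P ∈ T)
    (h : ∀ P ∈ T, σ • σ • P - a • σ • P + l • P = 0) (m : ℕ) (P : M) (hP : P ∈ T) :
    σ ^ m • σ ^ m • P - LUC_V a l m • σ ^ m • P + l ^ m • P = 0 := by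
  have hit : ∀ (k : ℕ) (x : M), (DistribSMul.toAddMonoidHom M σ)^[k] x = σ ^ k • x := by
    intro k
    induction k with
    | zero => intro x; rw [Function.iterate_zero_apply, pow_zero, one_smul]
    | succ k ih =>
      intro x
      rw [Function.iterate_succ_apply', ih, pow_succ', mul_smul]
      rfl
  have h1 := S58LA_stable (DistribSMul.toAddMonoidHom M σ) a l T hT h m P hP
  rw [hit, hit] at h1
  exact h1

/-- **ER1** on the `n`-torsion: the shape of `S58R_es`. -/
theorem S58LA_smul_torsion (σ : G) (a l : ℤ) (n : ℕ)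
    (h : ∀ P : M, n • P = 0 → σ • σ • P - a • σ • P + l • P = 0) (m : ℕ) (P : M)
    (hP : n • P = 0) :
    σ ^ m • σ ^ m • P - LUC_V a l m • σ ^ m • P + l ^ m • P = 0 := by
  let T : AddSubgroup M :=
    { carrier := {P | n • P = 0}
      zero_mem' := smul_zero n
      add_mem' := fun {x y} hx hy => by
        show n • (x + y) = 0
        rw [smul_add, show n • x = 0 from hx, show n • y = 0 from hy, add_zero]
      neg_mem' := fun {x} hx => by
        show n • (-x) = 0
        rw [smul_neg, show n • x = 0 from hx, neg_zero] }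
  have hT : ∀ P ∈ T, σ • P ∈ T := by
    intro P hP
    show n • (σ • P) = 0
    have h0 : n • P = 0 := hP
    have : σ • (n • P) = n • (σ • P) :=
      map_nsmul (DistribSMul.toAddMonoidHom M σ) n P
    rw [← this, h0, smul_zero]
  exact S58LA_smul σ a l T hT (fun P hP => h P hP) m P hP

end action

end Fermat.Agent.S58
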