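import Mathlib
import Fermat.Agent.S58.LucasAdd
import Fermat.Agent.S58.Rel

/-!
# TRACK 12 (S58), sub-lemma ER1 of the comparison (E), instance for `W(ℚ̄)` (helper25)
— prefix `S58LA_`

* `S58LA_point`   : a relation `g g P − a g P + l P = 0` on `W[n](ℚ̄)` for ONE `g ∈ G_ℚ` gives
  `g^m g^m P − V_m(a, l) g^m P + l^m P = 0` on `W[n](ℚ̄)`;
* `S58LA_es`      : for a Frobenius element `σ` at a good prime `ℓ ∤ n`:
  `σ^m σ^m P − V_m(a_ℓ(W), ℓ) σ^m P + ℓ^m P = 0` on `W[n](ℚ̄)`;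
* `S58LA_es_of_eq`: the same relation for every `g` acting on `P` and on `g P` as `σ^m`.
-/

set_option autoImplicit false
set_option linter.unusedSectionVars false
set_option linter.unusedVariables false

open scoped Pointwise

namespace Fermat.Agent.S58

open WeierstrassCurve Fermat.Agent.GalRep Fermat.Agent.S41 Fermat.Agent.S31

local notation "ℚbar" => AlgebraicClosure ℚ

variable (W : WeierstrassCurve ℤ) {ℓ : ℕ} (A : ValuationSubring ℚbar)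

/-- **ER1 on `W(ℚ̄)`**. -/
theorem S58LA_point (g : GQ) (a l : ℤ) (n : ℕ)
    (h : ∀ P : (W.baseChange ℚbar).toAffine.Point, n • P = 0 →
      g • g • P - a • g • P + l • P = 0) (m : ℕ)
    (P : (W.baseChange ℚbar).toAffine.Point) (hP : n • P = 0) :
    g ^ m • g ^ m • P - LUC_V a l m • g ^ m • P + l ^ m • P = 0 :=
  S58LA_smul_torsion g a l n h m P hP

/-- **(W2) for powers of a Frobenius element**. -/
theorem S58LA_es (hℓ : ℓ.Prime) (hA : A.LiesOverPrime ℓ) (hgood : ¬ (ℓ : ℤ) ∣ W.Δ) {n : ℕ}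
    (hn : ¬ ℓ ∣ n) (σ : GQ) (hσ : A.IsFrobeniusAt σ ℓ) (m : ℕ)
    (P : (W.baseChange ℚbar).toAffine.Point) (hP : n • P = 0) :
    σ ^ m • σ ^ m • P - LUC_V (W.apOfModel ℓ) (ℓ : ℤ) m • σ ^ m • P + (ℓ : ℤ) ^ m • P = 0 :=
  S58LA_point W σ (W.apOfModel ℓ) (ℓ : ℤ) n
    (fun Q hQ => S58R_es W A hℓ hA hgood hn σ hσ Q hQ) m P hP

/-- **(W2) transported to `g`**: if `g` acts as `σ ^ m` on `P` and on `g P` (`σ` a Frobenius
element at a good prime `ℓ ∤ n`, `n • P = 0`), then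
`g g P − V_m(a_ℓ(W), ℓ) g P + ℓ^m P = 0`. -/
theorem S58LA_es_of_eq (hℓ : ℓ.Prime) (hA : A.LiesOverPrime ℓ) (hgood : ¬ (ℓ : ℤ) ∣ W.Δ)
    {n : ℕ} (hn : ¬ ℓ ∣ n) (σ : GQ) (hσ : A.IsFrobeniusAt σ ℓ) (m : ℕ) (g : GQ)
    (P : (W.baseChange ℚbar).toAffine.Point) (hP : n • P = 0)
    (h1 : g • P = σ ^ m • P) (h2 : g • g • P = σ ^ m • g • P) :
    g • g • P - LUC_V (W.apOfModel ℓ) (ℓ : ℤ) m • g • P + (ℓ : ℤ) ^ m • P = 0 := by
  have h := S58LA_es W A hℓ hA hgood hn σ hσ m P hP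
  rw [← h1, ← h2] at h
  exact h

end Fermat.Agent.S58
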