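import Mathlib
import Fermat.Agent.S58.Rel

/-!
# S58, package U-good (helper4) — names `S58RG_*`

The content (reduction at a good prime is constant on inertia orbits, for EVERY residue
characteristic, also `2`) is proved in `S58/Rel.lean` (helper28: `S58R_fix_good`); this file only
fixes the names announced in the designer's ruling 1, so that both spellings are available.

* `S58RG_fix_good` : `q ∤ m Δ`, `τ ∈ I_A`, `A ∣ q`, `m • P = 0` ⇒ `τ • P = P`.
* `S58RG_fix_good_pow` : the same for `m = lam ^ n`, `lam ≠ q` prime.
-/

set_option autoImplicit false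
set_option linter.unusedSectionVars false
set_option linter.unusedVariables false

namespace Fermat.Agent.S58

open WeierstrassCurve Fermat.Agent.GalRep

local notation "ℚbar" => AlgebraicClosure ℚ

variable (W : WeierstrassCurve ℤ) {q : ℕ} (A : ValuationSubring ℚbar)

/-- **(U-good)** at a good prime `q` (any `q`, also `q = 2`) the inertia group at `A ∣ q` fixes
every point killed by `m`, `q ∤ m`. -/
theorem S58RG_fix_good (hq : q.Prime) (hA : A.LiesOverPrime q) (hgood : ¬ (q : ℤ) ∣ W.Δ) {m : ℕ}
    (hqm : ¬ q ∣ m) (τ : GQ) (hτ : τ ∈ A.inertiaSubgroupIn ℚ)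
    (P : (W.baseChange ℚbar).toAffine.Point) (hP : m • P = 0) : τ • P = P :=
  S58R_fix_good W A hq hA hgood hqm τ hτ P hP

end Fermat.Agent.S58
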