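import Fermat.Agent.S58.Defs
import Fermat.Agent.S41.NERed

/-!
# TRACK 12 (S58), SPELLING GLUE for U-mult (helper2) — prefix `S58SF_`

The targets of `S58/Defs.lean` spell the points of `W` over `ℚ̄` as
`(W.baseChange ℚ̄).toAffine.Point` (as `S41/NERed.lean`, `S58/Rel.lean`); the node technique of
S05 / S13 spells them `((W.map (Int.castRingHom ℚ)).baseChange ℚ̄).toAffine.Point`
(`= ((W.map (Int.castRingHom ℚ))⁄ℚ̄).Point`).  The two curves are equal, the point types are not
definitionally equal.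

* `S58SF_curve_eq` : the two base-changed curves are equal;
* `S58SF_e`        : the additive equivalence of the point groups (`S41NE_ptCongr`);
* `S58SF_e_smul`   : it is Galois equivariant;
* `S58SF_e_nsmul`, `S58SF_e_eq_zero` : it commutes with multiples and detects zero;
* **`S58SF_TFix_of_Q`** : the target `S58D_TFix W p` from its `ℚ`-spelled form
  (`∀ q A τ n, 0 < n → ∃ x : ((W.map (Int.castRingHom ℚ))⁄ℚ̄).Point, p ^ n • x = 0 ∧
  p ^ (n - 1) • x ≠ 0 ∧ τ • x = x`, the shape of `S58U_main`).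
-/

set_option autoImplicit false
set_option linter.style.haveILetI false
set_option linter.unusedSectionVars false
set_option linter.unusedVariables false
set_option linter.style.longLine false

open scoped Pointwise

namespace Fermat.Agent.S58

open WeierstrassCurve Fermat.Agent.GalRep Fermat.Agent.S41

local notation "ℚbar" => AlgebraicClosure ℚ

variable (W : WeierstrassCurve ℤ)

/-- the two spellings of the curve over `ℚ̄`. -/
theorem S58SF_curve_eq :
    (W.map (Int.castRingHom ℚ)).baseChange ℚbar = W.baseChange ℚbar := by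
  show (W.map (Int.castRingHom ℚ)).map (algebraMap ℚ ℚbar) = W.map (algebraMap ℤ ℚbar)
  rw [WeierstrassCurve.map_map]
  rfl

/-- the additive equivalence between the two spellings of `W(ℚ̄)`. -/
noncomputable def S58SF_e :
    ((W.map (Int.castRingHom ℚ)).baseChange ℚbar).toAffine.Point ≃+
      (W.baseChange ℚbar).toAffine.Point :=
  S41NE_ptCongr (S58SF_curve_eq W)

/-- the equivalence is Galois equivariant. -/
theorem S58SF_e_smul (σ : GQ)
    (P : ((W.map (Int.castRingHom ℚ)).baseChange ℚbar).toAffine.Point) :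
    S58SF_e W (σ • P) = σ • S58SF_e W P := by
  rcases P with _ | ⟨x, y, h⟩
  · have e0 : (σ • (Affine.Point.zero :
        ((W.map (Int.castRingHom ℚ)).baseChange ℚbar).toAffine.Point)) = 0 := rfl
    have e0' : (Affine.Point.zero :
        ((W.map (Int.castRingHom ℚ)).baseChange ℚbar).toAffine.Point) = 0 := rfl
    rw [e0, e0', _root_.map_zero]
    rfl
  · have hσ : ((W.map (Int.castRingHom ℚ)).baseChange ℚbar).toAffine.Nonsingular
        (σ.toAlgHom x) (σ.toAlgHom y) :=
      ((W.map (Int.castRingHom ℚ)).toAffine.baseChange_nonsingular σ.toAlgHom.injective ..).mpr h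
    have e1 : (σ • (Affine.Point.some x y h :
        ((W.map (Int.castRingHom ℚ)).baseChange ℚbar).toAffine.Point)) =
        Affine.Point.some (σ.toAlgHom x) (σ.toAlgHom y) hσ := rfl
    have h' : (W.baseChange ℚbar).toAffine.Nonsingular x y := (S58SF_curve_eq W) ▸ h
    have e2 : S58SF_e W (Affine.Point.some x y h) = Affine.Point.some x y h' :=
      S41NE_ptCongr_some (S58SF_curve_eq W) h
    have e3 : S58SF_e W (Affine.Point.some (σ.toAlgHom x) (σ.toAlgHom y) hσ) =
        Affine.Point.some (σ.toAlgHom x) (σ.toAlgHom y) ((S58SF_curve_eq W) ▸ hσ) :=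
      S41NE_ptCongr_some (S58SF_curve_eq W) hσ
    rw [e1, e3, e2]
    rfl

theorem S58SF_e_nsmul (n : ℕ)
    (P : ((W.map (Int.castRingHom ℚ)).baseChange ℚbar).toAffine.Point) :
    S58SF_e W (n • P) = n • S58SF_e W P := map_nsmul _ n P

theorem S58SF_e_eq_zero
    (P : ((W.map (Int.castRingHom ℚ)).baseChange ℚbar).toAffine.Point) :
    S58SF_e W P = 0 ↔ P = 0 := (S58SF_e W).map_eq_zero_iff

/-- **the target `S58D_TFix W p` from its `ℚ`-spelled form** (the shape of `S58U_main`, for all
bad primes `q ≠ p`, `q = 2` included). -/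
theorem S58SF_TFix_of_Q (p : ℕ)
    (H : ∀ q : ℕ, q.Prime → q ≠ p → (q : ℤ) ∣ W.Δ → ∀ A : ValuationSubring ℚbar,
      (q : ℚbar) ∈ A.nonunits → ∀ τ : GQ, τ ∈ A.inertiaSubgroupIn ℚ → ∀ n : ℕ, 0 < n →
      ∃ x : ((W.map (Int.castRingHom ℚ)).baseChange ℚbar).toAffine.Point,
        p ^ n • x = 0 ∧ p ^ (n - 1) • x ≠ 0 ∧ τ • x = x) :
    S58D_TFix W p := by
  intro q hq hqp hqΔ A hA τ hτ n
  obtain ⟨x, h1, h2, h3⟩ := H q hq hqp hqΔ A hA τ hτ (n + 1) (Nat.succ_pos n)
  refine ⟨S58SF_e W x, ?_, ?_, ?_⟩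
  · rw [← S58SF_e_nsmul, h1, _root_.map_zero]
  · rw [← S58SF_e_nsmul]
    intro h
    exact h2 ((S58SF_e_eq_zero W _).1 h)
  · rw [← S58SF_e_smul, h3]

end Fermat.Agent.S58
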