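import Fermat.Agent.S58.Wire
import Fermat.Agent.S58.Defs
import Fermat.Agent.S35
import Fermat.Agent.Lib.FrobExists

/-!
# S58 (conductor–level matching), package H = TARGET (helper16)

Prefix `S58T_`.  The hole `S58W_HoleH` of the top wire (`S58/Wire.lean`): the newform `g₀`
(level `M₀ ∣ N`) of `W` has `a_ℓ(g₀) = a_ℓ(W)` at the good primes `ℓ ∣ N`.

By F the primes of `M₀` are bad, so a good `ℓ` does not divide `M₀`.  Take an auxiliary prime
`lam ≠ ℓ` and `S := {lam} ∪ primeFactors M₀`, so `ℓ ∉ S`.  Inputs: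

* `S58T_Apply` (package APPLY35): a coefficient ring `O'` (complete DVR of characteristic `0`
  with finite residue field, `lam ∈ 𝔪`), the eigencharacter `chig` of `g₀` on the Hecke algebra
  away from `S` and an INJECTIVE `iota : chig.range →+* O'`;
* `Fermat.Agent.S35.result` : the `lam`-adic representation `ρ` over `O'' ⊇ O'` with
  `charpoly ρ(Frob_q) = X² − a_q(g₀) X + q` for `q ∉ S`, `q ∤ M₀`;
* `S58T_EFrob` (package E, comparison at Frobenius): for such a `ρ` and a good prime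
  `q ∉ S`, `q ∤ M₀`: the image of `a_q(g₀)` in `O''` is `a_q(W)`.

* `S58T_coeff_eq` : the glue — equality in `O''` comes back to `ℂ`;
* `S58T_holeH_of` : `S58W_HoleH` from `S58T_Apply` and `S58T_EFrob`;
* `S58T_holeH`    : **`S58W_HoleH`** from the designer's targets `S58D_TCoef` (COEF) and
  `S58D_TEfrob W` (E-frob) of `S58/Defs.lean`;
* `S58T_HH`       : the provider `HH` of `S58W_main`, literally.
-/

set_option autoImplicit false
set_option linter.unusedVariables false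
set_option linter.unusedSectionVars false
set_option linter.style.longLine false
set_option linter.style.haveILetI false

open ModularFormClass Polynomial

namespace Fermat.Agent.S58

open CuspForm WeierstrassCurve

/-- **input APPLY35**: coefficient ring, eigencharacter and an INJECTIVE `iota` for the newform
of `W`, for every auxiliary prime `lam` and every finite `S ⊇ {lam} ∪ primes (M₀)`. -/
def S58T_Apply (W : WeierstrassCurve ℤ) (N : ℕ) : Prop :=
  ∀ (M₀ : ℕ) [NeZero M₀] (g₀ : CuspForm (CongruenceSubgroup.Gamma0 M₀) 2),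
    S58W_IsNewformOf W N M₀ g₀ →
    ∀ (lam : ℕ) [Fact lam.Prime] (S : Finset ℕ), lam ∈ S → (∀ q : ℕ, q.Prime → q ∣ M₀ → q ∈ S) →
    ∃ (O' : Type) (_ : CommRing O') (_ : IsDomain O') (_ : IsDiscreteValuationRing O')
      (_ : IsAdicComplete (IsLocalRing.maximalIdeal O') O')
      (_ : Finite (IsLocalRing.ResidueField O')) (_ : CharZero O'),
      (lam : O') ∈ IsLocalRing.maximalIdeal O' ∧
      ∃ (chig : CuspForm.heckeAlgebra M₀ 2 (↑S : Set ℕ) →+* ℂ),
        (∀ (ℓ : ℕ) (hℓ : ℓ.Prime) (hℓM : ¬ ℓ ∣ M₀) (hℓS : ℓ ∉ (↑S : Set ℕ)),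
          chig (CuspForm.heckeAlgebra.T hℓ hℓM hℓS) = ModularFormClass.qCoeff g₀ ℓ) ∧
        ∃ iota : chig.range →+* O', Function.Injective iota

/-- **input E-frob** (comparison at Frobenius), as an equality in `O''`: for every `lam`-adic
representation `ρ` with the Frobenius characteristic polynomials of `g₀` off `S`, the image of
`a_q(g₀)` in `O''` is `a_q(W)`, for every good prime `q ∉ S`, `q ∤ M₀`. -/
def S58T_EFrob (W : WeierstrassCurve ℤ) (N : ℕ) : Prop :=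
  ∀ (M₀ : ℕ) [NeZero M₀] (g₀ : CuspForm (CongruenceSubgroup.Gamma0 M₀) 2),
    S58W_IsNewformOf W N M₀ g₀ →
    ∀ (lam : ℕ) [Fact lam.Prime] (S : Finset ℕ), lam ∈ S → (∀ q : ℕ, q.Prime → q ∣ M₀ → q ∈ S) →
    ∀ (O' : Type) [CommRing O'] [IsDomain O'] [IsDiscreteValuationRing O']
      [IsAdicComplete (IsLocalRing.maximalIdeal O') O'] [Finite (IsLocalRing.ResidueField O')]
      [CharZero O'], (lam : O') ∈ IsLocalRing.maximalIdeal O' →
    ∀ (chig : CuspForm.heckeAlgebra M₀ 2 (↑S : Set ℕ) →+* ℂ),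
      (∀ (ℓ : ℕ) (hℓ : ℓ.Prime) (hℓM : ¬ ℓ ∣ M₀) (hℓS : ℓ ∉ (↑S : Set ℕ)),
        chig (CuspForm.heckeAlgebra.T hℓ hℓM hℓS) = ModularFormClass.qCoeff g₀ ℓ) →
    ∀ (iota : chig.range →+* O')
      (O'' : Type) [CommRing O''] [IsDomain O''] [IsDiscreteValuationRing O'']
      [IsAdicComplete (IsLocalRing.maximalIdeal O'') O''] [Finite (IsLocalRing.ResidueField O'')]
      [CharZero O''] [Algebra O' O''] [Module.Finite O' O''] [IsLocalHom (algebraMap O' O'')],
      Function.Injective (algebraMap O' O'') →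
    ∀ ρ : GaloisRepAdic O'',
      (∀ (ℓ : ℕ) (hℓ : ℓ.Prime) (hℓM : ¬ ℓ ∣ M₀) (hℓS : ℓ ∉ (↑S : Set ℕ)),
        ∀ A : ValuationSubring (AlgebraicClosure ℚ), A.LiesOverPrime ℓ →
          ∀ σ : AlgebraicClosure ℚ ≃ₐ[ℚ] AlgebraicClosure ℚ, A.IsFrobeniusAt σ ℓ →
            LinearMap.charpoly (ρ.ρ σ) =
              X ^ 2 - C (algebraMap O' O'' ((iota.comp chig.rangeRestrict)
                (CuspForm.heckeAlgebra.T hℓ hℓM hℓS))) * X + C ((ℓ : O''))) →
    ∀ (q : ℕ) (hq : q.Prime) (hqM : ¬ q ∣ M₀) (hqS : q ∉ (↑S : Set ℕ)), W.IsGoodPrimeFor q →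
      algebraMap O' O'' ((iota.comp chig.rangeRestrict) (CuspForm.heckeAlgebra.T hq hqM hqS)) =
        ((W.apOfModel q : ℤ) : O'')

/-- the glue: an equality in `O''` between the image of `chig t` and an integer comes back
to `ℂ`, if `iota` and `O' → O''` are injective. -/
theorem S58T_coeff_eq {T O' O'' : Type} [CommRing T] [CommRing O'] [CommRing O'']
    [Algebra O' O''] (chig : T →+* ℂ) (iota : chig.range →+* O')
    (hiota : Function.Injective iota) (halg : Function.Injective (algebraMap O' O''))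
    (t : T) (a : ℤ)
    (h : algebraMap O' O'' ((iota.comp chig.rangeRestrict) t) = (a : O'')) :
    chig t = (a : ℂ) := by
  have h1 : algebraMap O' O'' ((iota.comp chig.rangeRestrict) t) =
      algebraMap O' O'' (iota ((a : ℤ) : chig.range)) := by
    rw [h, map_intCast, map_intCast]
  have h2 : chig.rangeRestrict t = ((a : ℤ) : chig.range) := hiota (halg h1)
  have h3 := congrArg (Subtype.val) h2
  simpa using h3

/-- an odd auxiliary prime different from `ℓ`. -/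
theorem S58T_exists_aux (ℓ : ℕ) : ∃ lam : ℕ, lam.Prime ∧ lam ≠ ℓ ∧ lam ≠ 2 := by
  by_cases h : ℓ = 3
  · exact ⟨5, by norm_num, by omega, by norm_num⟩
  · exact ⟨3, by norm_num, fun h3 => h h3.symm, by norm_num⟩

/-- `S58W_HoleH` from APPLY35 and E-frob in the shapes of this file. -/
theorem S58T_holeH_of (W : WeierstrassCurve ℤ) (N p : ℕ)
    (hN3 : ∀ q : ℕ, q.Prime → ¬ q ^ 3 ∣ N)
    (hP : S58T_Apply W N) (hE : S58T_EFrob W N) : S58W_HoleH W N p := by
  classical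
  intro M₀ g₀ hdat hF ℓ hℓ hgood hℓN
  have hN0 : N ≠ 0 := S58A_ne_zero hN3
  have hM₀0 : M₀ ≠ 0 := fun h0 => hN0 (Nat.eq_zero_of_zero_dvd (h0 ▸ hdat.1))
  haveI : NeZero M₀ := ⟨hM₀0⟩
  -- a good prime does not divide `M₀`
  have hℓM : ¬ ℓ ∣ M₀ := fun hd => hgood (hF ℓ hℓ hd).1
  -- the auxiliary prime and the set `S`
  obtain ⟨lam, hlam, hlamℓ, -⟩ := S58T_exists_aux ℓ
  haveI : Fact lam.Prime := ⟨hlam⟩
  set S : Finset ℕ := insert lam M₀.primeFactors with hS
  have hlamS : lam ∈ S := Finset.mem_insert_self _ _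
  have hMS : ∀ q : ℕ, q.Prime → q ∣ M₀ → q ∈ S := fun q hq hqM =>
    Finset.mem_insert_of_mem (Nat.mem_primeFactors.2 ⟨hq, hqM, hM₀0⟩)
  have hℓS : ℓ ∉ (↑S : Set ℕ) := by
    intro hmem
    have hmem' : ℓ ∈ S := hmem
    rw [hS, Finset.mem_insert] at hmem'
    rcases hmem' with h | h
    · exact hlamℓ h.symm
    · exact hℓM (Nat.mem_primeFactors.1 h).2.1
  -- APPLY35
  obtain ⟨O', _, _, _, _, _, _, hlamO', chig, hchig, iota, hiota⟩ :=
    hP M₀ g₀ hdat lam S hlamS hMS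
  -- S35
  obtain ⟨O'', _, _, _, _, _, _, _, _, _, halg, ρ, hρ, -⟩ :=
    Fermat.Agent.S35.result hdat.2.1 lam S O' hlamO' chig hchig iota hlamS hMS
  -- E-frob
  have hEq := hE M₀ g₀ hdat lam S hlamS hMS O' hlamO' chig hchig iota O'' halg ρ hρ
    ℓ hℓ hℓM hℓS hgood
  rw [← hchig ℓ hℓ hℓM hℓS]
  exact S58T_coeff_eq chig iota hiota halg _ _ hEq

/-- the coefficient of `X` in `X² − a X + b`. -/
theorem S58T_coeff_one {R : Type} [CommRing R] {a a' b b' : R}
    (h : (X ^ 2 - C a * X + C b : R[X]) = X ^ 2 - C a' * X + C b') : a = a' := by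
  have h1 := congrArg (fun f : R[X] => f.coeff 1) h
  simp only [coeff_add, coeff_sub, coeff_X_pow, coeff_C_mul, coeff_X_one, coeff_C] at h1
  norm_num at h1
  exact h1

/-- `S58T_Apply` from the designer's target (COEF). -/
theorem S58T_apply_of_coef (W : WeierstrassCurve ℤ) (N : ℕ) (hCoef : S58D_TCoef) :
    S58T_Apply W N := by
  intro M₀ _ g₀ hdat lam hlam S _ hMS
  obtain ⟨chig, hchig, O', i1, i2, i3, i4, i5, i6, hlamO', iota, hiota⟩ :=
    hCoef M₀ g₀ hdat.2.1.1 lam hlam.out S hMS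
  exact ⟨O', i1, i2, i3, i4, i5, i6, hlamO', chig, hchig, iota, hiota⟩

/-- `S58T_EFrob` from the designer's target (E-frob). -/
theorem S58T_efrob_of (W : WeierstrassCurve ℤ) (N : ℕ) (hN : N ≠ 0) (hE : S58D_TEfrob W) :
    S58T_EFrob W N := by
  classical
  intro M₀ _ g₀ hdat lam hlam S hlamS hMS O' _ _ _ _ _ _ hlamO' chig hchig iota O'' _ _ _ _ _ _
    _ _ _ halg ρ hρ q hq hqM hqS hgood
  have hΔ : W.Δ ≠ 0 := fun h0 => hgood (h0 ▸ dvd_zero _)
  -- `lam` is in the maximal ideal of `O''`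
  have hlamO'' : (lam : O'') ∈ IsLocalRing.maximalIdeal O'' := by
    have e : (lam : O'') = algebraMap O' O'' (lam : O') := (map_natCast _ _).symm
    rw [e, IsLocalRing.mem_maximalIdeal, mem_nonunits_iff]
    intro hu
    have hu' : IsUnit (lam : O') := (isUnit_map_iff (algebraMap O' O'') _).1 hu
    exact ((IsLocalRing.mem_maximalIdeal _).1 hlamO') hu'
  -- `ρ` is attached to `W` off `T`
  set T : Finset ℕ := S ∪ N.primeFactors ∪ W.Δ.natAbs.primeFactors with hT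
  have hAtt : S58D_Att W ρ T := by
    intro ℓ' hℓ' hℓ'T A hA σ hσ
    rw [hT, Finset.mem_union, Finset.mem_union, not_or, not_or] at hℓ'T
    obtain ⟨⟨hℓ'S, hℓ'N⟩, hℓ'Δ⟩ := hℓ'T
    have hℓ'S' : ℓ' ∉ (↑S : Set ℕ) := hℓ'S
    have hgood' : W.IsGoodPrimeFor ℓ' := by
      intro hd
      refine hℓ'Δ (Nat.mem_primeFactors.2 ⟨hℓ', ?_, Int.natAbs_ne_zero.2 hΔ⟩)
      exact Int.natCast_dvd.1 hd
    have hℓ'N' : ¬ ℓ' ∣ N := fun hd => hℓ'N (Nat.mem_primeFactors.2 ⟨hℓ', hd, hN⟩)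
    have hℓ'M : ¬ ℓ' ∣ M₀ := fun hd => hℓ'N' (hd.trans hdat.1)
    rw [hρ ℓ' hℓ' hℓ'M hℓ'S' A hA σ hσ]
    have h1 : chig (CuspForm.heckeAlgebra.T hℓ' hℓ'M hℓ'S') = ((W.apOfModel ℓ' : ℤ) : ℂ) :=
      (hchig ℓ' hℓ' hℓ'M hℓ'S').trans (hdat.2.2 ℓ' hℓ' hgood' hℓ'N')
    have h2 : chig.rangeRestrict (CuspForm.heckeAlgebra.T hℓ' hℓ'M hℓ'S') =
        ((W.apOfModel ℓ' : ℤ) : chig.range) := by
      apply Subtype.ext
      simpa using h1
    have h3 : algebraMap O' O'' ((iota.comp chig.rangeRestrict)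
        (CuspForm.heckeAlgebra.T hℓ' hℓ'M hℓ'S')) = ((W.apOfModel ℓ' : ℤ) : O'') := by
      rw [RingHom.comp_apply, h2, map_intCast, map_intCast]
    rw [h3]
  -- a Frobenius element at `q`
  obtain ⟨A, σ, hA, hσ⟩ := Fermat.Agent.Lib.exists_isFrobeniusAt q hq
  have hqlam : q ≠ lam := fun h => hqS (h ▸ hlamS)
  have hW := hE lam hlam.out O'' hlamO'' ρ T hAtt q hq hqlam hgood A hA σ hσ
  rw [hρ q hq hqM hqS A hA σ hσ] at hW
  exact S58T_coeff_one hW

/-- **HOLE H** from APPLY35 and E-frob (shapes of this file). -/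
theorem S58T_holeH (W : WeierstrassCurve ℤ) (N p : ℕ)
    (hN3 : ∀ q : ℕ, q.Prime → ¬ q ^ 3 ∣ N)
    (hCoef : S58D_TCoef) (hE : S58D_TEfrob W) : S58W_HoleH W N p :=
  S58T_holeH_of W N p hN3 (S58T_apply_of_coef W N hCoef)
    (S58T_efrob_of W N (S58A_ne_zero hN3) hE)

/-- **the provider `HH` of `S58W_main`**, literally, from (COEF) and (E-frob). -/
theorem S58T_HH (W : WeierstrassCurve ℤ) (N p : ℕ) (hCoef : S58D_TCoef) (hE : S58D_TEfrob W) :
    W.IsSemistableModel → p ≠ 2 → W.ModRepIsIrreducible p → ¬ p ^ 2 ∣ N →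
      (∀ ℓ : ℕ, ℓ.Prime → (ℓ : ℤ) ∣ W.Δ → ℓ ∣ N) → (∀ q : ℕ, q.Prime → ¬ q ^ 3 ∣ N) →
      S58W_HoleH W N p :=
  fun _ _ _ _ _ hN3 => S58T_holeH W N p hN3 hCoef hE

end Fermat.Agent.S58
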