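import Fermat.Agent.S58.Wire
import Fermat.Agent.S58.Defs
import Fermat.Agent.S58.CaseF
import Fermat.Agent.S58.Target
import Fermat.Agent.S58.StabGen

/-!
# S58 (conductor–level matching), TOP ASSEMBLY (helper13) — prefix `S58X_`

`S58X_main` : the statement of S58 (verbatim hypotheses and conclusion) from the FIVE targets of
`S58/Defs.lean` that are still to be proved, each under the hypotheses its owner may assume:

* `S58D_TCoef`                      (COEF),
* `S58D_TCount W`                   (F-COUNT),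
* `W.Δ ≠ 0 → S58D_TEfrob W`         (E-frob),
* `W.IsSemistableModel → W.Δ ≠ 0 → S58D_TEunip W p`          (E-unip),
* `p ≠ 2 → W.ModRepIsIrreducible p → W.Δ ≠ 0 → S58D_THres W p`  (HRES).

Everything else is plugged: package A (`S58A_newform_of_modular`), the top wire (`S58W_main`),
hole F (`S58F_holeF`), hole H (`S58T_holeH`), hole G (`S58G_holeG`).
-/

set_option autoImplicit false
set_option linter.unusedVariables false

namespace Fermat.Agent.S58

open CuspForm WeierstrassCurve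

/-- **S58 from the five targets.** -/
theorem S58X_main
    (W : WeierstrassCurve ℤ) (hss : W.IsSemistableModel) (N : ℕ)
    (p : ℕ) [Fact p.Prime] (hp2 : p ≠ 2) (hirr : W.ModRepIsIrreducible p)
    (hp2N : ¬ p ^ 2 ∣ N)
    (hN : W.IsModularModelOfLevel N) (hbad : ∀ ℓ : ℕ, ℓ.Prime → (ℓ : ℤ) ∣ W.Δ → ℓ ∣ N)
    (hN3 : ∀ q : ℕ, q.Prime → ¬ q ^ 3 ∣ N)
    (HCo : S58D_TCoef) (HCt : S58D_TCount W)
    (HEf : W.Δ ≠ 0 → S58D_TEfrob W)
    (HEu : W.IsSemistableModel → W.Δ ≠ 0 → S58D_TEunip W p)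
    (HHr : p ≠ 2 → W.ModRepIsIrreducible p → W.Δ ≠ 0 → S58D_THres W p) :
    W.IsModularModelOfLevel W.conductorLevel := by
  have hN0 : N ≠ 0 := S58A_ne_zero hN3
  have hΔ : W.Δ ≠ 0 := S58W_disc_ne_zero W hN0 hbad
  exact S58W_main W hss N p hp2 hirr hp2N hN hbad hN3
    (fun hss' hp2' hirr' hp2N' hbad' hN3' =>
      S58F_holeF W N p hp2' hp2N' hbad' hN3' (HEu hss' hΔ) (HEf hΔ) (HHr hp2' hirr' hΔ) HCt HCo)
    (fun _ _ _ _ _ hN3' => S58T_holeH W N p hN3' HCo (HEf hΔ))
    S58G_holeG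

end Fermat.Agent.S58
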