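import Mathlib
import Fermat.Agent.S05.Final
import Fermat.Agent.S13.Defs

/-!
# S58, package U-mult, sub-lemma FIX (helper21): torsion points on the identity component are
fixed by inertia — prefix `S58UF_`

`K/S` a field extension, `W'` a Weierstrass curve over `R → S → K`, `A ⊂ K` a valuation ring,
`x₀` a node datum (`S05_Node (W'⁄K) A x₀`), `σ ∈ Aut(K/S)` with `σ A = A` acting trivially on
the residue field.

* `S58UF_lvl_eq_one_iff` : `S05_lvl … (some x y) = 1 ↔ 1 ≤ v (x − x₀)`;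
* `S58UF_fix_gen` : a point `Q` with `m • Q = 0` (`m` odd, a unit of `A`) of level `1` is fixed
  by `σ`;
* **`S58UF_fix`** : the same for `E : WeierstrassCurve ℚ`, `K = ℚ̄`, `τ` with `S13_Inert A τ`
  (helper9's shape);
* `S58UF_fix_mem` : the same for `τ ∈ A.inertiaSubgroupIn ℚ`.
-/

set_option autoImplicit false
set_option linter.unusedSectionVars false
set_option linter.unusedVariables false

namespace Fermat.Agent.S58

open WeierstrassCurve WeierstrassCurve.Affine WeierstrassCurve.Affine.Point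
open Fermat.Agent.S05 Fermat.Agent.S51 Fermat.Agent.S13

section general

variable {R : Type*} {S : Type*} {K : Type*} [CommRing R] [CommRing S] [Field K]
  [DecidableEq K] {W' : Affine R} [Algebra R S] [Algebra R K] [Algebra S K]
  [IsScalarTower R S K] (A : ValuationSubring K)

omit [DecidableEq K] in
/-- the level of an affine point is `1` iff `1 ≤ v (x − x₀)` (for `v β < 1`). -/
theorem S58UF_lvl_eq_one_iff {W : Affine K} {x₀ : K}
    (hβ : A.valuation (W.b₄ + W.b₂ * x₀ + 6 * x₀ ^ 2) < 1) {x y : K} (h : W.Nonsingular x y) :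
    S05_lvl W A x₀ (Point.some x y h) = 1 ↔ 1 ≤ A.valuation (x - x₀) := by
  show max (A.valuation (W.b₄ + W.b₂ * x₀ + 6 * x₀ ^ 2)) (min 1 (A.valuation (x - x₀))) = 1 ↔ _
  constructor
  · intro hl
    by_contra hcon
    rw [not_le] at hcon
    have h1 : min 1 (A.valuation (x - x₀)) < 1 := min_lt_of_right_lt hcon
    have h2 : max (A.valuation (W.b₄ + W.b₂ * x₀ + 6 * x₀ ^ 2))
        (min 1 (A.valuation (x - x₀))) < 1 := max_lt hβ h1
    rw [hl] at h2
    exact lt_irrefl _ h2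
  · intro hx
    rw [min_eq_left hx, max_eq_right hβ.le]

/-- **FIX, general form**: a torsion point of odd order `m` (a unit of `A`) of level `1` is
fixed by every `σ` that preserves `A` and acts trivially on the residue field. -/
theorem S58UF_fix_gen {x₀ : K} (hN : S05_Node (W'⁄K) A x₀) (σ : K ≃ₐ[S] K)
    (hσ : ∀ x ∈ A, σ x - x ∈ A.nonunits) (hσA : ∀ x, σ x ∈ A ↔ x ∈ A)
    {m : ℕ} (hm : Odd m) (hvm : A.valuation (m : K) = 1) (Q : (W'⁄K).Point)
    (hQ : m • Q = 0) (hl : S05_lvl (W'⁄K) A x₀ Q = 1) : σ • Q = Q := by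
  rcases Q with _ | ⟨x, y, h⟩
  · rfl
  obtain ⟨hx, hy⟩ := S05_integral_of_torsion A hN.int hN.two h hvm hQ
  have h1 : 1 ≤ A.valuation (x - x₀) := (S58UF_lvl_eq_one_iff A hN.β_lt h).1 hl
  have h2 : A.valuation (x - x₀) ≤ 1 :=
    (A.valuation_le_one_iff _).2 (sub_mem hx hN.x₀_mem)
  have hX : A.valuation (x - x₀) = 1 := le_antisymm h2 h1
  have hD := S05_unit_away_from_node A hN hm h hx hQ hX
  exact S05_fix_of_unit A hN.int hN.two hvm σ hσ hσA h hx hy hD hQ

end general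

section rat

local notation "ℚbar" => AlgebraicClosure ℚ
local notation "Gℚ" => (AlgebraicClosure ℚ ≃ₐ[ℚ] AlgebraicClosure ℚ)

/-- **FIX** (helper9's shape): on `E⁄ℚ̄`, a point of odd order `m` (a unit of `A`) of level `1`
is fixed by every `τ` with `S13_Inert A τ`. -/
theorem S58UF_fix (E : WeierstrassCurve ℚ) (A : ValuationSubring ℚbar) {x₀ : ℚbar}
    (hN : S05_Node (E⁄ℚbar) A x₀) (τ : Gℚ) (hτ : S13_Inert A τ)
    {m : ℕ} (hm : Odd m) (hvm : A.valuation (m : ℚbar) = 1) (Q : (E⁄ℚbar).Point)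
    (hQ : m • Q = 0) (hl : S05_lvl (E⁄ℚbar) A x₀ Q = 1) : τ • Q = Q := by
  classical
  exact S58UF_fix_gen A hN τ hτ.2 hτ.1 hm hvm Q hQ hl

/-- **FIX** for `τ` in the inertia group of `A`. -/
theorem S58UF_fix_mem (E : WeierstrassCurve ℚ) (A : ValuationSubring ℚbar) {x₀ : ℚbar}
    (hN : S05_Node (E⁄ℚbar) A x₀) (τ : Gℚ) (hτ : τ ∈ A.inertiaSubgroupIn ℚ)
    {m : ℕ} (hm : Odd m) (hvm : A.valuation (m : ℚbar) = 1) (Q : (E⁄ℚbar).Point)
    (hQ : m • Q = 0) (hl : S05_lvl (E⁄ℚbar) A x₀ Q = 1) : τ • Q = Q :=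
  S58UF_fix E A hN τ (S13_inert_of_mem A τ hτ) hm hvm Q hQ hl

/-- the valuation of a prime `p ≠ q` is `1` at a place over `q`. -/
theorem S58UF_val_prime (A : ValuationSubring ℚbar) {p q : ℕ} (hp : p.Prime) (hq : q.Prime)
    (hpq : q ≠ p) (hA : (q : ℚbar) ∈ A.nonunits) : A.valuation (p : ℚbar) = 1 := by
  have hcop : Nat.Coprime p q := (Nat.coprime_primes hp hq).2 (Ne.symm hpq)
  have hle : A.valuation (p : ℚbar) ≤ 1 := (A.valuation_le_one_iff _).2 (natCast_mem A p)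
  refine le_antisymm hle ?_
  by_contra hcon
  rw [not_le] at hcon
  have hq1 : A.valuation (q : ℚbar) < 1 := A.mem_nonunits_iff.mp hA
  -- Bezout: `a p + b q = 1`
  have hb : (p.gcdA q : ℤ) * p + (p.gcdB q : ℤ) * q = 1 := by
    have := Nat.gcd_eq_gcd_ab p q
    rw [hcop.gcd_eq_one] at this
    push_cast at this
    linarith
  have hb' : ((p.gcdA q : ℤ) : ℚbar) * (p : ℚbar) + ((p.gcdB q : ℤ) : ℚbar) * (q : ℚbar) = 1 := by
    exact_mod_cast congrArg (Int.cast : ℤ → ℚbar) hb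
  have h1 : A.valuation (((p.gcdA q : ℤ) : ℚbar) * (p : ℚbar)) < 1 := by
    rw [map_mul]
    exact lt_of_le_of_lt (mul_le_of_le_one_left' ((A.valuation_le_one_iff _).2
      (intCast_mem A _))) hcon
  have h2 : A.valuation (((p.gcdB q : ℤ) : ℚbar) * (q : ℚbar)) < 1 := by
    rw [map_mul]
    exact lt_of_le_of_lt (mul_le_of_le_one_left' ((A.valuation_le_one_iff _).2
      (intCast_mem A _))) hq1
  have h3 := A.valuation.map_add_lt h1 h2
  rw [hb', map_one] at h3
  exact lt_irrefl _ h3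

/-- the valuation of `p ^ n`, `p ≠ q` prime, is `1` at a place over `q`. -/
theorem S58UF_val_prime_pow (A : ValuationSubring ℚbar) {p q : ℕ} (hp : p.Prime) (hq : q.Prime)
    (hpq : q ≠ p) (hA : (q : ℚbar) ∈ A.nonunits) (n : ℕ) :
    A.valuation ((p ^ n : ℕ) : ℚbar) = 1 := by
  push_cast
  rw [map_pow, S58UF_val_prime A hp hq hpq hA, one_pow]

/-- **FIX at `p`-power torsion**: at a place over `q ≠ p` (`p` odd) with node datum, a
`p ^ n`-torsion point of level `1` is fixed by the inertia group. -/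
theorem S58UF_fix_pow (E : WeierstrassCurve ℚ) (A : ValuationSubring ℚbar) {x₀ : ℚbar}
    (hN : S05_Node (E⁄ℚbar) A x₀) {p q : ℕ} (hp : p.Prime) (hp2 : p ≠ 2) (hq : q.Prime)
    (hpq : q ≠ p) (hA : (q : ℚbar) ∈ A.nonunits)
    (τ : Gℚ) (hτ : τ ∈ A.inertiaSubgroupIn ℚ) (n : ℕ) (Q : (E⁄ℚbar).Point)
    (hQ : p ^ n • Q = 0) (hl : S05_lvl (E⁄ℚbar) A x₀ Q = 1) : τ • Q = Q :=
  S58UF_fix_mem E A hN τ hτ ((hp.odd_of_ne_two hp2).pow)
    (S58UF_val_prime_pow A hp hq hpq hA n) Q hQ hl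

end rat

end Fermat.Agent.S58
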