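import Fermat.Agent.S58.UFix

/-!
# S58, package U-mult, sub-lemma FIX in the spelling of the targets (helper21) — prefix `S58UF_`

The point type of `S58/Defs.lean` is `(W.baseChange ℚ̄).toAffine.Point`, `W : WeierstrassCurve ℤ`,
with Mathlib's Galois action.  `S58UF_fix_gen` (R = ℤ, S = ℚ, K = ℚ̄) gives FIX for it literally:

* `S58UF_fix'`     : `τ` with `S13_Inert A τ`, `m` odd with `v m = 1`, `m • Q = 0`, `lvl Q = 1`
  ⇒ `τ • Q = Q`;
* `S58UF_fix_mem'` : the same for `τ ∈ A.inertiaSubgroupIn ℚ`;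
* `S58UF_fix_pow'` : the same for `m = p ^ n`, `p` odd prime, `A` over `q ≠ p`
  (`hA : (q : ℚ̄) ∈ A.nonunits`);
* `S58UF_fix_pow_lies'` : the same with `hA : A.LiesOverPrime q`.
-/

set_option autoImplicit false
set_option linter.unusedSectionVars false
set_option linter.unusedVariables false

namespace Fermat.Agent.S58

open WeierstrassCurve WeierstrassCurve.Affine WeierstrassCurve.Affine.Point
open Fermat.Agent.S05 Fermat.Agent.S51 Fermat.Agent.S13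

local notation "ℚbar" => AlgebraicClosure ℚ
local notation "Gℚ" => (AlgebraicClosure ℚ ≃ₐ[ℚ] AlgebraicClosure ℚ)

/-- **FIX** on `(W.baseChange ℚ̄).toAffine`, `W` over `ℤ`. -/
theorem S58UF_fix' (W : WeierstrassCurve ℤ) (A : ValuationSubring ℚbar) {x₀ : ℚbar}
    (hN : S05_Node (W.baseChange ℚbar).toAffine A x₀) (τ : Gℚ) (hτ : S13_Inert A τ)
    {m : ℕ} (hm : Odd m) (hvm : A.valuation (m : ℚbar) = 1)
    (Q : (W.baseChange ℚbar).toAffine.Point)
    (hQ : m • Q = 0) (hl : S05_lvl (W.baseChange ℚbar).toAffine A x₀ Q = 1) : τ • Q = Q := by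
  classical
  exact S58UF_fix_gen (R := ℤ) (S := ℚ) (K := ℚbar) (W' := W) A hN τ hτ.2 hτ.1 hm hvm Q hQ hl

/-- **FIX** on `(W.baseChange ℚ̄).toAffine` for `τ` in the inertia group of `A`. -/
theorem S58UF_fix_mem' (W : WeierstrassCurve ℤ) (A : ValuationSubring ℚbar) {x₀ : ℚbar}
    (hN : S05_Node (W.baseChange ℚbar).toAffine A x₀) (τ : Gℚ)
    (hτ : τ ∈ A.inertiaSubgroupIn ℚ)
    {m : ℕ} (hm : Odd m) (hvm : A.valuation (m : ℚbar) = 1)
    (Q : (W.baseChange ℚbar).toAffine.Point)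
    (hQ : m • Q = 0) (hl : S05_lvl (W.baseChange ℚbar).toAffine A x₀ Q = 1) : τ • Q = Q :=
  S58UF_fix' W A hN τ (S13_inert_of_mem A τ hτ) hm hvm Q hQ hl

/-- **FIX at `p`-power torsion** on `(W.baseChange ℚ̄).toAffine`. -/
theorem S58UF_fix_pow' (W : WeierstrassCurve ℤ) (A : ValuationSubring ℚbar) {x₀ : ℚbar}
    (hN : S05_Node (W.baseChange ℚbar).toAffine A x₀) {p q : ℕ} (hp : p.Prime) (hp2 : p ≠ 2)
    (hq : q.Prime) (hpq : q ≠ p) (hA : (q : ℚbar) ∈ A.nonunits)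
    (τ : Gℚ) (hτ : τ ∈ A.inertiaSubgroupIn ℚ) (n : ℕ)
    (Q : (W.baseChange ℚbar).toAffine.Point)
    (hQ : p ^ n • Q = 0) (hl : S05_lvl (W.baseChange ℚbar).toAffine A x₀ Q = 1) : τ • Q = Q :=
  S58UF_fix_mem' W A hN τ hτ ((hp.odd_of_ne_two hp2).pow)
    (S58UF_val_prime_pow A hp hq hpq hA n) Q hQ hl

/-- `A.LiesOverPrime q` gives `(q : ℚ̄) ∈ A.nonunits`. -/
theorem S58UF_mem_nonunits_of_lies (A : ValuationSubring ℚbar) {q : ℕ}
    (hA : A.LiesOverPrime q) : (q : ℚbar) ∈ A.nonunits := hA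

/-- **FIX at `p`-power torsion**, `A.LiesOverPrime q`. -/
theorem S58UF_fix_pow_lies' (W : WeierstrassCurve ℤ) (A : ValuationSubring ℚbar) {x₀ : ℚbar}
    (hN : S05_Node (W.baseChange ℚbar).toAffine A x₀) {p q : ℕ} (hp : p.Prime) (hp2 : p ≠ 2)
    (hq : q.Prime) (hpq : q ≠ p) (hA : A.LiesOverPrime q)
    (τ : Gℚ) (hτ : τ ∈ A.inertiaSubgroupIn ℚ) (n : ℕ)
    (Q : (W.baseChange ℚbar).toAffine.Point)
    (hQ : p ^ n • Q = 0) (hl : S05_lvl (W.baseChange ℚbar).toAffine A x₀ Q = 1) : τ • Q = Q :=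
  S58UF_fix_pow' W A hN hp hp2 hq hpq (S58UF_mem_nonunits_of_lies A hA) τ hτ n Q hQ hl

end Fermat.Agent.S58
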