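import Mathlib
import Fermat.Agent.S05.NodeLevel

/-!
# S58, package U-mult: the abstract level lemma

`lvl : G → Γ` is a "clipped level" on an abelian group `G` (the points of a Weierstrass curve with
a node in the special fibre: `S05_lvl` for odd residue characteristic, `S13_lv_lvl` for the normal
form at `(0,0)`), with values in `[μ, 1]`, `lvl 0 = 1`, satisfying the multiset identity
`{lvl (P + Q), lvl (P - Q)} ~ {lvl P * lvl Q, lvl P / lvl Q}` in `Γ / ⟨μ²⟩ / ±` (`S05_Rel μ`).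

* `S58UL_exists_j` : in `ℤ / p ^ n` one of two elements is a multiple of the other;
* `S58UL_eq_one_of_rel` : a clipped value which is `~ 1` equals `1`;
* `S58UL_exists_level_one` : if `P₁, P₂` are killed by `p ^ n` and `p ^ (n - 1) • P₁`,
  `p ^ (n - 1) • P₂` are independent modulo `p`, there is a point `P` of exact order `p ^ n` with
  `lvl P = 1` (i.e. away from the node).
-/

set_option autoImplicit false

namespace Fermat.Agent.S58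

open Fermat.Agent.S05

section arith

/-- solving `x + j c ≡ 0 mod p ^ m` for `c` prime to `p`. -/
theorem S58UL_unit_solve (p : ℕ) (hp : p.Prime) (m : ℕ) (x c : ℤ) (hc : ¬ (p : ℤ) ∣ c) :
    ∃ j : ℕ, (p : ℤ) ^ m ∣ x + j * c := by
  have hpp : Prime (p : ℤ) := Nat.prime_iff_prime_int.mp hp
  have hcop : IsCoprime ((p : ℤ) ^ m) c :=
    IsCoprime.pow_left ((Irreducible.coprime_iff_not_dvd hpp.irreducible).2 hc)
  obtain ⟨a, b, hab⟩ := hcop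
  have hpm : ((p : ℤ) ^ m) ≠ 0 := pow_ne_zero _ hpp.ne_zero
  set r := (-x * b) % (p : ℤ) ^ m with hr
  have hr0 : 0 ≤ r := Int.emod_nonneg _ hpm
  refine ⟨r.toNat, ?_⟩
  rw [Int.toNat_of_nonneg hr0]
  have hdef : r = -x * b - (p : ℤ) ^ m * ((-x * b) / (p : ℤ) ^ m) := by
    rw [hr, Int.emod_def]
  refine ⟨x * a - ((-x * b) / (p : ℤ) ^ m) * c, ?_⟩
  rw [hdef]
  linear_combination (-x) * hab

/-- in `ℤ / p ^ n`, one of two elements is a multiple of the other. -/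
theorem S58UL_exists_j (p : ℕ) (hp : p.Prime) (n : ℕ) (c₁ c₂ : ℤ) :
    ∃ j : ℕ, ((p : ℤ) ^ n ∣ c₁ + j * c₂) ∨ ((p : ℤ) ^ n ∣ c₂ + j * c₁) := by
  induction n generalizing c₁ c₂ with
  | zero => exact ⟨0, Or.inl (by simp)⟩
  | succ n ih =>
    by_cases h2 : (p : ℤ) ∣ c₂
    · by_cases h1 : (p : ℤ) ∣ c₁
      · obtain ⟨d₁, rfl⟩ := h1
        obtain ⟨d₂, rfl⟩ := h2
        obtain ⟨j, hj | hj⟩ := ih d₁ d₂
        · refine ⟨j, Or.inl ?_⟩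
          have e : (p : ℤ) * d₁ + j * (p * d₂) = p * (d₁ + j * d₂) := by ring
          rw [e, pow_succ']
          exact mul_dvd_mul_left _ hj
        · refine ⟨j, Or.inr ?_⟩
          have e : (p : ℤ) * d₂ + j * (p * d₁) = p * (d₂ + j * d₁) := by ring
          rw [e, pow_succ']
          exact mul_dvd_mul_left _ hj
      · obtain ⟨j, hj⟩ := S58UL_unit_solve p hp (n + 1) c₂ c₁ h1
        exact ⟨j, Or.inr hj⟩
    · obtain ⟨j, hj⟩ := S58UL_unit_solve p hp (n + 1) c₁ c₂ h2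
      exact ⟨j, Or.inl hj⟩

end arith

section rel

variable {Γ : Type*} [LinearOrderedCommGroupWithZero Γ] {μ : Γ}

/-- `x ~ 1` means `x = μ ^ (2 r)`. -/
theorem S58UL_rel_one_iff {x : Γ} :
    S05_Rel μ 1 x ↔ ∃ r : ℤ, x = μ ^ (2 * r) := by
  constructor
  · rintro ⟨k, hk | hk⟩
    · exact ⟨k, by rw [hk, one_mul]⟩
    · exact ⟨k, by rw [hk, inv_one, one_mul]⟩
  · rintro ⟨r, hr⟩
    exact ⟨r, Or.inl (by rw [hr, one_mul])⟩

/-- a value in `[μ, 1]` of the form `μ ^ (2 r)` is `1`. -/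
theorem S58UL_eq_one_of_zpow (hμ : μ ≠ 0) (hμ1 : μ < 1) {x : Γ} (hx : μ ≤ x) (hx1 : x ≤ 1)
    {r : ℤ} (hr : x = μ ^ (2 * r)) : x = 1 := by
  have hμpos : 0 < μ := zero_lt_iff.2 hμ
  rcases lt_trichotomy r 0 with h | h | h
  · -- `r < 0`: `x > 1`
    exfalso
    have h1 : (1 : Γ) < μ ^ (2 * r) :=
      one_lt_zpow_of_neg₀ hμpos hμ1 (by omega)
    rw [← hr] at h1
    exact absurd h1 (not_lt.2 hx1)
  · rw [hr, h]; simp
  · -- `r > 0`: `x < μ`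
    exfalso
    have h1 : μ ^ (2 * r) < μ ^ (1 : ℤ) :=
      zpow_lt_zpow_right_of_lt_one₀ hμpos hμ1 (by omega)
    rw [zpow_one, ← hr] at h1
    exact absurd h1 (not_lt.2 hx)

/-- a clipped value which is `~ 1` equals `1`. -/
theorem S58UL_eq_one_of_rel (hμ : μ ≠ 0) (hμ1 : μ < 1) {x : Γ} (hx : μ ≤ x) (hx1 : x ≤ 1)
    (h : S05_Rel μ 1 x) : x = 1 := by
  obtain ⟨r, hr⟩ := S58UL_rel_one_iff.1 h
  exact S58UL_eq_one_of_zpow hμ hμ1 hx hx1 hr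

/-- `N`-th roots are unique. -/
theorem S58UL_pow_inj {a b : Γ} {N : ℕ} (hN : N ≠ 0) (h : a ^ N = b ^ N) : a = b := by
  rcases lt_trichotomy a b with hlt | heq | hgt
  · exact absurd h (ne_of_lt (pow_lt_pow_left₀ hlt zero_le hN))
  · exact heq
  · exact absurd h.symm (ne_of_lt (pow_lt_pow_left₀ hgt zero_le hN))

/-- from `l ^ N ~ 1`: `l ^ N = μ ^ (2 c)`. -/
theorem S58UL_pow_eq_of_rel (hμ : μ ≠ 0) {l : Γ} (hl : l ≠ 0) {N : ℕ}
    (h : S05_Rel μ (l ^ N) 1) : ∃ c : ℤ, l ^ N = μ ^ (2 * c) := by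
  have hlN : l ^ N ≠ 0 := pow_ne_zero _ hl
  obtain ⟨k, hk | hk⟩ := h
  · refine ⟨-k, ?_⟩
    have hz : μ ^ (2 * k) ≠ 0 := zpow_ne_zero _ hμ
    have e : μ ^ (2 * -k) = (μ ^ (2 * k))⁻¹ := by
      rw [mul_neg, zpow_neg]
    rw [e]
    exact eq_inv_of_mul_eq_one_left hk.symm
  · refine ⟨k, ?_⟩
    have e : (l ^ N)⁻¹ * μ ^ (2 * k) = 1 := hk.symm
    have := mul_eq_one_iff_eq_inv₀ (zpow_ne_zero (2 * k) hμ) |>.1 e
    rw [inv_eq_iff_eq_inv, inv_inv] at this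
    exact this

end rel

section main

variable {G : Type*} [AddCommGroup G] {Γ : Type*} [LinearOrderedCommGroupWithZero Γ] {μ : Γ}

/-- one step: if `lvl P₁ ^ N = μ ^ (2 c₁)`, `lvl P₂ ^ N = μ ^ (2 c₂)` and `N ∣ c₁ + j c₂`, then
one of `P₁ + j • P₂`, `P₁ - j • P₂` has level `1`. -/
theorem S58UL_step (hμ : μ ≠ 0) (hμ1 : μ < 1) (lvl : G → Γ)
    (h0 : lvl 0 = 1) (hlo : ∀ P, μ ≤ lvl P) (hhi : ∀ P, lvl P ≤ 1)
    (H : ∀ P₁ P₂ : G,
      (S05_Rel μ (lvl P₁ * lvl P₂) (lvl (P₁ + P₂)) ∧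
          S05_Rel μ (lvl P₁ / lvl P₂) (lvl (P₁ - P₂))) ∨
        (S05_Rel μ (lvl P₁ / lvl P₂) (lvl (P₁ + P₂)) ∧
          S05_Rel μ (lvl P₁ * lvl P₂) (lvl (P₁ - P₂))))
    {N : ℕ} (hN : N ≠ 0) {P₁ P₂ : G} {c₁ c₂ : ℤ}
    (e₁ : lvl P₁ ^ N = μ ^ (2 * c₁)) (e₂ : lvl P₂ ^ N = μ ^ (2 * c₂))
    (j : ℕ) (hj : (N : ℤ) ∣ c₁ + j * c₂) :
    lvl (P₁ + j • P₂) = 1 ∨ lvl (P₁ - j • P₂) = 1 := by
  have hμpos : 0 < μ := zero_lt_iff.2 hμ
  have hne : ∀ P, lvl P ≠ 0 := fun P => (lt_of_lt_of_le hμpos (hlo P)).ne'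
  obtain ⟨t, ht⟩ := hj
  -- `l₁ l₂^j = μ^(2t)`
  have hprod : lvl P₁ * lvl P₂ ^ j = μ ^ (2 * t) := by
    apply S58UL_pow_inj hN
    have e3 : (μ ^ (2 * t)) ^ N = μ ^ (2 * (c₁ + j * c₂)) := by
      rw [ht, ← zpow_natCast (μ ^ (2 * t)) N, ← zpow_mul]
      congr 1
      ring
    rw [e3, mul_pow, ← pow_mul, mul_comm j N, pow_mul, e₁, e₂, ← zpow_natCast (μ ^ (2 * c₂)) j,
      ← zpow_mul, ← zpow_add₀ hμ]
    congr 1
    ring
  have hrelj : S05_Rel μ (lvl P₂ ^ j) (lvl (j • P₂)) :=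
    S05_nl_rel_nsmul hμ lvl h0 hne H P₂ j
  have hl2j : lvl P₂ ^ j ≠ 0 := pow_ne_zero _ (hne P₂)
  -- one of `l₁ * lQ`, `l₁ / lQ` is `~ 1`
  have hone : S05_Rel μ 1 (lvl P₁ * lvl (j • P₂)) ∨ S05_Rel μ 1 (lvl P₁ / lvl (j • P₂)) := by
    obtain ⟨k, hk | hk⟩ := hrelj
    · left
      refine S58UL_rel_one_iff.2 ⟨t + k, ?_⟩
      rw [hk, ← mul_assoc, hprod, ← zpow_add₀ hμ]
      congr 1
      ring
    · right
      refine S58UL_rel_one_iff.2 ⟨t - k, ?_⟩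
      rw [hk, div_eq_mul_inv, mul_inv, inv_inv, ← mul_assoc, hprod, ← zpow_neg, ← zpow_add₀ hμ]
      congr 1
      ring
  have hfin : ∀ P, S05_Rel μ 1 (lvl P) → lvl P = 1 := fun P h =>
    S58UL_eq_one_of_rel hμ hμ1 (hlo P) (hhi P) h
  rcases H P₁ (j • P₂) with ⟨q1, q2⟩ | ⟨q1, q2⟩
  · rcases hone with h | h
    · exact Or.inl (hfin _ (S05_nl_rel_trans hμ h q1))
    · exact Or.inr (hfin _ (S05_nl_rel_trans hμ h q2))
  · rcases hone with h | h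
    · exact Or.inr (hfin _ (S05_nl_rel_trans hμ h q2))
    · exact Or.inl (hfin _ (S05_nl_rel_trans hμ h q1))

/-- **Abstract level lemma.** If `P₁, P₂` are killed by `p ^ n` and `p ^ (n-1) • P₁`,
`p ^ (n-1) • P₂` are independent modulo `p`, some point of exact order `p ^ n` has level `1`. -/
theorem S58UL_exists_level_one (hμ : μ ≠ 0) (hμ1 : μ < 1) (lvl : G → Γ)
    (h0 : lvl 0 = 1) (hlo : ∀ P, μ ≤ lvl P) (hhi : ∀ P, lvl P ≤ 1)
    (H : ∀ P₁ P₂ : G,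
      (S05_Rel μ (lvl P₁ * lvl P₂) (lvl (P₁ + P₂)) ∧
          S05_Rel μ (lvl P₁ / lvl P₂) (lvl (P₁ - P₂))) ∨
        (S05_Rel μ (lvl P₁ / lvl P₂) (lvl (P₁ + P₂)) ∧
          S05_Rel μ (lvl P₁ * lvl P₂) (lvl (P₁ - P₂))))
    {p : ℕ} (hp : p.Prime) {n : ℕ} {P₁ P₂ : G}
    (h₁ : p ^ n • P₁ = 0) (h₂ : p ^ n • P₂ = 0)
    (hind : ∀ a b : ℤ, a • (p ^ (n - 1) • P₁) + b • (p ^ (n - 1) • P₂) = 0 →
      (p : ℤ) ∣ a ∧ (p : ℤ) ∣ b) :
    ∃ P : G, p ^ n • P = 0 ∧ p ^ (n - 1) • P ≠ 0 ∧ lvl P = 1 := by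
  have hμpos : 0 < μ := zero_lt_iff.2 hμ
  have hne : ∀ P, lvl P ≠ 0 := fun P => (lt_of_lt_of_le hμpos (hlo P)).ne'
  have hN : p ^ n ≠ 0 := pow_ne_zero _ hp.ne_zero
  have hp1 : ¬ (p : ℤ) ∣ 1 := by
    intro h
    have := Int.natAbs_dvd_natAbs.2 h
    simp only [Int.natAbs_natCast, Int.natAbs_one, Nat.dvd_one] at this
    exact hp.one_lt.ne' this
  -- the exponents
  have hr₁ : S05_Rel μ (lvl P₁ ^ (p ^ n)) 1 := by
    have := S05_nl_rel_nsmul hμ lvl h0 hne H P₁ (p ^ n)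
    rwa [h₁, h0] at this
  have hr₂ : S05_Rel μ (lvl P₂ ^ (p ^ n)) 1 := by
    have := S05_nl_rel_nsmul hμ lvl h0 hne H P₂ (p ^ n)
    rwa [h₂, h0] at this
  obtain ⟨c₁, e₁⟩ := S58UL_pow_eq_of_rel hμ (hne P₁) hr₁
  obtain ⟨c₂, e₂⟩ := S58UL_pow_eq_of_rel hμ (hne P₂) hr₂
  -- torsion of the candidates
  have htors : ∀ (j : ℕ), p ^ n • (P₁ + j • P₂) = 0 ∧ p ^ n • (P₁ - j • P₂) = 0 ∧
      p ^ n • (P₂ + j • P₁) = 0 ∧ p ^ n • (P₂ - j • P₁) = 0 := by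
    intro j
    have a₁ : p ^ n • (j • P₁) = 0 := by rw [smul_comm, h₁, smul_zero]
    have a₂ : p ^ n • (j • P₂) = 0 := by rw [smul_comm, h₂, smul_zero]
    refine ⟨?_, ?_, ?_, ?_⟩
    · rw [smul_add, h₁, a₂, add_zero]
    · rw [smul_sub, h₁, a₂, sub_zero]
    · rw [smul_add, h₂, a₁, add_zero]
    · rw [smul_sub, h₂, a₁, sub_zero]
  obtain ⟨j, hj | hj⟩ := S58UL_exists_j p hp n c₁ c₂
  · have hj' : ((p ^ n : ℕ) : ℤ) ∣ c₁ + j * c₂ := by exact_mod_cast hj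
    rcases S58UL_step hμ hμ1 lvl h0 hlo hhi H hN e₁ e₂ j hj' with h | h
    · refine ⟨P₁ + j • P₂, (htors j).1, ?_, h⟩
      intro hz
      have e : (1 : ℤ) • (p ^ (n - 1) • P₁) + (j : ℤ) • (p ^ (n - 1) • P₂) = 0 := by
        rw [one_smul, natCast_zsmul, smul_comm j, ← smul_add]
        exact hz
      exact hp1 (hind 1 j e).1
    · refine ⟨P₁ - j • P₂, (htors j).2.1, ?_, h⟩
      intro hz
      have e : (1 : ℤ) • (p ^ (n - 1) • P₁) + (-(j : ℤ)) • (p ^ (n - 1) • P₂) = 0 := by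
        rw [one_smul, neg_smul, natCast_zsmul, smul_comm j, ← sub_eq_add_neg, ← smul_sub]
        exact hz
      exact hp1 (hind 1 (-j) e).1
  · have hj' : ((p ^ n : ℕ) : ℤ) ∣ c₂ + j * c₁ := by exact_mod_cast hj
    rcases S58UL_step hμ hμ1 lvl h0 hlo hhi H hN e₂ e₁ j hj' with h | h
    · refine ⟨P₂ + j • P₁, (htors j).2.2.1, ?_, h⟩
      intro hz
      have e : (j : ℤ) • (p ^ (n - 1) • P₁) + (1 : ℤ) • (p ^ (n - 1) • P₂) = 0 := by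
        rw [one_smul, natCast_zsmul, smul_comm j, add_comm, ← smul_add]
        exact hz
      exact hp1 (hind j 1 e).2
    · refine ⟨P₂ - j • P₁, (htors j).2.2.2, ?_, h⟩
      intro hz
      have e : (-(j : ℤ)) • (p ^ (n - 1) • P₁) + (1 : ℤ) • (p ^ (n - 1) • P₂) = 0 := by
        rw [one_smul, neg_smul, natCast_zsmul, smul_comm j, add_comm, ← sub_eq_add_neg,
          ← smul_sub]
        exact hz
      exact hp1 (hind (-j) 1 e).2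

end main

end Fermat.Agent.S58
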