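import Mathlib
import Fermat.Agent.S41.NECount

/-!
# S58, package U-mult: two independent points of `W[p ^ n]`

For an elliptic curve `W` over an algebraically closed field `F` and an odd prime `p` with
`(p : F) ≠ 0`:

* `S58UL_exists_pair_p` : two points `Q₁, Q₂` killed by `p`, independent modulo `p`;
* `S58UL_exists_pair` : two points `P₁, P₂` killed by `p ^ n` such that `p ^ (n-1) • P₁`,
  `p ^ (n-1) • P₂` are independent modulo `p` — the input `hind` of `S58UL_exists_level_one`.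

From `S41NC_card_torsion` (`#W[p] = p²`) and `S41NC_nsmul_surjective`.
-/

set_option autoImplicit false

namespace Fermat.Agent.S58

open WeierstrassCurve Fermat.Agent.S41

section pair

/-- in an abelian group with more than `p` elements killed by `p`, there are two elements killed
by `p` which are independent modulo `p`. -/
theorem S58UL_exists_indep {G : Type*} [AddCommGroup G] {p : ℕ} (hp : p.Prime)
    (hcard : p < Nat.card {Q : G // p • Q = 0}) :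
    ∃ Q₁ Q₂ : G, p • Q₁ = 0 ∧ p • Q₂ = 0 ∧
      ∀ a b : ℤ, a • Q₁ + b • Q₂ = 0 → (p : ℤ) ∣ a ∧ (p : ℤ) ∣ b := by
  classical
  have : Fact p.Prime := ⟨hp⟩
  have : Finite {Q : G // p • Q = 0} :=
    Nat.finite_of_card_ne_zero (by omega)
  have hpp : Prime (p : ℤ) := Nat.prime_iff_prime_int.mp hp
  -- a nonzero element
  have h1 : 1 < Nat.card {Q : G // p • Q = 0} := lt_of_le_of_lt hp.one_lt.le hcard
  obtain ⟨⟨Q₁, hQ₁⟩, hne⟩ : ∃ x : {Q : G // p • Q = 0}, x ≠ ⟨0, smul_zero p⟩ := by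
    have : Nontrivial {Q : G // p • Q = 0} := (Finite.one_lt_card_iff_nontrivial).1 h1
    exact exists_ne _
  have hQ₁0 : Q₁ ≠ 0 := fun h => hne (Subtype.ext h)
  have hord : addOrderOf Q₁ = p := addOrderOf_eq_prime hQ₁ hQ₁0
  have hcz : Nat.card (AddSubgroup.zmultiples Q₁) = p := by
    rw [Nat.card_zmultiples, hord]
  have : Finite (AddSubgroup.zmultiples Q₁) :=
    Nat.finite_of_card_ne_zero (by rw [hcz]; exact hp.ne_zero)
  -- an element outside `⟨Q₁⟩`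
  obtain ⟨Q₂, hQ₂, hQ₂n⟩ : ∃ Q₂ : G, p • Q₂ = 0 ∧ Q₂ ∉ AddSubgroup.zmultiples Q₁ := by
    by_contra hcon0
    have hcon : ∀ Q : G, p • Q = 0 → Q ∈ AddSubgroup.zmultiples Q₁ := fun Q hQ =>
      by_contra fun h => hcon0 ⟨Q, hQ, h⟩
    have hinj : Function.Injective
        (fun x : {Q : G // p • Q = 0} => (⟨x.1, hcon x.1 x.2⟩ : AddSubgroup.zmultiples Q₁)) := by
      intro x y hxy
      have h := congrArg (fun z : AddSubgroup.zmultiples Q₁ => (z : G)) hxy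
      exact Subtype.ext h
    have := Nat.card_le_card_of_injective _ hinj
    rw [hcz] at this
    omega
  refine ⟨Q₁, Q₂, hQ₁, hQ₂, ?_⟩
  intro a b hab
  have hpz : ∀ (Q : G), p • Q = 0 → ∀ c : ℤ, (p : ℤ) ∣ c → c • Q = 0 := by
    intro Q hQ c hc
    obtain ⟨d, rfl⟩ := hc
    rw [mul_comm, mul_smul, natCast_zsmul, hQ, smul_zero]
  have hb : (p : ℤ) ∣ b := by
    by_contra hb
    apply hQ₂n
    have hcop : IsCoprime (p : ℤ) b := (Irreducible.coprime_iff_not_dvd hpp.irreducible).2 hb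
    obtain ⟨u, v, huv⟩ := hcop
    -- `Q₂ = (u p + v b) Q₂ = v b Q₂ = - v a Q₁`
    have e1 : (u * (p : ℤ) + v * b) • Q₂ = Q₂ := by rw [huv, one_smul]
    have e2 : (u * (p : ℤ)) • Q₂ = 0 := hpz Q₂ hQ₂ _ (dvd_mul_left _ _)
    have e3 : b • Q₂ = -(a • Q₁) := eq_neg_of_add_eq_zero_right hab
    rw [add_smul, e2, zero_add, mul_smul, e3, smul_neg, ← mul_smul, ← neg_smul] at e1
    rw [← e1]
    exact AddSubgroup.zsmul_mem _ (AddSubgroup.mem_zmultiples Q₁) _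
  refine ⟨?_, hb⟩
  have hbz : b • Q₂ = 0 := hpz Q₂ hQ₂ b hb
  rw [hbz, add_zero] at hab
  have := (addOrderOf_dvd_iff_zsmul_eq_zero (x := Q₁) (i := a)).2 hab
  rwa [hord] at this

variable {F : Type*} [Field F] [DecidableEq F] [IsAlgClosed F] (W : WeierstrassCurve F)

/-- two points of `W[p]` independent modulo `p`. -/
theorem S58UL_exists_pair_p (hΔ : W.Δ ≠ 0) {p : ℕ} (hp : p.Prime) (hp2 : p ≠ 2)
    (hpF : (p : F) ≠ 0) :
    ∃ Q₁ Q₂ : W.toAffine.Point, p • Q₁ = 0 ∧ p • Q₂ = 0 ∧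
      ∀ a b : ℤ, a • Q₁ + b • Q₂ = 0 → (p : ℤ) ∣ a ∧ (p : ℤ) ∣ b := by
  apply S58UL_exists_indep hp
  rw [S41NC_card_torsion W hΔ hp hp2 hpF]
  calc p = p ^ 1 := (pow_one p).symm
    _ < p ^ 2 := Nat.pow_lt_pow_right hp.one_lt (by norm_num)

/-- two points of `W[p ^ n]` whose multiples by `p ^ (n - 1)` are independent modulo `p`. -/
theorem S58UL_exists_pair (hΔ : W.Δ ≠ 0) {p : ℕ} (hp : p.Prime) (hp2 : p ≠ 2)
    (hpF : (p : F) ≠ 0) {n : ℕ} (hn : n ≠ 0) :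
    ∃ P₁ P₂ : W.toAffine.Point, p ^ n • P₁ = 0 ∧ p ^ n • P₂ = 0 ∧
      ∀ a b : ℤ, a • (p ^ (n - 1) • P₁) + b • (p ^ (n - 1) • P₂) = 0 →
        (p : ℤ) ∣ a ∧ (p : ℤ) ∣ b := by
  obtain ⟨Q₁, Q₂, hQ₁, hQ₂, hind⟩ := S58UL_exists_pair_p W hΔ hp hp2 hpF
  have hpn : ((p ^ (n - 1) : ℕ) : F) ≠ 0 := by
    rw [Nat.cast_pow]
    exact pow_ne_zero _ hpF
  obtain ⟨P₁, hP₁⟩ := S41NC_nsmul_surjective W hΔ hpn Q₁
  obtain ⟨P₂, hP₂⟩ := S41NC_nsmul_surjective W hΔ hpn Q₂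
  have hpow : p ^ n = p * p ^ (n - 1) := by
    obtain ⟨m, rfl⟩ := Nat.exists_eq_succ_of_ne_zero hn
    rw [Nat.succ_sub_one, pow_succ']
  refine ⟨P₁, P₂, ?_, ?_, ?_⟩
  · rw [hpow, mul_smul, hP₁, hQ₁]
  · rw [hpow, mul_smul, hP₂, hQ₂]
  · rw [hP₁, hP₂]
    exact hind

end pair

end Fermat.Agent.S58
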