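import Mathlib
import Fermat.Agent.S05.Interface
import Fermat.Agent.S05.NodeDefs
import Fermat.Agent.S05.Identities
import Fermat.Agent.S05.Kernel

/-!
# TRACK 12 (S58), package U-mult, sub-lemma NODE-INST (helper5) — prefix `S58UN_`

A Weierstrass curve with multiplicative reduction at a valuation ring `A` of odd residue
characteristic has a node datum `S05_Node W A x₀`: `x₀` is a root of the `2`-division polynomial
`Ψ₂Sq = 4X³ + b₂X² + 2b₄X + b₆` reducing to the abscissa of the node.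

* `S58UN_root_mem` : the roots of `Ψ₂Sq` are integral (`4` a unit of `A`);
* `S58UN_node_of_roots` : the node datum at the root `x` if `Ψ₂Sq = 4(X − x)(X − y)(X − z)`,
  `v(x − y) < 1`, the roots distinct and `c₄` a unit;
* `S58UN_node_gen` : **NODE-INST**, general form (`K` algebraically closed, `v 2 = 1`, `W` integral,
  `Δ ≠ 0`, `v Δ < 1`, `v c₄ = 1`);
* `S58UN_node` : for `W : WeierstrassCurve ℤ`, `q` odd, `q ∣ Δ`, `q ∤ c₄`, `Δ ≠ 0`, the curve
  `(W.map (Int.castRingHom ℚ))⁄ℚ̄`;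
* `S58UN_node'` : the same for the spelling `(W.baseChange ℚ̄).toAffine`.
-/

set_option autoImplicit false
set_option linter.unusedSectionVars false
set_option linter.unusedVariables false

namespace Fermat.Agent.S58

open WeierstrassCurve Fermat.Agent.S05

section gen

variable {K : Type*} [Field K] [DecidableEq K] {W : WeierstrassCurve.Affine K}
  {A : ValuationSubring K}

local notation "v" => ValuationSubring.valuation A

/-- a root of `4X³ + b₂X² + 2b₄X + b₆` is integral if `4` is a unit of `A`. -/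
theorem S58UN_root_mem (hW : S05_Integral W A) (h4 : v (4 : K) = 1) {x : K}
    (hx : 4 * x ^ 3 + W.b₂ * x ^ 2 + 2 * W.b₄ * x + W.b₆ = 0) : x ∈ A := by
  by_contra hxA
  obtain ⟨hx0, ht⟩ := S05_inv_lt_of_not_mem (A := A) hxA
  have htA : x⁻¹ ∈ A := (A.valuation_le_one_iff _).1 ht.le
  have e : (4 : K) = -(x⁻¹ * (W.b₂ + 2 * W.b₄ * x⁻¹ + W.b₆ * x⁻¹ ^ 2)) := by
    have h3 : x ^ 3 ≠ 0 := pow_ne_zero 3 hx0
    field_simp
    linear_combination hx
  have hmem : W.b₂ + 2 * W.b₄ * x⁻¹ + W.b₆ * x⁻¹ ^ 2 ∈ A :=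
    add_mem (add_mem hW.b₂ (mul_mem (mul_mem (S05_two_mem A) hW.b₄) htA))
      (mul_mem hW.b₆ (pow_mem htA 2))
  have hlt : v (4 : K) < 1 := by
    rw [e, Valuation.map_neg, map_mul]
    exact S05_v_mul_lt_of_lt_of_le A ht ((A.valuation_le_one_iff _).2 hmem)
  rw [h4] at hlt
  exact lt_irrefl _ hlt

/-- the node datum at the root `x`, if `Ψ₂Sq = 4(X − x)(X − y)(X − z)`, `v(x − y) < 1`, the
roots are distinct and `c₄` is a unit. -/
theorem S58UN_node_of_roots (hW : S05_Integral W A) (h2 : v (2 : K) = 1) {x y z : K}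
    (hb₂ : W.b₂ = 4 * -(x + y + z)) (hb₄ : 2 * W.b₄ = 4 * (x * y + x * z + y * z))
    (hb₆ : W.b₆ = 4 * -(x * y * z))
    (hxA : x ∈ A) (hyA : y ∈ A) (hzA : z ∈ A)
    (hxy : v (x - y) < 1) (hxy0 : x ≠ y) (hxz0 : x ≠ z) (hc₄ : v W.c₄ = 1) :
    S05_Node W A x := by
  have h20 : (2 : K) ≠ 0 := by
    intro h
    rw [h, map_zero] at h2
    exact zero_ne_one h2
  have h4 : v (4 : K) = 1 := S05_v_four h2
  have hb₄' : W.b₄ = 2 * (x * y + x * z + y * z) := by
    have : 2 * W.b₄ = 2 * (2 * (x * y + x * z + y * z)) := by rw [hb₄]; ring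
    exact mul_left_cancel₀ h20 this
  have hβ : W.b₄ + W.b₂ * x + 6 * x ^ 2 = 2 * ((x - y) * (x - z)) := by
    rw [hb₄', hb₂]; ring
  have hxzle : v (x - z) ≤ 1 := S05_v_sub_le A ((A.valuation_le_one_iff _).2 hxA)
    ((A.valuation_le_one_iff _).2 hzA)
  -- `v (x - z) = 1`, from `c₄`
  have hxz : v (x - z) = 1 := by
    refine le_antisymm hxzle (not_lt.1 fun hlt => ?_)
    have hyz : v (y - z) < 1 := by
      have : y - z = (x - z) - (x - y) := by ring
      rw [this]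
      exact S05_v_sub_lt A hlt hxy
    have hc : W.c₄ = 8 * ((x - y) ^ 2 + (x - z) ^ 2 + (y - z) ^ 2) := by
      rw [WeierstrassCurve.c₄, hb₄', hb₂]; ring
    have h8 : v (8 : K) ≤ 1 := by
      have : (8 : K) = ((8 : ℕ) : K) := by norm_num
      rw [this]
      exact S05_v_natCast_le A 8
    have : v W.c₄ < 1 := by
      rw [hc, map_mul]
      exact S05_v_mul_lt_of_le_of_lt A h8
        (S05_v_add_lt A (S05_v_add_lt A (S05_v_pow_lt A hxy two_ne_zero)
          (S05_v_pow_lt A hlt two_ne_zero)) (S05_v_pow_lt A hyz two_ne_zero))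
    rw [hc₄] at this
    exact lt_irrefl _ this
  refine ⟨hW, h2, hxA, ?_, ?_, ?_, ?_⟩
  · rw [S05_eval_Ψ₂Sq, hb₂, hb₆]
    have : 2 * W.b₄ * x = 4 * (x * y + x * z + y * z) * x := by rw [hb₄]
    rw [this]
    ring
  · rw [hβ]
    exact mul_ne_zero h20 (mul_ne_zero (sub_ne_zero.2 hxy0) (sub_ne_zero.2 hxz0))
  · rw [hβ, map_mul, h2, one_mul, map_mul, hxz, mul_one]
    exact hxy
  · have : W.b₂ + 12 * x = 4 * ((x - y) + (x - z)) := by rw [hb₂]; ring
    rw [this, map_mul, h4, one_mul,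
      Valuation.map_add_eq_of_lt_right _ (by rw [hxz]; exact hxy), hxz]

variable (W A) in
/-- **NODE-INST**, general form. -/
theorem S58UN_node_gen [IsAlgClosed K]
    (hW : S05_Integral W A) (h2 : A.valuation (2 : K) = 1) (hΔ0 : W.Δ ≠ 0)
    (hΔ : A.valuation W.Δ < 1) (hc₄ : A.valuation W.c₄ = 1) :
    ∃ x₀ : K, S05_Node W A x₀ := by
  have h4 : v (4 : K) = 1 := S05_v_four h2
  have h40 : (4 : K) ≠ 0 := by
    intro h
    rw [h, map_zero] at h4
    exact zero_ne_one h4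
  have ha : (WeierstrassCurve.twoTorsionPolynomial W).a ≠ 0 := h40
  obtain ⟨x, y, z, h3⟩ := (Cubic.splits_iff_roots_eq_three (φ := RingHom.id K) ha).1
    (IsAlgClosed.splits _)
  have hb₂ : W.b₂ = 4 * -(x + y + z) := Cubic.b_eq_three_roots (φ := RingHom.id K) ha h3
  have hb₄ : 2 * W.b₄ = 4 * (x * y + x * z + y * z) :=
    Cubic.c_eq_three_roots (φ := RingHom.id K) ha h3
  have hb₆ : W.b₆ = 4 * -(x * y * z) := Cubic.d_eq_three_roots (φ := RingHom.id K) ha h3
  have hdisc : (16 : K) * W.Δ = (4 * 4 * (x - y) * (x - z) * (y - z)) ^ 2 := by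
    rw [← WeierstrassCurve.twoTorsionPolynomial_discr]
    exact Cubic.discr_eq_prod_three_roots (φ := RingHom.id K) ha h3
  have h160 : (16 : K) ≠ 0 := by
    have : (16 : K) = 4 * 4 := by norm_num
    rw [this]
    exact mul_ne_zero h40 h40
  have hΔe : W.Δ = 16 * ((x - y) * (x - z) * (y - z)) ^ 2 := by
    have : (16 : K) * W.Δ = 16 * (16 * ((x - y) * (x - z) * (y - z)) ^ 2) := by
      rw [hdisc]; ring
    exact mul_left_cancel₀ h160 this
  have hroot : ∀ r : K, r = x ∨ r = y ∨ r = z →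
      4 * r ^ 3 + W.b₂ * r ^ 2 + 2 * W.b₄ * r + W.b₆ = 0 := by
    intro r hr
    rw [hb₂, hb₄, hb₆]
    rcases hr with rfl | rfl | rfl <;> ring
  have hxA : x ∈ A := S58UN_root_mem hW h4 (hroot x (Or.inl rfl))
  have hyA : y ∈ A := S58UN_root_mem hW h4 (hroot y (Or.inr (Or.inl rfl)))
  have hzA : z ∈ A := S58UN_root_mem hW h4 (hroot z (Or.inr (Or.inr rfl)))
  have hD0 : (x - y) * (x - z) * (y - z) ≠ 0 := by
    intro h
    rw [hΔe, h] at hΔ0
    exact hΔ0 (by ring)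
  have hxy0 : x ≠ y := fun h => hD0 (by rw [h]; ring)
  have hxz0 : x ≠ z := fun h => hD0 (by rw [h]; ring)
  have hyz0 : y ≠ z := fun h => hD0 (by rw [h]; ring)
  have hle : ∀ {a b : K}, a ∈ A → b ∈ A → v (a - b) ≤ 1 := fun ha hb =>
    S05_v_sub_le A ((A.valuation_le_one_iff _).2 ha) ((A.valuation_le_one_iff _).2 hb)
  -- one of the differences is a non-unit
  have hsome : v (x - y) < 1 ∨ v (x - z) < 1 ∨ v (y - z) < 1 := by
    by_contra hcon
    simp only [not_or, not_lt] at hcon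
    obtain ⟨h1, h2', h3'⟩ := hcon
    have e1 : v (x - y) = 1 := le_antisymm (hle hxA hyA) h1
    have e2 : v (x - z) = 1 := le_antisymm (hle hxA hzA) h2'
    have e3 : v (y - z) = 1 := le_antisymm (hle hyA hzA) h3'
    have h16 : v (16 : K) = 1 := by
      have : (16 : K) = 4 * 4 := by norm_num
      rw [this, map_mul, h4, one_mul]
    rw [hΔe, map_mul, h16, one_mul, map_pow, map_mul, map_mul, e1, e2, e3] at hΔ
    simp at hΔ
  rcases hsome with h | h | h
  · exact ⟨x, S58UN_node_of_roots hW h2 hb₂ hb₄ hb₆ hxA hyA hzA h hxy0 hxz0 hc₄⟩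
  · refine ⟨x, S58UN_node_of_roots (y := z) (z := y) hW h2 ?_ ?_ ?_ hxA hzA hyA h hxz0 hxy0 hc₄⟩
    · rw [hb₂]; ring
    · rw [hb₄]; ring
    · rw [hb₆]; ring
  · refine ⟨y, S58UN_node_of_roots (x := y) (y := z) (z := x) hW h2 ?_ ?_ ?_ hyA hzA hxA h hyz0
      (Ne.symm hxy0) hc₄⟩
    · rw [hb₂]; ring
    · rw [hb₄]; ring
    · rw [hb₆]; ring

end gen

section Z

local notation "ℚbar" => AlgebraicClosure ℚ

variable (W : WeierstrassCurve ℤ) {q : ℕ} (A : ValuationSubring ℚbar)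

/-- the curve `(W.map (Int.castRingHom ℚ))⁄ℚ̄` is integral at every valuation ring. -/
theorem S58UN_integral :
    S05_Integral ((W.map (Int.castRingHom ℚ)).baseChange ℚbar).toAffine A := by
  refine ⟨?_, ?_, ?_, ?_, ?_⟩ <;>
  · simp only [WeierstrassCurve.baseChange, WeierstrassCurve.map, WeierstrassCurve.toAffine,
      eq_intCast, map_intCast]
    exact S05_intCast_mem A _

/-- the curve `(W.baseChange ℚ̄).toAffine` is integral at every valuation ring. -/
theorem S58UN_integral' : S05_Integral (W.baseChange ℚbar).toAffine A := by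
  refine ⟨?_, ?_, ?_, ?_, ?_⟩ <;>
  · simp only [WeierstrassCurve.baseChange, WeierstrassCurve.map, WeierstrassCurve.toAffine,
      eq_intCast]
    exact S05_intCast_mem A _

theorem S58UN_Δ_eq :
    ((W.map (Int.castRingHom ℚ)).baseChange ℚbar).toAffine.Δ = ((W.Δ : ℤ) : ℚbar) := by
  simp only [WeierstrassCurve.baseChange, WeierstrassCurve.toAffine, WeierstrassCurve.map_Δ,
    eq_intCast, map_intCast]

theorem S58UN_Δ_eq' : (W.baseChange ℚbar).toAffine.Δ = ((W.Δ : ℤ) : ℚbar) := by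
  simp only [WeierstrassCurve.baseChange, WeierstrassCurve.toAffine, WeierstrassCurve.map_Δ,
    eq_intCast]

theorem S58UN_c₄_eq :
    ((W.map (Int.castRingHom ℚ)).baseChange ℚbar).toAffine.c₄ = ((W.c₄ : ℤ) : ℚbar) := by
  simp only [WeierstrassCurve.baseChange, WeierstrassCurve.toAffine, WeierstrassCurve.map_c₄,
    eq_intCast, map_intCast]

theorem S58UN_c₄_eq' : (W.baseChange ℚbar).toAffine.c₄ = ((W.c₄ : ℤ) : ℚbar) := by
  simp only [WeierstrassCurve.baseChange, WeierstrassCurve.toAffine, WeierstrassCurve.map_c₄,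
    eq_intCast]

end Z

section Z'

local notation "ℚbar" => AlgebraicClosure ℚ

/-- **NODE-INST** for `(W.map (Int.castRingHom ℚ))⁄ℚ̄`. -/
theorem S58UN_node (W : WeierstrassCurve ℤ) (hΔ0 : W.Δ ≠ 0) {q : ℕ} (hq : q.Prime)
    (hq2 : q ≠ 2) (hqΔ : (q : ℤ) ∣ W.Δ) (hqc : ¬ (q : ℤ) ∣ W.c₄)
    (A : ValuationSubring ℚbar) (hA : (q : ℚbar) ∈ A.nonunits) :
    ∃ x₀ : ℚbar, S05_Node ((W.map (Int.castRingHom ℚ)).baseChange ℚbar).toAffine A x₀ := by
  refine S58UN_node_gen _ A (S58UN_integral W A) (S05_valuation_two hq hq2 hA) ?_ ?_ ?_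
  · rw [S58UN_Δ_eq]
    exact_mod_cast hΔ0
  · rw [S58UN_Δ_eq, ← ValuationSubring.mem_nonunits_iff]
    exact (S05_intCast_mem_nonunits_iff hq hA _).2 hqΔ
  · rw [S58UN_c₄_eq]
    refine S05_valuation_eq_one A (S05_intCast_mem A _) fun h => hqc ?_
    exact (S05_intCast_mem_nonunits_iff hq hA _).1 h

/-- **NODE-INST** for `(W.baseChange ℚ̄).toAffine`. -/
theorem S58UN_node' (W : WeierstrassCurve ℤ) (hΔ0 : W.Δ ≠ 0) {q : ℕ} (hq : q.Prime)
    (hq2 : q ≠ 2) (hqΔ : (q : ℤ) ∣ W.Δ) (hqc : ¬ (q : ℤ) ∣ W.c₄)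
    (A : ValuationSubring ℚbar) (hA : (q : ℚbar) ∈ A.nonunits) :
    ∃ x₀ : ℚbar, S05_Node (W.baseChange ℚbar).toAffine A x₀ := by
  refine S58UN_node_gen _ A (S58UN_integral' W A) (S05_valuation_two hq hq2 hA) ?_ ?_ ?_
  · rw [S58UN_Δ_eq']
    exact_mod_cast hΔ0
  · rw [S58UN_Δ_eq', ← ValuationSubring.mem_nonunits_iff]
    exact (S05_intCast_mem_nonunits_iff hq hA _).2 hqΔ
  · rw [S58UN_c₄_eq']
    refine S05_valuation_eq_one A (S05_intCast_mem A _) fun h => hqc ?_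
    exact (S05_intCast_mem_nonunits_iff hq hA _).1 h

end Z'

end Fermat.Agent.S58
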