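import Mathlib
import Fermat.Prelude.Def_FLTPrelim_Modularity
import Fermat.Agent.S05.NodeLevelFinal
import Fermat.Agent.S13.Defs
import Fermat.Agent.S58.UFix
import Fermat.Agent.S58.UNode
import Fermat.Agent.S58.ULevel
import Fermat.Agent.S58.ULevelPts

/-!
# TRACK 12 (S58), package U-mult, `q` odd: the GLUE (helper9) — prefix `S58U_`

`W : WeierstrassCurve ℤ`, `Δ ≠ 0`, `q` an odd prime of multiplicative reduction (`q ∣ Δ`,
`q ∤ c₄`), `A` a valuation ring of `ℚ̄` over `q`, `p ≠ q` an odd prime, `τ` in the inertia group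
of `A`.

* `S58U_lvl_le_one`, `S58U_le_lvl` : `μ ≤ lvl ≤ 1` for the clipped level `S05_lvl`;
* `S58U_level_one` : a point of exact order `p ^ (n + 1)` of level `1` (node datum given);
* **`S58U_odd`** : **(W3') at an odd bad prime `q ≠ p`**: `τ` fixes a point of exact order
  `p ^ (n + 1)` of `W(ℚ̄)` — literally the body of `S58D_TFix W p` at `q ≠ 2`;
* `S58U_odd_ss` : the same from `W.IsSemistableModel`.

Inputs: NODE (`S58UN_node'`, helper5), FIX (`S58UF_fix_gen`, helper21), LEVEL-ABS and PAIR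
(`S58UL_exists_level_one`, `S58UL_exists_pair`, helper12), `S05_lvl_add_sub`.
-/

set_option autoImplicit false

open scoped Pointwise

namespace Fermat.Agent.S58

open WeierstrassCurve Fermat.Agent.S05 Fermat.Agent.S13

local notation "ℚbar" => AlgebraicClosure ℚ
local notation "Gℚ" => (AlgebraicClosure ℚ ≃ₐ[ℚ] AlgebraicClosure ℚ)

section bounds

variable {K : Type*} [Field K] {W : WeierstrassCurve.Affine K} (A : ValuationSubring K)

/-- the clipped level is at most `1`. -/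
theorem S58U_lvl_le_one {x₀ : K}
    (hβ : A.valuation (W.b₄ + W.b₂ * x₀ + 6 * x₀ ^ 2) < 1) (P : W.Point) :
    S05_lvl W A x₀ P ≤ 1 := by
  rcases P with _ | ⟨x, y, h⟩
  · exact le_of_eq (S05_nl_lvl_zero A x₀)
  · rw [S05_nl_lvl_some]
    exact max_le hβ.le (min_le_left _ _)

/-- the clipped level is at least `μ = v β`. -/
theorem S58U_le_lvl {x₀ : K}
    (hβ : A.valuation (W.b₄ + W.b₂ * x₀ + 6 * x₀ ^ 2) < 1) (P : W.Point) :
    A.valuation (W.b₄ + W.b₂ * x₀ + 6 * x₀ ^ 2) ≤ S05_lvl W A x₀ P := by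
  rcases P with _ | ⟨x, y, h⟩
  · rw [show S05_lvl W A x₀ (Affine.Point.zero) = 1 from S05_nl_lvl_zero A x₀]
    exact hβ.le
  · rw [S05_nl_lvl_some]
    exact le_max_left _ _

end bounds

section level

variable {K : Type*} [Field K] [DecidableEq K] [IsAlgClosed K] (W : WeierstrassCurve K)
  (A : ValuationSubring K)

/-- **a point of exact order `p ^ (n + 1)` and level `1`**, for a node datum at `A`. -/
theorem S58U_level_one (hΔ : W.Δ ≠ 0) {x₀ : K} (hN : S05_Node W.toAffine A x₀)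
    {p : ℕ} (hp : p.Prime) (hp2 : p ≠ 2) (hpK : (p : K) ≠ 0) (n : ℕ) :
    ∃ P : W.toAffine.Point, p ^ (n + 1) • P = 0 ∧ p ^ n • P ≠ 0 ∧
      S05_lvl W.toAffine A x₀ P = 1 := by
  obtain ⟨P₁, P₂, h₁, h₂, hind⟩ :=
    S58UL_exists_pair W hΔ hp hp2 hpK (n := n + 1) (Nat.succ_ne_zero n)
  have hμ0 : A.valuation (W.toAffine.b₄ + W.toAffine.b₂ * x₀ + 6 * x₀ ^ 2) ≠ 0 := by
    rw [ne_eq, map_eq_zero]
    exact hN.β_ne
  obtain ⟨P, hP, hPne, hl⟩ :=
    S58UL_exists_level_one hμ0 hN.β_lt (S05_lvl W.toAffine A x₀) (S05_nl_lvl_zero A x₀)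
      (S58U_le_lvl A hN.β_lt) (S58U_lvl_le_one A hN.β_lt)
      (fun Q₁ Q₂ => S05_lvl_add_sub A hN Q₁ Q₂) hp h₁ h₂ hind
  refine ⟨P, hP, ?_, hl⟩
  simpa using hPne

end level

section main

variable (W : WeierstrassCurve ℤ)

/-- **(W3') at an odd bad prime `q ≠ p`** (`p` odd): every element of the inertia group at a
valuation ring `A` of `ℚ̄` over `q` fixes a point of exact order `p ^ (n + 1)` of `W(ℚ̄)`. -/
theorem S58U_odd (hΔ0 : W.Δ ≠ 0) {p q : ℕ} (hp : p.Prime) (hp2 : p ≠ 2) (hq : q.Prime)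
    (hq2 : q ≠ 2) (hqp : q ≠ p) (hqΔ : (q : ℤ) ∣ W.Δ) (hqc : ¬ (q : ℤ) ∣ W.c₄)
    (A : ValuationSubring ℚbar) (hA : A.LiesOverPrime q)
    (τ : Gℚ) (hτ : τ ∈ A.inertiaSubgroupIn ℚ) (n : ℕ) :
    ∃ x : (W.baseChange ℚbar).toAffine.Point,
      p ^ (n + 1) • x = 0 ∧ p ^ n • x ≠ 0 ∧ τ • x = x := by
  have hA' : (q : ℚbar) ∈ A.nonunits := hA
  obtain ⟨x₀, hN⟩ := S58UN_node' W hΔ0 hq hq2 hqΔ hqc A hA'
  have hΔ : (W.baseChange ℚbar).Δ ≠ 0 := by
    have h := S58UN_Δ_eq' W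
    rw [show (W.baseChange ℚbar).Δ = (W.baseChange ℚbar).toAffine.Δ from rfl, h]
    exact_mod_cast hΔ0
  have hpK : ((p : ℕ) : ℚbar) ≠ 0 := Nat.cast_ne_zero.2 hp.ne_zero
  obtain ⟨P, hP, hPne, hl⟩ := S58U_level_one (W.baseChange ℚbar) A hΔ hN hp hp2 hpK n
  have hin := S13_inert_of_mem A τ hτ
  refine ⟨P, hP, hPne, ?_⟩
  exact S58UF_fix_gen (R := ℤ) (S := ℚ) (W' := W) A hN τ hin.2 hin.1
    ((hp.odd_of_ne_two hp2).pow) (S58UF_val_prime_pow A hp hq hqp hA' (n + 1)) P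
    (by exact_mod_cast hP) hl

/-- **(W3') at an odd bad prime**, from semistability. -/
theorem S58U_odd_ss (hΔ0 : W.Δ ≠ 0) (hss : W.IsSemistableModel) {p q : ℕ} (hp : p.Prime)
    (hp2 : p ≠ 2) (hq : q.Prime) (hq2 : q ≠ 2) (hqp : q ≠ p) (hqΔ : (q : ℤ) ∣ W.Δ)
    (A : ValuationSubring ℚbar) (hA : A.LiesOverPrime q)
    (τ : Gℚ) (hτ : τ ∈ A.inertiaSubgroupIn ℚ) (n : ℕ) :
    ∃ x : (W.baseChange ℚbar).toAffine.Point,
      p ^ (n + 1) • x = 0 ∧ p ^ n • x ≠ 0 ∧ τ • x = x :=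
  S58U_odd W hΔ0 hp hp2 hq hq2 hqp hqΔ (hss q hq hqΔ) A hA τ hτ n

end main

end Fermat.Agent.S58
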