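import Mathlib
import Fermat.Agent.S51.TorsCommon
import Fermat.Agent.S05.Defs
import Fermat.Agent.S05.Identities
import Fermat.Agent.S05.NodeDefs
import Fermat.Agent.S05.LvlQuad
import Fermat.Agent.S05.NodeLevel
import Fermat.Agent.S13.TwoLvlCore

/-!
# TRACK 12 (S58), package U-mult at `q = 2` (helper7), part 1: the level function at a node in
GENERAL position, any residue characteristic (in particular `2`)

`W` a Weierstrass curve over a field `K`, `A` a valuation subring, `x₀` a root of `Ψ₂Sq` (the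
abscissa of a `2`-torsion point), `γ` with `b₄ + b₂ x₀ + 6 x₀² = 2 γ` (`γ = Ψ₂Sq'(x₀) / 4`; after
translating `x₀` to `0` the curve is `y² + a₁xy = x³ + a₂x² + γ x`), `0 < v γ < 1`,
`v (b₂ + 12 x₀) = 1`.

* `S58U2_Node W A x₀ γ` : the node datum;
* `S58U2_lvl W A x₀ γ P = clip (v γ) (v (x(P) − x₀))`, `= 1` at `0`;
* `S58U2_lvl_add_sub` : the multiset identity
  `{lvl (P₁+P₂), lvl (P₁−P₂)} ~ {lvl P₁ · lvl P₂, lvl P₁ / lvl P₂}` (from `S13_lv_core`);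
* `S58U2_lvl_nsmul` : `lvl (j • P) ~ lvl P ^ j`;
* `S58U2_lvl_le_one`, `S58U2_le_lvl`, `S58U2_lvl_eq_one_iff`.

This is `S13/TwoLvl.lean` (node at `(0,0)`, `a₁ = 1`, `a₃ = a₆ = 0`) without the normalisation of
the model: only `x`-coordinates and the invariants `b₂`, `b₄`, `b₆`, `b₈` enter.
-/

set_option autoImplicit false
set_option linter.unusedSectionVars false
set_option linter.unusedVariables false

namespace Fermat.Agent.S58

open WeierstrassCurve Fermat.Agent.S51 Fermat.Agent.S05 Fermat.Agent.S13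

variable {K : Type*} [Field K] [DecidableEq K] {W : WeierstrassCurve.Affine K}
  (A : ValuationSubring K)

/-- the node datum in general position (any residue characteristic). -/
structure S58U2_Node (W : WeierstrassCurve.Affine K) (A : ValuationSubring K) (x₀ γ : K) :
    Prop where
  int : S05_Integral W A
  two_ne : (2 : K) ≠ 0
  x₀_mem : x₀ ∈ A
  root : W.Ψ₂Sq.eval x₀ = 0
  hγ : W.b₄ + W.b₂ * x₀ + 6 * x₀ ^ 2 = 2 * γ
  γ_ne : γ ≠ 0
  γ_lt : A.valuation γ < 1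
  b₂_unit : A.valuation (W.b₂ + 12 * x₀) = 1

/-- the level of a point at the node of abscissa `x₀`, clipped to `[v γ, 1]`. -/
noncomputable def S58U2_lvl (W : WeierstrassCurve.Affine K) (A : ValuationSubring K)
    (x₀ γ : K) : W.Point → A.ValueGroup
  | .zero => 1
  | .some x _ _ => S05_clip (A.valuation γ) (A.valuation (x - x₀))

omit [DecidableEq K] in
lemma S58U2_lvl_zero (x₀ γ : K) : S58U2_lvl W A x₀ γ (0 : W.Point) = 1 := rfl

omit [DecidableEq K] in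
lemma S58U2_lvl_some (x₀ γ : K) {x y : K} (h : W.Nonsingular x y) :
    S58U2_lvl W A x₀ γ (Affine.Point.some x y h) =
      S05_clip (A.valuation γ) (A.valuation (x - x₀)) := rfl

omit [DecidableEq K] in
lemma S58U2_lvl_of_isX (x₀ γ : K) {P : W.Point} {x : K} (h : S51_c_IsX P x) :
    S58U2_lvl W A x₀ γ P = S05_clip (A.valuation γ) (A.valuation (x - x₀)) := by
  obtain ⟨y, hy, rfl⟩ := h
  rfl

lemma S58U2_lvl_neg (x₀ γ : K) (P : W.Point) :
    S58U2_lvl W A x₀ γ (-P) = S58U2_lvl W A x₀ γ P := by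
  by_cases hP : P = 0
  · subst hP; rw [neg_zero]
  · obtain ⟨x, hx⟩ := S51_c_exists_isX_of_ne_zero hP
    rw [S58U2_lvl_of_isX A x₀ γ hx, S58U2_lvl_of_isX A x₀ γ hx.neg]

omit [DecidableEq K] in
lemma S58U2_lvl_le_one {x₀ γ : K} (hγ1 : A.valuation γ < 1) (P : W.Point) :
    S58U2_lvl W A x₀ γ P ≤ 1 := by
  rcases P with _ | ⟨x, y, h⟩
  · exact le_rfl
  · show S05_clip _ _ ≤ 1
    unfold S05_clip
    exact max_le hγ1.le (min_le_left _ _)

omit [DecidableEq K] in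
lemma S58U2_le_lvl {x₀ γ : K} (hγ1 : A.valuation γ < 1) (P : W.Point) :
    A.valuation γ ≤ S58U2_lvl W A x₀ γ P := by
  rcases P with _ | ⟨x, y, h⟩
  · exact hγ1.le
  · show _ ≤ S05_clip _ _
    unfold S05_clip
    exact le_max_left _ _

omit [DecidableEq K] in
lemma S58U2_lvl_ne_zero {x₀ γ : K} (hγ0 : γ ≠ 0) (hγ1 : A.valuation γ < 1) (P : W.Point) :
    S58U2_lvl W A x₀ γ P ≠ 0 := by
  have h0 : 0 < A.valuation γ := zero_lt_iff.2 ((Valuation.ne_zero_iff _).2 hγ0)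
  exact (lt_of_lt_of_le h0 (S58U2_le_lvl A hγ1 P)).ne'

omit [DecidableEq K] in
/-- level `1` ⇔ the point is `0` or `x − x₀` is not in the maximal ideal. -/
lemma S58U2_lvl_some_eq_one_iff {x₀ γ : K} (hγ1 : A.valuation γ < 1) {x y : K}
    (h : W.Nonsingular x y) :
    S58U2_lvl W A x₀ γ (Affine.Point.some x y h) = 1 ↔ 1 ≤ A.valuation (x - x₀) := by
  rw [S58U2_lvl_some]
  constructor
  · intro h1
    by_contra hcon
    rw [not_le] at hcon
    unfold S05_clip at h1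
    rw [min_eq_right hcon.le] at h1
    rcases max_cases (A.valuation γ) (A.valuation (x - x₀)) with ⟨e, -⟩ | ⟨e, -⟩
    · rw [e] at h1; exact hγ1.ne h1
    · rw [e] at h1; exact hcon.ne h1
  · intro h1
    exact S05_clip_of_one_le hγ1.le h1

section identities

variable {x₀ γ : K} (hN : S58U2_Node W A x₀ γ)

include hN

/-- the product identity in `γ`-form. -/
lemma S58U2_mul_identity {P₁ P₂ : W.Point} {x₁ x₂ xs xd : K}
    (hx₁ : S51_c_IsX P₁ x₁) (hx₂ : S51_c_IsX P₂ x₂) (hne : x₁ ≠ x₂)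
    (hs : S51_c_IsX (P₁ + P₂) xs) (hd : S51_c_IsX (P₁ - P₂) xd) :
    (xs - x₀) * (xd - x₀) * ((x₁ - x₀) - (x₂ - x₀)) ^ 2 =
      ((x₁ - x₀) * (x₂ - x₀) - γ) ^ 2 := by
  have h := S05_mul_identity_shift hx₁ hx₂ hne hs hd hN.root
  rw [hN.hγ] at h
  have h4 : (4 : K) ≠ 0 := by
    have : (4 : K) = 2 * 2 := by norm_num
    rw [this]; exact mul_ne_zero hN.two_ne hN.two_ne
  apply mul_left_cancel₀ h4
  linear_combination h

/-- the sum identity in `γ`-form. -/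
lemma S58U2_add_identity {P₁ P₂ : W.Point} {x₁ x₂ xs xd : K}
    (hx₁ : S51_c_IsX P₁ x₁) (hx₂ : S51_c_IsX P₂ x₂) (hne : x₁ ≠ x₂)
    (hs : S51_c_IsX (P₁ + P₂) xs) (hd : S51_c_IsX (P₁ - P₂) xd) :
    ((xs - x₀) + (xd - x₀)) * ((x₁ - x₀) - (x₂ - x₀)) ^ 2 =
      2 * ((x₁ - x₀) + (x₂ - x₀)) * ((x₁ - x₀) * (x₂ - x₀) + γ) +
        (W.b₂ + 12 * x₀) * ((x₁ - x₀) * (x₂ - x₀)) := by
  have h := S05_add_identity_shift hx₁ hx₂ hne hs hd hN.root
  rw [hN.hγ] at h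
  linear_combination h

/-- `Ψ₂Sq` in `γ`-form. -/
lemma S58U2_eval_Ψ₂Sq (x : K) :
    W.Ψ₂Sq.eval x = (x - x₀) *
      (4 * (x - x₀) ^ 2 + (W.b₂ + 12 * x₀) * (x - x₀) + 4 * γ) := by
  rw [S05_eval_Ψ₂Sq_shift W hN.root x, hN.hγ]
  ring

/-- the duplication identity in `γ`-form. -/
lemma S58U2_dup_identity {P : W.Point} {x x₂ : K} (hP : S51_c_IsX P x)
    (h2 : S51_c_IsX (P + P) x₂) :
    (x₂ - x₀) * ((x - x₀) *
      (4 * (x - x₀) ^ 2 + (W.b₂ + 12 * x₀) * (x - x₀) + 4 * γ)) =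
      ((x - x₀) ^ 2 - γ) ^ 2 := by
  have h := S05_dup_identity_shift hP h2 hN.root
  rw [hN.hγ, S58U2_eval_Ψ₂Sq A hN x] at h
  have h4 : (4 : K) ≠ 0 := by
    have : (4 : K) = 2 * 2 := by norm_num
    rw [this]; exact mul_ne_zero hN.two_ne hN.two_ne
  apply mul_left_cancel₀ h4
  linear_combination h

/-- **Doubling**: `lvl (2P) ~ lvl P * lvl P`. -/
theorem S58U2_lvl_double (P : W.Point) :
    S05_Rel (A.valuation γ) (S58U2_lvl W A x₀ γ P * S58U2_lvl W A x₀ γ P)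
      (S58U2_lvl W A x₀ γ (P + P)) := by
  by_cases hP0 : P = 0
  · subst hP0
    rw [add_zero, S58U2_lvl_zero, one_mul]
    exact S05_la_rel_refl _ _
  obtain ⟨x, hx⟩ := S51_c_exists_isX_of_ne_zero hP0
  rw [S58U2_lvl_of_isX A x₀ γ hx]
  by_cases h2P : P + P = 0
  · rw [h2P, S58U2_lvl_zero]
    have h0 : W.Ψ₂Sq.eval x = 0 := hx.add_self_eq_zero_iff.1 h2P
    rw [S58U2_eval_Ψ₂Sq A hN] at h0
    exact S13_lv_double_zero A.valuation hN.b₂_unit hN.γ_ne hN.γ_lt h0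
  · obtain ⟨x₂, hx₂, hne, -⟩ := hx.exists_add_self h2P
    rw [S58U2_lvl_of_isX A x₀ γ hx₂]
    rw [S58U2_eval_Ψ₂Sq A hN] at hne
    exact S13_lv_double A.valuation hN.b₂_unit hN.γ_ne hN.γ_lt hne
      (S58U2_dup_identity A hN hx hx₂)

/-- **the multiset identity** at a node in general position, any residue characteristic. -/
theorem S58U2_lvl_add_sub (P₁ P₂ : W.Point) :
    (S05_Rel (A.valuation γ) (S58U2_lvl W A x₀ γ P₁ * S58U2_lvl W A x₀ γ P₂)
          (S58U2_lvl W A x₀ γ (P₁ + P₂)) ∧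
        S05_Rel (A.valuation γ) (S58U2_lvl W A x₀ γ P₁ / S58U2_lvl W A x₀ γ P₂)
          (S58U2_lvl W A x₀ γ (P₁ - P₂))) ∨
      (S05_Rel (A.valuation γ) (S58U2_lvl W A x₀ γ P₁ / S58U2_lvl W A x₀ γ P₂)
          (S58U2_lvl W A x₀ γ (P₁ + P₂)) ∧
        S05_Rel (A.valuation γ) (S58U2_lvl W A x₀ γ P₁ * S58U2_lvl W A x₀ γ P₂)
          (S58U2_lvl W A x₀ γ (P₁ - P₂))) := by
  by_cases hP1 : P₁ = 0
  · subst hP1
    left
    rw [zero_add, zero_sub, S58U2_lvl_neg, S58U2_lvl_zero, one_mul, one_div]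
    exact ⟨S05_la_rel_refl _ _, S05_la_rel_of_inv (by rw [inv_inv]; exact S05_la_rel_refl _ _)⟩
  by_cases hP2 : P₂ = 0
  · subst hP2
    left
    rw [add_zero, sub_zero, S58U2_lvl_zero, mul_one, div_one]
    exact ⟨S05_la_rel_refl _ _, S05_la_rel_refl _ _⟩
  obtain ⟨x₁, hx₁⟩ := S51_c_exists_isX_of_ne_zero hP1
  obtain ⟨x₂, hx₂⟩ := S51_c_exists_isX_of_ne_zero hP2
  by_cases hne : x₁ = x₂
  · subst hne
    have hl : S58U2_lvl W A x₀ γ P₁ = S58U2_lvl W A x₀ γ P₂ := by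
      rw [S58U2_lvl_of_isX A x₀ γ hx₁, S58U2_lvl_of_isX A x₀ γ hx₂]
    have hl0 := S58U2_lvl_ne_zero A hN.γ_ne hN.γ_lt (x₀ := x₀) P₂
    have hdbl := S58U2_lvl_double A hN
    rcases hx₁.eq_or_eq_neg hx₂ with h | h
    · subst h
      left
      rw [sub_self, S58U2_lvl_zero, div_self hl0]
      exact ⟨hdbl _, S05_la_rel_refl _ _⟩
    · subst h
      right
      rw [neg_add_cancel, S58U2_lvl_zero, hl, div_self hl0]
      refine ⟨S05_la_rel_refl _ _, ?_⟩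
      have e : -P₂ - P₂ = -(P₂ + P₂) := by abel
      rw [e, S58U2_lvl_neg]
      exact hdbl _
  · obtain ⟨xs, xd, hs, hd⟩ := S05_exists_isX_add_sub hx₁ hx₂ hne
    have hPi := S58U2_mul_identity A hN hx₁ hx₂ hne hs hd
    have hSi := S58U2_add_identity A hN hx₁ hx₂ hne hs hd
    rw [S58U2_lvl_of_isX A x₀ γ hx₁, S58U2_lvl_of_isX A x₀ γ hx₂, S58U2_lvl_of_isX A x₀ γ hs,
      S58U2_lvl_of_isX A x₀ γ hd]
    exact S13_lv_core A.valuation hN.b₂_unit hN.γ_ne hN.γ_lt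
      (fun h => hne (sub_left_inj.1 h)) hPi hSi

/-- `lvl (j • P) ~ lvl P ^ j`. -/
theorem S58U2_lvl_nsmul (P : W.Point) (j : ℕ) :
    S05_Rel (A.valuation γ) (S58U2_lvl W A x₀ γ P ^ j) (S58U2_lvl W A x₀ γ (j • P)) :=
  S05_nl_rel_nsmul ((Valuation.ne_zero_iff _).2 hN.γ_ne) (S58U2_lvl W A x₀ γ)
    (S58U2_lvl_zero A x₀ γ) (S58U2_lvl_ne_zero A hN.γ_ne hN.γ_lt)
    (S58U2_lvl_add_sub A hN) P j

end identities

end Fermat.Agent.S58
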