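import Mathlib
import Fermat.Agent.S58.UMult2Lvl
import Fermat.Agent.S13.TwoUnit
import Fermat.Agent.S05.Final

/-!
# TRACK 12 (S58), package U-mult at `q = 2`, sub-lemma FIX2 (helper8)

`W'⁄K` with a node datum `S58U2_Node` in general position, residue characteristic `2`
(`v 2 < 1`).  A torsion point `Q` of order a unit of `A` and of level `1` (away from the node) is
fixed by every `σ` acting trivially on the residue field (`S58U2F_fix`).

Proof: `Q = (x, y)` is integral, `X := x − x₀` is a unit (level `1`), and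
`D := 2y + a₁x + a₃` has `D² = Ψ₂Sq(x) = X (4X² + b' X + 4γ)` with `v (b' X) = 1` and
`v (4X²), v (4γ) < 1`; so `D` is a unit, `σ Q − Q` lies in the kernel of reduction
(`S05_sub_inE1_of_unit`), which has no torsion of order a unit (`S13_tu_fix_of_inE1`).
-/

set_option autoImplicit false
set_option linter.unusedSectionVars false
set_option linter.unusedVariables false

namespace Fermat.Agent.S58

open WeierstrassCurve WeierstrassCurve.Affine WeierstrassCurve.Affine.Point
open Fermat.Agent.S05 Fermat.Agent.S51 Fermat.Agent.S13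

section general

variable {R : Type*} {S : Type*} {K : Type*} [CommRing R] [CommRing S] [Field K]
  [DecidableEq K] {W' : Affine R} [Algebra R S] [Algebra R K] [Algebra S K]
  [IsScalarTower R S K] (A : ValuationSubring K)

/-- the unit `D = 2y + a₁x + a₃` at a point of level `1` (residue characteristic `2`). -/
theorem S58U2F_unit {W : Affine K} {x₀ γ : K} (hN : S58U2_Node W A x₀ γ)
    (h2 : A.valuation (2 : K) < 1) {x y : K} (h : W.Nonsingular x y) (hxA : x ∈ A)
    (hX1 : 1 ≤ A.valuation (x - x₀)) :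
    2 * y + W.a₁ * x + W.a₃ ∉ A.nonunits := by
  have hXle : A.valuation (x - x₀) ≤ 1 :=
    (A.valuation_le_one_iff _).2 (sub_mem hxA hN.x₀_mem)
  have hX : A.valuation (x - x₀) = 1 := le_antisymm hXle hX1
  have h2n : (2 : K) ∈ A.nonunits := (ValuationSubring.mem_nonunits_iff A).2 h2
  have h2A : (2 : K) ∈ A := (A.valuation_le_one_iff _).1 h2.le
  have hXA : x - x₀ ∈ A := sub_mem hxA hN.x₀_mem
  have hγA : γ ∈ A := (A.valuation_le_one_iff _).1 hN.γ_lt.le
  have hv1 : A.valuation (4 * (x - x₀) ^ 2) < 1 := by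
    rw [← ValuationSubring.mem_nonunits_iff]
    have e : (4 : K) * (x - x₀) ^ 2 = 2 * (2 * (x - x₀) ^ 2) := by ring
    rw [e]
    exact S05_mul_mem_nonunits' A h2n (mul_mem h2A (pow_mem hXA 2))
  have hv3 : A.valuation (4 * γ) < 1 := by
    rw [← ValuationSubring.mem_nonunits_iff]
    have e : (4 : K) * γ = 2 * (2 * γ) := by ring
    rw [e]
    exact S05_mul_mem_nonunits' A h2n (mul_mem h2A hγA)
  have hv2 : A.valuation ((W.b₂ + 12 * x₀) * (x - x₀)) = 1 := by
    rw [map_mul, hN.b₂_unit, hX, one_mul]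
  have e1 : A.valuation (4 * (x - x₀) ^ 2 + (W.b₂ + 12 * x₀) * (x - x₀)) = 1 := by
    rw [Valuation.map_add_eq_of_lt_right (v := A.valuation) (by rw [hv2]; exact hv1), hv2]
  have hsum : A.valuation (4 * (x - x₀) ^ 2 + (W.b₂ + 12 * x₀) * (x - x₀) + 4 * γ) = 1 := by
    rw [Valuation.map_add_eq_of_lt_left (v := A.valuation) (by rw [e1]; exact hv3), e1]
  have hD2 : A.valuation ((2 * y + W.a₁ * x + W.a₃) * (2 * y + W.a₁ * x + W.a₃)) = 1 := by
    have e : (2 * y + W.a₁ * x + W.a₃) * (2 * y + W.a₁ * x + W.a₃) = W.Ψ₂Sq.eval x := by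
      rw [S51_c_eval_Ψ₂Sq_eq h.1]
      simp only [Affine.negY]
      ring
    rw [e, S58U2_eval_Ψ₂Sq A hN x, map_mul, hX, hsum, one_mul]
  intro hmem
  have hlt := (ValuationSubring.mem_nonunits_iff A).1 hmem
  have hDA : 2 * y + W.a₁ * x + W.a₃ ∈ A := (A.valuation_le_one_iff _).1 hlt.le
  have := (ValuationSubring.mem_nonunits_iff A).1 (S05_mul_mem_nonunits' A hmem hDA)
  rw [hD2] at this
  exact lt_irrefl _ this

/-- **FIX2**: at a node in general position, residue characteristic `2`, a torsion point of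
order a unit of `A` and of level `1` is fixed by inertia. -/
theorem S58U2F_fix {x₀ γ : K} (hN : S58U2_Node (W'⁄K) A x₀ γ) (h2 : A.valuation (2 : K) < 1)
    {n : ℕ} (hn : A.valuation (n : K) = 1) (σ : K ≃ₐ[S] K)
    (hσ : ∀ x ∈ A, σ x - x ∈ A.nonunits) (hσA : ∀ x, σ x ∈ A ↔ x ∈ A)
    (Q : (W'⁄K).Point) (hQ : n • Q = 0) (hl : S58U2_lvl (W'⁄K) A x₀ γ Q = 1) : σ • Q = Q := by
  rcases Q with _ | ⟨x, y, h⟩
  · exact S05_smul_zero σ
  · obtain ⟨hxA, hyA⟩ := S13_tu_integral_of_torsion A hN.int h hn hQ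
    have hX1 : 1 ≤ A.valuation (x - x₀) := (S58U2_lvl_some_eq_one_iff A hN.γ_lt h).1 hl
    have hD := S58U2F_unit A hN h2 h hxA hX1
    exact S13_tu_fix_of_inE1 A hN.int hn σ hQ
      (S05_sub_inE1_of_unit A hN.int σ hσ hσA h hxA hyA hD)

end general

end Fermat.Agent.S58
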