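import Mathlib
import Fermat.Agent.S58.UMult2Lvl
import Fermat.Agent.S58.UNode

/-!
# TRACK 12 (S58), package U-mult at `q = 2`, sub-lemma NODE2 (helper16) — prefix `S58UN2_`

A Weierstrass curve with multiplicative reduction at a valuation ring `A` of residue
characteristic `2` has a node datum in general position `S58U2_Node W A x₀ γ`
(`S58/UMult2Lvl.lean`): `x₀ ∈ A` is a root of `Ψ₂Sq = 4X³ + b₂X² + 2b₄X + b₆` (reducing to the
abscissa of the node) and `γ = Ψ₂Sq'(x₀)/4`, `0 < v γ < 1`, `v (b₂ + 12 x₀) = 1`.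

* `z := 4x` satisfies the monic equation `z³ + b₂ z² + 8 b₄ z + 16 b₆ = 0`; its reduction is
  `z² (z + b₂)` with `b₂` a unit, so there is a root `z` with `v z < 1`
  (`S58UN2_exists_small_root`);
* for such a root `x₀ := z / 4` is integral: otherwise `z = −(b₂ + 2 b₄ w + b₆ w²)`,
  `w = x₀⁻¹`, would be a unit (`S58UN2_quarter_mem`);
* `Δ = γ² ((b₂ + 12 x₀)² − 64 γ)` (`S58UN2_disc`), so `v γ ^ 2 = v Δ < 1` and `γ ≠ 0`;
* `S58UN2_node_gen` : **NODE2**, general form (`K` algebraically closed);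
* `S58UN2_node` : **NODE2** for `W : WeierstrassCurve ℤ`, `2 ∣ Δ`, `2 ∤ c₄`, `Δ ≠ 0`.
-/

set_option autoImplicit false
set_option linter.unusedSectionVars false
set_option linter.unusedVariables false

namespace Fermat.Agent.S58

open WeierstrassCurve Fermat.Agent.S05 Polynomial

section gen

variable {K : Type*} [Field K] [DecidableEq K] {W : WeierstrassCurve.Affine K}
  {A : ValuationSubring K}

local notation "v" => ValuationSubring.valuation A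

/-- a monic quadratic has a root in an algebraically closed field. -/
theorem S58UN2_quad_root [IsAlgClosed K] (b c : K) : ∃ y : K, y ^ 2 + b * y + c = 0 := by
  have hdeg : (C (1 : K) * X ^ 2 + C b * X + C c).degree = 2 := degree_quadratic one_ne_zero
  obtain ⟨y, hy⟩ := IsAlgClosed.exists_root (C (1 : K) * X ^ 2 + C b * X + C c)
    (by rw [hdeg]; norm_num)
  refine ⟨y, ?_⟩
  have := hy
  simp only [IsRoot.def, eval_add, eval_mul, eval_C, eval_pow, eval_X, one_mul] at this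
  exact this

/-- a monic cubic has a root in an algebraically closed field. -/
theorem S58UN2_cubic_root [IsAlgClosed K] (a b c : K) :
    ∃ z : K, z ^ 3 + a * z ^ 2 + b * z + c = 0 := by
  have hdeg : (C (1 : K) * X ^ 3 + C a * X ^ 2 + C b * X + C c).degree = 3 :=
    degree_cubic one_ne_zero
  obtain ⟨z, hz⟩ := IsAlgClosed.exists_root (C (1 : K) * X ^ 3 + C a * X ^ 2 + C b * X + C c)
    (by rw [hdeg]; norm_num)
  refine ⟨z, ?_⟩
  have := hz
  simp only [IsRoot.def, eval_add, eval_mul, eval_C, eval_pow, eval_X, one_mul] at this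
  exact this

/-- the roots of a monic cubic with integral coefficients are integral. -/
theorem S58UN2_root_mem {a b c z : K} (ha : a ∈ A) (hb : b ∈ A) (hc : c ∈ A)
    (hz : z ^ 3 + a * z ^ 2 + b * z + c = 0) : z ∈ A := by
  by_contra hzA
  obtain ⟨hz0, ht⟩ := S05_inv_lt_of_not_mem (A := A) hzA
  have htA : z⁻¹ ∈ A := (A.valuation_le_one_iff _).1 ht.le
  have e : (1 : K) = -(z⁻¹ * (a + b * z⁻¹ + c * z⁻¹ ^ 2)) := by
    have h3 : z ^ 3 ≠ 0 := pow_ne_zero 3 hz0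
    field_simp
    linear_combination hz
  have hmem : a + b * z⁻¹ + c * z⁻¹ ^ 2 ∈ A :=
    add_mem (add_mem ha (mul_mem hb htA)) (mul_mem hc (pow_mem htA 2))
  have hlt : v (1 : K) < 1 := by
    rw [e, Valuation.map_neg, map_mul]
    exact S05_v_mul_lt_of_lt_of_le A ht ((A.valuation_le_one_iff _).2 hmem)
  rw [map_one] at hlt
  exact lt_irrefl _ hlt

/-- a root `z` of `z³ + b₂ z² + 8 b₄ z + 16 b₆` with `v z < 1`. -/
theorem S58UN2_exists_small_root [IsAlgClosed K] (h2 : v (2 : K) < 1) {b₂ b₄ b₆ : K}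
    (hb₂ : b₂ ∈ A) (hb₄ : b₄ ∈ A) (hb₆ : b₆ ∈ A) :
    ∃ z : K, z ^ 3 + b₂ * z ^ 2 + 8 * b₄ * z + 16 * b₆ = 0 ∧ v z < 1 := by
  have h2A : (2 : K) ∈ A := S05_two_mem A
  have h8A : (8 : K) ∈ A := by
    have : (8 : K) = 2 * 2 * 2 := by norm_num
    rw [this]; exact mul_mem (mul_mem h2A h2A) h2A
  have h16A : (16 : K) ∈ A := by
    have : (16 : K) = 2 * 8 := by norm_num
    rw [this]; exact mul_mem h2A h8A
  have hcA : 8 * b₄ ∈ A := mul_mem h8A hb₄
  have hdA : 16 * b₆ ∈ A := mul_mem h16A hb₆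
  obtain ⟨z₃, hz₃⟩ := S58UN2_cubic_root b₂ (8 * b₄) (16 * b₆)
  have hz₃A : z₃ ∈ A := S58UN2_root_mem hb₂ hcA hdA hz₃
  by_cases hlt : v z₃ < 1
  · exact ⟨z₃, hz₃, hlt⟩
  have hz₃1 : v z₃ = 1 := le_antisymm ((A.valuation_le_one_iff _).2 hz₃A) (not_lt.1 hlt)
  -- the quadratic cofactor
  set c₁ : K := b₂ + z₃ with hc₁
  set e : K := 8 * b₄ + z₃ * c₁ with he
  obtain ⟨z₁, hz₁⟩ := S58UN2_quad_root c₁ e
  have hg₁ : z₁ ^ 3 + b₂ * z₁ ^ 2 + 8 * b₄ * z₁ + 16 * b₆ = 0 := by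
    rw [he, hc₁] at hz₁
    linear_combination (z₁ - z₃) * hz₁ + hz₃
  have hq₂ : (-c₁ - z₁) ^ 2 + c₁ * (-c₁ - z₁) + e = 0 := by
    linear_combination hz₁
  have hg₂ : (-c₁ - z₁) ^ 3 + b₂ * (-c₁ - z₁) ^ 2 + 8 * b₄ * (-c₁ - z₁) + 16 * b₆ = 0 := by
    rw [he, hc₁] at hq₂
    rw [hc₁]
    linear_combination ((-(b₂ + z₃) - z₁) - z₃) * hq₂ + hz₃
  have hz₁A : z₁ ∈ A := S58UN2_root_mem hb₂ hcA hdA hg₁
  have hz₂A : -c₁ - z₁ ∈ A := S58UN2_root_mem hb₂ hcA hdA hg₂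
  have hprod : z₁ * (-c₁ - z₁) = e := by
    linear_combination -hz₁
  have hze : z₃ * e = -(2 * (8 * b₆)) := by
    rw [he, hc₁]
    linear_combination hz₃
  have hve : v e < 1 := by
    have h1 : v (z₃ * e) < 1 := by
      rw [hze, Valuation.map_neg]
      exact S05_v_mul_lt_of_lt_of_le A h2 ((A.valuation_le_one_iff _).2 (mul_mem h8A hb₆))
    rwa [map_mul, hz₃1, one_mul] at h1
  by_cases h1 : v z₁ < 1
  · exact ⟨z₁, hg₁, h1⟩
  · refine ⟨-c₁ - z₁, hg₂, ?_⟩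
    have hz₁1 : v z₁ = 1 := le_antisymm ((A.valuation_le_one_iff _).2 hz₁A) (not_lt.1 h1)
    rw [← hprod, map_mul, hz₁1, one_mul] at hve
    exact hve

/-- for a root `z` with `v z < 1` the abscissa `x₀ = z / 4` is integral (`b₂` a unit). -/
theorem S58UN2_quarter_mem (h20 : (2 : K) ≠ 0) {b₂ b₄ b₆ z : K}
    (hb₂ : v b₂ = 1) (hb₄ : b₄ ∈ A) (hb₆ : b₆ ∈ A)
    (hz : z ^ 3 + b₂ * z ^ 2 + 8 * b₄ * z + 16 * b₆ = 0) (hzlt : v z < 1) : z / 4 ∈ A := by
  have h40 : (4 : K) ≠ 0 := by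
    have : (4 : K) = 2 * 2 := by norm_num
    rw [this]; exact mul_ne_zero h20 h20
  by_contra hxA
  obtain ⟨hx0, ht⟩ := S05_inv_lt_of_not_mem (A := A) hxA
  obtain ⟨w, hw⟩ : ∃ w : K, w = (z / 4)⁻¹ := ⟨_, rfl⟩
  rw [← hw] at ht
  have hz0 : z ≠ 0 := fun h0 => hx0 (by rw [h0, zero_div])
  have hwz : w * z = 4 := by
    rw [hw]
    field_simp
  have htA : w ∈ A := (A.valuation_le_one_iff _).1 ht.le
  -- `z = −(b₂ + 2 b₄ w + b₆ w²)`
  have e : z = -(b₂ + w * (2 * b₄ + b₆ * w)) := by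
    have h3 : z ^ 2 ≠ 0 := pow_ne_zero 2 hz0
    apply mul_left_cancel₀ h3
    linear_combination hz + (2 * b₄ * z + b₆ * (w * z + 4)) * hwz
  have hsmall : v (w * (2 * b₄ + b₆ * w)) < 1 :=
    S05_v_mul_lt_of_lt_of_le A ht ((A.valuation_le_one_iff _).2
      (add_mem (mul_mem (S05_two_mem A) hb₄) (mul_mem hb₆ htA)))
  have hunit : v z = 1 := by
    rw [e, Valuation.map_neg, Valuation.map_add_eq_of_lt_left _ (by rw [hb₂]; exact hsmall), hb₂]
  rw [hunit] at hzlt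
  exact lt_irrefl _ hzlt

/-- **the discriminant at a root of `Ψ₂Sq`**: `Δ = γ² ((b₂ + 12 x₀)² − 64 γ)`. -/
theorem S58UN2_disc (W : WeierstrassCurve.Affine K) (h20 : (2 : K) ≠ 0) {x₀ γ : K}
    (hroot : 4 * x₀ ^ 3 + W.b₂ * x₀ ^ 2 + 2 * W.b₄ * x₀ + W.b₆ = 0)
    (hγ : W.b₄ + W.b₂ * x₀ + 6 * x₀ ^ 2 = 2 * γ) :
    W.Δ = γ ^ 2 * ((W.b₂ + 12 * x₀) ^ 2 - 64 * γ) := by
  have h40 : (4 : K) ≠ 0 := by
    have : (4 : K) = 2 * 2 := by norm_num
    rw [this]; exact mul_ne_zero h20 h20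
  have h8 := W.b_relation
  have hb₆ : W.b₆ = -(4 * x₀ ^ 3 + W.b₂ * x₀ ^ 2 + 2 * W.b₄ * x₀) := by
    linear_combination hroot
  have hb₄ : W.b₄ = 2 * γ - W.b₂ * x₀ - 6 * x₀ ^ 2 := by
    linear_combination hγ
  apply mul_left_cancel₀ h40
  rw [WeierstrassCurve.Δ]
  generalize W.b₈ = B₈ at h8 ⊢
  generalize W.b₆ = B₆ at h8 hb₆ ⊢
  generalize W.b₄ = B₄ at h8 hb₆ hb₄ ⊢
  generalize W.b₂ = B₂ at h8 hb₆ hb₄ ⊢
  subst hb₆
  subst hb₄
  linear_combination (-B₂ ^ 2) * h8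

/-- **NODE2**, general form. -/
theorem S58UN2_node_gen [IsAlgClosed K] (W : WeierstrassCurve.Affine K) (A : ValuationSubring K)
    (hW : S05_Integral W A) (h2 : A.valuation (2 : K) < 1) (h20 : (2 : K) ≠ 0)
    (hb₂ : A.valuation W.b₂ = 1) (hΔ0 : W.Δ ≠ 0) (hΔ : A.valuation W.Δ < 1) :
    ∃ x₀ γ : K, S58U2_Node W A x₀ γ := by
  have h2A : (2 : K) ∈ A := S05_two_mem A
  have h40 : (4 : K) ≠ 0 := by
    have : (4 : K) = 2 * 2 := by norm_num
    rw [this]; exact mul_ne_zero h20 h20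
  obtain ⟨z, hz, hzlt⟩ := S58UN2_exists_small_root (A := A) h2 hW.b₂ hW.b₄ hW.b₆
  have hx₀A : z / 4 ∈ A := S58UN2_quarter_mem (A := A) h20 hb₂ hW.b₄ hW.b₆ hz hzlt
  set x₀ : K := z / 4 with hx₀
  have hzx : z = 4 * x₀ := by rw [hx₀]; field_simp
  have hroot : 4 * x₀ ^ 3 + W.b₂ * x₀ ^ 2 + 2 * W.b₄ * x₀ + W.b₆ = 0 := by
    have h16 : (16 : K) ≠ 0 := by
      have : (16 : K) = 4 * 4 := by norm_num
      rw [this]; exact mul_ne_zero h40 h40
    apply mul_left_cancel₀ h16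
    rw [hzx] at hz
    linear_combination hz
  set β : K := W.b₄ + W.b₂ * x₀ + 6 * x₀ ^ 2 with hβ
  have hβA : β ∈ A := by
    have h6 : (6 : K) ∈ A := by
      have : (6 : K) = 2 * (2 + 1) := by norm_num
      rw [this]; exact mul_mem h2A (add_mem h2A (one_mem _))
    exact add_mem (add_mem hW.b₄ (mul_mem hW.b₂ hx₀A)) (mul_mem h6 (pow_mem hx₀A 2))
  set γ : K := β / 2 with hγdef
  have hγ : W.b₄ + W.b₂ * x₀ + 6 * x₀ ^ 2 = 2 * γ := by
    rw [hγdef, ← hβ]; field_simp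
  have hdisc := S58UN2_disc W h20 hroot hγ
  -- `b' = b₂ + 12 x₀` is a unit
  have h12 : A.valuation (12 * x₀) < 1 := by
    have : (12 : K) * x₀ = 2 * (6 * x₀) := by ring
    rw [this]
    refine S05_v_mul_lt_of_lt_of_le A h2 ((A.valuation_le_one_iff _).2 ?_)
    have h6 : (6 : K) ∈ A := by
      have : (6 : K) = 2 * (2 + 1) := by norm_num
      rw [this]; exact mul_mem h2A (add_mem h2A (one_mem _))
    exact mul_mem h6 hx₀A
  have hb' : A.valuation (W.b₂ + 12 * x₀) = 1 := by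
    rw [Valuation.map_add_eq_of_lt_left _ (by rw [hb₂]; exact h12), hb₂]
  -- `64 γ = 32 β` is small
  have h64 : A.valuation (64 * γ) < 1 := by
    have : (64 : K) * γ = 2 * (16 * β) := by
      have h2γ : 2 * γ = β := by rw [hγdef]; field_simp
      linear_combination 32 * h2γ
    rw [this]
    refine S05_v_mul_lt_of_lt_of_le A h2 ((A.valuation_le_one_iff _).2 ?_)
    have h16A : (16 : K) ∈ A := by
      have : (16 : K) = 2 * 2 * (2 * 2) := by norm_num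
      rw [this]; exact mul_mem (mul_mem h2A h2A) (mul_mem h2A h2A)
    exact mul_mem h16A hβA
  have hu : A.valuation ((W.b₂ + 12 * x₀) ^ 2 - 64 * γ) = 1 := by
    have hsq : A.valuation ((W.b₂ + 12 * x₀) ^ 2) = 1 := by rw [map_pow, hb', one_pow]
    rw [Valuation.map_sub_eq_of_lt_left _ (by rw [hsq]; exact h64), hsq]
  have hγ0 : γ ≠ 0 := by
    rintro h0
    apply hΔ0
    rw [hdisc, h0]
    ring
  have hγlt : A.valuation γ < 1 := by
    by_contra hge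
    rw [not_lt] at hge
    have h1 : (1 : A.ValueGroup) ≤ A.valuation W.Δ := by
      rw [hdisc, map_mul, hu, mul_one, map_pow]
      exact one_le_pow_of_one_le' hge 2
    exact absurd hΔ (not_lt.2 h1)
  exact ⟨x₀, γ, hW, h20, hx₀A, by rw [S05_eval_Ψ₂Sq]; exact hroot, hγ, hγ0, hγlt, hb'⟩

end gen

section Z

local notation "ℚbar" => AlgebraicClosure ℚ

theorem S58UN2_b₂_eq (W : WeierstrassCurve ℤ) :
    (W.baseChange ℚbar).toAffine.b₂ = ((W.b₂ : ℤ) : ℚbar) := by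
  simp only [WeierstrassCurve.baseChange, WeierstrassCurve.toAffine, WeierstrassCurve.map_b₂,
    eq_intCast]

/-- **NODE2** for `(W.baseChange ℚ̄).toAffine`, `W` over `ℤ` with multiplicative reduction
at `2`. -/
theorem S58UN2_node (W : WeierstrassCurve ℤ) (hΔ0 : W.Δ ≠ 0) (h2Δ : (2 : ℤ) ∣ W.Δ)
    (h2c : ¬ (2 : ℤ) ∣ W.c₄) (A : ValuationSubring ℚbar) (hA : (2 : ℚbar) ∈ A.nonunits) :
    ∃ x₀ γ : ℚbar, S58U2_Node (W.baseChange ℚbar).toAffine A x₀ γ := by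
  classical
  have hA' : ((2 : ℕ) : ℚbar) ∈ A.nonunits := by exact_mod_cast hA
  have h2 : A.valuation (2 : ℚbar) < 1 := A.mem_nonunits_iff.1 hA
  have h20 : (2 : ℚbar) ≠ 0 := two_ne_zero
  refine S58UN2_node_gen _ A (S58UN_integral' W A) h2 h20 ?_ ?_ ?_
  · rw [S58UN2_b₂_eq]
    refine S05_valuation_eq_one A (S05_intCast_mem A _) fun h => h2c ?_
    have hb : ((2 : ℕ) : ℤ) ∣ W.b₂ := (S05_intCast_mem_nonunits_iff Nat.prime_two hA' _).1 h
    have hb' : (2 : ℤ) ∣ W.b₂ := by exact_mod_cast hb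
    rw [WeierstrassCurve.c₄]
    exact dvd_sub (dvd_pow hb' two_ne_zero) (Dvd.dvd.mul_right (by norm_num) _)
  · rw [S58UN_Δ_eq']
    exact_mod_cast hΔ0
  · rw [S58UN_Δ_eq', ← ValuationSubring.mem_nonunits_iff]
    refine (S05_intCast_mem_nonunits_iff Nat.prime_two hA' _).2 ?_
    exact_mod_cast h2Δ

end Z

end Fermat.Agent.S58
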