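import Mathlib
import Fermat.Agent.S58.UNode1
import Fermat.Agent.S58.UNodeEx

/-!
# S58, U-mult second route, glue N1 ∘ N2 (helper23)

Prefix `S58NE_`.

* `S58NE_exists` : `k` algebraically closed, `W.Δ = 0`, `W.c₄ ≠ 0` ⇒ `∃ x₀ y₀ α β, S58N_Node W x₀ y₀ α β`
  (helper14's node datum, `S58/UNode1.lean`).
* `S58NE_exists_order` : moreover for `m ≠ 0` in `k` there is a point of exact order `m` in
  `W.toAffine.Point` (the nonsingular points of the nodal cubic).
* `S58NE_exists_order_some` : for `1 < m` the point is an affine point `some x y h`.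
-/

set_option autoImplicit false

namespace Fermat.Agent.S58

open WeierstrassCurve

variable {k : Type*} [Field k]

/-- **N1** in the shape of helper14's node datum. -/
theorem S58NE_exists [IsAlgClosed k] (W : WeierstrassCurve k) (hΔ : W.Δ = 0) (hc₄ : W.c₄ ≠ 0) :
    ∃ x₀ y₀ α β : k, S58N_Node W.toAffine x₀ y₀ α β := by
  obtain ⟨x₀, y₀, α, β, hE, hDy, hDx, hsum, hprod, hne⟩ := S58NE_exists_raw W hΔ hc₄
  exact ⟨x₀, y₀, α, β, ⟨hE, hDy, hDx, hsum, hprod, hne⟩⟩

/-- **N1 ∘ N2**: a nodal Weierstrass cubic (`Δ = 0`, `c₄ ≠ 0`) over an algebraically closed field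
has a (nonsingular) point of exact order `m`, for every `m` invertible in the field. -/
theorem S58NE_exists_order [IsAlgClosed k] [DecidableEq k] (W : WeierstrassCurve k)
    (hΔ : W.Δ = 0) (hc₄ : W.c₄ ≠ 0) {m : ℕ} (hm : (m : k) ≠ 0) :
    ∃ Q : W.toAffine.Point, addOrderOf Q = m := by
  obtain ⟨x₀, y₀, α, β, hN⟩ := S58NE_exists W hΔ hc₄
  exact S58N_exists_order hN hm

/-- the same with the point written as an affine point, for `1 < m`. -/
theorem S58NE_exists_order_some [IsAlgClosed k] [DecidableEq k] (W : WeierstrassCurve k)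
    (hΔ : W.Δ = 0) (hc₄ : W.c₄ ≠ 0) {m : ℕ} (hm : (m : k) ≠ 0) (hm1 : 1 < m) :
    ∃ (x y : k) (h : W.toAffine.Nonsingular x y),
      addOrderOf (Affine.Point.some x y h : W.toAffine.Point) = m := by
  obtain ⟨Q, hQ⟩ := S58NE_exists_order W hΔ hc₄ hm
  rcases Q with _ | ⟨x, y, h⟩
  · exfalso
    have h0 : addOrderOf (0 : W.toAffine.Point) = m := hQ
    rw [addOrderOf_zero] at h0
    omega
  · exact ⟨x, y, h, hQ⟩

end Fermat.Agent.S58
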